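import Fermat.Agent.NEB.EIG.H39_EigA2

/-!
# NEB / EIG (helper39): **EIG-A**, the Hecke algebra of level `N c²` acts on `J_H[p^∞]`

`A` a `p`-divisible, `p`-power torsion abelian group with a system of characters
`ms : MonoSys p (N c) c A` (EIG-MONO), operators `TA ℓ` and `diaA d` on `A` which are compatible
with the Betti operators `TDg`, `Dg` on characters, commute, and `diaA d ^ (2 j + 1) = 1`.

`stmt_EIG_A` : there is a ring homomorphism `eta : heckeAlgebra (N c²) 2 S → End_ℤ A` with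
`eta (T_ℓ) = TA ℓ * diaA ⟨ℓ⟩ ^ j` for the primes `ℓ ∉ S`, `ℓ ∤ N c²`.

Proof: `T_p A ↪ Hom(Γ, ℤ_p) ↪ Hom(Γ, L)`, `L = \overline{ℚ_p}`; on the span `V`, EIG-OP
(`stmt_OP`); descent to `T_p A` (`op_lattice`); `End A ↪ End (T_p A)` (helper2's `H2.mapEnd`).
-/

set_option autoImplicit false

namespace Fermat.Agent.NEB.EIG.H39

open CongruenceSubgroup Matrix.SpecialLinearGroup ModularForm Finset
open scoped MatrixGroups
open Fermat.Agent.Betti ModularCurve.Period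
open Fermat.Agent.S59.Lim

section Factor

/-- A ring homomorphism with values in the range of an injective ring homomorphism factors. -/
theorem exists_ringHom_of_injective {R B C : Type*} [Semiring R] [Semiring B] [Semiring C]
    (f : R →+* C) (g : B →+* C) (hg : Function.Injective g) (h : ∀ x, ∃ b, g b = f x) :
    ∃ f' : R →+* B, ∀ x, g (f' x) = f x := by
  choose c hc using h
  have huniq : ∀ x b, g b = f x → c x = b := fun x b hb => hg ((hc x).trans hb.symm)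
  exact ⟨{ toFun := c
           map_one' := huniq 1 1 (by rw [map_one, map_one])
           map_mul' := fun x y => huniq _ _ (by rw [map_mul, hc, hc, map_mul])
           map_zero' := huniq 0 0 (by rw [map_zero, map_zero])
           map_add' := fun x y => huniq _ _ (by rw [map_add, hc, hc, map_add]) }, hc⟩

end Factor

section Ops

variable {p : ℕ} [Fact p.Prime] {M c : ℕ} {A : Type} [AddCommGroup A]
  {L : Type} [Field L] (ι : ℤ_[p] →+* L) (ms : MonoSys p M c A) (hc : c ∣ M)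

theorem liftable_TA (TA : ℕ → Module.End ℤ A)
    (hTA : ∀ (ℓ : ℕ) (hℓ : ℓ.Prime) (hℓM : ¬ ℓ ∣ M) (k : ℕ) (x : A), p ^ k • x = 0 →
      ms.m k (TA ℓ x) = TDg M c hc hℓ hℓM (ms.m k x))
    {ℓ : ℕ} (hℓ : ℓ.Prime) (hℓM : ¬ ℓ ∣ M) (ξ : Ta p A) :
    TD M c hc hℓ hℓM (mL ι ms ξ) = mL ι ms (H2.mapEnd (p : ℤ) A (TA ℓ) ξ) := by
  rw [TD_eq_TDg]
  exact (mL_op ι ms (TA ℓ) (fun φ => TDg M c hc hℓ hℓM φ)
    (fun u φ => TDg_comp hc hℓ hℓM u φ) (hTA ℓ hℓ hℓM) ξ).symm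

theorem liftable_DA (diaA : (ZMod c)ˣ →* Module.End ℤ A)
    (hdiaA : ∀ (g : SL(2, ℤ)) (hg : (M : ℤ) ∣ g 1 0) (d : (ZMod c)ˣ),
      (d : ZMod c) = ((g 0 0 : ℤ) : ZMod c) → ∀ (k : ℕ) (x : A), p ^ k • x = 0 →
      ms.m k (diaA d x) = Dg hc g hg (ms.m k x))
    (g : SL(2, ℤ)) (hg : (M : ℤ) ∣ g 1 0) (d : (ZMod c)ˣ)
    (hd : (d : ZMod c) = ((g 0 0 : ℤ) : ZMod c)) (ξ : Ta p A) :
    Dop hc g hg (mL ι ms ξ) = mL ι ms (H2.mapEnd (p : ℤ) A (diaA d) ξ) := by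
  rw [Dop_eq_Dg]
  exact (mL_op ι ms (diaA d) (fun φ => Dg hc g hg φ)
    (fun u φ => Dg_comp hc g hg u φ) (hdiaA g hg d hd) ξ).symm

theorem liftable_TAop (TA : ℕ → Module.End ℤ A)
    (hTA : ∀ (ℓ : ℕ) (hℓ : ℓ.Prime) (hℓM : ¬ ℓ ∣ M) (k : ℕ) (x : A), p ^ k • x = 0 →
      ms.m k (TA ℓ x) = TDg M c hc hℓ hℓM (ms.m k x))
    {ℓ : ℕ} (hℓ : ℓ.Prime) (hℓM : ¬ ℓ ∣ M) :
    Liftable ι ms (H2.mapEnd (p : ℤ) A (TA ℓ)) :=
  ⟨TD M c hc hℓ hℓM, liftable_TA ι ms hc TA hTA hℓ hℓM⟩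

open Classical in
/-- The Hecke operators on the span. -/
noncomputable def TVop (TA : ℕ → Module.End ℤ A)
    (hTA : ∀ (ℓ : ℕ) (hℓ : ℓ.Prime) (hℓM : ¬ ℓ ∣ M) (k : ℕ) (x : A), p ^ k • x = 0 →
      ms.m k (TA ℓ x) = TDg M c hc hℓ hℓM (ms.m k x))
    (ℓ : ℕ) : Module.End L ↥(Vsp ι ms) :=
  if h : ℓ.Prime ∧ ¬ ℓ ∣ M then
    liftV ι ms (H2.mapEnd (p : ℤ) A (TA ℓ)) (liftable_TAop ι ms hc TA hTA h.1 h.2)
  else 0

theorem TVop_gen (TA : ℕ → Module.End ℤ A)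
    (hTA : ∀ (ℓ : ℕ) (hℓ : ℓ.Prime) (hℓM : ¬ ℓ ∣ M) (k : ℕ) (x : A), p ^ k • x = 0 →
      ms.m k (TA ℓ x) = TDg M c hc hℓ hℓM (ms.m k x))
    {ℓ : ℕ} (hℓ : ℓ.Prime) (hℓM : ¬ ℓ ∣ M) (ξ : Ta p A) :
    TVop ι ms hc TA hTA ℓ (gen ι ms ξ) = gen ι ms (H2.mapEnd (p : ℤ) A (TA ℓ) ξ) := by
  rw [TVop, dif_pos ⟨hℓ, hℓM⟩]
  exact liftV_gen ι ms _ _ ξ

theorem coe_TVop (TA : ℕ → Module.End ℤ A)
    (hTA : ∀ (ℓ : ℕ) (hℓ : ℓ.Prime) (hℓM : ¬ ℓ ∣ M) (k : ℕ) (x : A), p ^ k • x = 0 →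
      ms.m k (TA ℓ x) = TDg M c hc hℓ hℓM (ms.m k x))
    {ℓ : ℕ} (hℓ : ℓ.Prime) (hℓM : ¬ ℓ ∣ M) (v : ↥(Vsp ι ms)) :
    ((TVop ι ms hc TA hTA ℓ v : ↥(Vsp ι ms)) : Additive (Gam1 M c) →+ L)
      = TD M c hc hℓ hℓM (v : Additive (Gam1 M c) →+ L) := by
  rw [TVop, dif_pos ⟨hℓ, hℓM⟩]
  exact coe_liftV ι ms _ _ _ (liftable_TA ι ms hc TA hTA hℓ hℓM) v

theorem liftable_diaA (hM : M ≠ 0) (diaA : (ZMod c)ˣ →* Module.End ℤ A)
    (hdiaA : ∀ (g : SL(2, ℤ)) (hg : (M : ℤ) ∣ g 1 0) (d : (ZMod c)ˣ),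
      (d : ZMod c) = ((g 0 0 : ℤ) : ZMod c) → ∀ (k : ℕ) (x : A), p ^ k • x = 0 →
      ms.m k (diaA d x) = Dg hc g hg (ms.m k x)) (d : (ZMod c)ˣ) :
    Liftable ι ms (H2.mapEnd (p : ℤ) A (diaA d)) := by
  obtain ⟨g, hg, hd⟩ := exists_gam0 hM hc d
  exact ⟨Dop hc g hg, liftable_DA ι ms hc diaA hdiaA g hg d hd⟩

/-- The diamond operators on the span. -/
noncomputable def diaV (hM : M ≠ 0) (diaA : (ZMod c)ˣ →* Module.End ℤ A)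
    (hdiaA : ∀ (g : SL(2, ℤ)) (hg : (M : ℤ) ∣ g 1 0) (d : (ZMod c)ˣ),
      (d : ZMod c) = ((g 0 0 : ℤ) : ZMod c) → ∀ (k : ℕ) (x : A), p ^ k • x = 0 →
      ms.m k (diaA d x) = Dg hc g hg (ms.m k x)) :
    (ZMod c)ˣ →* Module.End L ↥(Vsp ι ms) where
  toFun d := liftV ι ms (H2.mapEnd (p : ℤ) A (diaA d)) (liftable_diaA ι ms hc hM diaA hdiaA d)
  map_one' := by
    apply Vsp_ext ι ms
    intro ξ
    rw [liftV_gen, map_one, map_one, Module.End.one_apply, Module.End.one_apply]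
  map_mul' d d' := by
    apply Vsp_ext ι ms
    intro ξ
    rw [liftV_gen, Module.End.mul_apply, liftV_gen, liftV_gen, map_mul, map_mul,
      Module.End.mul_apply]

theorem diaV_gen (hM : M ≠ 0) (diaA : (ZMod c)ˣ →* Module.End ℤ A)
    (hdiaA : ∀ (g : SL(2, ℤ)) (hg : (M : ℤ) ∣ g 1 0) (d : (ZMod c)ˣ),
      (d : ZMod c) = ((g 0 0 : ℤ) : ZMod c) → ∀ (k : ℕ) (x : A), p ^ k • x = 0 →
      ms.m k (diaA d x) = Dg hc g hg (ms.m k x)) (d : (ZMod c)ˣ) (ξ : Ta p A) :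
    diaV ι ms hc hM diaA hdiaA d (gen ι ms ξ) = gen ι ms (H2.mapEnd (p : ℤ) A (diaA d) ξ) :=
  liftV_gen ι ms _ _ ξ

theorem coe_diaV (hM : M ≠ 0) (diaA : (ZMod c)ˣ →* Module.End ℤ A)
    (hdiaA : ∀ (g : SL(2, ℤ)) (hg : (M : ℤ) ∣ g 1 0) (d : (ZMod c)ˣ),
      (d : ZMod c) = ((g 0 0 : ℤ) : ZMod c) → ∀ (k : ℕ) (x : A), p ^ k • x = 0 →
      ms.m k (diaA d x) = Dg hc g hg (ms.m k x))
    (g : SL(2, ℤ)) (hg : (M : ℤ) ∣ g 1 0) (d : (ZMod c)ˣ)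
    (hd : (d : ZMod c) = ((g 0 0 : ℤ) : ZMod c)) (v : ↥(Vsp ι ms)) :
    ((diaV ι ms hc hM diaA hdiaA d v : ↥(Vsp ι ms)) : Additive (Gam1 M c) →+ L)
      = Dop hc g hg (v : Additive (Gam1 M c) →+ L) :=
  coe_liftV ι ms _ _ _ (liftable_DA ι ms hc diaA hdiaA g hg d hd) v

theorem diaV_pow_gen (hM : M ≠ 0) (diaA : (ZMod c)ˣ →* Module.End ℤ A)
    (hdiaA : ∀ (g : SL(2, ℤ)) (hg : (M : ℤ) ∣ g 1 0) (d : (ZMod c)ˣ),
      (d : ZMod c) = ((g 0 0 : ℤ) : ZMod c) → ∀ (k : ℕ) (x : A), p ^ k • x = 0 →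
      ms.m k (diaA d x) = Dg hc g hg (ms.m k x)) (d : (ZMod c)ˣ) (n : ℕ) (ξ : Ta p A) :
    (diaV ι ms hc hM diaA hdiaA d ^ n) (gen ι ms ξ)
      = gen ι ms (H2.mapEnd (p : ℤ) A (diaA d ^ n) ξ) := by
  rw [← map_pow, diaV_gen, map_pow]

end Ops

section Main

/-- **EIG-A**: the Hecke algebra of level `N c²` acts on `A = J_H[p^∞]` through the twisted
operators `T_ℓ ⟨ℓ⟩^j`. -/
theorem stmt_EIG_A (p : ℕ) [Fact p.Prime] (N : ℕ) (hN : N ≠ 0) (qs : List ℕ) (hnd : qs.Nodup)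
    (hpr : ∀ q ∈ qs, q.Prime) (hqN : ∀ q ∈ qs, ¬ q ∣ N)
    (c N' : ℕ) (hc : c = qs.prod) (hN' : N' = N * c * c) [NeZero N'] (S : Set ℕ)
    (hS : ∀ q : ℕ, q.Prime → q ∣ N' → q ∈ S)
    (A : Type) [AddCommGroup A] (hdiv : ∀ x : A, ∃ y : A, p • y = x)
    (htors : ∀ x : A, ∃ k : ℕ, p ^ k • x = 0)
    (ms : MonoSys p (N * c) c A)
    (TA : ℕ → Module.End ℤ A)
    (hTA : ∀ (ℓ : ℕ) (hℓ : ℓ.Prime) (hℓM : ¬ ℓ ∣ N * c) (k : ℕ) (x : A), p ^ k • x = 0 →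
      ms.m k (TA ℓ x) = TDg (N * c) c (dvd_mul_left _ _) hℓ hℓM (ms.m k x))
    (diaA : (ZMod c)ˣ →* Module.End ℤ A)
    (hdiaA : ∀ (g : SL(2, ℤ)) (hg : ((N * c : ℕ) : ℤ) ∣ g 1 0) (d : (ZMod c)ˣ),
      (d : ZMod c) = ((g 0 0 : ℤ) : ZMod c) → ∀ (k : ℕ) (x : A), p ^ k • x = 0 →
      ms.m k (diaA d x) = Dg (dvd_mul_left _ _) g hg (ms.m k x))
    (hcomm : ∀ (ℓ : ℕ), ℓ.Prime → ¬ ℓ ∣ N * c → ∀ d, Commute (TA ℓ) (diaA d))
    (j : ℕ) (hdn : ∀ d, diaA d ^ (2 * j + 1) = 1) :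
    ∃ eta : CuspForm.heckeAlgebra N' 2 S →+* Module.End ℤ A,
      ∀ (ℓ : ℕ) (hℓ : ℓ.Prime) (hℓN : ¬ ℓ ∣ N') (hℓS : ℓ ∉ S),
        eta (CuspForm.heckeAlgebra.T hℓ hℓN hℓS) = TA ℓ * diaA (unitOf c ℓ) ^ j := by
  classical
  have hc0 : c ≠ 0 := by
    rw [hc]
    exact prod_primes_ne_zero hpr
  have hM : N * c ≠ 0 := mul_ne_zero hN hc0
  have : NeZero c := ⟨hc0⟩
  have hcM : c ∣ N * c := dvd_mul_left _ _
  have hdiv' : ∀ w : A, ∃ v : A, (p : ℤ) • v = w := fun w => by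
    obtain ⟨v, hv⟩ := hdiv w
    exact ⟨v, by rw [natCast_zsmul, hv]⟩
  have htors' : ∀ w : A, ∃ k : ℕ, (p : ℤ) ^ k • w = 0 := fun w => by
    obtain ⟨k, hk⟩ := htors w
    exact ⟨k, by rw [← Nat.cast_pow, natCast_zsmul, hk]⟩
  -- the field
  let ι : ℤ_[p] →+* AlgebraicClosure ℚ_[p] :=
    (algebraMap ℚ_[p] (AlgebraicClosure ℚ_[p])).comp PadicInt.Coe.ringHom
  have hι : Function.Injective ι :=
    (algebraMap ℚ_[p] (AlgebraicClosure ℚ_[p])).injective.comp Subtype.coe_injective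
  have := hasEnough_of_algClosed (AlgebraicClosure ℚ_[p]) c
  -- EIG-OP on the span
  obtain ⟨eta, heta⟩ := stmt_OP (L := AlgebraicClosure ℚ_[p]) (V := ↥(Vsp ι ms))
    N hN qs hnd hpr hqN c N' hc hN' S hS
    (Vsp ι ms).subtype (Submodule.injective_subtype _) (Vsp_par ι ms)
    (TVop ι ms hcM TA hTA) (fun ℓ hℓ hℓM v => coe_TVop ι ms hcM TA hTA hℓ hℓM v)
    (diaV ι ms hcM hM diaA hdiaA)
    (fun g hg d hd v => coe_diaV ι ms hcM hM diaA hdiaA g hg d hd v)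
    (fun ℓ d => by
      by_cases h : ℓ.Prime ∧ ¬ ℓ ∣ N * c
      · show TVop ι ms hcM TA hTA ℓ * diaV ι ms hcM hM diaA hdiaA d
          = diaV ι ms hcM hM diaA hdiaA d * TVop ι ms hcM TA hTA ℓ
        apply Vsp_ext ι ms
        intro ξ
        rw [Module.End.mul_apply, Module.End.mul_apply, diaV_gen,
          TVop_gen ι ms hcM TA hTA h.1 h.2, TVop_gen ι ms hcM TA hTA h.1 h.2, diaV_gen,
          ← Module.End.mul_apply, ← Module.End.mul_apply, ← map_mul, ← map_mul,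
          (hcomm ℓ h.1 h.2 d).eq]
      · rw [TVop, dif_neg h]
        exact Commute.zero_left _)
    j
    (fun d => by
      apply Vsp_ext ι ms
      intro ξ
      rw [diaV_pow_gen, hdn d, map_one, Module.End.one_apply, Module.End.one_apply])
  -- descent to the Tate module
  obtain ⟨eta₀, heta₀, -⟩ := op_lattice (𝒪 := ℤ) (L := AlgebraicClosure ℚ_[p])
    (V₀ := Ta p A) (V := ↥(Vsp ι ms)) hS eta (gen ι ms) (gen_injective ι ms hι)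
    (fun ℓ => H2.mapEnd (p : ℤ) A (TA ℓ * diaA (unitOf c ℓ) ^ j))
    (fun ℓ hℓ hℓN hℓS ξ => by
      have hℓM : ¬ ℓ ∣ N * c := fun h => hℓN (by rw [hN']; exact Dvd.dvd.mul_right h c)
      rw [heta ℓ hℓ hℓN hℓS, Module.End.mul_apply, diaV_pow_gen,
        TVop_gen ι ms hcM TA hTA hℓ hℓM, map_mul, Module.End.mul_apply])
  -- pull back to `A`
  have hrange : ∀ x, ∃ b, (H2.mapEnd (p : ℤ) A).toRingHom b = eta₀ x := by
    refine hecke_induction hS (fun ℓ hℓ hℓN hℓS => ⟨_, (heta₀ ℓ hℓ hℓN hℓS).symm⟩)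
      (fun n => ⟨(n : Module.End ℤ A), ?_⟩) (fun x y hx hy => ?_) (fun x y hx hy => ?_)
    · rw [map_intCast, map_intCast]
    · obtain ⟨b, hb⟩ := hx
      obtain ⟨b', hb'⟩ := hy
      exact ⟨b + b', by rw [map_add, hb, hb', map_add]⟩
    · obtain ⟨b, hb⟩ := hx
      obtain ⟨b', hb'⟩ := hy
      exact ⟨b * b', by rw [map_mul, hb, hb', map_mul]⟩
  obtain ⟨etaA, hetaA⟩ := exists_ringHom_of_injective eta₀ (H2.mapEnd (p : ℤ) A).toRingHom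
    (H2.mapEnd_injective hdiv' htors') hrange
  refine ⟨etaA, fun ℓ hℓ hℓN hℓS => ?_⟩
  apply H2.mapEnd_injective hdiv' htors'
  exact (hetaA _).trans (heta₀ ℓ hℓ hℓN hℓS)

end Main

end Fermat.Agent.NEB.EIG.H39
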