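import Fermat.Agent.NEB.EIG.H98_MonoDefs
import Fermat.Agent.NEB.H84_Fix

/-!
# NEB / EIG, leaf EIG-MONO, part A1-H (helper98)

`stmt_A1H : Stmt_A1H M c H`: every `f ∈ F_H` (over `ℚ̄`) is a ratio `A / B` with `B ≠ 0` a modular
form on `Γ₀(M)` and `A` a form of the same weight on `Γ₁(M)`, invariant under
`Γ_H = {γ ∈ Γ₀(M) : a_γ ∈ ±H}`.

Also `slash_rep`: for any such representation and any `γ ∈ Γ₀(M)`, the ratio
`(A ∣ γ) / B` represents `actHom γ f = ρ(a_γ) f`.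
-/

set_option autoImplicit false
set_option linter.unusedSectionVars false

noncomputable section

namespace Fermat.Agent.NEB.EIG.H98

open AlgebraicCurve ModularCurve UpperHalfPlane CongruenceSubgroup Matrix.SpecialLinearGroup
open Fermat.Agent.NEB Fermat.Agent.NEB.JH Fermat.Agent.NEB.H84 Fermat.Agent.GTor
open Fermat.Agent.S23.H22 (Nice)
open Fermat.Agent.GTor.H56 (qLaurent_mul qLaurent_injective qLaurent_eq_zero_iff qLaurent_zero)
open scoped MatrixGroups ModularForm Manifold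

variable {M c : ℕ} [NeZero M] (H : Subgroup (ZMod c)ˣ) (ι : Kbar →+* ℂ)
  (hc2 : 2 ≤ c) (hc : c ∣ M)

/-- For a fixed representation `x = A / B` the action of `γ ∈ Γ₀(M)` is computed by slashing
`A` and `B`. -/
theorem rel_slash_of_rep {γ : SL(2, ℤ)} (hγ : γ ∈ Gamma0 M) {x y : LaurentSeries ℂ}
    (h : Rel M γ x y) {k : ℤ} {A B : ℍ → ℂ} (hA : IsW M k A) (hB : IsW M k B) (hB0 : B ≠ 0)
    (hx : qLaurent A = x * qLaurent B) :
    qLaurent (A ∣[k] γ) = y * qLaurent (B ∣[k] γ) := by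
  have nBγ : qLaurent (B ∣[k] γ) ≠ 0 :=
    qLaurent_ne_zero (hB.slash_Gamma0 hγ).nice (slash_ne_zero k γ hB0)
  have h2 : Rel M γ x (qLaurent (A ∣[k] γ) / qLaurent (B ∣[k] γ)) :=
    ⟨k, A, B, hA, hB, hB0, hx, by field_simp⟩
  have h3 := rel_unique hγ h h2
  rw [h3]
  field_simp

/-- `γ ∈ Γ₀(M)` with `a_γ ∈ ±H` acts trivially on `F_H`. -/
theorem actHom_eq_id_of_mem {γ : SL(2, ℤ)} (hγ : γ ∈ Gamma0 M)
    (ha : ((γ 0 0 : ℤ) : ZMod c) ∈ cosetSet c H 1) (f : ↥(FHbar M c H)) :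
    actHom H ι hc2 hc ⟨γ, hγ⟩ f = f := by
  rw [actHom_eq_rho, ← rho_apply]
  have hd : (dUnit hc γ hγ)⁻¹ ∈ H ∨ -(dUnit hc γ hγ)⁻¹ ∈ H := by
    obtain ⟨h, hh, h1 | h1⟩ := ha
    · left
      have : (dUnit hc γ hγ)⁻¹ = h := by
        apply Units.ext
        rw [one_mul] at h1
        rw [← h1]
        rfl
      rw [this]
      exact hh
    · right
      have : -(dUnit hc γ hγ)⁻¹ = h := by
        apply Units.ext
        rw [one_mul] at h1
        rw [Units.val_neg]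
        have h2 : (((dUnit hc γ hγ)⁻¹ : (ZMod c)ˣ) : ZMod c) = ((γ 0 0 : ℤ) : ZMod c) := rfl
        rw [h2, h1, neg_neg]
      rw [this]
      exact hh
  rw [(rho_eq_one_iff H ι hc2 hc _).mpr hd]
  rfl

/-- **A1-H**. -/
theorem stmt_A1H (M c : ℕ) (H : Subgroup (ZMod c)ˣ) : Stmt_A1H M c H := by
  intro hc2 hc hM ι f
  have : NeZero M := ⟨hM⟩
  obtain ⟨y, hy, hrel⟩ := exists_relK H ι hc2 hc (Gamma0 M).one_mem f.2
  obtain ⟨k, A, B, hA, hB, hB0, hx, -⟩ := hrel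
  obtain ⟨k', C, hC, hC0, hnorm⟩ := exists_norm hB hB0
  have hAC : IsW M (k + k') (A * C) := hA.mul hC
  have hBC : IsW M (k + k') (B * C) := hB.mul hC
  have hBC0 : B * C ≠ 0 := isW_mul_ne_zero hB hC hB0 hC0
  have hxBC : qLaurent (A * C) = coeffMap ι (f : LaurentSeries Kbar) * qLaurent (B * C) := by
    rw [qLaurent_mul hA.nice hC.nice, qLaurent_mul hB.nice hC.nice, hx]
    ring
  set B₀ := toModularForm0 hBC hnorm with hB₀
  have hB₀0 : B₀ ≠ 0 := by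
    intro h0
    apply hBC0
    have : (B₀ : ℍ → ℂ) = 0 := by rw [h0]; rfl
    rwa [hB₀, toModularForm0_coe] at this
  refine ⟨k + k', A * C, B₀, hAC, hB₀0, ?_, ?_⟩
  · intro γ hγ ha
    have hrelγ := actHom_rel H ι hc2 hc ⟨γ, hγ⟩ f
    rw [actHom_eq_id_of_mem H ι hc2 hc hγ ha f] at hrelγ
    have h1 := rel_slash_of_rep hγ hrelγ hAC hBC hBC0 hxBC
    apply qLaurent_injective (hAC.slash_Gamma0 hγ).nice hAC.nice
    rw [h1, hnorm γ hγ, hxBC]
  · exact hxBC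

end Fermat.Agent.NEB.EIG.H98
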