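import Fermat.Agent.NEB.EIG.H46_A2H
import Fermat.Agent.NEB.EIG.H98_A1H
import Fermat.Agent.GTor.H56_DescRoot
import Fermat.Agent.GTor.H56_Common

/-!
# NEB / EIG-MONO, leaf INJ1 (helper46): a function with trivial character on `Gam1 M c` has
`f ^ |H|` an `n`-th power in `F_H`

Plan: `NOTES/plan/NEB_EIG_MONO.md`.  Let `ι f = (R / B)ⁿ`, `R` of weight `k` invariant under
`Gam1 M c = Γ₀(M) ∩ Γ₁(c)`.  For `γ ∈ Γ_H` (`a_γ ∈ ±H`), `ι f` is `γ`-invariant (A1-H), so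
`(R ∣ γ)ⁿ = Rⁿ`, i.e. `R ∣ γ = ζ R` for an `n`-th root of unity `ζ`.  As `γ^|H|` or `(-γ)^|H|` lies
in `Gam1 M c` and `-1` acts trivially (`B ≠ 0` lives on `Γ₀(M) ∋ -1`), `ζ^|H| = 1`.  Hence
`R^|H| / B^|H|` is `Γ_H`-invariant and lies in `F_H · ℂ` (A2-H); it is an `n`-th root of
`ι (f^|H|)`, which descends to `F_H` over `ℚ̄` (DESC-ROOT).
-/

set_option autoImplicit false

open UpperHalfPlane ModularForm CongruenceSubgroup ModularCurve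
open scoped MatrixGroups ModularForm Manifold

noncomputable section

namespace Fermat.Agent.NEB.EIG.H46

open Fermat.Agent.S23.H22 (Nice)
open Fermat.Agent.GTor (qLaurent zetaPow)
open Fermat.Agent.GTor.H56 (qLaurent_mul qLaurent_injective qLaurent_eq_zero_iff qLaurent_zero
  qLaurent_pow)
open Fermat.Agent.NEB Fermat.Agent.NEB.H84 Fermat.Agent.NEB.H34 Fermat.Agent.NEB.EIG.H39

variable {M c : ℕ}

/-! ### Generalities -/

theorem slash_neg_one_eq (k : ℤ) (f : ℍ → ℂ) :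
    f ∣[k] (-1 : SL(2, ℤ)) = (-1 : ℂ) ^ (-k) • f := by
  funext z
  rw [SL_slash_apply]
  have h2 : denom ((-1 : SL(2, ℤ))) z = -1 := by
    rw [ModularGroup.denom_apply]
    simp
  have h3 : ((-1 : SL(2, ℤ))) • z = z := by
    rw [ModularGroup.SL_neg_smul, one_smul]
  rw [h2, h3, Pi.smul_apply, smul_eq_mul, mul_comm]

theorem neg_one_mem_Gamma0_h46 (M : ℕ) : (-1 : SL(2, ℤ)) ∈ Gamma0 M := by
  rw [Gamma0_mem]
  simp

/-- The `n`-th roots of unity of `ℂ((q))` are constants. -/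
theorem exists_C_of_pow_eq_one {n : ℕ} (hn : n ≠ 0) (u : LaurentSeries ℂ) (hu : u ^ n = 1) :
    ∃ ζ : ℂ, ζ ^ n = 1 ∧ u = HahnSeries.C ζ := by
  obtain ⟨ζ₀, hprim⟩ : ∃ ζ₀ : ℂ, IsPrimitiveRoot ζ₀ n := ⟨_, Complex.isPrimitiveRoot_exp n hn⟩
  have hprim' : IsPrimitiveRoot ((HahnSeries.C : ℂ →+* LaurentSeries ℂ) ζ₀) n :=
    hprim.map_of_injective HahnSeries.C_injective
  haveI : NeZero n := ⟨hn⟩
  obtain ⟨i, -, hi⟩ := hprim'.eq_pow_of_pow_eq_one hu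
  refine ⟨ζ₀ ^ i, ?_, ?_⟩
  · rw [← pow_mul, mul_comm, pow_mul, hprim.pow_eq_one, one_pow]
  · rw [← hi, map_pow]

theorem isW_pow_h46 {k : ℤ} {B : ℍ → ℂ} (hB : IsW M k B) (m : ℕ) :
    IsW M (m * k) (fun z => B z ^ m) := by
  show IsW M (m * k) (B ^ m)
  induction m with
  | zero => simpa using isW_one M
  | succ m ih =>
    have := ih.mul hB
    have e : ((m + 1 : ℕ) : ℤ) * k = m * k + k := by push_cast; ring
    rw [e, pow_succ]
    exact this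

theorem Gamma1_le_Gam1_h46 (hc : c ∣ M) : Gamma1 M ≤ Gam1 M c := by
  intro γ hγ
  rw [Gamma1_mem] at hγ
  obtain ⟨h1, h2, h3⟩ := hγ
  have e1 : (M : ℤ) ∣ γ 1 0 := (ZMod.intCast_zmod_eq_zero_iff_dvd _ _).mp h3
  have e2 : (M : ℤ) ∣ γ 0 0 - 1 := by
    rw [← ZMod.intCast_zmod_eq_zero_iff_dvd]
    push_cast
    rw [h1, sub_self]
  have hcM : (c : ℤ) ∣ (M : ℤ) := Int.natCast_dvd_natCast.mpr hc
  exact ⟨e1, hcM.trans e1, hcM.trans e2⟩

/-! ### Multipliers -/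

section Mult

variable {k : ℤ} {R : ℍ → ℂ}

theorem mult_mul {γ γ' : SL(2, ℤ)} {ζ ζ' : ℂ} (h : R ∣[k] γ = ζ • R) (h' : R ∣[k] γ' = ζ' • R) :
    R ∣[k] (γ * γ') = (ζ * ζ') • R := by
  rw [SlashAction.slash_mul, h, ModularForm.SL_smul_slash, h', smul_smul]

theorem mult_pow {γ : SL(2, ℤ)} {ζ : ℂ} (h : R ∣[k] γ = ζ • R) (m : ℕ) :
    R ∣[k] (γ ^ m) = ζ ^ m • R := by
  induction m with
  | zero => rw [pow_zero, pow_zero, SlashAction.slash_one, one_smul]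
  | succ m ih =>
    rw [pow_succ, pow_succ]
    exact mult_mul ih h

theorem eq_one_of_smul_eq {ζ : ℂ} (hR0 : R ≠ 0) (h : ζ • R = R) : ζ = 1 := by
  by_contra hζ
  apply hR0
  funext z
  have h1 := congrFun h z
  simp only [Pi.smul_apply, smul_eq_mul] at h1
  have h2 : (ζ - 1) * R z = 0 := by linear_combination h1
  rcases mul_eq_zero.mp h2 with h3 | h3
  · exact absurd (sub_eq_zero.mp h3) hζ
  · exact h3

end Mult

/-! ### The entries mod `c` -/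

section Entries

variable [NeZero M] [NeZero c] (H : Subgroup (ZMod c)ˣ) (hc : c ∣ M)

theorem coe_a_eq (γ : Gamma0 M) :
    ((((γ : SL(2, ℤ)) 0 0 : ℤ)) : ZMod c) = (((H34.dUnit hc γ)⁻¹ : (ZMod c)ˣ) : ZMod c) := by
  have h1 := a_mul_dUnit hc γ
  have h3 : (((H34.dUnit hc γ) : (ZMod c)ˣ) : ZMod c) * (((H34.dUnit hc γ)⁻¹ : (ZMod c)ˣ) : ZMod c)
      = 1 := by
    rw [← Units.val_mul, mul_inv_cancel, Units.val_one]
  calc ((((γ : SL(2, ℤ)) 0 0 : ℤ)) : ZMod c)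
      = ((((γ : SL(2, ℤ)) 0 0 : ℤ)) : ZMod c) * ((((H34.dUnit hc γ) : (ZMod c)ˣ) : ZMod c)
          * (((H34.dUnit hc γ)⁻¹ : (ZMod c)ˣ) : ZMod c)) := by rw [h3, mul_one]
    _ = (((H34.dUnit hc γ)⁻¹ : (ZMod c)ˣ) : ZMod c) := by rw [← mul_assoc, h1, one_mul]

theorem dUnit_mem_of_a_mem (γ : Gamma0 M)
    (ha : ((((γ : SL(2, ℤ)) 0 0 : ℤ)) : ZMod c) ∈ cosetSet c H 1) :
    H34.dUnit hc γ ∈ H ∨ -H34.dUnit hc γ ∈ H := by
  rw [coe_a_eq hc γ] at ha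
  obtain ⟨h, hh, h1 | h1⟩ := ha
  · left
    rw [one_mul] at h1
    have h2 : (H34.dUnit hc γ)⁻¹ = h := Units.ext h1
    have h3 : H34.dUnit hc γ = h⁻¹ := by rw [← h2, inv_inv]
    rw [h3]
    exact H.inv_mem hh
  · right
    rw [one_mul] at h1
    have h2 : (H34.dUnit hc γ)⁻¹ = -h := Units.ext (by rw [h1, Units.val_neg])
    have h3 : -H34.dUnit hc γ = h⁻¹ := by
      rw [← inv_inv (H34.dUnit hc γ), h2, inv_neg, neg_neg]
    rw [h3]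
    exact H.inv_mem hh

theorem mem_Gam1_of_dUnit_eq_one (γ : Gamma0 M) (h : H34.dUnit hc γ = 1) :
    (γ : SL(2, ℤ)) ∈ Gam1 M c := by
  have e1 : (M : ℤ) ∣ (γ : SL(2, ℤ)) 1 0 :=
    (ZMod.intCast_zmod_eq_zero_iff_dvd _ _).mp (Gamma0_mem.mp γ.2)
  have hcM : (c : ℤ) ∣ (M : ℤ) := Int.natCast_dvd_natCast.mpr hc
  refine ⟨e1, hcM.trans e1, ?_⟩
  rw [← ZMod.intCast_zmod_eq_zero_iff_dvd]
  push_cast
  rw [coe_a_eq hc γ, h, inv_one, Units.val_one, sub_self]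

theorem pow_card_mem_Gam1 (γ : Gamma0 M) (h : H34.dUnit hc γ ∈ H) :
    ((γ : SL(2, ℤ)) ^ Nat.card H) ∈ Gam1 M c := by
  have h1 : (⟨H34.dUnit hc γ, h⟩ : H) ^ Nat.card H = 1 := pow_card_eq_one'
  have h2 : (H34.dUnit hc γ) ^ Nat.card H = 1 := by
    have := congrArg Subtype.val h1
    rwa [Subgroup.coe_pow, Subgroup.coe_one] at this
  have h3 : H34.dUnit hc (γ ^ Nat.card H) = 1 := by rw [map_pow, h2]
  exact mem_Gam1_of_dUnit_eq_one hc (γ ^ Nat.card H) h3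

theorem dUnit_neg (γ : Gamma0 M) :
    H34.dUnit hc ⟨-1 * (γ : SL(2, ℤ)), (Gamma0 M).mul_mem (neg_one_mem_Gamma0_h46 M) γ.2⟩
      = -H34.dUnit hc γ := by
  apply Units.ext
  rw [H34.coe_dUnit, Units.val_neg, H34.coe_dUnit]
  simp

end Entries

/-! ### The multiplier of `R` on `Γ_H` -/

section Key

variable [NeZero M] [NeZero c] (H : Subgroup (ZMod c)ˣ) (hc2 : 2 ≤ c) (hc : c ∣ M)
variable {n : ℕ} {k : ℤ} {R : ℍ → ℂ} (ι : Kbar →+* ℂ)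

theorem coeffMap_ne_zero_h46 {f : ↥(FHbar M c H)} (hf : f ≠ 0) :
    coeffMap ι (f : LaurentSeries Kbar) ≠ 0 := by
  intro h
  apply hf
  apply Subtype.ext
  exact (map_eq_zero_iff (coeffMap ι) (Fermat.Agent.GTor.H75.coeffMap_injective ι)).mp h

variable (hn : n ≠ 0) (f : ↥(FHbar M c H)) (hf : f ≠ 0) (hR : IsW M k R)
  (B : ModularForm (Gamma0 M) k) (hB : B ≠ 0)
  (e : qLaurent (fun z => R z ^ n)
    = coeffMap ι (f : LaurentSeries Kbar) * qLaurent (fun z => (B : ℍ → ℂ) z ^ n))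

include hn hf hR hB e

theorem qLaurent_R_ne_zero : qLaurent R ≠ 0 := by
  have hBfun : (B : ℍ → ℂ) ≠ 0 := fun h => hB (DFunLike.coe_injective h)
  have hBW := isW_of_modularForm B
  have nB : qLaurent (B : ℍ → ℂ) ≠ 0 := qLaurent_ne_zero hBW.nice hBfun
  have nBn : qLaurent (fun z => (B : ℍ → ℂ) z ^ n) ≠ 0 := by
    rw [qLaurent_pow hBW.nice]
    exact pow_ne_zero n nB
  intro h0
  have h1 : qLaurent (fun z => R z ^ n) = 0 := by
    rw [qLaurent_pow hR.nice, h0, zero_pow hn]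
  rw [e] at h1
  exact (mul_ne_zero (coeffMap_ne_zero_h46 H ι hf) nBn) h1

theorem R_ne_zero : R ≠ 0 := by
  intro h0
  apply qLaurent_R_ne_zero H ι hn f hf hR B hB e
  rw [h0]
  exact qLaurent_zero

include hc2 hc

/-- For `γ ∈ Γ_H`, `R ∣ γ = ζ R` with `ζⁿ = 1`. -/
theorem exists_mult {γ : SL(2, ℤ)} (hγ : γ ∈ Gamma0 M)
    (ha : ((γ 0 0 : ℤ) : ZMod c) ∈ cosetSet c H 1) :
    ∃ ζ : ℂ, ζ ^ n = 1 ∧ R ∣[k] γ = ζ • R := by
  obtain ⟨k', A', B', hA', hB'0, hA'inv, hq'⟩ := H98.stmt_A1H M c H hc2 hc (NeZero.ne M) ι f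
  have hB'fun : (B' : ℍ → ℂ) ≠ 0 := fun h => hB'0 (DFunLike.coe_injective h)
  have hBfun : (B : ℍ → ℂ) ≠ 0 := fun h => hB (DFunLike.coe_injective h)
  have hrel : Rel M γ (coeffMap ι (f : LaurentSeries Kbar))
      (coeffMap ι (f : LaurentSeries Kbar)) :=
    ⟨k', A', B', hA', isW_of_modularForm B', hB'fun, hq', by
      rw [hA'inv γ hγ ha, slash_modularForm B' hγ, hq']⟩
  have hBW := isW_of_modularForm B
  have hRn := isW_pow_h46 hR n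
  have hBn := isW_pow_h46 hBW n
  have nB : qLaurent (B : ℍ → ℂ) ≠ 0 := qLaurent_ne_zero hBW.nice hBfun
  have nBn : qLaurent (fun z => (B : ℍ → ℂ) z ^ n) ≠ 0 := by
    rw [qLaurent_pow hBW.nice]
    exact pow_ne_zero n nB
  have hBn0 : (fun z => (B : ℍ → ℂ) z ^ n) ≠ 0 := by
    intro h0
    apply nBn
    rw [h0]
    exact qLaurent_zero
  have h1 := H98.rel_slash_of_rep hγ hrel hRn hBn hBn0 e
  rw [Fermat.Agent.GTor.H56.slash_pow_SL, Fermat.Agent.GTor.H56.slash_pow_SL,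
    slash_modularForm B hγ, ← e] at h1
  have hRγ := hR.slash_Gamma0 hγ
  rw [qLaurent_pow hRγ.nice, qLaurent_pow hR.nice] at h1
  have nR : qLaurent R ≠ 0 := qLaurent_R_ne_zero H ι hn f hf hR B hB e
  obtain ⟨ζ, hζ, hu⟩ := exists_C_of_pow_eq_one hn (qLaurent (R ∣[k] γ) / qLaurent R)
    (by rw [div_pow, h1, div_self (pow_ne_zero n nR)])
  refine ⟨ζ, hζ, ?_⟩
  apply qLaurent_injective hRγ.nice (hR.nice.smul ζ)
  rw [qLaurent_smul hR.nice, smul_eq_C_mul, ← hu, div_mul_cancel₀ _ nR]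

/-- For `γ ∈ Γ_H`, `(R ∣ γ)^|H| = R^|H|`. -/
theorem slash_pow_card (hRinv : ∀ γ : Gam1 M c, R ∣[k] (γ : SL(2, ℤ)) = R)
    {γ : SL(2, ℤ)} (hγ : γ ∈ Gamma0 M)
    (ha : ((γ 0 0 : ℤ) : ZMod c) ∈ cosetSet c H 1) :
    (fun z => (R ∣[k] γ) z ^ Nat.card H) = fun z => R z ^ Nat.card H := by
  obtain ⟨ζ, -, hζR⟩ := exists_mult H hc2 hc ι hn f hf hR B hB e hγ ha
  have hR0 : R ≠ 0 := R_ne_zero H ι hn f hf hR B hB e
  have hBfun : (B : ℍ → ℂ) ≠ 0 := fun h => hB (DFunLike.coe_injective h)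
  have key : ζ ^ Nat.card H = 1 := by
    rcases dUnit_mem_of_a_mem H hc ⟨γ, hγ⟩ ha with hd | hd
    · have h1 := pow_card_mem_Gam1 H hc ⟨γ, hγ⟩ hd
      have h2 := hRinv ⟨_, h1⟩
      have h3 := mult_pow hζR (Nat.card H)
      apply eq_one_of_smul_eq hR0
      rw [← h3]
      exact h2
    · have hneg : R ∣[k] (-1 : SL(2, ℤ)) = (1 : ℂ) • R := by
        have h4 : ((B : ℍ → ℂ)) ∣[k] (-1 : SL(2, ℤ)) = (B : ℍ → ℂ) :=
          slash_modularForm B (neg_one_mem_Gamma0_h46 M)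
        rw [slash_neg_one_eq] at h4
        rw [slash_neg_one_eq, eq_one_of_smul_eq hBfun h4]
      have hζ' := mult_mul hneg hζR
      rw [one_mul] at hζ'
      have hd' : H34.dUnit hc ⟨-1 * γ, (Gamma0 M).mul_mem (neg_one_mem_Gamma0_h46 M) hγ⟩ ∈ H := by
        rw [dUnit_neg hc ⟨γ, hγ⟩]
        exact hd
      have h1 := pow_card_mem_Gam1 H hc _ hd'
      have h2 := hRinv ⟨_, h1⟩
      have h3 := mult_pow hζ' (Nat.card H)
      apply eq_one_of_smul_eq hR0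
      rw [← h3]
      exact h2
  funext z
  rw [hζR, Pi.smul_apply, smul_eq_mul, mul_pow, key, one_mul]

end Key

/-- **INJ1**: if the character of `f` is trivial on `Gam1 M c`, then `f ^ |H|` is an `n`-th power
in `F_H`. -/
theorem stmt_INJ1 (M c : ℕ) (H : Subgroup (ZMod c)ˣ) (n : ℕ) : H98.Stmt_INJ1 M c H n := by
  rintro hc2 hc hM hn ι f hf ⟨k, R, B, hmd, hbd, hsl, hB0, e⟩
  haveI : NeZero M := ⟨hM⟩
  haveI : NeZero c := ⟨by omega⟩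
  have hRinv : ∀ γ : Gam1 M c, R ∣[k] (γ : SL(2, ℤ)) = R := by
    intro γ
    rw [hsl γ, AddMonoidHom.zero_apply, Fermat.Agent.GTor.H56.zetaPow_zero, one_smul]
  have hR : IsW M k R := ⟨hmd, fun γ hγ => hRinv ⟨γ, Gamma1_le_Gam1_h46 hc hγ⟩, hbd⟩
  have hBW := isW_of_modularForm B
  have hBfun : (B : ℍ → ℂ) ≠ 0 := fun h => hB0 (DFunLike.coe_injective h)
  have nB : qLaurent (B : ℍ → ℂ) ≠ 0 := qLaurent_ne_zero hBW.nice hBfun
  set m := Nat.card H with hm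
  have nBm : qLaurent (fun z => (B : ℍ → ℂ) z ^ m) ≠ 0 := by
    rw [qLaurent_pow hBW.nice]
    exact pow_ne_zero m nB
  have hBm0 : (fun z => (B : ℍ → ℂ) z ^ m) ≠ 0 := by
    intro h0
    apply nBm
    rw [h0]
    exact qLaurent_zero
  obtain ⟨y, hy, hyq⟩ := stmt_A2H M c H hc2 hc hM (m * k) (fun z => R z ^ m)
    (fun z => (B : ℍ → ℂ) z ^ m) (isW_pow_h46 hR m) (isW_pow_h46 hBW m) hBm0 (by
      intro γ hγ ha
      rw [Fermat.Agent.GTor.H56.slash_pow_SL, Fermat.Agent.GTor.H56.slash_pow_SL,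
        slash_modularForm B hγ, slash_pow_card H hc2 hc ι hn f hf hR B hB0 e hRinv hγ ha])
  rw [qLaurent_pow hR.nice, qLaurent_pow hBW.nice] at hyq
  -- `y ^ n = ι (f ^ m)`
  have e' := e
  rw [qLaurent_pow hR.nice, qLaurent_pow hBW.nice] at e'
  have hyn : coeffMap ι ((f ^ m : ↥(FHbar M c H)) : LaurentSeries Kbar) = y ^ n := by
    have h1 : (y ^ n) * (qLaurent (B : ℍ → ℂ) ^ m) ^ n
        = coeffMap ι (f : LaurentSeries Kbar) ^ m * (qLaurent (B : ℍ → ℂ) ^ m) ^ n := by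
      rw [← mul_pow, ← hyq, ← pow_mul, mul_comm m n, pow_mul, e', mul_pow, ← pow_mul,
        ← pow_mul, mul_comm n m]
    have h2 := mul_right_cancel₀ (pow_ne_zero n (pow_ne_zero m nB)) h1
    rw [h2]
    simp
  obtain ⟨h₀, hh₀⟩ := Fermat.Agent.GTor.H56.stmt_DescRoot Kbar ℂ (FHQ M c H) ι n
    (Nat.pos_of_ne_zero hn) (f ^ m) (pow_ne_zero m hf) ⟨⟨y, hy⟩, Subtype.ext hyn⟩
  exact ⟨h₀, hh₀⟩

end Fermat.Agent.NEB.EIG.H46
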