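import Fermat.Agent.NEB.EIG.H34_HK1a
import Fermat.Agent.NEB.H70_NormQ
import Fermat.Agent.NEB.H14_JHData
import Fermat.Agent.GTor.H44_HKan

/-!
# NEB / EIG-MONO, leaf HK1 (helper94): the `q`-expansion of the Hecke product, and `Stmt_HK1`

* `qLaurent_heckeProd2` : for `A₁`, `A₂` nice of period one such that the two-function Hecke
  product `heckeProd2 K ℓ A₁ A₂ = (∏_j A₁ ∣ [1,j;0,ℓ]) * A₂ ∣ [ℓ,0;0,1]` is again of period one,
  `qLaurent (heckeProd2 K ℓ A₁ A₂) = C c * twNorm ℓ (qLaurent A₂) (qLaurent A₁)`.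
* `qLaurent_pow_slash_kappa` : `ι f = (R / B)ⁿ ⟹ ι (⟨ℓ⟩ f) = ((R ∣ κ) / B)ⁿ`.
* `qLaurent_heckeProdD` : part (b) of HK1: the ratio of the `q`-expansions of `(heckeProdD R)ⁿ` and
  `(heckeProdD B)ⁿ` is `ι (THfn f)`.
* `stmt_HK1 : Stmt_HK1 M c H n`.
-/

set_option autoImplicit false
set_option linter.unusedSectionVars false
set_option linter.unusedVariables false
set_option linter.style.haveILetI false

open UpperHalfPlane ModularForm CongruenceSubgroup ModularCurve AlgebraicCurve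
  Matrix.SpecialLinearGroup
open scoped MatrixGroups ModularForm Manifold OnePoint

noncomputable section

namespace Fermat.Agent.NEB.EIG.H94

open Fermat.Agent.S23.H22 (Nice)
open Fermat.Agent.S28.H30 (pexp BPH)
open Fermat.Agent.GTor Fermat.Agent.Betti
open Fermat.Agent.GTor.H76 (heckeProd bph_comp_heckeMatrix bph_comp_heckeDiagMatrix
  pexp_comp_heckeMatrix pexp_comp_heckeDiagMatrix)
open Fermat.Agent.GTor.H44 (heckeConst heckeConst_ne_zero twistBy zetaUnit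
  isPrimitiveRoot_zetaUnit twistProd descend)
open Fermat.Agent.NEB Fermat.Agent.NEB.JH Fermat.Agent.NEB.H84 Fermat.Agent.NEB.EIG.H39
  Fermat.Agent.NEB.EIG.H98 Fermat.Agent.NEB.EIG.H34
open Fermat.Agent.NEB.H70 (twNorm uSeries)

/-! ## 1. The `q`-expansion of the two-function Hecke product -/

theorem heckeProd2_eq_smul (K : ℤ) {ℓ : ℕ} (hℓ : ℓ ≠ 0) (A₁ A₂ : ℍ → ℂ) :
    heckeProd2 K ℓ A₁ A₂ = heckeConst K ℓ •
      ((∏ j ∈ Finset.range ℓ, fun z => A₁ (heckeMatrix ℓ j • z)) *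
        fun z => A₂ (heckeDiagMatrix ℓ • z)) := by
  funext τ
  rw [heckeProd2_apply K hℓ, Pi.smul_apply, Pi.mul_apply, Finset.prod_apply, smul_eq_mul,
    Finset.prod_mul_distrib, Finset.prod_const, Finset.card_range, heckeConst]
  ring

theorem pexp_heckeProd2 (K : ℤ) (ℓ : ℕ) [NeZero ℓ] {A₁ A₂ : ℍ → ℂ} (hA₁ : Nice 1 A₁)
    (hA₂ : Nice 1 A₂) :
    pexp ℓ (heckeProd2 K ℓ A₁ A₂) = HahnSeries.C (heckeConst K ℓ) *
      ((∏ j ∈ Finset.range ℓ, twistBy (zetaUnit ℓ ^ j) (qLaurent A₁)) *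
        qExpand ℂ ℓ (qExpand ℂ ℓ (qLaurent A₂))) := by
  have h1 : ∀ j ∈ Finset.range ℓ, BPH ℓ (fun z => A₁ (heckeMatrix ℓ j • z)) :=
    fun j _ => bph_comp_heckeMatrix ℓ hA₁ j
  have h2 : BPH ℓ (fun z => A₂ (heckeDiagMatrix ℓ • z)) := bph_comp_heckeDiagMatrix ℓ hA₂
  rw [heckeProd2_eq_smul K (NeZero.ne ℓ),
    Fermat.Agent.S28.H30.pexp_smul _ ((BPH.prod _ _ h1).mul h2),
    Fermat.Agent.S28.H30.pexp_mul (BPH.prod _ _ h1) h2,
    Fermat.Agent.S28.H30.pexp_prod _ _ h1, pexp_comp_heckeDiagMatrix ℓ hA₂]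
  congr 2
  exact Finset.prod_congr rfl fun j _ => pexp_comp_heckeMatrix ℓ hA₁ j

/-- The `q`-expansion of the two-function Hecke product. -/
theorem qLaurent_heckeProd2 (K : ℤ) (ℓ : ℕ) [NeZero ℓ] {A₁ A₂ : ℍ → ℂ} (hA₁ : Nice 1 A₁)
    (hA₂ : Nice 1 A₂) (hP : Nice 1 (heckeProd2 K ℓ A₁ A₂)) :
    qLaurent (heckeProd2 K ℓ A₁ A₂)
      = HahnSeries.C (heckeConst K ℓ) * twNorm ℓ (qLaurent A₂) (qLaurent A₁) := by
  have h1 : pexp ℓ (heckeProd2 K ℓ A₁ A₂) = qExpand ℂ ℓ (qLaurent (heckeProd2 K ℓ A₁ A₂)) :=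
    Fermat.Agent.S28.H76.ofPS_qExpansion_natCast ℓ hP
  apply H44.qExpand_injective (K := ℂ) (ℓ := ℓ)
  rw [← h1, pexp_heckeProd2 K ℓ hA₁ hA₂, map_mul, qExpand_C, twNorm, uSeries, map_mul,
    H44.qExpand_descend (H44.isSupp_twistProd (isPrimitiveRoot_zetaUnit ℓ) _),
    H44.twistProd_eq_prod_range (isPrimitiveRoot_zetaUnit ℓ), mul_comm (qExpand ℂ ℓ _)]

/-! ## 2. The action of `κ` -/

section Kappa

variable {M c n : ℕ} [NeZero M] {H : Subgroup (ZMod c)ˣ} {k : ℤ} {ℓ : ℕ}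

/-- `d_κ⁻¹ = ℓ` in `(ℤ/c)ˣ`. -/
theorem dUnit_kappa_inv (hc : c ∣ M) (hcop : Nat.Coprime ℓ M) (u : (ZMod c)ˣ)
    (hu : (u : ZMod c) = (ℓ : ZMod c)) :
    (dUnit hc (kappaSL M ℓ) (kappaSL_mem_Gamma0 hcop))⁻¹ = u := by
  rw [inv_eq_iff_eq_inv, eq_inv_iff_mul_eq_one]
  apply Units.ext
  rw [Units.val_mul, coe_dUnit, Units.val_one, kappaSL_11 hcop, hu]
  have h := bez_eq hcop
  have h2 := congrArg (fun z : ℤ => (z : ZMod c)) h
  simp only [Int.cast_sub, Int.cast_mul, Int.cast_natCast, Int.cast_one] at h2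
  have hM0 : ((M : ℕ) : ZMod c) = 0 := (ZMod.natCast_eq_zero_iff M c).mpr hc
  rw [hM0, mul_zero, sub_zero] at h2
  rw [mul_comm]
  exact h2

/-- Any diamond datum is `H84.rhoHom`. -/
theorem rho_eq_rhoHom (ι : Kbar →+* ℂ) (hc2 : 2 ≤ c) (hc : c ∣ M) (dd : DiamondData M c H)
    (d : (ZMod c)ˣ) (x : ↥(FHbar M c H)) : dd.ρ d x = rhoHom H ι hc2 hc d x := by
  have key := algHom_ext_FHbar H ((dd.ρ d : ↥(FHbar M c H) ≃ₐ[Kbar] ↥(FHbar M c H)) :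
    ↥(FHbar M c H) →ₐ[Kbar] ↥(FHbar M c H)) (rhoHom H ι hc2 hc d) ?_ ?_
  · exact congrArg (fun f : ↥(FHbar M c H) →ₐ[Kbar] ↥(FHbar M c H) => f x) key
  · intro y
    rw [rhoHom_incl]
    exact dd.fix d y
  · intro a
    rw [rhoHom_gen]
    exact dd.gen d a

/-- `ι f = (R / B)ⁿ ⟹ ι (⟨ℓ⟩ f) = ((R ∣ κ) / B)ⁿ`. -/
theorem qLaurent_pow_slash_kappa (hc2 : 2 ≤ c) (hc : c ∣ M) (ι : Kbar →+* ℂ)
    (hcop : Nat.Coprime ℓ M) (dd : DiamondData M c H) (u : (ZMod c)ˣ)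
    (hu : (u : ZMod c) = (ℓ : ZMod c)) (f : ↥(FHbar M c H))
    {φ : Additive (Gam1 M c) →+ ZMod n} {R : ℍ → ℂ} (hR : IsTw1 M c n k φ R)
    {B : ModularForm (Gamma0 M) k} (hB : B ≠ 0) (hn : n ≠ 0)
    (hq : qLaurent (fun z => R z ^ n)
      = coeffMap ι (f : LaurentSeries Kbar) * qLaurent (fun z => B z ^ n)) :
    qLaurent (fun z => (R ∣[k] kappaSL M ℓ) z ^ n)
      = coeffMap ι ((dd.ρ u f : ↥(FHbar M c H)) : LaurentSeries Kbar)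
        * qLaurent (fun z => B z ^ n) := by
  have hκ : kappaSL M ℓ ∈ Gamma0 M := kappaSL_mem_Gamma0 hcop
  have hA : IsW M ((n : ℤ) * k) (fun z => R z ^ n) := hR.isW_pow hc
  have hBn : IsW M ((n : ℤ) * k) (fun z => B z ^ n) :=
    (isTw1_of_modularForm (c := c) (n := n) B).isW_pow hc
  have hBκ : (fun z => B z ^ n) ∣[(n : ℤ) * k] kappaSL M ℓ = fun z => B z ^ n := by
    rw [Fermat.Agent.GTor.H56.slash_pow_SL, slash_modularForm B hκ]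
  have hAκ : (fun z => R z ^ n) ∣[(n : ℤ) * k] kappaSL M ℓ
      = fun z => (R ∣[k] kappaSL M ℓ) z ^ n :=
    Fermat.Agent.GTor.H56.slash_pow_SL k n _ R
  have hBn0 : (fun z => B z ^ n) ≠ 0 := by
    intro h0
    have h1 := qLaurent_modularForm_pow_ne_zero (M := M) hB hn
    rw [h0] at h1
    exact h1 Fermat.Agent.GTor.H56.qLaurent_zero
  have nB : qLaurent (fun z => B z ^ n) ≠ 0 := qLaurent_modularForm_pow_ne_zero hB hn
  -- the relation given by `R ^ n`, `B ^ n`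
  have hrel : Rel M (kappaSL M ℓ) (coeffMap ι (f : LaurentSeries Kbar))
      (qLaurent (fun z => (R ∣[k] kappaSL M ℓ) z ^ n) * (qLaurent (fun z => B z ^ n))⁻¹) := by
    refine ⟨(n : ℤ) * k, fun z => R z ^ n, fun z => B z ^ n, hA, hBn, hBn0, hq, ?_⟩
    rw [hAκ, hBκ, mul_assoc, inv_mul_cancel₀ nB, mul_one]
  have hrel' := actHom_rel H ι hc2 hc ⟨kappaSL M ℓ, hκ⟩ f
  have hy := rel_unique hκ hrel hrel'
  have hact : actHom H ι hc2 hc ⟨kappaSL M ℓ, hκ⟩ f = dd.ρ u f := by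
    rw [actHom_eq_rho, rho_eq_rhoHom ι hc2 hc dd u f]
    congr 2
    exact dUnit_kappa_inv hc hcop u hu
  rw [← hact, ← hy, mul_assoc, inv_mul_cancel₀ nB, mul_one]

end Kappa

/-! ## 3. The `q`-expansion of `(heckeProdD R)ⁿ` -/

section Main

variable {M c n : ℕ} [NeZero M] {H : Subgroup (ZMod c)ˣ} {k : ℤ} {ℓ : ℕ}

theorem coeffMap_twNorm (ι : Kbar →+* ℂ) (ℓ : ℕ) [NeZero ℓ] (y s : LaurentSeries Kbar) :
    coeffMap ι (twNorm ℓ y s) = twNorm ℓ (coeffMap ι y) (coeffMap ι s) := by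
  obtain ⟨ζ, hζ⟩ := Fermat.Agent.GTor.H2.exists_primitiveRoot_Qbar ℓ
  unfold Fermat.Agent.NEB.H70.twNorm Fermat.Agent.NEB.H70.uSeries
  rw [map_mul, ModularCurve.coeffMap_qExpand, H44.coeffMap_descend, H44.coeffMap_twistProd ι hζ]

/-- The `q`-expansion of `(heckeProdD R)ⁿ` in terms of those of `Rⁿ` and `(R ∣ κ)ⁿ`. -/
theorem qLaurent_heckeProdD_pow (hc : c ∣ M) (hℓ : ℓ.Prime) (hℓM : ¬ ℓ ∣ M)
    {φ : Additive (Gam1 M c) →+ ZMod n} {R : ℍ → ℂ} (hR : IsTw1 M c n k φ R) :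
    haveI : NeZero ℓ := ⟨hℓ.ne_zero⟩
    HahnSeries.C (((ℓ : ℂ) ^ ((n : ℤ) - 1)) ^ (ℓ + 1))
        * qLaurent (fun z => heckeProdD k M ℓ R z ^ n)
      = HahnSeries.C (heckeConst ((n : ℤ) * k) ℓ) *
        twNorm ℓ (qLaurent (fun z => R z ^ n))
          (qLaurent (fun z => (R ∣[k] kappaSL M ℓ) z ^ n)) := by
  haveI : NeZero ℓ := ⟨hℓ.ne_zero⟩
  have hcop : Nat.Coprime ℓ M := coprime_of_prime_not_dvd hℓ hℓM
  have hκ : kappaSL M ℓ ∈ Gamma0 M := kappaSL_mem_Gamma0 hcop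
  have nR : Nice 1 (fun z => R z ^ n) := hR.nice_pow hc
  have hAκ : (fun z => R z ^ n) ∣[(n : ℤ) * k] kappaSL M ℓ
      = fun z => (R ∣[k] kappaSL M ℓ) z ^ n :=
    Fermat.Agent.GTor.H56.slash_pow_SL k n _ R
  have nRκ : Nice 1 (fun z => (R ∣[k] kappaSL M ℓ) z ^ n) := by
    rw [← hAκ]
    exact ((hR.isW_pow hc).slash_Gamma0 hκ).nice
  have nPR : Nice 1 (fun z => heckeProdD k M ℓ R z ^ n) :=
    (isTw1_heckeProdD hc hℓ hℓM hR).nice_pow hc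
  have e1 : heckeProd2 ((n : ℤ) * k) ℓ (fun z => (R ∣[k] kappaSL M ℓ) z ^ n) (fun z => R z ^ n)
      = (((ℓ : ℂ) ^ ((n : ℤ) - 1)) ^ (ℓ + 1)) • fun z => heckeProdD k M ℓ R z ^ n := by
    rw [← heckeProdD_pow, heckeProdD_eq, hAκ]
  have hP : Nice 1 (heckeProd2 ((n : ℤ) * k) ℓ (fun z => (R ∣[k] kappaSL M ℓ) z ^ n)
      (fun z => R z ^ n)) := by
    rw [e1]
    exact nPR.smul _
  rw [← H44.qLaurent_smul _ nPR, ← e1]
  exact qLaurent_heckeProd2 _ ℓ nRκ nR hP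

/-- **HK1 (b)**: the ratio of the `q`-expansions of `(heckeProdD R)ⁿ` and `(heckeProdD B)ⁿ` is
`ι (THfn f)`. -/
theorem qLaurent_heckeProdD (hc2 : 2 ≤ c) (hc : c ∣ M) (ι : Kbar →+* ℂ) (hℓ : ℓ.Prime)
    (hℓM : ¬ ℓ ∣ M) (hn : n ≠ 0)
    (hβ : haveI : NeZero ℓ := ⟨hℓ.ne_zero⟩; BetaOK M c ℓ H) (f : ↥(FHbar M c H))
    {φ : Additive (Gam1 M c) →+ ZMod n} {R : ℍ → ℂ} (hR : IsTw1 M c n k φ R)
    {B : ModularForm (Gamma0 M) k} (hB : B ≠ 0)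
    (hq : qLaurent (fun z => R z ^ n)
      = coeffMap ι (f : LaurentSeries Kbar) * qLaurent (fun z => B z ^ n)) :
    haveI : NeZero ℓ := ⟨hℓ.ne_zero⟩
    qLaurent (fun z => heckeProdD k M ℓ R z ^ n)
      = coeffMap ι ((THfn hβ f : ↥(FHbar M c H)) : LaurentSeries Kbar)
        * qLaurent (fun z => heckeProdD k M ℓ (B : ℍ → ℂ) z ^ n) := by
  haveI : NeZero ℓ := ⟨hℓ.ne_zero⟩
  have hcop : Nat.Coprime ℓ M := coprime_of_prime_not_dvd hℓ hℓM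
  have hκ : kappaSL M ℓ ∈ Gamma0 M := kappaSL_mem_Gamma0 hcop
  have hcopc : Nat.Coprime ℓ c := Nat.Coprime.coprime_dvd_right hc hcop
  set u : (ZMod c)ˣ := ZMod.unitOfCoprime ℓ hcopc with hudef
  have hu : (u : ZMod c) = (ℓ : ZMod c) := ZMod.coe_unitOfCoprime ℓ hcopc
  set hd : HeckeData M c ℓ H := heckeData M c ℓ H hc2 hc with hddef
  have hTH : ((THfn hβ f : ↥(FHbar M c H)) : LaurentSeries Kbar)
      = twNorm ℓ (f : LaurentSeries Kbar)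
        ((hd.dd.ρ u f : ↥(FHbar M c H)) : LaurentSeries Kbar) :=
    Fermat.Agent.NEB.H70.coe_THfn hd hc2 hc hℓ hℓM u hu f
  have hκq := qLaurent_pow_slash_kappa hc2 hc ι hcop hd.dd u hu f hR hB hn hq
  have hBt : IsTw1 M c n k 0 (B : ℍ → ℂ) := isTw1_of_modularForm B
  have eR := qLaurent_heckeProdD_pow hc hℓ hℓM hR
  have eB := qLaurent_heckeProdD_pow hc hℓ hℓM hBt
  rw [slash_modularForm B hκ] at eB
  have hc2' : (((ℓ : ℂ) ^ ((n : ℤ) - 1)) ^ (ℓ + 1)) ≠ 0 :=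
    Fermat.Agent.GTor.H76.heckeProd_pow_const_ne_zero hℓ.ne_zero n
  have hC : (HahnSeries.C (((ℓ : ℂ) ^ ((n : ℤ) - 1)) ^ (ℓ + 1)) : LaurentSeries ℂ) ≠ 0 := by
    intro h0
    apply hc2'
    have := congrArg (fun s : LaurentSeries ℂ => s.coeff 0) h0
    simpa using this
  apply mul_left_cancel₀ hC
  rw [eR, hq, hκq, Fermat.Agent.NEB.H70.twNorm_mul (isPrimitiveRoot_zetaUnit ℓ), hTH,
    coeffMap_twNorm, mul_left_comm, ← eB]
  ring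

/-- **HK1**. -/
theorem stmt_HK1 (M c : ℕ) (H : Subgroup (ZMod c)ˣ) (n : ℕ) : Stmt_HK1 M c H n := by
  intro hc2 hc hM hn ι ℓ hℓ hℓM hβ f φ hf hch
  haveI : NeZero M := ⟨hM⟩
  haveI : NeZero ℓ := ⟨hℓ.ne_zero⟩
  obtain ⟨k, R, B, hR, hB, hq⟩ := hasChar1_iff.mp hch
  exact hasChar1_heckeProdD hc hℓ hℓM hR hB (THfn hβ f)
    (qLaurent_heckeProdD hc2 hc ι hℓ hℓM hn hβ f hR hB hq)

end Main

end Fermat.Agent.NEB.EIG.H94
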