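import Fermat.Agent.NEB.EIG.H98_MonoAsm
import Fermat.Agent.NEB.EIG.H46_Inj1
import Fermat.Agent.NEB.EIG.H94_HK1

/-!
# NEB / EIG, leaf EIG-MONO: the final statement (helper98)

`stmt_MonoH : 2 ≤ c → c ∣ M → M ≠ 0 → p ≠ 0 → Stmt_MonoH M c H p ι`, unconditional: the
monodromy map `J_H[p ^ k] → Hom(Γ₁(M; c), ℤ/p ^ k)` with its kernel, parabolic, Hecke, diamond and
compatibility clauses.  Leaves: A1-H, MONO1, assembly (helper98), A2-H, INJ1 (helper46),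
CHAR1, KCOMP1, HK1 part (a) (helper34), KUM1, DIAM1 (helper12), HK1 (helper94, helper70).
-/

set_option autoImplicit false

namespace Fermat.Agent.NEB.EIG.H98

open Fermat.Agent.NEB

theorem stmt_MonoH {M c : ℕ} {H : Subgroup (ZMod c)ˣ} (ι : Kbar →+* ℂ) (hc2 : 2 ≤ c) (hc : c ∣ M)
    (hM : M ≠ 0) {p : ℕ} (hp : p ≠ 0) : Stmt_MonoH M c H p ι :=
  stmt_MonoH_of ι hc2 hc hM hp (fun k => Fermat.Agent.NEB.EIG.H46.stmt_INJ1 M c H (p ^ k))
    (fun k => Fermat.Agent.NEB.EIG.H94.stmt_HK1 M c H (p ^ k))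

end Fermat.Agent.NEB.EIG.H98
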