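import Fermat.Agent.NEB.EIG.H39_FamDefs

/-!
# NEB / EIG, leaf TW-FAM (helper98): the Hecke family `repD M ℓ` for `Gam1 M c`

* `stmt_FAM_std`   : `repD M ℓ x = ε · heckeRep ℓ x`, `ε ∈ Γ₀(M)`;
* `stmt_FAM_trans` : `repD M ℓ x = diag(ℓ, 1) · δ`, `δ ∈ Gam1 M c`;
* `stmt_FAM_level` : `repD M ℓ x = ε · repD M' ℓ x`, `ε ∈ Gam1 M c`, for `M ∣ M'`;
* `stmt_FAM_hecke` : `repD M ℓ` is a Hecke family for `Gam1 M c`.
-/

set_option autoImplicit false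

namespace Fermat.Agent.NEB.EIG.H98

open CongruenceSubgroup Matrix.SpecialLinearGroup ModularForm
open scoped MatrixGroups
open P2MW.S_ModularForm_heckeT_slash_eq_self_of_mem_Gamma0.ModularForm.HeckeSlashInvariance
open Fermat.Agent.Betti Fermat.Agent.NEB.EIG.H39
open scoped OnePoint

theorem coprime_of_prime_not_dvd {M ℓ : ℕ} (hℓ : ℓ.Prime) (hℓM : ¬ ℓ ∣ M) : Nat.Coprime ℓ M :=
  (Nat.Prime.coprime_iff_not_dvd hℓ).mpr hℓM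

theorem kappaSL_00 {M ℓ : ℕ} (h : Nat.Coprime ℓ M) : kappaSL M ℓ 0 0 = ℓ := by
  rw [kappaSL_eq h]; rfl

theorem kappaSL_01 {M ℓ : ℕ} (h : Nat.Coprime ℓ M) : kappaSL M ℓ 0 1 = bezT M ℓ := by
  rw [kappaSL_eq h]; rfl

theorem kappaSL_10 {M ℓ : ℕ} (h : Nat.Coprime ℓ M) : kappaSL M ℓ 1 0 = M := by
  rw [kappaSL_eq h]; rfl

theorem kappaSL_11 {M ℓ : ℕ} (h : Nat.Coprime ℓ M) : kappaSL M ℓ 1 1 = bezS M ℓ := by
  rw [kappaSL_eq h]; rfl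

theorem kappaSL_mem_Gamma0 {M ℓ : ℕ} (h : Nat.Coprime ℓ M) : kappaSL M ℓ ∈ Gamma0 M :=
  mem_Gamma0_of_dvd (by rw [kappaSL_10 h])

/-- **TW-FAM (c)**. -/
theorem stmt_FAM_std : Stmt_FAM_std := by
  intro M ℓ hℓ hℓM x
  have hcop := coprime_of_prime_not_dvd hℓ hℓM
  induction x using OnePoint.rec with
  | infty => exact ⟨1, (Gamma0 M).one_mem, by simp [heckeRep]⟩
  | coe j => exact ⟨kappaSL M ℓ, kappaSL_mem_Gamma0 hcop, rfl⟩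

/-- The element `δ_j = [[1, j + t], [M, 1 + (j + t) M]]`. -/
noncomputable def deltaSL (M ℓ : ℕ) (j : ℤ) : SL(2, ℤ) :=
  mkSL 1 (j + bezT M ℓ) M (1 + (j + bezT M ℓ) * M) (by ring)

theorem deltaSL_mem (M c ℓ : ℕ) (hc : c ∣ M) (j : ℤ) : deltaSL M ℓ j ∈ Gam1 M c := by
  refine ⟨?_, ?_, ?_⟩
  · show (M : ℤ) ∣ (M : ℤ)
    exact dvd_rfl
  · show (c : ℤ) ∣ (M : ℤ)
    exact Int.natCast_dvd_natCast.mpr hc
  · show (c : ℤ) ∣ (1 : ℤ) - 1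
    simp

/-- **TW-FAM (d)**. -/
theorem stmt_FAM_trans : Stmt_FAM_trans := by
  intro M c ℓ hc hℓ hℓM x
  have hcop := coprime_of_prime_not_dvd hℓ hℓM
  have hℓ0 : ℓ ≠ 0 := hℓ.ne_zero
  induction x using OnePoint.rec with
  | infty => exact ⟨1, (Gam1 M c).one_mem, by simp⟩
  | coe j =>
    refine ⟨deltaSL M ℓ j.val, deltaSL_mem M c ℓ hc _, ?_⟩
    have hb : ((ℓ : ℤ) : ℝ) * ((bezS M ℓ : ℤ) : ℝ) - ((bezT M ℓ : ℤ) : ℝ) * ((M : ℤ) : ℝ) = 1 := by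
      exact_mod_cast bez_eq hcop
    push_cast at hb
    rw [repD_coe, kappaSL_eq hcop]
    apply Units.ext
    ext a b
    fin_cases a <;> fin_cases b <;>
      simp [deltaSL, hℓ0, Matrix.mul_apply, Fin.sum_univ_two] <;>
      first | ring1 | linear_combination hb

/-- **TW-FAM (b)**. -/
theorem stmt_FAM_level : Stmt_FAM_level := by
  intro M M' c ℓ hc hMM' hℓ hℓM' x
  have hℓM : ¬ ℓ ∣ M := fun h => hℓM' (h.trans hMM')
  have hcop := coprime_of_prime_not_dvd hℓ hℓM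
  have hcop' := coprime_of_prime_not_dvd hℓ hℓM'
  induction x using OnePoint.rec with
  | infty => exact ⟨1, (Gam1 M c).one_mem, by simp⟩
  | coe j =>
    refine ⟨kappaSL M ℓ * (kappaSL M' ℓ)⁻¹, ?_, ?_⟩
    · obtain ⟨m, hm⟩ := hMM'
      have hcM : (c : ℤ) ∣ (M : ℤ) := Int.natCast_dvd_natCast.mpr hc
      have h10 : (kappaSL M ℓ * (kappaSL M' ℓ)⁻¹) 1 0
          = (M : ℤ) * (bezS M' ℓ - bezS M ℓ * m) := by
        rw [sl_mul_10, sl_inv_00, sl_inv_10, kappaSL_10 hcop, kappaSL_11 hcop, kappaSL_10 hcop',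
          kappaSL_11 hcop', hm]
        push_cast
        ring
      have h00 : (kappaSL M ℓ * (kappaSL M' ℓ)⁻¹) 0 0 - 1
          = (M : ℤ) * (m * (bezT M' ℓ - bezT M ℓ)) := by
        rw [sl_mul_00, sl_inv_00, sl_inv_10, kappaSL_00 hcop, kappaSL_01 hcop, kappaSL_10 hcop',
          kappaSL_11 hcop']
        have := bez_eq hcop'
        rw [hm] at this ⊢
        push_cast at this ⊢
        linear_combination this
      refine ⟨?_, ?_, ?_⟩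
      · rw [h10]; exact Dvd.intro _ rfl
      · rw [h10]; exact Dvd.dvd.mul_right hcM _
      · rw [h00]; exact Dvd.dvd.mul_right hcM _
    · rw [repD_coe, repD_coe, map_mul, map_inv, mul_assoc, inv_mul_cancel_left]

/-- If `diag(ℓ, 1) · g = κ · diag(ℓ, 1)` then `κ` and `g` have the same upper-left entry. -/
theorem diag_comm_00 {ℓ : ℕ} (hℓ0 : ℓ ≠ 0) {g κ : SL(2, ℤ)}
    (h : heckeDiagMatrix ℓ * mapGL ℝ g = mapGL ℝ κ * heckeDiagMatrix ℓ) : κ 0 0 = g 0 0 := by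
  have h00 := congrArg (fun A : GL (Fin 2) ℝ => (A : Matrix (Fin 2) (Fin 2) ℝ) 0 0) h
  simp [hℓ0, Matrix.mul_apply, Fin.sum_univ_two] at h00
  have hℓ' : (ℓ : ℝ) ≠ 0 := by exact_mod_cast hℓ0
  have : ((κ 0 0 : ℤ) : ℝ) = ((g 0 0 : ℤ) : ℝ) := by
    apply mul_left_cancel₀ hℓ'
    first | linear_combination h00 | linear_combination -h00
  exact_mod_cast this

/-- **TW-FAM (a)**. -/
theorem stmt_FAM_hecke : Stmt_FAM_hecke := by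
  intro M c ℓ hc hℓ hℓM
  have : Fact ℓ.Prime := ⟨hℓ⟩
  have hℓ0 : ℓ ≠ 0 := hℓ.ne_zero
  have hT := isHeckeFamily_T M hℓM
  refine ⟨?_, ?_⟩
  · rintro ⟨γ, hγ⟩ x
    obtain ⟨εx, hεx, hx⟩ := stmt_FAM_std M ℓ hℓ hℓM x
    obtain ⟨y, g', hg'⟩ := hT.exists_mul ⟨γ, Gam1_le_Gamma0 M c hγ⟩ x
    obtain ⟨εy, hεy, hy⟩ := stmt_FAM_std M ℓ hℓ hℓM y
    obtain ⟨δx, hδx, hx'⟩ := stmt_FAM_trans M c ℓ hc hℓ hℓM x
    obtain ⟨δy, hδy, hy'⟩ := stmt_FAM_trans M c ℓ hc hℓ hℓM y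
    have hg'' : heckeRep ℓ x * mapGL ℝ γ = mapGL ℝ (g' : SL(2, ℤ)) * heckeRep ℓ y := hg'
    have hrepy : heckeRep ℓ y = mapGL ℝ εy⁻¹ * repD M ℓ y := by
      rw [hy, ← mul_assoc, ← map_mul, inv_mul_cancel, map_one, one_mul]
    -- the equation for `repD`
    have E : repD M ℓ x * mapGL ℝ γ = mapGL ℝ (εx * (g' : SL(2, ℤ)) * εy⁻¹) * repD M ℓ y := by
      rw [hx, mul_assoc, hg'', hrepy, map_mul, map_mul]
      simp only [mul_assoc]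
    -- the element lies in `Gam1 M c`
    have hΓ0 : εx * (g' : SL(2, ℤ)) * εy⁻¹ ∈ Gamma0 M :=
      (Gamma0 M).mul_mem ((Gamma0 M).mul_mem hεx g'.2) ((Gamma0 M).inv_mem hεy)
    have hM10 : (M : ℤ) ∣ (εx * (g' : SL(2, ℤ)) * εy⁻¹) 1 0 := dvd_of_mem_Gamma0 hΓ0
    have hcomm : heckeDiagMatrix ℓ * mapGL ℝ (δx * γ * δy⁻¹)
        = mapGL ℝ (εx * (g' : SL(2, ℤ)) * εy⁻¹) * heckeDiagMatrix ℓ := by
      have h1 : heckeDiagMatrix ℓ * mapGL ℝ δx * mapGL ℝ γ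
          = mapGL ℝ (εx * (g' : SL(2, ℤ)) * εy⁻¹) * (heckeDiagMatrix ℓ * mapGL ℝ δy) := by
        rw [← hx', ← hy']
        exact E
      calc heckeDiagMatrix ℓ * mapGL ℝ (δx * γ * δy⁻¹)
          = heckeDiagMatrix ℓ * mapGL ℝ δx * mapGL ℝ γ * (mapGL ℝ δy)⁻¹ := by
            rw [map_mul, map_mul, map_inv]
            simp only [mul_assoc]
        _ = mapGL ℝ (εx * (g' : SL(2, ℤ)) * εy⁻¹) * (heckeDiagMatrix ℓ * mapGL ℝ δy) * (mapGL ℝ δy)⁻¹ := by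
            rw [h1]
        _ = mapGL ℝ (εx * (g' : SL(2, ℤ)) * εy⁻¹) * heckeDiagMatrix ℓ := by
            rw [mul_assoc, mul_inv_cancel_right]
    have h00 := diag_comm_00 hℓ0 hcomm
    have hgmem : δx * γ * δy⁻¹ ∈ Gam1 M c :=
      (Gam1 M c).mul_mem ((Gam1 M c).mul_mem hδx hγ) ((Gam1 M c).inv_mem hδy)
    have hmem : εx * (g' : SL(2, ℤ)) * εy⁻¹ ∈ Gam1 M c := by
      refine ⟨hM10, (Int.natCast_dvd_natCast.mpr hc).trans hM10, ?_⟩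
      rw [h00]
      exact hgmem.2.2
    exact ⟨y, ⟨_, hmem⟩, E⟩
  · rintro x y ⟨ε, hε⟩ h
    obtain ⟨εx, hεx, hx⟩ := stmt_FAM_std M ℓ hℓ hℓM x
    obtain ⟨εy, hεy, hy⟩ := stmt_FAM_std M ℓ hℓ hℓM y
    have h' : repD M ℓ x = mapGL ℝ ε * repD M ℓ y := h
    have hmem : εx⁻¹ * ε * εy ∈ Gamma0 M :=
      (Gamma0 M).mul_mem ((Gamma0 M).mul_mem ((Gamma0 M).inv_mem hεx) (Gam1_le_Gamma0 M c hε)) hεy
    refine hT.inj x y ⟨_, hmem⟩ ?_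
    show heckeRep ℓ x = mapGL ℝ (εx⁻¹ * ε * εy) * heckeRep ℓ y
    have h2 : mapGL ℝ εx * heckeRep ℓ x = mapGL ℝ ε * (mapGL ℝ εy * heckeRep ℓ y) := by
      rw [← hx, ← hy]
      exact h'
    calc heckeRep ℓ x = (mapGL ℝ εx)⁻¹ * (mapGL ℝ εx * heckeRep ℓ x) := by
          rw [inv_mul_cancel_left]
      _ = (mapGL ℝ εx)⁻¹ * (mapGL ℝ ε * (mapGL ℝ εy * heckeRep ℓ y)) := by rw [h2]
      _ = mapGL ℝ (εx⁻¹ * ε * εy) * heckeRep ℓ y := by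
          rw [map_mul, map_mul, map_inv]
          simp only [mul_assoc]

end Fermat.Agent.NEB.EIG.H98
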