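import Fermat.Agent.NEB.H14_JHDefs
import Fermat.Agent.NEB.H84_W
import Fermat.Agent.NEB.EIG.H98_Fam

/-!
# NEB / EIG, leaf EIG-MONO (owner helper98): interface

`J_H[n] → Hom(Gam1 M c, ℤ/n)`, `x = [D]`, `n D = div f` `↦` the character of the `n`-th root of
`f` on the upper half plane (GTor pattern `TorChar`, `HasChar`), for the function field
`F_H = FHbar M c H` (over `ℚ̄`, embedded in `ℂ((q))` by `coeffMap ι`).  All characters are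
characters of `Gam1 M c = Γ₀(M) ∩ Γ₁(c)` (helper39's group).

* `HasChar1 M c H n ι f φ` : `ι f = (R / B)ⁿ`, `R` holomorphic on `ℍ` of weight `k`, bounded at
  the cusps, with `R ∣ γ = ζ^{φ γ} R` for `γ ∈ Gam1 M c`, and `B ≠ 0` a modular form of weight `k`
  on `Γ₀(M)`.
* `TorChar1 M c H n ι x φ` : `x = [D]`, `n D = div f`, `HasChar1 f φ`.
* leaves `Stmt_A1H`, `Stmt_A2H`, `Stmt_MONO1`, `Stmt_CHAR1`, `Stmt_INJ1`, `Stmt_HK1`,
  `Stmt_DIAM1`, `Stmt_KCOMP1`, `Stmt_KUM1`;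
* the goal `Stmt_MonoH` (what EIG-LIN / EIG-OP consume).

Everything here is a definition or a `Prop`; no proofs are missing in this file.
-/

set_option autoImplicit false

noncomputable section

namespace Fermat.Agent.NEB.EIG.H98

open AlgebraicCurve ModularCurve UpperHalfPlane CongruenceSubgroup Matrix.SpecialLinearGroup
open Fermat.Agent.NEB Fermat.Agent.NEB.JH Fermat.Agent.NEB.EIG.H39 Fermat.Agent.GTor
open Fermat.Agent.Betti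
open scoped MatrixGroups ModularForm Manifold

/-! ## 1. The character of a function -/

/-- `f ∈ F_H` (over `ℚ̄`) **has character** `φ` on `Gam1 M c`: the `q`-expansion of `f`, mapped
to `ℂ((q))` by `ι`, is `(R / B)ⁿ` with `R` holomorphic of weight `k`, bounded at all cusps, with
multiplier `ζ^φ` under `Gam1 M c`, and `B ≠ 0` a modular form of weight `k` on `Γ₀(M)`. -/
def HasChar1 (M c : ℕ) (H : Subgroup (ZMod c)ˣ) (n : ℕ) (ι : Kbar →+* ℂ) (f : ↥(FHbar M c H))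
    (φ : Additive (Gam1 M c) →+ ZMod n) : Prop :=
  ∃ (k : ℤ) (R : ℍ → ℂ) (B : ModularForm (Gamma0 M) k),
    MDifferentiable 𝓘(ℂ) 𝓘(ℂ) R ∧
    (∀ σ : SL(2, ℤ), IsBoundedAtImInfty (R ∣[k] σ)) ∧
    (∀ γ : Gam1 M c, R ∣[k] (γ : SL(2, ℤ)) = zetaPow n (φ (Additive.ofMul γ)) • R) ∧
    B ≠ 0 ∧
    qLaurent (fun z => R z ^ n)
      = coeffMap ι (f : LaurentSeries Kbar) * qLaurent (fun z => B z ^ n)

/-- `φ` is the character of the class `x ∈ J_H` (which is then killed by `n`). -/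
def TorChar1 (M c : ℕ) (H : Subgroup (ZMod c)ˣ) (n : ℕ) (ι : Kbar →+* ℂ) (x : JH M c H)
    (φ : Additive (Gam1 M c) →+ ZMod n) : Prop :=
  ∃ (D : Divisor.degZero (K := Kbar) (F := ↥(FHbar M c H))) (f : ↥(FHbar M c H)),
    f ≠ 0 ∧ x = Pic0.mk D ∧
    (∀ v : Place Kbar ↥(FHbar M c H),
      (n : ℤ) * (D : Divisor Kbar ↥(FHbar M c H)) v = v.ord f) ∧
    HasChar1 M c H n ι f φ

/-! ## 2. The operators on characters -/

/-- The Betti Hecke operator of the double coset of `diag(ℓ, 1)` on `Hom(Gam1 M c, A)`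
(family `repD`; helper39's `TD` without the linear structure). -/
def TDadd (M c : ℕ) (hc : c ∣ M) {ℓ : ℕ} (hℓ : ℓ.Prime) (hℓM : ¬ ℓ ∣ M) {A : Type*}
    [AddCommGroup A] (φ : Additive (Gam1 M c) →+ A) : Additive (Gam1 M c) →+ A :=
  haveI : Fact ℓ.Prime := ⟨hℓ⟩
  (stmt_FAM_hecke M c ℓ hc hℓ hℓM).heckeOp (inc_injective _) φ

/-- The diamond operator `φ ↦ φ ∘ conj_g`, `g ∈ Γ₀(M)`, on `Hom(Gam1 M c, A)`
(helper39's `Dop` without the linear structure). -/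
def Dadd {M c : ℕ} (hc : c ∣ M) (g : SL(2, ℤ)) (hg : (M : ℤ) ∣ g 1 0) {A : Type*}
    [AddCommGroup A] (φ : Additive (Gam1 M c) →+ A) : Additive (Gam1 M c) →+ A :=
  tw (inc_injective _) ⟨mapGL ℝ g, gam0_mem_Nrm hc hg⟩ φ

/-- Reduction `ℤ/p^(k+1) → ℤ/p^k` on characters. -/
def redChar (p k : ℕ) {Γ : Type*} [Group Γ] (φ : Additive Γ →+ ZMod (p ^ (k + 1))) :
    Additive Γ →+ ZMod (p ^ k) :=
  (ZMod.castHom (pow_dvd_pow p (Nat.le_succ k)) (ZMod (p ^ k))).toAddMonoidHom.comp φ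

/-! ## 3. The leaves -/

/-- **A1-H**: every element of `F_H` is `A / B` with `B ≠ 0` a modular form on `Γ₀(M)` and `A` a
form of the same weight on `Γ₁(M)` which is invariant under `Γ_H = {γ ∈ Γ₀(M) : a_γ ∈ ±H}`. -/
def Stmt_A1H (M c : ℕ) (H : Subgroup (ZMod c)ˣ) : Prop :=
  2 ≤ c → c ∣ M → M ≠ 0 → ∀ (ι : Kbar →+* ℂ) (f : ↥(FHbar M c H)),
    ∃ (k : ℤ) (A : ℍ → ℂ) (B : ModularForm (Gamma0 M) k),
      Fermat.Agent.NEB.H84.IsW M k A ∧ B ≠ 0 ∧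
      (∀ γ : SL(2, ℤ), γ ∈ Gamma0 M → ((γ 0 0 : ℤ) : ZMod c) ∈ cosetSet c H 1 →
        A ∣[k] γ = A) ∧
      qLaurent A = coeffMap ι (f : LaurentSeries Kbar) * qLaurent (B : ℍ → ℂ)

/-- **A2-H**: a ratio of two forms of the same weight on `Γ₁(M)` which is invariant under `Γ_H`
lies in `F_H · ℂ`. -/
def Stmt_A2H (M c : ℕ) (H : Subgroup (ZMod c)ˣ) : Prop :=
  2 ≤ c → c ∣ M → M ≠ 0 → ∀ (k : ℤ) (A B : ℍ → ℂ),
    Fermat.Agent.NEB.H84.IsW M k A → Fermat.Agent.NEB.H84.IsW M k B → B ≠ 0 →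
    (∀ γ : SL(2, ℤ), γ ∈ Gamma0 M → ((γ 0 0 : ℤ) : ZMod c) ∈ cosetSet c H 1 →
      (A ∣[k] γ) * B = A * (B ∣[k] γ)) →
    ∃ x ∈ laurentBaseChange ℂ (FHQ M c H), qLaurent A = x * qLaurent B

/-- **MONO1**: an unramified function has a character, trivial on the parabolic and on the
elliptic elements of `Gam1 M c`. -/
def Stmt_MONO1 (M c : ℕ) (H : Subgroup (ZMod c)ˣ) (n : ℕ) : Prop :=
  2 ≤ c → c ∣ M → M ≠ 0 → n ≠ 0 → ∀ (ι : Kbar →+* ℂ) (f : ↥(FHbar M c H)), f ≠ 0 →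
    (∀ v : Place Kbar ↥(FHbar M c H), (n : ℤ) ∣ v.ord f) →
    ∃ φ ∈ homPE (Gam1 M c) (ZMod n), HasChar1 M c H n ι f φ

/-- **CHAR1**: the character is unique, additive in `f`, and trivial on `n`-th powers. -/
def Stmt_CHAR1 (M c : ℕ) (H : Subgroup (ZMod c)ˣ) (n : ℕ) : Prop :=
  2 ≤ c → c ∣ M → M ≠ 0 → n ≠ 0 → ∀ ι : Kbar →+* ℂ,
  (∀ (f : ↥(FHbar M c H)) (φ ψ : Additive (Gam1 M c) →+ ZMod n), f ≠ 0 →
      HasChar1 M c H n ι f φ → HasChar1 M c H n ι f ψ → φ = ψ) ∧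
  (∀ (f g : ↥(FHbar M c H)) (φ ψ : Additive (Gam1 M c) →+ ZMod n), f ≠ 0 → g ≠ 0 →
      HasChar1 M c H n ι f φ → HasChar1 M c H n ι g ψ → HasChar1 M c H n ι (f * g) (φ + ψ)) ∧
  (∀ h : ↥(FHbar M c H), h ≠ 0 → HasChar1 M c H n ι (h ^ n) 0)

/-- **INJ1**: if the character of `f` is trivial on `Gam1 M c`, then `f ^ |H|` is an `n`-th power
in `F_H` (the character of the root on `Γ_H` factors through `Γ_H / ± Gam1`, a quotient of `H`). -/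
def Stmt_INJ1 (M c : ℕ) (H : Subgroup (ZMod c)ˣ) (n : ℕ) : Prop :=
  2 ≤ c → c ∣ M → M ≠ 0 → n ≠ 0 → ∀ (ι : Kbar →+* ℂ) (f : ↥(FHbar M c H)), f ≠ 0 →
    HasChar1 M c H n ι f 0 → ∃ h : ↥(FHbar M c H), f ^ Nat.card H = h ^ n

/-- **HK1**: the Kummer function `Norm_α (β f)` of `T_ℓ^H x` has character `T_ℓ^D φ`. -/
def Stmt_HK1 (M c : ℕ) (H : Subgroup (ZMod c)ˣ) (n : ℕ) : Prop :=
  2 ≤ c → ∀ (hc : c ∣ M), M ≠ 0 → n ≠ 0 → ∀ (ι : Kbar →+* ℂ) (ℓ : ℕ) (hℓ : ℓ.Prime)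
    (hℓM : ¬ ℓ ∣ M),
    haveI : NeZero ℓ := ⟨hℓ.ne_zero⟩
    ∀ (hβ : BetaOK M c ℓ H) (f : ↥(FHbar M c H)) (φ : Additive (Gam1 M c) →+ ZMod n), f ≠ 0 →
      HasChar1 M c H n ι f φ → HasChar1 M c H n ι (THfn hβ f) (TDadd M c hc hℓ hℓM φ)

/-- **DIAM1**: the function `⟨d⟩ f` has character `φ ∘ conj_g`, `g ∈ Γ₀(M)`, `a_g ≡ d mod c`. -/
def Stmt_DIAM1 (M c : ℕ) (H : Subgroup (ZMod c)ˣ) (n : ℕ) : Prop :=
  2 ≤ c → ∀ (hc : c ∣ M), M ≠ 0 → n ≠ 0 → ∀ (ι : Kbar →+* ℂ) (dd : DiamondData M c H)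
    (d : (ZMod c)ˣ) (g : SL(2, ℤ)) (hg : (M : ℤ) ∣ g 1 0), ((g 0 0 : ℤ) : ZMod c) = (d : ZMod c) →
    ∀ (f : ↥(FHbar M c H)) (φ : Additive (Gam1 M c) →+ ZMod n), f ≠ 0 →
      HasChar1 M c H n ι f φ → HasChar1 M c H n ι (dd.ρ d f) (Dadd hc g hg φ)

/-- **KCOMP1**: compatibility in `k`: the same function, `R ↦ R^p`. -/
def Stmt_KCOMP1 (M c : ℕ) (H : Subgroup (ZMod c)ˣ) (p : ℕ) : Prop :=
  p ≠ 0 → ∀ (ι : Kbar →+* ℂ) (k : ℕ) (f : ↥(FHbar M c H))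
    (φ : Additive (Gam1 M c) →+ ZMod (p ^ (k + 1))), f ≠ 0 →
      HasChar1 M c H (p ^ (k + 1)) ι f φ → HasChar1 M c H (p ^ k) ι f (redChar p k φ)

/-- **KUM1**: every `n`-torsion class is `[D]` with `n D = div f`; and `[D] = 0` if
`m D = div h` for some `m ≠ 0`, `h ≠ 0` ... in the form used by the assembly:
a class `[D]` with `n D = div f` and `f ^ m = h ^ n` is killed by `m`. -/
def Stmt_KUM1 (M c : ℕ) (H : Subgroup (ZMod c)ˣ) (n : ℕ) : Prop :=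
  2 ≤ c → c ∣ M → M ≠ 0 → n ≠ 0 →
  (∀ x : JH M c H, (n : ℤ) • x = 0 →
    ∃ (D : Divisor.degZero (K := Kbar) (F := ↥(FHbar M c H))) (f : ↥(FHbar M c H)),
      f ≠ 0 ∧ x = Pic0.mk D ∧
      ∀ v : Place Kbar ↥(FHbar M c H),
        (n : ℤ) * (D : Divisor Kbar ↥(FHbar M c H)) v = v.ord f) ∧
  (∀ (D : Divisor.degZero (K := Kbar) (F := ↥(FHbar M c H))) (f h : ↥(FHbar M c H)) (m : ℕ),
      f ≠ 0 →
      (∀ v : Place Kbar ↥(FHbar M c H),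
        (n : ℤ) * (D : Divisor Kbar ↥(FHbar M c H)) v = v.ord f) →
      f ^ m = h ^ n → (m : ℤ) • (Pic0.mk D : JH M c H) = 0)

/-! ## 4. The goal -/

/-- **EIG-MONO** (the interface consumed by EIG-LIN / EIG-OP): for every `k` a homomorphism
`mono k : J_H[p^k] → Hom(Gam1 M c, ℤ/p^k)`, characterised by `TorChar1`, with

* kernel killed by `|H|` (so: injective if `p ∤ |H|`, and injective in the limit over `k`),
* values trivial on parabolic and elliptic elements,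
* `mono (T_ℓ^H x) = T_ℓ^D (mono x)`, `mono (⟨d⟩ x) = (mono x) ∘ conj_g`,
* `mono_k (p x) = (mono_{k+1} x) mod p^k`. -/
def Stmt_MonoH (M c : ℕ) (H : Subgroup (ZMod c)ˣ) (p : ℕ) (ι : Kbar →+* ℂ) : Prop :=
  ∃ mono : ∀ k : ℕ, Pic0.torsion Kbar ↥(FHbar M c H) (p ^ k) →+
      (Additive (Gam1 M c) →+ ZMod (p ^ k)),
    (∀ (k : ℕ) (x : Pic0.torsion Kbar ↥(FHbar M c H) (p ^ k)),
      TorChar1 M c H (p ^ k) ι (x : JH M c H) (mono k x)) ∧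
    (∀ (k : ℕ) (x : Pic0.torsion Kbar ↥(FHbar M c H) (p ^ k)),
      mono k x = 0 → Nat.card H • (x : JH M c H) = 0) ∧
    (∀ (k : ℕ) (x : Pic0.torsion Kbar ↥(FHbar M c H) (p ^ k)),
      mono k x ∈ homPE (Gam1 M c) (ZMod (p ^ k))) ∧
    (∀ (hc : c ∣ M) (ℓ : ℕ) (hℓ : ℓ.Prime) (hℓM : ¬ ℓ ∣ M),
      haveI : NeZero ℓ := ⟨hℓ.ne_zero⟩
      ∀ (hβ : BetaOK M c ℓ H) (k : ℕ) (x y : Pic0.torsion Kbar ↥(FHbar M c H) (p ^ k)),
        (y : JH M c H) = TH hβ (x : JH M c H) →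
          mono k y = TDadd M c hc hℓ hℓM (mono k x)) ∧
    (∀ (hc : c ∣ M) (dd : DiamondData M c H) (d : (ZMod c)ˣ) (g : SL(2, ℤ))
      (hg : (M : ℤ) ∣ g 1 0), ((g 0 0 : ℤ) : ZMod c) = (d : ZMod c) →
      ∀ (k : ℕ) (x y : Pic0.torsion Kbar ↥(FHbar M c H) (p ^ k)),
        (y : JH M c H) = diamond dd d (x : JH M c H) →
          mono k y = Dadd hc g hg (mono k x)) ∧
    (∀ (k : ℕ) (x : Pic0.torsion Kbar ↥(FHbar M c H) (p ^ (k + 1)))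
      (y : Pic0.torsion Kbar ↥(FHbar M c H) (p ^ k)),
        (y : JH M c H) = p • (x : JH M c H) →
          mono k y = redChar p k (mono (k + 1) x))

end Fermat.Agent.NEB.EIG.H98
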