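import Mathlib

/-!
# NEB / EIG (helper39): decomposition of a Dirichlet character mod a squarefree `c` (leaf CHAR-DEC)

`qs` a list of distinct primes, `c = ∏ qs`, `ψ : MulChar (ZMod c) L`.  Then there are characters
`χ q : MulChar (ZMod q) L` with `ψ(a) = ∏_q χ_q(a)` for all integers `a` prime to `c`, and every value of
`χ_q` on a unit is a value of `ψ` on a unit.
-/

set_option autoImplicit false

namespace Fermat.Agent.NEB.EIG.H39

section CharDec

variable {L : Type*} [Field L]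

/-- The two components of a character mod `m n`, `m` and `n` coprime. -/
noncomputable def charFst {m n : ℕ} (h : m.Coprime n) (ψ : MulChar (ZMod (m * n)) L) :
    MulChar (ZMod m) L :=
  MulChar.ofUnitHom ((MulChar.toUnitHom ψ).comp
    (Units.map ((ZMod.chineseRemainder h).symm.toMonoidHom.comp
      (MonoidHom.inl (ZMod m) (ZMod n)))))

noncomputable def charSnd {m n : ℕ} (h : m.Coprime n) (ψ : MulChar (ZMod (m * n)) L) :
    MulChar (ZMod n) L :=
  MulChar.ofUnitHom ((MulChar.toUnitHom ψ).comp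
    (Units.map ((ZMod.chineseRemainder h).symm.toMonoidHom.comp
      (MonoidHom.inr (ZMod m) (ZMod n)))))

theorem charFst_coe {m n : ℕ} (h : m.Coprime n) (ψ : MulChar (ZMod (m * n)) L) (u : (ZMod m)ˣ) :
    charFst h ψ (u : ZMod m) = ψ ((ZMod.chineseRemainder h).symm ((u : ZMod m), 1)) := by
  unfold charFst
  rw [MulChar.ofUnitHom_coe]
  simp only [MonoidHom.comp_apply, MulChar.coe_toUnitHom]
  rfl

theorem charSnd_coe {m n : ℕ} (h : m.Coprime n) (ψ : MulChar (ZMod (m * n)) L) (u : (ZMod n)ˣ) :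
    charSnd h ψ (u : ZMod n) = ψ ((ZMod.chineseRemainder h).symm (1, (u : ZMod n))) := by
  unfold charSnd
  rw [MulChar.ofUnitHom_coe]
  simp only [MonoidHom.comp_apply, MulChar.coe_toUnitHom]
  rfl

theorem isUnit_intCast_of_mul {m n : ℕ} {a : ℤ} (ha : IsUnit ((a : ℤ) : ZMod (m * n))) :
    IsUnit ((a : ℤ) : ZMod m) ∧ IsUnit ((a : ℤ) : ZMod n) := by
  have h1 := ha.map (ZMod.castHom (dvd_mul_right m n) (ZMod m))
  have h2 := ha.map (ZMod.castHom (dvd_mul_left n m) (ZMod n))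
  simp only [map_intCast] at h1 h2
  exact ⟨h1, h2⟩

/-- `ψ(a) = ψ₁(a) ψ₂(a)`. -/
theorem char_mul_eq {m n : ℕ} (h : m.Coprime n) (ψ : MulChar (ZMod (m * n)) L) (a : ℤ)
    (ha : IsUnit ((a : ℤ) : ZMod (m * n))) :
    ψ ((a : ℤ) : ZMod (m * n))
      = charFst h ψ ((a : ℤ) : ZMod m) * charSnd h ψ ((a : ℤ) : ZMod n) := by
  obtain ⟨⟨u₁, hu₁⟩, ⟨u₂, hu₂⟩⟩ := isUnit_intCast_of_mul ha
  rw [← hu₁, ← hu₂, charFst_coe, charSnd_coe, ← map_mul, ← map_mul]
  congr 1
  apply (ZMod.chineseRemainder h).injective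
  rw [RingEquiv.apply_symm_apply, map_intCast]
  ext
  · simp [hu₁]
  · simp [hu₂]

/-- **CHAR-DEC**. -/
theorem char_dec : ∀ (qs : List ℕ), qs.Nodup → (∀ q ∈ qs, q.Prime) →
    ∀ (c : ℕ), c = qs.prod → ∀ ψ : MulChar (ZMod c) L,
      ∃ χ : (q : ℕ) → MulChar (ZMod q) L,
        (∀ a : ℤ, IsUnit ((a : ℤ) : ZMod c) →
          ψ ((a : ℤ) : ZMod c) = (qs.map fun q => χ q ((a : ℤ) : ZMod q)).prod) ∧
        (∀ q ∈ qs, ∀ x : (ZMod q)ˣ, ∃ y : (ZMod c)ˣ, χ q (x : ZMod q) = ψ (y : ZMod c)) := by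
  intro qs
  induction qs with
  | nil =>
    intro _ _ c hc ψ
    simp only [List.prod_nil] at hc
    subst hc
    refine ⟨fun _ => 1, fun a _ => ?_, fun q hq => absurd hq List.not_mem_nil⟩
    have : ((a : ℤ) : ZMod 1) = 1 := Subsingleton.elim _ _
    rw [this, map_one]
    rfl
  | cons q qs' ih =>
    intro hnd hpr c hc ψ
    have hq : q.Prime := hpr q List.mem_cons_self
    have hnd' : qs'.Nodup := (List.nodup_cons.mp hnd).2
    have hq_notin : q ∉ qs' := (List.nodup_cons.mp hnd).1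
    have hpr' : ∀ q' ∈ qs', q'.Prime := fun q' h => hpr q' (List.mem_cons_of_mem _ h)
    obtain ⟨c₁, hc₁def⟩ : ∃ c₁ : ℕ, c₁ = qs'.prod := ⟨_, rfl⟩
    rw [List.prod_cons, ← hc₁def] at hc
    subst hc
    have hq_c₁ : ¬ q ∣ c₁ := by
      intro h
      rw [hc₁def] at h
      obtain ⟨a, ha, hqa⟩ := (Prime.dvd_prod_iff (Nat.Prime.prime hq)).mp h
      have : q = a := (Nat.prime_dvd_prime_iff_eq hq (hpr' a ha)).mp hqa
      exact hq_notin (this ▸ ha)
    have hcop : q.Coprime c₁ := (Nat.Prime.coprime_iff_not_dvd hq).mpr hq_c₁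
    obtain ⟨χ', h1, h2⟩ := ih hnd' hpr' c₁ hc₁def (charSnd hcop ψ)
    classical
    refine ⟨Function.update χ' q (charFst hcop ψ), fun a ha => ?_, fun q' hq' x => ?_⟩
    · rw [List.map_cons, List.prod_cons, Function.update_self, char_mul_eq hcop ψ a ha,
        h1 a (isUnit_intCast_of_mul ha).2]
      congr 2
      refine List.map_congr_left fun q' hq' => ?_
      have hne : q' ≠ q := fun e => hq_notin (e ▸ hq')
      rw [Function.update_of_ne hne]
    · rcases List.mem_cons.mp hq' with rfl | hq''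
      · rw [Function.update_self, charFst_coe]
        have hu : IsUnit ((ZMod.chineseRemainder hcop).symm ((x : ZMod q'), (1 : ZMod c₁))) := by
          apply IsUnit.map
          exact (Prod.isUnit_iff).mpr ⟨x.isUnit, isUnit_one⟩
        exact ⟨hu.unit, rfl⟩
      · have hne : q' ≠ q := fun e => hq_notin (e ▸ hq'')
        have hupd : Function.update χ' q (charFst hcop ψ) q' = χ' q' :=
          Function.update_of_ne hne _ _
        rw [hupd]
        obtain ⟨y, hy⟩ := h2 q' hq'' x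
        rw [hy, charSnd_coe]
        have hu : IsUnit ((ZMod.chineseRemainder hcop).symm ((1 : ZMod q), (y : ZMod c₁))) := by
          apply IsUnit.map
          exact (Prod.isUnit_iff).mpr ⟨isUnit_one, y.isUnit⟩
        exact ⟨hu.unit, rfl⟩

end CharDec

end Fermat.Agent.NEB.EIG.H39
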