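import Mathlib

/-!
# NEB / EIG (helper39): decomposition under the diamond operators (leaf SPLIT)

`dia : (ZMod c)ˣ →* End_L V`, `L` a field of characteristic zero with enough roots of unity.
`eigSp dia ψ = {v | dia d v = ψ(d) v for all d}`.  Then `⨆ ψ, eigSp dia ψ = ⊤` (orthogonality of
Dirichlet characters).
-/

set_option autoImplicit false

namespace Fermat.Agent.NEB.EIG.H39

open Finset

section Split

variable {c : ℕ} {L : Type*} [Field L] {V : Type*} [AddCommGroup V] [Module L V]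

/-- The `ψ`-eigenspace of the diamond operators. -/
def eigSp (dia : (ZMod c)ˣ →* Module.End L V) (ψ : MulChar (ZMod c) L) : Submodule L V where
  carrier := {v | ∀ d : (ZMod c)ˣ, dia d v = ψ (d : ZMod c) • v}
  add_mem' := by
    intro v w hv hw d
    rw [map_add, hv d, hw d, smul_add]
  zero_mem' := by
    intro d
    rw [map_zero, smul_zero]
  smul_mem' := by
    intro a v hv d
    rw [map_smul, hv d, smul_comm]

theorem mem_eigSp {dia : (ZMod c)ˣ →* Module.End L V} {ψ : MulChar (ZMod c) L} {v : V} :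
    v ∈ eigSp dia ψ ↔ ∀ d : (ZMod c)ˣ, dia d v = ψ (d : ZMod c) • v := Iff.rfl

variable [NeZero c] [CharZero L] [HasEnoughRootsOfUnity L (Monoid.exponent (ZMod c)ˣ)]

/-- The component of `v` in the `ψ`-eigenspace. -/
noncomputable def eigComp (dia : (ZMod c)ˣ →* Module.End L V) (ψ : MulChar (ZMod c) L) (v : V) :
    V :=
  ((c.totient : L))⁻¹ • ∑ d : (ZMod c)ˣ, ψ ((d⁻¹ : (ZMod c)ˣ) : ZMod c) • dia d v

omit [CharZero L] [HasEnoughRootsOfUnity L (Monoid.exponent (ZMod c)ˣ)] in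
theorem eigComp_mem (dia : (ZMod c)ˣ →* Module.End L V) (ψ : MulChar (ZMod c) L) (v : V) :
    eigComp dia ψ v ∈ eigSp dia ψ := by
  intro d'
  unfold eigComp
  rw [map_smul, map_sum, smul_comm]
  congr 1
  rw [Finset.smul_sum]
  rw [← Equiv.sum_comp (Equiv.mulLeft d')
    (fun d : (ZMod c)ˣ => ψ (d' : ZMod c) • ψ ((d⁻¹ : (ZMod c)ˣ) : ZMod c) • dia d v)]
  refine Finset.sum_congr rfl fun d _ => ?_
  show dia d' (ψ ((d⁻¹ : (ZMod c)ˣ) : ZMod c) • dia d v)
    = ψ (d' : ZMod c) • ψ (((d' * d)⁻¹ : (ZMod c)ˣ) : ZMod c) • dia (d' * d) v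
  rw [map_smul, map_mul dia, Module.End.mul_apply, smul_smul]
  congr 1
  rw [← map_mul, ← Units.val_mul, mul_inv, mul_inv_cancel_left]

theorem sum_eigComp (dia : (ZMod c)ˣ →* Module.End L V) (v : V) :
    ∑ ψ : DirichletCharacter L c, eigComp dia ψ v = v := by
  unfold eigComp
  rw [← Finset.smul_sum, Finset.sum_comm]
  have h1 : ∀ d : (ZMod c)ˣ, ∑ ψ : DirichletCharacter L c,
      ψ ((d⁻¹ : (ZMod c)ˣ) : ZMod c) • dia d v
      = (if d = 1 then (c.totient : L) else 0) • dia d v := by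
    intro d
    rw [← Finset.sum_smul, DirichletCharacter.sum_characters_eq]
    congr 1
    have : (((d⁻¹ : (ZMod c)ˣ) : ZMod c) = 1) ↔ d = 1 := by
      rw [Units.val_eq_one, inv_eq_one]
    simp only [this]
  rw [Finset.sum_congr rfl (fun d _ => h1 d)]
  simp only [ite_smul, zero_smul]
  rw [Finset.sum_ite_eq' Finset.univ (1 : (ZMod c)ˣ)]
  simp only [Finset.mem_univ, if_true, map_one, Module.End.one_apply]
  have hφ : ((c.totient : ℕ) : L) ≠ 0 := by
    have : 0 < c.totient := Nat.totient_pos.mpr (Nat.pos_of_ne_zero (NeZero.ne c))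
    exact_mod_cast this.ne'
  rw [smul_smul, inv_mul_cancel₀ hφ, one_smul]

/-- **SPLIT**: `V` is the sum of the eigenspaces of the diamond operators. -/
theorem iSup_eigSp (dia : (ZMod c)ˣ →* Module.End L V) :
    ⨆ ψ : DirichletCharacter L c, eigSp dia ψ = ⊤ := by
  rw [eq_top_iff]
  intro v _
  rw [← sum_eigComp dia v]
  refine Submodule.sum_mem _ fun ψ _ => ?_
  exact Submodule.mem_iSup_of_mem ψ (eigComp_mem dia ψ v)

end Split

end Fermat.Agent.NEB.EIG.H39
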