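import Fermat.Agent.NEB.EIG.H98_Char

/-!
# NEB / EIG (helper39): transport of the Hecke action through injective intertwiners (leaf TRANSPORT)

`V` an `L`-vector space (`L` a field of characteristic zero), `W i` submodules spanning `V`,
`Θ i : V → Hom(Γ₀(N), L)` linear maps which on `W i` are injective with parabolic values, `t ℓ` operators
on `V` preserving every `W i` with `Θ i (t ℓ v) = TB_ℓ (Θ i v)` on `W i`.  Then there is a ring
homomorphism `η : heckeAlgebra N 2 S → End_L V` with `η (T_ℓ) = t ℓ` (`S ⊇` primes dividing `N`).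

Proof: in a universal basis `b` of `Hom_par(Γ₀(N), ℤ)` the Hecke algebra acts through integer
matrices (`Betti.H76.stmt_matrixRep`); `Rel x e` says that `e` corresponds to `x` under all `Θ i`.
-/

set_option autoImplicit false

open scoped MatrixGroups
open CongruenceSubgroup Matrix

namespace Fermat.Agent.NEB.EIG.H39

open Fermat.Agent.Betti ModularCurve ModularCurve.Period Fermat.Agent.NEB.EIG.H98

section Transport

variable {N : ℕ} [NeZero N] {S : Set ℕ} {L : Type} [Field L]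
  {V : Type*} [AddCommGroup V] [Module L V] {I : Type*}
  {r : ℕ} (b : Fin r → (Additive (Gamma0 N) →+ ℤ))
  (ML : CuspForm.heckeAlgebra N 2 S →+* Matrix (Fin r) (Fin r) L)
  (W : I → Submodule L V) (Θ : I → V →ₗ[L] (Additive (Gamma0 N) →+ L))

/-- `e ∈ End V` corresponds to `x` in the Hecke algebra under the intertwiners `Θ i`. -/
def Rel (x : CuspForm.heckeAlgebra N 2 S) (e : Module.End L V) : Prop :=
  ∀ i, ∀ v ∈ W i, e v ∈ W i ∧
    ∀ a : Fin r → L, Θ i v = coordHom b a → Θ i (e v) = coordHom b ((ML x).mulVec a)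

variable {b ML W Θ}

theorem Rel.one : Rel b ML W Θ 1 1 := by
  intro i v hv
  refine ⟨hv, fun a ha => ?_⟩
  rw [map_one, Matrix.one_mulVec]
  exact ha

theorem Rel.zero : Rel b ML W Θ 0 0 := by
  intro i v _
  refine ⟨(W i).zero_mem, fun a _ => ?_⟩
  rw [map_zero, Matrix.zero_mulVec, LinearMap.zero_apply, map_zero]
  refine AddMonoidHom.ext fun γ => ?_
  rw [coordHom_apply]
  simp

omit [NeZero N] in
theorem coordHom_add (a₁ a₂ : Fin r → L) :
    coordHom b (a₁ + a₂) = coordHom b a₁ + coordHom b a₂ := by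
  refine AddMonoidHom.ext fun γ => ?_
  rw [AddMonoidHom.add_apply, coordHom_apply, coordHom_apply, coordHom_apply,
    ← Finset.sum_add_distrib]
  refine Finset.sum_congr rfl fun i _ => ?_
  simp only [Pi.add_apply, smul_add]

theorem Rel.add {x y : CuspForm.heckeAlgebra N 2 S} {e f : Module.End L V}
    (hx : Rel b ML W Θ x e) (hy : Rel b ML W Θ y f) : Rel b ML W Θ (x + y) (e + f) := by
  intro i v hv
  obtain ⟨h1, h2⟩ := hx i v hv
  obtain ⟨h3, h4⟩ := hy i v hv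
  refine ⟨(W i).add_mem h1 h3, fun a ha => ?_⟩
  rw [LinearMap.add_apply, map_add, h2 a ha, h4 a ha, map_add, Matrix.add_mulVec, coordHom_add]

theorem Rel.mul {x y : CuspForm.heckeAlgebra N 2 S} {e f : Module.End L V}
    (hx : Rel b ML W Θ x e) (hy : Rel b ML W Θ y f) : Rel b ML W Θ (x * y) (e * f) := by
  intro i v hv
  obtain ⟨h3, h4⟩ := hy i v hv
  obtain ⟨h1, h2⟩ := hx i (f v) h3
  refine ⟨h1, fun a ha => ?_⟩
  rw [Module.End.mul_apply, h2 _ (h4 a ha), map_mul, Matrix.mulVec_mulVec]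

theorem Rel.intCast (n : ℤ) : Rel b ML W Θ (n : CuspForm.heckeAlgebra N 2 S)
    ((n : L) • (1 : Module.End L V)) := by
  intro i v hv
  refine ⟨(W i).smul_mem _ hv, fun a ha => ?_⟩
  rw [LinearMap.smul_apply, Module.End.one_apply, map_smul, ha, map_intCast, ← coordHom_smul]
  congr 1
  funext j
  simp [Matrix.mulVec, dotProduct, Matrix.intCast_apply]

variable [CharZero L]

theorem Rel.unique (hb : IsParBasis N b) (hW : ⨆ i, W i = ⊤)
    (hpar : ∀ i, ∀ v ∈ W i, IsParabolicHom (Gamma0 N) (Θ i v))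
    (hinj : ∀ i, ∀ v ∈ W i, Θ i v = 0 → v = 0)
    {x : CuspForm.heckeAlgebra N 2 S} {e f : Module.End L V}
    (he : Rel b ML W Θ x e) (hf : Rel b ML W Θ x f) : e = f := by
  have h1 : ∀ i, ∀ v ∈ W i, e v = f v := by
    intro i v hv
    obtain ⟨a, ha, -⟩ := hb.2 L (Θ i v) (hpar i v hv)
    have ha' : Θ i v = coordHom b a := AddMonoidHom.ext fun γ => by rw [ha γ, coordHom_apply]
    obtain ⟨h1, h2⟩ := he i v hv
    obtain ⟨h3, h4⟩ := hf i v hv
    have : Θ i (e v - f v) = 0 := by rw [map_sub, h2 a ha', h4 a ha', sub_self]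
    exact sub_eq_zero.mp (hinj i _ ((W i).sub_mem h1 h3) this)
  apply LinearMap.ext
  intro v
  have hv : v ∈ ⨆ i, W i := hW ▸ Submodule.mem_top
  refine Submodule.iSup_induction W (motive := fun v => e v = f v) hv h1 ?_ ?_
  · rw [map_zero, map_zero]
  · intro x y hx hy
    rw [map_add, map_add, hx, hy]

/-- **TRANSPORT**: the Hecke algebra acts on `V` through the operators `t ℓ`. -/
theorem transport (hS : ∀ q : ℕ, q.Prime → q ∣ N → q ∈ S)
    (W : I → Submodule L V) (hW : ⨆ i, W i = ⊤)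
    (Θ : I → V →ₗ[L] (Additive (Gamma0 N) →+ L))
    (hpar : ∀ i, ∀ v ∈ W i, IsParabolicHom (Gamma0 N) (Θ i v))
    (hinj : ∀ i, ∀ v ∈ W i, Θ i v = 0 → v = 0)
    (t : ℕ → Module.End L V)
    (htW : ∀ (i : I) (ℓ : ℕ), ℓ.Prime → ¬ ℓ ∣ N → ℓ ∉ S → ∀ v ∈ W i, t ℓ v ∈ W i)
    (htΘ : ∀ (i : I) (ℓ : ℕ) (hℓ : ℓ.Prime) (hℓN : ¬ ℓ ∣ N), ℓ ∉ S → ∀ v ∈ W i,
      Θ i (t ℓ v) = TB N L hℓ hℓN (Θ i v)) :
    ∃ η : CuspForm.heckeAlgebra N 2 S →+* Module.End L V,
      ∀ (ℓ : ℕ) (hℓ : ℓ.Prime) (hℓN : ¬ ℓ ∣ N) (hℓS : ℓ ∉ S),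
        η (CuspForm.heckeAlgebra.T hℓ hℓN hℓS) = t ℓ := by
  classical
  obtain ⟨r, b, hb⟩ := Fermat.Agent.Betti.stmt_basis N
  obtain ⟨M, -, hMT, -⟩ := Fermat.Agent.Betti.H76.stmt_matrixRep N S r b hb
  let ML : CuspForm.heckeAlgebra N 2 S →+* Matrix (Fin r) (Fin r) L :=
    (Int.castRingHom L).mapMatrix.comp M
  have hgen : ∀ (ℓ : ℕ) (hℓ : ℓ.Prime) (hℓN : ¬ ℓ ∣ N) (hℓS : ℓ ∉ S),
      Rel b ML W Θ (CuspForm.heckeAlgebra.T hℓ hℓN hℓS) (t ℓ) := by
    intro ℓ hℓ hℓN hℓS i v hv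
    refine ⟨htW i ℓ hℓ hℓN hℓS v hv, fun a ha => ?_⟩
    rw [htΘ i ℓ hℓ hℓN hℓS v hv, ha]
    exact TB_coordHom hℓ hℓN _ (hMT ℓ hℓ hℓN hℓS) a
  have hall : ∀ x : CuspForm.heckeAlgebra N 2 S, ∃ e : Module.End L V, Rel b ML W Θ x e := by
    rintro ⟨x, hx⟩
    induction hx using Algebra.adjoin_induction with
    | mem x hx =>
      rcases hx with ⟨ℓ, hℓ, hℓN, hℓS, rfl⟩ | ⟨q, hqN, hq, hqS, rfl⟩
      · exact ⟨t ℓ, hgen ℓ hℓ hℓN hℓS⟩
      · exact absurd (hS q hq hqN) hqS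
    | algebraMap n =>
      refine ⟨(n : L) • (1 : Module.End L V), ?_⟩
      have : (⟨algebraMap ℤ _ n, Subalgebra.algebraMap_mem _ n⟩ : CuspForm.heckeAlgebra N 2 S)
          = (n : CuspForm.heckeAlgebra N 2 S) := by
        apply Subtype.ext
        simp
      rw [this]
      exact Rel.intCast n
    | add x y hx hy ihx ihy =>
      obtain ⟨e, he⟩ := ihx
      obtain ⟨f, hf⟩ := ihy
      have : (⟨x + y, Subalgebra.add_mem _ hx hy⟩ : CuspForm.heckeAlgebra N 2 S)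
          = ⟨x, hx⟩ + ⟨y, hy⟩ := rfl
      rw [this]
      exact ⟨e + f, he.add hf⟩
    | mul x y hx hy ihx ihy =>
      obtain ⟨e, he⟩ := ihx
      obtain ⟨f, hf⟩ := ihy
      have : (⟨x * y, Subalgebra.mul_mem _ hx hy⟩ : CuspForm.heckeAlgebra N 2 S)
          = ⟨x, hx⟩ * ⟨y, hy⟩ := rfl
      rw [this]
      exact ⟨e * f, he.mul hf⟩
  choose c hc using hall
  have huniq : ∀ (x : CuspForm.heckeAlgebra N 2 S) (e : Module.End L V),
      Rel b ML W Θ x e → c x = e := fun x e he => Rel.unique hb hW hpar hinj (hc x) he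
  exact ⟨{ toFun := c
           map_one' := huniq 1 1 Rel.one
           map_mul' := fun x y => huniq _ _ ((hc x).mul (hc y))
           map_zero' := huniq 0 0 Rel.zero
           map_add' := fun x y => huniq _ _ ((hc x).add (hc y)) },
    fun ℓ hℓ hℓN hℓS => huniq _ _ (hgen ℓ hℓ hℓN hℓS)⟩

end Transport

end Fermat.Agent.NEB.EIG.H39
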