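import Fermat.Agent.NEB.EIG.H39_TW
import Fermat.Agent.NEB.EIG.H39_Transport
import Fermat.Agent.NEB.EIG.H39_Split
import Fermat.Agent.NEB.EIG.H39_CharDec

/-!
# NEB / EIG (helper39): the operator form (leaf EIG-OP)

INPUT: an `L`-vector space `V` (`L` a field of characteristic zero with enough roots of unity) with
* an injective linear map `μ : V → Hom(Γ₀(N c) ∩ Γ₁(c), L)` with parabolic values,
* operators `TV ℓ` with `μ (TV ℓ v) = T_ℓ (μ v)` (`ℓ ∤ N c` prime),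
* diamond operators `dia : (ZMod c)ˣ →* End V` with `μ (dia d v) = D_g (μ v)` for `g ∈ Γ₀(N c)`,
  `a_g ≡ d mod c`, commuting with the `TV ℓ`, and `dia d ^ n = 1` with `n = 2 j + 1` odd.
OUTPUT: a ring homomorphism `η : heckeAlgebra (N c²) 2 S → End_L V` with
`η (T_ℓ) = TV ℓ ∘ dia(ℓ) ^ j`  (`= T_ℓ ⟨ℓ⟩^(-1/2)`).
-/

set_option autoImplicit false

namespace Fermat.Agent.NEB.EIG.H39

open CongruenceSubgroup Matrix.SpecialLinearGroup ModularForm Finset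
open scoped MatrixGroups
open Fermat.Agent.Betti ModularCurve.Period

section Lemmas

variable {c : ℕ} {L : Type*} [Field L] {V : Type*} [AddCommGroup V] [Module L V]

theorem eigSp_pow {dia : (ZMod c)ˣ →* Module.End L V} {ψ : MulChar (ZMod c) L} {v : V}
    (hv : v ∈ eigSp dia ψ) (d : (ZMod c)ˣ) (k : ℕ) :
    (dia d ^ k) v = ψ (d : ZMod c) ^ k • v := by
  induction k with
  | zero => simp
  | succ k ih =>
    rw [pow_succ, Module.End.mul_apply, hv d, map_smul, ih, smul_smul, pow_succ, mul_comm]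

theorem psi_pow_eq_one {dia : (ZMod c)ˣ →* Module.End L V} {ψ : MulChar (ZMod c) L} {v : V}
    (hv : v ∈ eigSp dia ψ) (hv0 : v ≠ 0) {n : ℕ} (hdn : ∀ d, dia d ^ n = 1) (d : (ZMod c)ˣ) :
    ψ (d : ZMod c) ^ n = 1 := by
  have h1 := eigSp_pow hv d n
  rw [hdn d, Module.End.one_apply] at h1
  have h2 : (ψ (d : ZMod c) ^ n - 1) • v = 0 := by
    rw [sub_smul, one_smul, ← h1, sub_self]
  rcases smul_eq_zero.mp h2 with h3 | h3
  · exact sub_eq_zero.mp h3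
  · exact absurd h3 hv0

theorem list_prod_map_pow {M : Type*} [CommMonoid M] {α : Type*} (l : List α) (f : α → M)
    (k : ℕ) : (l.map fun x => f x ^ k).prod = (l.map f).prod ^ k := by
  induction l with
  | nil => simp
  | cons a l ih => rw [List.map_cons, List.prod_cons, List.map_cons, List.prod_cons, ih, mul_pow]

end Lemmas

section Weights

variable {L : Type*} [Field L]

/-- The weight of the twisted characters is `ψ`. -/
theorem Om_pow_eq (qs : List ℕ) (ψ : MulChar (ZMod qs.prod) L)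
    (χ : (q : ℕ) → MulChar (ZMod q) L)
    (hχ1 : ∀ a : ℤ, IsUnit ((a : ℤ) : ZMod qs.prod) →
      ψ ((a : ℤ) : ZMod qs.prod) = (qs.map fun q => χ q ((a : ℤ) : ZMod q)).prod)
    (j : ℕ) (hχn : ∀ q ∈ qs, ∀ x : (ZMod q)ˣ, χ q (x : ZMod q) ^ (2 * j + 1) = 1)
    (g : SL(2, ℤ)) (hg : ((qs.prod : ℕ) : ℤ) ∣ g 1 0) :
    Om (fun q => χ q ^ (j + 1)) qs g = ψ ((g 0 0 : ℤ) : ZMod qs.prod) := by
  have hu : IsUnit (((g 0 0 : ℤ) : ZMod qs.prod)) :=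
    IsUnit.of_mul_eq_one _ (entry_mul_eq_one hg)
  rw [hχ1 _ hu]
  unfold Om
  congr 1
  refine List.map_congr_left fun q hq => ?_
  have hqg : (q : ℤ) ∣ g 1 0 := (Int.natCast_dvd_natCast.mpr (List.dvd_prod hq)).trans hg
  have huq : IsUnit (((g 0 0 : ℤ) : ZMod q)) := IsUnit.of_mul_eq_one _ (entry_mul_eq_one hqg)
  obtain ⟨x, hx⟩ := huq
  rw [MulChar.pow_apply' _ (Nat.succ_ne_zero j), ← pow_mul, ← hx]
  have e : (j + 1) * 2 = (2 * j + 1) + 1 := by ring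
  rw [e, pow_succ, hχn q hq x, one_mul]

/-- The eigenvalue factor of the twisted characters is `ψ(ℓ)^(j+1)`. -/
theorem chiProd_pow_eq (qs : List ℕ) (ψ : MulChar (ZMod qs.prod) L)
    (χ : (q : ℕ) → MulChar (ZMod q) L)
    (hχ1 : ∀ a : ℤ, IsUnit ((a : ℤ) : ZMod qs.prod) →
      ψ ((a : ℤ) : ZMod qs.prod) = (qs.map fun q => χ q ((a : ℤ) : ZMod q)).prod)
    (j : ℕ) (ℓ : ℕ) (hℓ : IsUnit ((ℓ : ℕ) : ZMod qs.prod)) :
    chiProd (fun q => χ q ^ (j + 1)) qs ℓ = ψ ((ℓ : ℕ) : ZMod qs.prod) ^ (j + 1) := by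
  have h1 := hχ1 (ℓ : ℤ) (by simpa using hℓ)
  simp only [Int.cast_natCast] at h1
  rw [h1, ← list_prod_map_pow]
  unfold chiProd
  congr 1
  refine List.map_congr_left fun q _ => ?_
  rw [MulChar.pow_apply' _ (Nat.succ_ne_zero j)]

end Weights

section Main

variable {L : Type} [Field L] [CharZero L] {V : Type*} [AddCommGroup V] [Module L V]

open Classical in
/-- The unit of `ZMod c` attached to `ℓ` (`1` if `ℓ` is not prime to `c`). -/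
noncomputable def unitOf (c ℓ : ℕ) : (ZMod c)ˣ :=
  if h : Nat.Coprime ℓ c then ZMod.unitOfCoprime ℓ h else 1

theorem unitOf_coe {c ℓ : ℕ} (h : Nat.Coprime ℓ c) :
    ((unitOf c ℓ : (ZMod c)ˣ) : ZMod c) = (ℓ : ZMod c) := by
  unfold unitOf
  rw [dif_pos h, ZMod.coe_unitOfCoprime]

/-- The twisted Hecke operator `T_ℓ ⟨ℓ⟩^j` (`= T_ℓ ⟨ℓ⟩^(-1/2)` if `⟨ℓ⟩^(2j+1) = 1`). -/
noncomputable def tOp {c : ℕ} (TV : ℕ → Module.End L V) (dia : (ZMod c)ˣ →* Module.End L V)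
    (j : ℕ) (ℓ : ℕ) : Module.End L V :=
  TV ℓ * dia (unitOf c ℓ) ^ j

omit [CharZero L] in
theorem tOp_apply_of_mem {c : ℕ} (TV : ℕ → Module.End L V) (dia : (ZMod c)ˣ →* Module.End L V)
    (j : ℕ) (ℓ : ℕ) {ψ : MulChar (ZMod c) L} {v : V} (hv : v ∈ eigSp dia ψ) :
    tOp TV dia j ℓ v = ψ ((unitOf c ℓ : (ZMod c)ˣ) : ZMod c) ^ j • TV ℓ v := by
  unfold tOp
  rw [Module.End.mul_apply, eigSp_pow hv, map_smul]

omit [CharZero L] in
theorem tOp_mem {c : ℕ} (TV : ℕ → Module.End L V) (dia : (ZMod c)ˣ →* Module.End L V)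
    (hcomm : ∀ ℓ d, Commute (TV ℓ) (dia d))
    (j : ℕ) (ℓ : ℕ) {ψ : MulChar (ZMod c) L} {v : V} (hv : v ∈ eigSp dia ψ) :
    tOp TV dia j ℓ v ∈ eigSp dia ψ := by
  intro d
  rw [tOp_apply_of_mem TV dia j ℓ hv, map_smul]
  have h1 : dia d (TV ℓ v) = TV ℓ (dia d v) := by
    have := congrArg (fun F : Module.End L V => F v) (hcomm ℓ d).eq
    simp only [Module.End.mul_apply] at this
    exact this.symm
  rw [h1, hv d, map_smul, smul_comm]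

/-- The intertwiner on the `ψ`-eigenspace. -/
theorem exists_Theta (N : ℕ) (hN : N ≠ 0) (qs : List ℕ) (hnd : qs.Nodup)
    (hpr : ∀ q ∈ qs, q.Prime) (hqN : ∀ q ∈ qs, ¬ q ∣ N)
    (μ : V →ₗ[L] (Additive (Gam1 (N * qs.prod) qs.prod) →+ L)) (hμ : Function.Injective μ)
    (hμpar : ∀ v, IsParabolicHom (Gam1 (N * qs.prod) qs.prod) (μ v))
    (TV : ℕ → Module.End L V)
    (hTV : ∀ (ℓ : ℕ) (hℓ : ℓ.Prime) (hℓM : ¬ ℓ ∣ N * qs.prod) (v : V),
      μ (TV ℓ v) = TD (N * qs.prod) qs.prod (dvd_mul_left _ _) hℓ hℓM (μ v))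
    (dia : (ZMod qs.prod)ˣ →* Module.End L V)
    (hdia : ∀ (g : SL(2, ℤ)) (hg : ((N * qs.prod : ℕ) : ℤ) ∣ g 1 0) (d : (ZMod qs.prod)ˣ),
      (d : ZMod qs.prod) = ((g 0 0 : ℤ) : ZMod qs.prod) →
      ∀ v, μ (dia d v) = Dop (dvd_mul_left _ _) g hg (μ v))
    (j : ℕ) (hdn : ∀ d, dia d ^ (2 * j + 1) = 1) (ψ : MulChar (ZMod qs.prod) L) :
    ∃ Θ : V →ₗ[L] (Additive (Gamma0 (N * qs.prod * qs.prod)) →+ L),
      (∀ v ∈ eigSp dia ψ, IsParabolicHom (Gamma0 (N * qs.prod * qs.prod)) (Θ v)) ∧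
      (∀ v ∈ eigSp dia ψ, Θ v = 0 → v = 0) ∧
      (∀ (ℓ : ℕ) (hℓ : ℓ.Prime) (hℓN : ¬ ℓ ∣ N * qs.prod * qs.prod), ∀ v ∈ eigSp dia ψ,
        Θ (tOp TV dia j ℓ v) = TB (N * qs.prod * qs.prod) L hℓ hℓN (Θ v)) := by
  by_cases hbot : eigSp dia ψ = ⊥
  · refine ⟨0, fun v _ => ?_, fun v hv _ => ?_, fun ℓ hℓ hℓN v _ => ?_⟩
    · intro γ _
      rfl
    · rw [hbot] at hv
      exact (Submodule.mem_bot L).mp hv
    · rw [LinearMap.zero_apply, LinearMap.zero_apply, map_zero]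
  · obtain ⟨v₀, hv₀, hv0⟩ := Submodule.exists_mem_ne_zero_of_ne_bot hbot
    have hψn : ∀ d : (ZMod qs.prod)ˣ, ψ (d : ZMod qs.prod) ^ (2 * j + 1) = 1 :=
      psi_pow_eq_one hv₀ hv0 hdn
    obtain ⟨χ, hχ1, hχ2⟩ := char_dec qs hnd hpr qs.prod rfl ψ
    have hχn : ∀ q ∈ qs, ∀ x : (ZMod q)ˣ, χ q (x : ZMod q) ^ (2 * j + 1) = 1 := by
      intro q hq x
      obtain ⟨y, hy⟩ := hχ2 q hq x
      rw [hy]
      exact hψn y
    have hχ'' : ∀ q ∈ qs, (χ q ^ (j + 1) = 1) ∨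
        ∃ T : ℤ, ¬ (q : ℤ) ∣ T ∧ (χ q ^ (j + 1)) ((T : ℤ) : ZMod q) ^ 2 ≠ 1 := by
      intro q hq
      by_cases h : χ q = 1
      · left
        rw [h, one_pow]
      · right
        obtain ⟨x, hx⟩ := MulChar.ne_one_iff.mp h
        have hqp := hpr q hq
        haveI : Fact q.Prime := ⟨hqp⟩
        refine ⟨(((x : ZMod q).val : ℕ) : ℤ), ?_, ?_⟩
        · intro hdvd
          have h0 : (((((x : ZMod q).val : ℕ) : ℤ) : ℤ) : ZMod q) = 0 :=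
            (ZMod.intCast_zmod_eq_zero_iff_dvd _ _).mpr hdvd
          rw [Int.cast_natCast, ZMod.natCast_zmod_val] at h0
          exact x.ne_zero h0
        · rw [Int.cast_natCast, ZMod.natCast_zmod_val,
            MulChar.pow_apply' _ (Nat.succ_ne_zero j), ← pow_mul]
          have e : (j + 1) * 2 = (2 * j + 1) + 1 := by ring
          rw [e, pow_succ, hχn q hq x, one_mul]
          exact hx
    obtain ⟨Tw, hTw⟩ := stmt_TW N hN qs hnd hpr hqN (fun q => χ q ^ (j + 1)) hχ''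
    have hEig : ∀ v ∈ eigSp dia ψ, IsEig (N * qs.prod) qs.prod (dvd_mul_left _ _)
        (Om (fun q => χ q ^ (j + 1)) qs) (μ v) := by
      intro v hv g hg
      have hgc : ((qs.prod : ℕ) : ℤ) ∣ g 1 0 :=
        (Int.natCast_dvd_natCast.mpr (dvd_mul_left qs.prod N)).trans hg
      have hu : IsUnit (((g 0 0 : ℤ) : ZMod qs.prod)) :=
        IsUnit.of_mul_eq_one _ (entry_mul_eq_one hgc)
      have h1 := hdia g hg hu.unit rfl v
      rw [hv hu.unit, map_smul] at h1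
      rw [← h1, Om_pow_eq qs ψ χ hχ1 j hχn g hgc]
      rfl
    refine ⟨Tw.comp μ, fun v hv => ?_, fun v hv h0 => ?_, fun ℓ hℓ hℓN v hv => ?_⟩
    · exact (hTw (μ v) (hEig v hv)).2.2 (hμpar v)
    · have := (hTw (μ v) (hEig v hv)).1 h0
      exact hμ (by rw [this, map_zero])
    · have hℓM : ¬ ℓ ∣ N * qs.prod := fun h => hℓN (h.trans (dvd_mul_right _ _))
      have hℓc : ¬ ℓ ∣ qs.prod := fun h => hℓM (h.trans (dvd_mul_left _ _))
      have hcop : Nat.Coprime ℓ qs.prod := (Nat.Prime.coprime_iff_not_dvd hℓ).mpr hℓc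
      have hunit : IsUnit ((ℓ : ℕ) : ZMod qs.prod) := by
        rw [← unitOf_coe hcop]
        exact Units.isUnit _
      rw [tOp_apply_of_mem TV dia j ℓ hv, LinearMap.comp_apply, LinearMap.comp_apply, map_smul,
        map_smul, hTV ℓ hℓ hℓM v, (hTw (μ v) (hEig v hv)).2.1 ℓ hℓ hℓM hℓN,
        chiProd_pow_eq qs ψ χ hχ1 j ℓ hunit, unitOf_coe hcop]
      congr 1
      have h2 := hψn (unitOf qs.prod ℓ)
      rw [unitOf_coe hcop] at h2
      have e : 2 * j + 1 = j + (j + 1) := by ring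
      rw [e, pow_add] at h2
      exact (inv_eq_of_mul_eq_one_left h2).symm

/-- **EIG-OP**: the Hecke algebra of level `N c²` acts on `V` through the twisted operators
`T_ℓ ⟨ℓ⟩^j`. -/
theorem stmt_OP (N : ℕ) (hN : N ≠ 0) (qs : List ℕ) (hnd : qs.Nodup)
    (hpr : ∀ q ∈ qs, q.Prime) (hqN : ∀ q ∈ qs, ¬ q ∣ N)
    (c N' : ℕ) (hc : c = qs.prod) (hN' : N' = N * c * c) [NeZero N'] (S : Set ℕ)
    (hS : ∀ q : ℕ, q.Prime → q ∣ N' → q ∈ S)
    [HasEnoughRootsOfUnity L (Monoid.exponent (ZMod c)ˣ)]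
    (μ : V →ₗ[L] (Additive (Gam1 (N * c) c) →+ L)) (hμ : Function.Injective μ)
    (hμpar : ∀ v, IsParabolicHom (Gam1 (N * c) c) (μ v))
    (TV : ℕ → Module.End L V)
    (hTV : ∀ (ℓ : ℕ) (hℓ : ℓ.Prime) (hℓM : ¬ ℓ ∣ N * c) (v : V),
      μ (TV ℓ v) = TD (N * c) c (dvd_mul_left _ _) hℓ hℓM (μ v))
    (dia : (ZMod c)ˣ →* Module.End L V)
    (hdia : ∀ (g : SL(2, ℤ)) (hg : ((N * c : ℕ) : ℤ) ∣ g 1 0) (d : (ZMod c)ˣ),
      (d : ZMod c) = ((g 0 0 : ℤ) : ZMod c) →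
      ∀ v, μ (dia d v) = Dop (dvd_mul_left _ _) g hg (μ v))
    (hcomm : ∀ ℓ d, Commute (TV ℓ) (dia d))
    (j : ℕ) (hdn : ∀ d, dia d ^ (2 * j + 1) = 1) :
    ∃ eta : CuspForm.heckeAlgebra N' 2 S →+* Module.End L V,
      ∀ (ℓ : ℕ) (hℓ : ℓ.Prime) (hℓN : ¬ ℓ ∣ N') (hℓS : ℓ ∉ S),
        eta (CuspForm.heckeAlgebra.T hℓ hℓN hℓS) = TV ℓ * dia (unitOf c ℓ) ^ j := by
  subst hc
  subst hN'
  haveI : NeZero qs.prod := ⟨prod_primes_ne_zero hpr⟩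
  have hΘ := exists_Theta N hN qs hnd hpr hqN μ hμ hμpar TV hTV dia hdia j hdn
  choose Θ hΘ1 hΘ2 hΘ3 using hΘ
  exact transport hS (fun ψ : DirichletCharacter L qs.prod => eigSp dia ψ) (iSup_eigSp dia) Θ
    (fun ψ v hv => hΘ1 ψ v hv) (fun ψ v hv => hΘ2 ψ v hv) (tOp TV dia j)
    (fun ψ ℓ _ _ _ v hv => tOp_mem TV dia hcomm j ℓ hv)
    (fun ψ ℓ hℓ hℓN _ v hv => hΘ3 ψ ℓ hℓ hℓN v hv)

end Main

end Fermat.Agent.NEB.EIG.H39
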