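import Fermat.Agent.NEB.EIG.H98_MonoH
import Fermat.Agent.NEB.EIG.H39_EigA3
import Fermat.Agent.NEB.Geom.DefsC

/-!
# NEB / EIG, leaf EIG-ASM (helper98): the hypotheses of `H39.stmt_EIG_A` for `J_H[p^∞]`

`A := AH M c H p = J_H[p^∞]` with the operators `Tz` (`T_ℓ^H`) and `diaZ` (diamonds) of
`NEB/Geom/DefsC.lean`.

* `monoSys ι : H39.MonoSys p M c (AH M c H p)` : the system of characters of EIG-MONO
  (`stmt_MonoH`), with `(monoSys ι).h = Nat.card H`;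
* `monoSys_Tz` : `m k (Tz ℓ x) = TDg (m k x)`;
* `monoSys_diaZ` : `m k (diaZ d x) = Dg g (m k x)` for `g ∈ Γ₀(M)` with `a_g ≡ d`;
* `commute_Tz_diaZ` : `Tz ℓ` commutes with `diaZ d`;  `commute_Uz_diaZ`;
* `diaZ_eq_one`, `diaZ_pow_eq_one` : `diaZ d ^ m = 1` if `d ^ m ∈ ±H`;
* `monoSys_restrict` : restriction of a `MonoSys` to a subgroup;
* `stmt_EIG_ASM` : for `D ≤ J_H[p^∞]` a `p`-divisible subgroup stable under `Tz`, `diaZ`,
  the ring homomorphism `eta : heckeAlgebra (N c²) 2 S → End_ℤ D` with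
  `eta (T_ℓ) = (T_ℓ^H ⟨ℓ⟩^j)|_D`.
-/

set_option autoImplicit false
set_option linter.unusedSectionVars false
set_option linter.style.haveILetI false

noncomputable section

namespace Fermat.Agent.NEB.EIG.H98

open AlgebraicCurve ModularCurve CongruenceSubgroup Matrix.SpecialLinearGroup
open Fermat.Agent.NEB Fermat.Agent.NEB.JH Fermat.Agent.NEB.EIG.H39 Fermat.Agent.GTor
  Fermat.Agent.NEB.Geom
open Fermat.Agent.Betti
open scoped MatrixGroups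

section Sys

variable (M c : ℕ) [NeZero M] (H : Subgroup (ZMod c)ˣ) (h2 : 2 ≤ c) (hc : c ∣ M)
  (p : ℕ) [Fact p.Prime] (ι : Kbar →+* ℂ)

/-- The chosen monodromy maps of `stmt_MonoH`. -/
def monoK (k : ℕ) : Pic0.torsion Kbar ↥(FHbar M c H) (p ^ k) →+
    (Additive (Gam1 M c) →+ ZMod (p ^ k)) :=
  Classical.choose (stmt_MonoH (M := M) (c := c) (H := H) ι h2 hc (NeZero.ne M)
    (p := p) (Fact.out : p.Prime).ne_zero) k

theorem monoK_spec :
    (∀ (k : ℕ) (x : Pic0.torsion Kbar ↥(FHbar M c H) (p ^ k)),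
      monoK M c H h2 hc p ι k x = 0 → Nat.card H • (x : JH M c H) = 0) ∧
    (∀ (k : ℕ) (x : Pic0.torsion Kbar ↥(FHbar M c H) (p ^ k)),
      monoK M c H h2 hc p ι k x ∈ homPE (Gam1 M c) (ZMod (p ^ k))) ∧
    (∀ (hc : c ∣ M) (ℓ : ℕ) (hℓ : ℓ.Prime) (hℓM : ¬ ℓ ∣ M),
      haveI : NeZero ℓ := ⟨hℓ.ne_zero⟩
      ∀ (hβ : BetaOK M c ℓ H) (k : ℕ) (x y : Pic0.torsion Kbar ↥(FHbar M c H) (p ^ k)),
        (y : JH M c H) = TH hβ (x : JH M c H) →
          monoK M c H h2 hc p ι k y = TDadd M c hc hℓ hℓM (monoK M c H h2 hc p ι k x)) ∧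
    (∀ (hc : c ∣ M) (dd : DiamondData M c H) (d : (ZMod c)ˣ) (g : SL(2, ℤ))
      (hg : (M : ℤ) ∣ g 1 0), ((g 0 0 : ℤ) : ZMod c) = (d : ZMod c) →
      ∀ (k : ℕ) (x y : Pic0.torsion Kbar ↥(FHbar M c H) (p ^ k)),
        (y : JH M c H) = diamond dd d (x : JH M c H) →
          monoK M c H h2 hc p ι k y = Dadd hc g hg (monoK M c H h2 hc p ι k x)) ∧
    (∀ (k : ℕ) (x : Pic0.torsion Kbar ↥(FHbar M c H) (p ^ (k + 1)))
      (y : Pic0.torsion Kbar ↥(FHbar M c H) (p ^ k)),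
        (y : JH M c H) = p • (x : JH M c H) →
          monoK M c H h2 hc p ι k y = redChar p k (monoK M c H h2 hc p ι (k + 1) x)) :=
  (Classical.choose_spec (stmt_MonoH (M := M) (c := c) (H := H) ι h2 hc (NeZero.ne M)
    (p := p) (Fact.out : p.Prime).ne_zero)).2

variable {M c H p}

theorem coe_smul_eq_zero {k : ℕ} {x : AH M c H p} (h : p ^ k • x = 0) :
    p ^ k • (x : JH M c H) = 0 := by
  have := congrArg (fun z : AH M c H p => (z : JH M c H)) h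
  simpa using this

theorem smul_eq_zero_of_coe {k : ℕ} {x : AH M c H p} (h : p ^ k • (x : JH M c H) = 0) :
    p ^ k • x = 0 := by
  apply Subtype.ext
  simpa using h

/-- A `p^k`-torsion element of `J_H[p^∞]` as an element of `J_H[p^k]`. -/
def torOf (k : ℕ) (x : AH M c H p) (h : p ^ k • x = 0) :
    Pic0.torsion Kbar ↥(FHbar M c H) (p ^ k) :=
  ⟨(x : JH M c H), Pic0.mem_torsion.mpr (by
    rw [natCast_zsmul]
    exact coe_smul_eq_zero h)⟩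

@[simp] theorem coe_torOf (k : ℕ) (x : AH M c H p) (h : p ^ k • x = 0) :
    ((torOf k x h : Pic0.torsion Kbar ↥(FHbar M c H) (p ^ k)) : JH M c H) = (x : JH M c H) := rfl

variable (M c H p)

open Classical in
/-- The character of a `p^k`-torsion element (`0` on the others). -/
def mAsm (k : ℕ) (x : AH M c H p) : Additive (Gam1 M c) →+ ZMod (p ^ k) :=
  if h : p ^ k • x = 0 then monoK M c H h2 hc p ι k (torOf k x h) else 0

variable {M c H p}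

theorem mAsm_eq {k : ℕ} {x : AH M c H p} (h : p ^ k • x = 0) :
    mAsm M c H h2 hc p ι k x = monoK M c H h2 hc p ι k (torOf k x h) := by
  rw [mAsm, dif_pos h]

theorem mAsm_eq_of {k : ℕ} {x : AH M c H p} (h : p ^ k • x = 0)
    (y : Pic0.torsion Kbar ↥(FHbar M c H) (p ^ k)) (hy : (y : JH M c H) = (x : JH M c H)) :
    mAsm M c H h2 hc p ι k x = monoK M c H h2 hc p ι k y := by
  rw [mAsm_eq h2 hc ι h]
  congr 1
  exact Subtype.ext hy.symm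

theorem finite_H' {c : ℕ} (H : Subgroup (ZMod c)ˣ) (hc2 : 2 ≤ c) : Finite H :=
  haveI : NeZero c := ⟨Nat.pos_iff_ne_zero.mp (lt_of_lt_of_le Nat.zero_lt_two hc2)⟩
  inferInstance

variable (M c H p)

/-- **EIG-ASM (1)**: the system of characters of `J_H[p^∞]`. -/
def monoSys : MonoSys p M c (AH M c H p) where
  m := mAsm M c H h2 hc p ι
  m_add := fun k x y hx hy => by
    have hxy : p ^ k • (x + y) = 0 := by rw [smul_add, hx, hy, add_zero]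
    rw [mAsm_eq h2 hc ι hx, mAsm_eq h2 hc ι hy, ← map_add]
    exact mAsm_eq_of h2 hc ι hxy _ rfl
  h := Nat.card H
  h_ne := by
    haveI := finite_H' H h2
    exact Nat.card_pos.ne'
  m_ker := fun k x hx h0 => by
    rw [mAsm_eq h2 hc ι hx] at h0
    have := (monoK_spec M c H h2 hc p ι).1 k _ h0
    apply Subtype.ext
    simpa using this
  m_par := fun k x hx => by
    rw [mAsm_eq h2 hc ι hx]
    exact ((monoK_spec M c H h2 hc p ι).2.1 k _).1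
  m_red := fun k x hx γ => by
    have hpx : p ^ k • (p • x) = 0 := by
      rw [← mul_smul, ← pow_succ]
      exact hx
    rw [mAsm_eq h2 hc ι hx, mAsm_eq h2 hc ι hpx,
      (monoK_spec M c H h2 hc p ι).2.2.2.2 k (torOf (k + 1) x hx) (torOf k (p • x) hpx) (by simp)]
    rfl

@[simp] theorem monoSys_h : (monoSys M c H h2 hc p ι).h = Nat.card H := rfl

@[simp] theorem monoSys_m (k : ℕ) (x : AH M c H p) :
    (monoSys M c H h2 hc p ι).m k x = mAsm M c H h2 hc p ι k x := rfl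

/-- **EIG-ASM (2)**: `m k (T_ℓ^H x) = T_ℓ^D (m k x)`. -/
theorem monoSys_Tz (ℓ : ℕ) (hℓ : ℓ.Prime) (hℓM : ¬ ℓ ∣ M) (k : ℕ) (x : AH M c H p)
    (hx : p ^ k • x = 0) :
    (monoSys M c H h2 hc p ι).m k (Tz M c H h2 hc p ℓ x)
      = TDg M c hc hℓ hℓM ((monoSys M c H h2 hc p ι).m k x) := by
  haveI : NeZero ℓ := ⟨hℓ.ne_zero⟩
  have hTx : p ^ k • (Tz M c H h2 hc p ℓ x) = 0 := by rw [← map_nsmul, hx, map_zero]
  rw [monoSys_m, monoSys_m, mAsm_eq h2 hc ι hx, mAsm_eq h2 hc ι hTx]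
  exact (monoK_spec M c H h2 hc p ι).2.2.1 hc ℓ hℓ hℓM (heckeData M c ℓ H h2 hc).hβ k
    (torOf k x hx) (torOf k _ hTx) (by
      rw [coe_torOf, coe_torOf]
      exact Tz_apply M c H h2 hc p ℓ x)

/-- **EIG-ASM (3)**: `m k (⟨d⟩ x) = (m k x) ∘ conj_g` for `g ∈ Γ₀(M)` with `a_g ≡ d`. -/
theorem monoSys_diaZ (g : SL(2, ℤ)) (hg : ((M : ℕ) : ℤ) ∣ g 1 0) (d : (ZMod c)ˣ)
    (hd : (d : ZMod c) = ((g 0 0 : ℤ) : ZMod c)) (k : ℕ) (x : AH M c H p)
    (hx : p ^ k • x = 0) :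
    (monoSys M c H h2 hc p ι).m k (diaZ M c H h2 hc p d x)
      = Dg hc g hg ((monoSys M c H h2 hc p ι).m k x) := by
  have hdx : p ^ k • (diaZ M c H h2 hc p d x) = 0 := by rw [← map_nsmul, hx, map_zero]
  rw [monoSys_m, monoSys_m, mAsm_eq h2 hc ι hx, mAsm_eq h2 hc ι hdx]
  exact (monoK_spec M c H h2 hc p ι).2.2.2.1 hc (diamondData M c H h2 hc) d g hg hd.symm k
    (torOf k x hx) (torOf k _ hdx) rfl

end Sys

/-! ## Commutation and the order of the diamond operators -/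

section Comm

variable (M c : ℕ) [NeZero M] (H : Subgroup (ZMod c)ˣ) (h2 : 2 ≤ c) (hc : c ∣ M) (p : ℕ)

/-- **EIG-ASM (4)**: `T_ℓ^H` commutes with the diamond operators. -/
theorem commute_Tz_diaZ (ℓ : ℕ) (d : (ZMod c)ˣ) :
    Commute (Tz M c H h2 hc p ℓ) (diaZ M c H h2 hc p d) := by
  by_cases h0 : ℓ = 0
  · subst h0
    have : Tz M c H h2 hc p 0 = 0 := by simp [Tz]
    rw [this]
    exact Commute.zero_left _
  haveI : NeZero ℓ := ⟨h0⟩
  refine LinearMap.ext fun x => Subtype.ext ?_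
  show ((Tz M c H h2 hc p ℓ (diaZ M c H h2 hc p d x) : AH M c H p) : JH M c H)
    = ((diaZ M c H h2 hc p d (Tz M c H h2 hc p ℓ x) : AH M c H p) : JH M c H)
  rw [Tz_apply, diaZ_apply, diaZ_apply, Tz_apply]
  exact TH_diamond (heckeData M c ℓ H h2 hc) d (x : JH M c H)

/-- `U_q^H` commutes with the diamond operators. -/
theorem commute_Uz_diaZ (q : ℕ) (d : (ZMod c)ˣ) :
    Commute (Uz M c H h2 hc p q) (diaZ M c H h2 hc p d) := by
  by_cases h0 : q = 0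
  · subst h0
    have : Uz M c H h2 hc p 0 = 0 := by simp [Uz]
    rw [this]
    exact Commute.zero_left _
  haveI : NeZero q := ⟨h0⟩
  refine LinearMap.ext fun x => Subtype.ext ?_
  show ((Uz M c H h2 hc p q (diaZ M c H h2 hc p d x) : AH M c H p) : JH M c H)
    = ((diaZ M c H h2 hc p d (Uz M c H h2 hc p q x) : AH M c H p) : JH M c H)
  rw [Uz_apply, diaZ_apply, diaZ_apply, Uz_apply]
  exact UH_diamond (heckeData M c q H h2 hc) d (x : JH M c H)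

/-- the diamond operators commute with each other -/
theorem commute_diaZ (d d' : (ZMod c)ˣ) :
    Commute (diaZ M c H h2 hc p d) (diaZ M c H h2 hc p d') :=
  (Commute.all d d').map (diaZ M c H h2 hc p)

/-- `⟨d⟩ = 1` for `d ∈ ±H`. -/
theorem diaZ_eq_one {d : (ZMod c)ˣ} (hd : d ∈ H ∨ -d ∈ H) : diaZ M c H h2 hc p d = 1 := by
  refine LinearMap.ext fun x => Subtype.ext ?_
  show ((diaZ M c H h2 hc p d x : AH M c H p) : JH M c H) = (x : JH M c H)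
  rw [diaZ_apply, ((diamondData M c H h2 hc).ker d).mpr hd, one_smul]

/-- **EIG-ASM (5)**: `⟨d⟩^m = 1` if `d^m ∈ ±H`. -/
theorem diaZ_pow_eq_one {m : ℕ} (hm : ∀ d : (ZMod c)ˣ, d ^ m ∈ H ∨ -(d ^ m) ∈ H)
    (d : (ZMod c)ˣ) : diaZ M c H h2 hc p d ^ m = 1 := by
  rw [← map_pow]
  exact diaZ_eq_one M c H h2 hc p (hm d)

end Comm

/-! ## The bundle, and the ring homomorphism in the divisible case -/

section Bundle

/-- **EIG-ASM**: the hypotheses of `H39.stmt_EIG_A` hold for `A = J_H[p^∞]`, `TA = Tz`,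
`diaA = diaZ`, at the level `M = N c`. -/
theorem stmt_EIG_ASM (p : ℕ) [Fact p.Prime] (N c : ℕ) [NeZero (N * c)]
    (H : Subgroup (ZMod c)ˣ) (h2 : 2 ≤ c) (ι : Kbar →+* ℂ) (j : ℕ)
    (hj : ∀ d : (ZMod c)ˣ, d ^ (2 * j + 1) ∈ H ∨ -(d ^ (2 * j + 1)) ∈ H) :
    ∃ ms : MonoSys p (N * c) c (AH (N * c) c H p), ms.h = Nat.card H ∧
      (∀ (ℓ : ℕ) (hℓ : ℓ.Prime) (hℓM : ¬ ℓ ∣ N * c) (k : ℕ) (x : AH (N * c) c H p),
        p ^ k • x = 0 →
        ms.m k (Tz (N * c) c H h2 (dvd_mul_left _ _) p ℓ x)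
          = TDg (N * c) c (dvd_mul_left _ _) hℓ hℓM (ms.m k x)) ∧
      (∀ (g : SL(2, ℤ)) (hg : ((N * c : ℕ) : ℤ) ∣ g 1 0) (d : (ZMod c)ˣ),
        (d : ZMod c) = ((g 0 0 : ℤ) : ZMod c) → ∀ (k : ℕ) (x : AH (N * c) c H p),
        p ^ k • x = 0 →
        ms.m k (diaZ (N * c) c H h2 (dvd_mul_left _ _) p d x)
          = Dg (dvd_mul_left _ _) g hg (ms.m k x)) ∧
      (∀ (ℓ : ℕ), ℓ.Prime → ¬ ℓ ∣ N * c → ∀ d,
        Commute (Tz (N * c) c H h2 (dvd_mul_left _ _) p ℓ)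
          (diaZ (N * c) c H h2 (dvd_mul_left _ _) p d)) ∧
      (∀ d, diaZ (N * c) c H h2 (dvd_mul_left _ _) p d ^ (2 * j + 1) = 1) :=
  ⟨monoSys (N * c) c H h2 (dvd_mul_left _ _) p ι, rfl,
    fun ℓ hℓ hℓM k x hx => monoSys_Tz (N * c) c H h2 (dvd_mul_left _ _) p ι ℓ hℓ hℓM k x hx,
    fun g hg d hd k x hx =>
      monoSys_diaZ (N * c) c H h2 (dvd_mul_left _ _) p ι g hg d hd k x hx,
    fun ℓ _ _ d => commute_Tz_diaZ (N * c) c H h2 (dvd_mul_left _ _) p ℓ d,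
    fun d => diaZ_pow_eq_one (N * c) c H h2 (dvd_mul_left _ _) p hj d⟩

/-- **EIG-A for `J_H[p^∞]`**, if `J_H[p^∞]` is `p`-divisible: the Hecke algebra of level `N c²`
acts through the twisted operators `TzTw j ℓ = T_ℓ^H ⟨ℓ⟩^j`. -/
theorem exists_eta_of_div (p : ℕ) [Fact p.Prime] (N : ℕ) (hN : N ≠ 0) (qs : List ℕ)
    (hnd : qs.Nodup) (hpr : ∀ q ∈ qs, q.Prime) (hqN : ∀ q ∈ qs, ¬ q ∣ N)
    (c N' : ℕ) (hc : c = qs.prod) (hN' : N' = N * c * c) [NeZero N'] [NeZero (N * c)]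
    (S : Set ℕ) (hS : ∀ q : ℕ, q.Prime → q ∣ N' → q ∈ S)
    (H : Subgroup (ZMod c)ˣ) (h2 : 2 ≤ c) (j : ℕ)
    (hj : ∀ d : (ZMod c)ˣ, d ^ (2 * j + 1) ∈ H ∨ -(d ^ (2 * j + 1)) ∈ H)
    (hdiv : ∀ x : AH (N * c) c H p, ∃ y : AH (N * c) c H p, p • y = x) :
    ∃ eta : CuspForm.heckeAlgebra N' 2 S →+* Module.End ℤ (AH (N * c) c H p),
      ∀ (ℓ : ℕ) (hℓ : ℓ.Prime) (hℓN : ¬ ℓ ∣ N') (hℓS : ℓ ∉ S),
        eta (CuspForm.heckeAlgebra.T hℓ hℓN hℓS)
          = TzTw (N * c) c H h2 (dvd_mul_left _ _) p j ℓ := by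
  obtain ⟨ms, -, h1, h2', h3, h4⟩ := stmt_EIG_ASM p N c H h2 Fermat.Agent.NEB.H70.iotaC j hj
  exact stmt_EIG_A p N hN qs hnd hpr hqN c N' hc hN' S hS (AH (N * c) c H p) hdiv
    (fun x => isPTors_coe x) ms (Tz (N * c) c H h2 (dvd_mul_left _ _) p) h1
    (diaZ (N * c) c H h2 (dvd_mul_left _ _) p) h2' h3 j h4

/-- In the Taylor–Wiles setting (`H` = the `p^n`-th powers, `p` odd, `j = (p^n - 1)/2`) the
exponent condition holds. -/
theorem twH_pow_mem (p n : ℕ) (hp : Odd p) {r : ℕ} (qv : Fin r → ℕ)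
    (d : (ZMod (twC qv))ˣ) :
    d ^ (2 * jTw p n + 1) ∈ twH p n qv ∨ -(d ^ (2 * jTw p n + 1)) ∈ twH p n qv := by
  left
  have hodd : Odd (p ^ n) := hp.pow
  have h1 : 2 * jTw p n + 1 = p ^ n := by
    obtain ⟨m, hm⟩ := hodd
    unfold jTw
    rw [hm]
    omega
  rw [h1]
  exact ⟨d, rfl⟩

end Bundle

end Fermat.Agent.NEB.EIG.H98
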