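import Fermat.Agent.NEB.EIG.H39_OP

/-!
# NEB / EIG (helper39): EIG-OP, descent to a lattice and formal consequences

* `hecke_induction` : induction principle for `heckeAlgebra N 2 S` when `S` contains the primes
  dividing `N` (generators `T_ℓ`, `ℓ ∉ S`);
* `op_lattice` : a ring homomorphism `η : heckeAlgebra → End_L V` with `η (T_ℓ) = t ℓ` descends to
  `η₀ : heckeAlgebra → End_𝒪 V₀` along an injective `𝒪`-linear map `j : V₀ → V` with
  `j (t₀ ℓ v) = t ℓ (j v)`;
* `commute_of_gen` : an operator commuting with the `η (T_ℓ)` commutes with `η x` for all `x`;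
* `hasEnough_of_algClosed` : algebraically closed fields of characteristic zero have enough roots
  of unity.
-/

set_option autoImplicit false

namespace Fermat.Agent.NEB.EIG.H39

section Induction

variable {N : ℕ} [NeZero N] {S : Set ℕ}

/-- Induction principle for the Hecke algebra away from `S ⊇ {q ∣ N}`. -/
theorem hecke_induction (hS : ∀ q : ℕ, q.Prime → q ∣ N → q ∈ S)
    {P : CuspForm.heckeAlgebra N 2 S → Prop}
    (hT : ∀ (ℓ : ℕ) (hℓ : ℓ.Prime) (hℓN : ¬ ℓ ∣ N) (hℓS : ℓ ∉ S),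
      P (CuspForm.heckeAlgebra.T hℓ hℓN hℓS))
    (hint : ∀ n : ℤ, P (n : CuspForm.heckeAlgebra N 2 S))
    (hadd : ∀ x y, P x → P y → P (x + y)) (hmul : ∀ x y, P x → P y → P (x * y)) :
    ∀ x, P x := by
  rintro ⟨x, hx⟩
  induction hx using Algebra.adjoin_induction with
  | mem x hx =>
    rcases hx with ⟨ℓ, hℓ, hℓN, hℓS, rfl⟩ | ⟨q, hqN, hq, hqS, rfl⟩
    · exact hT ℓ hℓ hℓN hℓS
    · exact absurd (hS q hq hqN) hqS
  | algebraMap n =>
    have : (⟨algebraMap ℤ _ n, Subalgebra.algebraMap_mem _ n⟩ : CuspForm.heckeAlgebra N 2 S)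
        = (n : CuspForm.heckeAlgebra N 2 S) := by
      apply Subtype.ext
      simp
    rw [this]
    exact hint n
  | add x y hx hy ihx ihy =>
    have : (⟨x + y, Subalgebra.add_mem _ hx hy⟩ : CuspForm.heckeAlgebra N 2 S)
        = ⟨x, hx⟩ + ⟨y, hy⟩ := rfl
    rw [this]
    exact hadd _ _ ihx ihy
  | mul x y hx hy ihx ihy =>
    have : (⟨x * y, Subalgebra.mul_mem _ hx hy⟩ : CuspForm.heckeAlgebra N 2 S)
        = ⟨x, hx⟩ * ⟨y, hy⟩ := rfl
    rw [this]
    exact hmul _ _ ihx ihy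

/-- An element of a ring commuting with the images of the generators commutes with the image of
the Hecke algebra. -/
theorem commute_of_gen (hS : ∀ q : ℕ, q.Prime → q ∣ N → q ∈ S) {R : Type*} [Ring R]
    (eta : CuspForm.heckeAlgebra N 2 S →+* R) (e : R)
    (h : ∀ (ℓ : ℕ) (hℓ : ℓ.Prime) (hℓN : ¬ ℓ ∣ N) (hℓS : ℓ ∉ S),
      Commute e (eta (CuspForm.heckeAlgebra.T hℓ hℓN hℓS))) :
    ∀ x, Commute e (eta x) := by
  refine hecke_induction hS h (fun n => ?_) (fun x y hx hy => ?_) (fun x y hx hy => ?_)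
  · rw [map_intCast]
    exact Int.commute_cast e n
  · rw [map_add]
    exact hx.add_right hy
  · rw [map_mul]
    exact hx.mul_right hy

end Induction

section Lattice

variable {N : ℕ} [NeZero N] {S : Set ℕ}
  {𝒪 : Type*} [CommRing 𝒪] {L : Type*} [Field L]
  {V₀ : Type*} [AddCommGroup V₀] [Module 𝒪 V₀]
  {V : Type*} [AddCommGroup V] [Module L V] [Module 𝒪 V]

/-- **Descent to a lattice.** -/
theorem op_lattice (hS : ∀ q : ℕ, q.Prime → q ∣ N → q ∈ S)
    (eta : CuspForm.heckeAlgebra N 2 S →+* Module.End L V)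
    (j : V₀ →ₗ[𝒪] V) (hj : Function.Injective j)
    (t₀ : ℕ → Module.End 𝒪 V₀)
    (ht : ∀ (ℓ : ℕ) (hℓ : ℓ.Prime) (hℓN : ¬ ℓ ∣ N) (hℓS : ℓ ∉ S) (v : V₀),
      j (t₀ ℓ v) = eta (CuspForm.heckeAlgebra.T hℓ hℓN hℓS) (j v)) :
    ∃ eta₀ : CuspForm.heckeAlgebra N 2 S →+* Module.End 𝒪 V₀,
      (∀ (ℓ : ℕ) (hℓ : ℓ.Prime) (hℓN : ¬ ℓ ∣ N) (hℓS : ℓ ∉ S),
        eta₀ (CuspForm.heckeAlgebra.T hℓ hℓN hℓS) = t₀ ℓ) ∧
      ∀ x v, j (eta₀ x v) = eta x (j v) := by
  have hall : ∀ x : CuspForm.heckeAlgebra N 2 S, ∃ e : Module.End 𝒪 V₀,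
      ∀ v, j (e v) = eta x (j v) := by
    refine hecke_induction hS (fun ℓ hℓ hℓN hℓS => ⟨t₀ ℓ, ht ℓ hℓ hℓN hℓS⟩) (fun n => ?_)
      (fun x y hx hy => ?_) (fun x y hx hy => ?_)
    · refine ⟨(n : Module.End 𝒪 V₀), fun v => ?_⟩
      rw [map_intCast]
      simp only [Module.End.intCast_apply, map_zsmul]
    · obtain ⟨e, he⟩ := hx
      obtain ⟨f, hf⟩ := hy
      refine ⟨e + f, fun v => ?_⟩
      rw [LinearMap.add_apply, map_add, he, hf, map_add, LinearMap.add_apply]
    · obtain ⟨e, he⟩ := hx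
      obtain ⟨f, hf⟩ := hy
      refine ⟨e * f, fun v => ?_⟩
      rw [Module.End.mul_apply, he, hf, map_mul, Module.End.mul_apply]
  choose c hc using hall
  have huniq : ∀ (x : CuspForm.heckeAlgebra N 2 S) (e : Module.End 𝒪 V₀),
      (∀ v, j (e v) = eta x (j v)) → c x = e := by
    intro x e he
    apply LinearMap.ext
    intro v
    apply hj
    rw [hc x v, he v]
  refine ⟨{ toFun := c
            map_one' := huniq 1 1 (fun v => by rw [map_one]; rfl)
            map_mul' := fun x y => huniq _ _ (fun v => by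
              rw [Module.End.mul_apply, hc x, hc y, map_mul, Module.End.mul_apply])
            map_zero' := huniq 0 0 (fun v => by
              rw [map_zero, LinearMap.zero_apply, LinearMap.zero_apply, map_zero])
            map_add' := fun x y => huniq _ _ (fun v => by
              rw [LinearMap.add_apply, map_add, hc x, hc y, map_add, LinearMap.add_apply]) },
    fun ℓ hℓ hℓN hℓS => huniq _ _ (ht ℓ hℓ hℓN hℓS), fun x v => hc x v⟩

end Lattice

section Roots

/-- An algebraically closed field of characteristic zero has enough roots of unity. -/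
theorem hasEnough_of_algClosed (L : Type*) [Field L] [CharZero L] [IsAlgClosed L] (c : ℕ)
    [NeZero c] : HasEnoughRootsOfUnity L (Monoid.exponent (ZMod c)ˣ) := by
  haveI : NeZero (Monoid.exponent (ZMod c)ˣ) := ⟨Monoid.exponent_ne_zero_of_finite⟩
  haveI : NeZero ((Monoid.exponent (ZMod c)ˣ : ℕ) : L) :=
    ⟨Nat.cast_ne_zero.mpr (NeZero.ne _)⟩
  infer_instance

end Roots

end Fermat.Agent.NEB.EIG.H39
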