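import Fermat.Agent.NEB.EIG.H98_MonoDefs
import Fermat.Agent.GTor.H56_Char
import Fermat.Agent.GTor.H81_T2a
import Fermat.Agent.GTor.H75_DescDefs

/-!
# NEB / EIG-MONO, leaves CHAR1 and KCOMP1 (helper34)

Port of `GTor/H56_Char.lean` (helper56) and `GTor/H81_T2a.lean` (helper81) to characters of
`Gam1 M c = Γ₀(M) ∩ Γ₁(c)` and functions in `F_H`.

* `hasChar1_unique`, `hasChar1_mul`, `hasChar1_pow`;
* `stmt_CHAR1_of : Stmt_A1H M c H → Stmt_CHAR1 M c H n`;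
* `hasChar1_reduce` (change of modulus `m ∣ n`), `stmt_KCOMP1 : Stmt_KCOMP1 M c H p`.
-/

set_option autoImplicit false
set_option linter.unusedSectionVars false
set_option linter.unusedVariables false
set_option linter.style.haveILetI false

open UpperHalfPlane ModularForm CongruenceSubgroup ModularCurve AlgebraicCurve
open scoped MatrixGroups ModularForm Manifold

noncomputable section

namespace Fermat.Agent.NEB.EIG.H34

open Fermat.Agent.S23.H22 (Nice)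
open Fermat.Agent.GTor
open Fermat.Agent.GTor.H56 (qLaurent_mul qLaurent_injective qLaurent_eq_zero_iff qLaurent_zero
  qLaurent_pow nice_of_gamma0 zetaPow_zero zetaPow_add zetaPow_pow zetaPow_injective)
open Fermat.Agent.NEB Fermat.Agent.NEB.H84 Fermat.Agent.NEB.EIG.H39 Fermat.Agent.NEB.EIG.H98

variable {M c n : ℕ} {H : Subgroup (ZMod c)ˣ}

/-- A holomorphic function of weight `k`, bounded at the cusps, with multiplier `ζ^φ` under
`Gam1 M c`. -/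
structure IsTw1 (M c n : ℕ) (k : ℤ) (φ : Additive (Gam1 M c) →+ ZMod n) (R : ℍ → ℂ) : Prop where
  mdiff : MDifferentiable 𝓘(ℂ) 𝓘(ℂ) R
  bdd : ∀ σ : SL(2, ℤ), IsBoundedAtImInfty (R ∣[k] σ)
  slash : ∀ γ : Gam1 M c, R ∣[k] (γ : SL(2, ℤ)) = zetaPow n (φ (Additive.ofMul γ)) • R

theorem hasChar1_iff {ι : Kbar →+* ℂ} {f : ↥(FHbar M c H)}
    {φ : Additive (Gam1 M c) →+ ZMod n} :
    HasChar1 M c H n ι f φ ↔ ∃ (k : ℤ) (R : ℍ → ℂ) (B : ModularForm (Gamma0 M) k),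
      IsTw1 M c n k φ R ∧ B ≠ 0 ∧
      qLaurent (fun z => R z ^ n)
        = coeffMap ι (f : LaurentSeries Kbar) * qLaurent (fun z => B z ^ n) := by
  constructor
  · rintro ⟨k, R, B, h1, h2, h3, h4, h5⟩
    exact ⟨k, R, B, ⟨h1, h2, h3⟩, h4, h5⟩
  · rintro ⟨k, R, B, ⟨h1, h2, h3⟩, h4, h5⟩
    exact ⟨k, R, B, h1, h2, h3, h4, h5⟩

theorem Gamma1_le_Gam1 (hc : c ∣ M) : Gamma1 M ≤ Gam1 M c := by
  intro γ hγ
  rw [Gamma1_mem] at hγ
  obtain ⟨h1, h2, h3⟩ := hγ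
  have e1 : (M : ℤ) ∣ γ 1 0 := (ZMod.intCast_zmod_eq_zero_iff_dvd _ _).mp h3
  have e2 : (M : ℤ) ∣ γ 0 0 - 1 := by
    rw [← ZMod.intCast_zmod_eq_zero_iff_dvd]
    push_cast
    rw [h1, sub_self]
  have hcM : (c : ℤ) ∣ (M : ℤ) := Int.natCast_dvd_natCast.mpr hc
  exact ⟨e1, hcM.trans e1, hcM.trans e2⟩

namespace IsTw1

variable {k k₁ k₂ : ℤ} {φ ψ : Additive (Gam1 M c) →+ ZMod n} {R R₁ R₂ : ℍ → ℂ}

theorem mul (h₁ : IsTw1 M c n k₁ φ R₁) (h₂ : IsTw1 M c n k₂ ψ R₂) :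
    IsTw1 M c n (k₁ + k₂) (φ + ψ) (R₁ * R₂) where
  mdiff := h₁.mdiff.mul h₂.mdiff
  bdd σ := by
    rw [mul_slash_SL2]
    exact (h₁.bdd σ).mul (h₂.bdd σ)
  slash γ := by
    rw [mul_slash_SL2, h₁.slash γ, h₂.slash γ]
    funext z
    simp only [Pi.mul_apply, Pi.smul_apply, smul_eq_mul, AddMonoidHom.add_apply]
    rw [zetaPow_add]
    ring

/-- The `n`-th power of a twisted form is a form on `Γ₁(M)`. -/
theorem isW_pow (hc : c ∣ M) (h : IsTw1 M c n k φ R) :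
    IsW M ((n : ℤ) * k) (fun z => R z ^ n) where
  mdiff := by
    have := h.mdiff.pow n
    exact this
  slash γ hγ := by
    rw [Fermat.Agent.GTor.H56.slash_pow_SL, h.slash ⟨γ, Gamma1_le_Gam1 hc hγ⟩]
    funext z
    simp only [Pi.smul_apply, smul_eq_mul, mul_pow]
    rw [zetaPow_pow, one_mul]
  bdd σ := by
    rw [Fermat.Agent.GTor.H56.slash_pow_SL]
    exact Fermat.Agent.GTor.H56.isBoundedAtImInfty_pow (h.bdd σ) n

theorem nice_pow (hc : c ∣ M) (h : IsTw1 M c n k φ R) : Nice 1 (fun z => R z ^ n) :=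
  (h.isW_pow hc).nice

end IsTw1

theorem isTw1_of_isW {k : ℤ} {A : ℍ → ℂ} (hA : IsW M k A)
    (hinv : ∀ γ : Gam1 M c, A ∣[k] (γ : SL(2, ℤ)) = A) : IsTw1 M c n k 0 A where
  mdiff := hA.mdiff
  bdd := hA.bdd
  slash γ := by
    rw [AddMonoidHom.zero_apply, zetaPow_zero, one_smul]
    exact hinv γ

theorem isTw1_of_modularForm [NeZero M] {k : ℤ} (B : ModularForm (Gamma0 M) k) :
    IsTw1 M c n k 0 (B : ℍ → ℂ) :=
  isTw1_of_isW (isW_of_modularForm B) fun γ =>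
    slash_modularForm B (Gam1_le_Gamma0 M c γ.2)

section Char

variable [NeZero M] {ι : Kbar →+* ℂ}

theorem coeffMap_ne_zero {f : ↥(FHbar M c H)} (hf : f ≠ 0) :
    coeffMap ι (f : LaurentSeries Kbar) ≠ 0 := by
  intro h
  apply hf
  apply Subtype.ext
  exact (map_eq_zero_iff (coeffMap ι) (Fermat.Agent.GTor.H75.coeffMap_injective ι)).mp h

theorem qLaurent_modularForm_pow_ne_zero {k : ℤ} {B : ModularForm (Gamma0 M) k} (hB : B ≠ 0)
    (hn : n ≠ 0) : qLaurent (fun z => B z ^ n) ≠ 0 := by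
  rw [qLaurent_pow (nice_of_gamma0 B)]
  apply pow_ne_zero
  rw [Ne, qLaurent_eq_zero_iff (nice_of_gamma0 B)]
  intro h
  exact hB (DFunLike.coe_injective h)

/-- **CHAR1 (1)**: uniqueness of the character. -/
theorem hasChar1_unique (hc : c ∣ M) (hn : n ≠ 0) {f : ↥(FHbar M c H)}
    {φ ψ : Additive (Gam1 M c) →+ ZMod n} (hf : f ≠ 0)
    (h₁ : HasChar1 M c H n ι f φ) (h₂ : HasChar1 M c H n ι f ψ) : φ = ψ := by
  obtain ⟨k₁, R₁, B₁, hR₁, hB₁, e₁⟩ := hasChar1_iff.mp h₁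
  obtain ⟨k₂, R₂, B₂, hR₂, hB₂, e₂⟩ := hasChar1_iff.mp h₂
  have nR₁ := hR₁.nice_pow hc
  have nR₂ := hR₂.nice_pow hc
  have nB₁ : Nice 1 (fun z => B₁ z ^ n) := (nice_of_gamma0 B₁).pow n
  have nB₂ : Nice 1 (fun z => B₂ z ^ n) := (nice_of_gamma0 B₂).pow n
  have hfun : (fun z => R₁ z ^ n) * (fun z => B₂ z ^ n)
      = (fun z => R₂ z ^ n) * (fun z => B₁ z ^ n) := by
    apply qLaurent_injective (nR₁.mul nB₂) (nR₂.mul nB₁)
    rw [qLaurent_mul nR₁ nB₂, qLaurent_mul nR₂ nB₁, e₁, e₂]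
    ring
  have hpow : ∀ τ : ℍ, (R₁ τ * B₂ τ) ^ n = (R₂ τ * B₁ τ) ^ n := by
    intro τ
    have := congrFun hfun τ
    simp only [Pi.mul_apply] at this
    rw [mul_pow, mul_pow, this]
  obtain ⟨ζ, hζ, hζeq⟩ := Fermat.Agent.Lib.NthRoot.exists_root_of_unity_of_pow_eq_uhp hn
    (G₁ := fun τ => R₂ τ * B₁ τ) (G₂ := fun τ => R₁ τ * B₂ τ)
    (hR₂.mdiff.mul B₁.holo') (hR₁.mdiff.mul B₂.holo') hpow
  have hne : ∃ τ₀ : ℍ, R₁ τ₀ * B₂ τ₀ ≠ 0 := by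
    by_contra hcon
    have hcon : ∀ τ : ℍ, R₁ τ * B₂ τ = 0 := fun τ => by
      by_contra h
      exact hcon ⟨τ, h⟩
    have h0 : (fun z => R₁ z ^ n) * (fun z => B₂ z ^ n) = 0 := by
      funext τ
      simp only [Pi.mul_apply, Pi.zero_apply]
      rw [← mul_pow, hcon τ, zero_pow hn]
    have h1 : qLaurent ((fun z => R₁ z ^ n) * (fun z => B₂ z ^ n)) = 0 := by
      rw [h0, qLaurent_zero]
    rw [qLaurent_mul nR₁ nB₂, e₁] at h1
    rcases mul_eq_zero.mp h1 with h2 | h2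
    · rcases mul_eq_zero.mp h2 with h3 | h3
      · exact coeffMap_ne_zero hf h3
      · exact qLaurent_modularForm_pow_ne_zero hB₁ hn h3
    · exact qLaurent_modularForm_pow_ne_zero hB₂ hn h2
  obtain ⟨τ₀, hτ₀⟩ := hne
  apply AddMonoidHom.ext
  intro x
  obtain ⟨γ, rfl⟩ : ∃ γ : Gam1 M c, Additive.ofMul γ = x := ⟨x.toMul, rfl⟩
  apply zetaPow_injective hn
  have s₁ := (hR₁.mul (isTw1_of_modularForm (c := c) (n := n) B₂)).slash γ
  have s₂ := (hR₂.mul (isTw1_of_modularForm (c := c) (n := n) B₁)).slash γ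
  rw [add_zero] at s₁ s₂
  have hFG : (R₁ * (B₂ : ℍ → ℂ)) = fun τ => ζ * (R₂ τ * B₁ τ) := funext hζeq
  have hFG' : (R₁ * (B₂ : ℍ → ℂ)) ∣[k₁ + k₂] (γ : SL(2, ℤ))
      = fun τ => ζ * ((R₂ * (B₁ : ℍ → ℂ)) ∣[k₂ + k₁] (γ : SL(2, ℤ))) τ := by
    rw [hFG, add_comm k₁ k₂]
    exact Fermat.Agent.Lib.NthRoot.const_mul_slash_SL ζ _ _ _
  rw [s₁, s₂] at hFG'
  have := congrFun hFG' τ₀
  simp only [Pi.smul_apply, Pi.mul_apply, smul_eq_mul] at this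
  have hζτ := hζeq τ₀
  have key : (zetaPow n (φ (Additive.ofMul γ)) - zetaPow n (ψ (Additive.ofMul γ)))
      * (R₁ τ₀ * B₂ τ₀) = 0 := by
    rw [sub_mul, this, hζτ]
    ring
  rcases mul_eq_zero.mp key with h | h
  · exact sub_eq_zero.mp h
  · exact absurd h hτ₀

/-- **CHAR1 (2)**: additivity of the character. -/
theorem hasChar1_mul (hc : c ∣ M) {f g : ↥(FHbar M c H)}
    {φ ψ : Additive (Gam1 M c) →+ ZMod n}
    (h₁ : HasChar1 M c H n ι f φ) (h₂ : HasChar1 M c H n ι g ψ) :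
    HasChar1 M c H n ι (f * g) (φ + ψ) := by
  obtain ⟨k₁, R₁, B₁, hR₁, hB₁, e₁⟩ := hasChar1_iff.mp h₁
  obtain ⟨k₂, R₂, B₂, hR₂, hB₂, e₂⟩ := hasChar1_iff.mp h₂
  have nR₁ := hR₁.nice_pow hc
  have nR₂ := hR₂.nice_pow hc
  have nB₁ : Nice 1 (fun z => B₁ z ^ n) := (nice_of_gamma0 B₁).pow n
  have nB₂ : Nice 1 (fun z => B₂ z ^ n) := (nice_of_gamma0 B₂).pow n
  refine hasChar1_iff.mpr ⟨k₁ + k₂, R₁ * R₂, B₁.mul B₂, hR₁.mul hR₂, ?_, ?_⟩
  · intro h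
    have h' : ((B₁.mul B₂ : ModularForm _ _) : ℍ → ℂ) = 0 := by rw [h]; rfl
    have h1 : qLaurent ((B₁ : ℍ → ℂ) * (B₂ : ℍ → ℂ)) = 0 := by
      have : ((B₁.mul B₂ : ModularForm _ _) : ℍ → ℂ) = (B₁ : ℍ → ℂ) * (B₂ : ℍ → ℂ) := rfl
      rw [← this, h', qLaurent_zero]
    rw [qLaurent_mul (nice_of_gamma0 B₁) (nice_of_gamma0 B₂)] at h1
    rcases mul_eq_zero.mp h1 with h2 | h2
    · rw [qLaurent_eq_zero_iff (nice_of_gamma0 B₁)] at h2
      exact hB₁ (DFunLike.coe_injective h2)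
    · rw [qLaurent_eq_zero_iff (nice_of_gamma0 B₂)] at h2
      exact hB₂ (DFunLike.coe_injective h2)
  · have hRR : (fun z => (R₁ * R₂) z ^ n) = (fun z => R₁ z ^ n) * (fun z => R₂ z ^ n) := by
      funext z
      simp only [Pi.mul_apply, mul_pow]
    have hBB : (fun z => (B₁.mul B₂) z ^ n) = (fun z => B₁ z ^ n) * (fun z => B₂ z ^ n) := by
      funext z
      simp only [Pi.mul_apply, ← mul_pow]
      rfl
    have hfg : (((f * g : ↥(FHbar M c H)) : LaurentSeries Kbar)) =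
        (f : LaurentSeries Kbar) * (g : LaurentSeries Kbar) := rfl
    rw [hRR, hBB, qLaurent_mul nR₁ nR₂, qLaurent_mul nB₁ nB₂, e₁, e₂, hfg, map_mul]
    ring

/-- **CHAR1 (3)**: `n`-th powers have trivial character (uses A1-H). -/
theorem hasChar1_pow (hc2 : 2 ≤ c) (hc : c ∣ M) (hA1 : Stmt_A1H M c H)
    (h : ↥(FHbar M c H)) : HasChar1 M c H n ι (h ^ n) 0 := by
  obtain ⟨k, A, B, hA, hB, hinv, e⟩ := hA1 hc2 hc (NeZero.ne M) ι h
  have hA' : IsTw1 M c n k 0 A := isTw1_of_isW hA fun γ => by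
    apply hinv (γ : SL(2, ℤ)) (Gam1_le_Gamma0 M c γ.2)
    have h3 : (c : ℤ) ∣ (γ : SL(2, ℤ)) 0 0 - 1 := γ.2.2.2
    have h4 : ((((γ : SL(2, ℤ)) 0 0 : ℤ)) : ZMod c) = 1 := by
      have := (ZMod.intCast_zmod_eq_zero_iff_dvd _ _).mpr h3
      push_cast at this
      exact sub_eq_zero.mp this
    rw [h4]
    exact ⟨1, H.one_mem, Or.inl (by simp)⟩
  refine hasChar1_iff.mpr ⟨k, A, B, hA', hB, ?_⟩
  have hpow : (((h ^ n : ↥(FHbar M c H)) : LaurentSeries Kbar)) =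
      (h : LaurentSeries Kbar) ^ n := rfl
  rw [qLaurent_pow hA.nice, qLaurent_pow (nice_of_gamma0 B), e, hpow, map_pow, mul_pow]

/-- **CHAR1**, from A1-H. -/
theorem stmt_CHAR1_of (hA1 : Stmt_A1H M c H) : Stmt_CHAR1 M c H n := by
  intro hc2 hc hM hn ι
  haveI : NeZero M := ⟨hM⟩
  exact ⟨fun _ _ _ hf h₁ h₂ => hasChar1_unique hc hn hf h₁ h₂,
    fun _ _ _ _ _ _ h₁ h₂ => hasChar1_mul hc h₁ h₂,
    fun h _ => hasChar1_pow hc2 hc hA1 h⟩

end Char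

/-! ## Change of modulus -/

/-- Reduction of a character modulo `m ∣ n`. -/
theorem hasChar1_reduce {m : ℕ} (hmn : m ∣ n) (hn : n ≠ 0) {ι : Kbar →+* ℂ}
    {f : ↥(FHbar M c H)} {φ : Additive (Gam1 M c) →+ ZMod n} (h : HasChar1 M c H n ι f φ) :
    HasChar1 M c H m ι f ((ZMod.castHom hmn (ZMod m)).toAddMonoidHom.comp φ) := by
  obtain ⟨k, R, B, hmd, hbd, hsl, hB, hq⟩ := h
  have hm : m ≠ 0 := by
    rintro rfl
    exact hn (Nat.eq_zero_of_zero_dvd hmn)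
  have hd : n / m ≠ 0 :=
    (Nat.div_pos (Nat.le_of_dvd (Nat.pos_of_ne_zero hn) hmn) (Nat.pos_of_ne_zero hm)).ne'
  have hpow : ∀ F : ℍ → ℂ, (fun z => (F z ^ (n / m)) ^ m) = fun z => F z ^ n := by
    intro F
    funext z
    rw [← pow_mul, Nat.div_mul_cancel hmn]
  refine ⟨((n / m : ℕ) : ℤ) * k, fun z => R z ^ (n / m), B.pow (n / m), ?_, ?_, ?_, ?_, ?_⟩
  · have := hmd.pow (n / m)
    exact this
  · intro σ
    rw [Fermat.Agent.GTor.H56.slash_pow_SL]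
    exact Fermat.Agent.GTor.H56.isBoundedAtImInfty_pow (hbd σ) (n / m)
  · intro γ
    rw [Fermat.Agent.GTor.H56.slash_pow_SL, hsl γ]
    funext z
    simp only [Pi.smul_apply, smul_eq_mul, mul_pow, AddMonoidHom.coe_comp, Function.comp_apply,
      RingHom.toAddMonoidHom_eq_coe, AddMonoidHom.coe_coe]
    rw [Fermat.Agent.GTor.H81.zetaPow_pow_div hmn hn]
  · intro h0
    apply hB
    have h1 : ∀ z, (B : ℍ → ℂ) z ^ (n / m) = 0 := fun z => by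
      have h2 := congrArg (fun F : ModularForm (Gamma0 M) _ => (F : ℍ → ℂ) z) h0
      have h3 : (B.pow (n / m) : ℍ → ℂ) z = (B : ℍ → ℂ) z ^ (n / m) := by
        rw [ModularForm.coe_pow]
        rfl
      rw [← h3]
      exact h2
    ext z
    exact pow_eq_zero_iff hd |>.1 (h1 z)
  · have e1 : (fun z => (B.pow (n / m) : ℍ → ℂ) z ^ m) = fun z => (B : ℍ → ℂ) z ^ n := by
      rw [← hpow B]
      funext z
      rw [ModularForm.coe_pow]
      rfl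
    rw [hpow R, e1]
    exact hq

/-- **KCOMP1.** -/
theorem stmt_KCOMP1 (M c : ℕ) (H : Subgroup (ZMod c)ˣ) (p : ℕ) : Stmt_KCOMP1 M c H p := by
  intro hp ι k f φ _ h
  exact hasChar1_reduce (pow_dvd_pow p (Nat.le_succ k)) (pow_ne_zero _ hp) h

end Fermat.Agent.NEB.EIG.H34
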