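import Fermat.Agent.NEB.EIG.H98_MonoDefs
import Fermat.Agent.NEB.EIG.H98_A1H
import Fermat.Agent.NEB.EIG.H34_Char1

/-!
# NEB / EIG, leaf MONO-DIAM1 (helper12)

If `f ∈ F_H` has character `φ` (root `R`, `ι f = (R / B)ⁿ`), then `⟨d⟩ f = ρ(d) f` has character
`φ ∘ conj_g` for `g ∈ Γ₀(M)` with `a_g ≡ d mod c`: the root is `R ∣ g`.

* `rho_eq_actHom` : `dd.ρ d = actHom ⟨g, _⟩` (any `DiamondData`);
* `isTw1_slash` : `R ∣ g` has multiplier `ζ^(φ ∘ conj_g)`;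
* `stmt_DIAM1 : Stmt_DIAM1 M c H n`.
-/

set_option autoImplicit false
set_option linter.unusedSectionVars false
set_option linter.unusedVariables false
set_option linter.style.haveILetI false

open UpperHalfPlane ModularForm CongruenceSubgroup ModularCurve AlgebraicCurve
open Matrix.SpecialLinearGroup
open scoped MatrixGroups ModularForm Manifold

noncomputable section

namespace Fermat.Agent.NEB.EIG.H12

open Fermat.Agent.S23.H22 (Nice)
open Fermat.Agent.GTor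
open Fermat.Agent.GTor.H56 (qLaurent_mul qLaurent_injective qLaurent_eq_zero_iff qLaurent_zero
  qLaurent_pow nice_of_gamma0 zetaPow_zero zetaPow_add zetaPow_pow zetaPow_injective)
open Fermat.Agent.NEB Fermat.Agent.NEB.JH Fermat.Agent.NEB.H84 Fermat.Agent.NEB.EIG.H39
  Fermat.Agent.NEB.EIG.H98 Fermat.Agent.NEB.EIG.H34

variable {M c n : ℕ} {H : Subgroup (ZMod c)ˣ}

/-- Any diamond datum is the analytic action: `dd.ρ d = actHom g` for `g ∈ Γ₀(M)`,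
`a_g ≡ d mod c`. -/
theorem rho_eq_actHom [NeZero M] (ι : Kbar →+* ℂ) (hc2 : 2 ≤ c) (hc : c ∣ M)
    (dd : DiamondData M c H) (d : (ZMod c)ˣ) {g : SL(2, ℤ)} (hg : g ∈ Gamma0 M)
    (hgd : ((g 0 0 : ℤ) : ZMod c) = (d : ZMod c)) (x : ↥(FHbar M c H)) :
    dd.ρ d x = actHom H ι hc2 hc ⟨g, hg⟩ x := by
  have hd : (dUnit hc g hg)⁻¹ = d := by
    apply Units.ext
    rw [← hgd]
    rfl
  rw [actHom_eq_rho]
  show dd.ρ d x = rhoHom H ι hc2 hc (dUnit hc g hg)⁻¹ x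
  rw [hd]
  have key := Fermat.Agent.NEB.H84.ringHom_ext_FHbar H
    ((dd.ρ d : ↥(FHbar M c H) ≃ₐ[Kbar] ↥(FHbar M c H)) : ↥(FHbar M c H) →+* ↥(FHbar M c H))
    ((rhoHom H ι hc2 hc d : ↥(FHbar M c H) →ₐ[Kbar] ↥(FHbar M c H)) :
      ↥(FHbar M c H) →+* ↥(FHbar M c H))
    ?_ ?_ ?_
  · exact congrArg (fun f : ↥(FHbar M c H) →+* ↥(FHbar M c H) => f x) key
  · intro a
    simp only [RingHom.coe_coe, AlgEquiv.commutes, AlgHom.commutes]
  · intro y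
    simp only [RingHom.coe_coe]
    rw [dd.fix, rhoHom_incl]
  · intro a
    simp only [RingHom.coe_coe]
    rw [dd.gen, rhoHom_gen]

/-- `conjEnd` of `g ∈ Γ₀(M)` on `Gam1 M c` is conjugation by `g` in `SL(2, ℤ)`. -/
theorem coe_conjEnd_gam0 (hc : c ∣ M) {g : SL(2, ℤ)} (hg : (M : ℤ) ∣ g 1 0) (γ : Gam1 M c) :
    ((conjEnd (inc_injective (Gam1 M c)) ⟨mapGL ℝ g, gam0_mem_Nrm hc hg⟩ γ : Gam1 M c) :
      SL(2, ℤ)) = g * (γ : SL(2, ℤ)) * g⁻¹ := by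
  apply Betti.mapGL_real_injective
  have h := e_conjEnd (inc_injective (Gam1 M c)) ⟨mapGL ℝ g, gam0_mem_Nrm hc hg⟩ γ
  rw [inc_apply, inc_apply] at h
  rw [h, map_mul, map_mul, map_inv]

/-- the root `R ∣ g` has multiplier `ζ^(φ ∘ conj_g)`. -/
theorem isTw1_slash (hc : c ∣ M) {k : ℤ} {φ : Additive (Gam1 M c) →+ ZMod n} {R : ℍ → ℂ}
    (hR : IsTw1 M c n k φ R) {g : SL(2, ℤ)} (hg : (M : ℤ) ∣ g 1 0) :
    IsTw1 M c n k (Dadd hc g hg φ) (R ∣[k] g) where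
  mdiff := by
    rw [SL_slash]
    exact hR.mdiff.slash k _
  bdd σ := by
    rw [← SlashAction.slash_mul]
    exact hR.bdd (g * σ)
  slash γ := by
    have h1 : g * (γ : SL(2, ℤ)) = (g * (γ : SL(2, ℤ)) * g⁻¹) * g := by group
    have h2 : Dadd hc g hg φ (Additive.ofMul γ)
        = φ (Additive.ofMul (conjEnd (inc_injective (Gam1 M c))
            ⟨mapGL ℝ g, gam0_mem_Nrm hc hg⟩ γ)) := rfl
    rw [← SlashAction.slash_mul, h1, SlashAction.slash_mul, ← coe_conjEnd_gam0 hc hg γ,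
      hR.slash, h2]
    funext z
    simp only [SL_slash_apply, Pi.smul_apply, smul_eq_mul]
    ring

/-- **MONO-DIAM1**. -/
theorem stmt_DIAM1 (M c : ℕ) (H : Subgroup (ZMod c)ˣ) (n : ℕ) : Stmt_DIAM1 M c H n := by
  intro hc2 hc hM hn ι dd d g hg hgd f φ hf hchar
  haveI : NeZero M := ⟨hM⟩
  have hg0 : g ∈ Gamma0 M := Betti.mem_Gamma0_of_dvd hg
  obtain ⟨k, R, B, hR, hB0, e⟩ := hasChar1_iff.mp hchar
  have hA : IsW M ((n : ℤ) * k) (fun z => R z ^ n) := hR.isW_pow hc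
  have hBtw : IsTw1 M c n k 0 (B : ℍ → ℂ) := isTw1_of_modularForm B
  have hB : IsW M ((n : ℤ) * k) (fun z => B z ^ n) := hBtw.isW_pow hc
  have hBne : (fun z => B z ^ n) ≠ 0 := by
    intro h0
    have h1 := qLaurent_modularForm_pow_ne_zero (M := M) (n := n) hB0 hn
    rw [h0] at h1
    exact h1 qLaurent_zero
  have hrel := actHom_rel H ι hc2 hc ⟨g, hg0⟩ f
  have h2 := rel_slash_of_rep hg0 hrel hA hB hBne e
  rw [Fermat.Agent.GTor.H56.slash_pow_SL, Fermat.Agent.GTor.H56.slash_pow_SL,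
    slash_modularForm B hg0] at h2
  rw [rho_eq_actHom ι hc2 hc dd d hg0 hgd f]
  exact hasChar1_iff.mpr ⟨k, R ∣[k] g, B, isTw1_slash hc hR hg, hB0, h2⟩

end Fermat.Agent.NEB.EIG.H12
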