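import Fermat.Agent.NEB.EIG.H98_MonoDefs
import Fermat.Agent.GTor.H33_KUM

/-!
# NEB / EIG, leaf MONO-KUM1 (helper12)

Every `n`-torsion class of `J_H` is `[D]` with `n D = div f`; and a class `[D]` with
`n D = div f`, `f ^ m = h ^ n`, is killed by `m` (`m D = div h`).
-/

set_option autoImplicit false

noncomputable section

namespace Fermat.Agent.NEB.EIG.H12

open AlgebraicCurve Fermat.Agent.GTor

/-- the general Kummer statement, for any function field. -/
theorem kum1_general {K F : Type*} [Field K] [Field F] [Algebra K F] {n : ℕ} (hn : n ≠ 0) :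
    (∀ x : Pic0 K F, (n : ℤ) • x = 0 →
      ∃ (D : Divisor.degZero (K := K) (F := F)) (f : F),
        f ≠ 0 ∧ x = Pic0.mk D ∧
        ∀ v : Place K F, (n : ℤ) * (D : Divisor K F) v = v.ord f) ∧
    (∀ (D : Divisor.degZero (K := K) (F := F)) (f h : F) (m : ℕ),
        f ≠ 0 →
        (∀ v : Place K F, (n : ℤ) * (D : Divisor K F) v = v.ord f) →
        f ^ m = h ^ n → (m : ℤ) • (Pic0.mk D : Pic0 K F) = 0) := by
  constructor
  · intro x hx
    obtain ⟨D, rfl⟩ := Pic0.mk_surjective x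
    have h : (n : ℤ) • Pic0.mk D = Pic0.mk ((n : ℤ) • D) := rfl
    rw [h, H33.mk_eq_zero_iff] at hx
    obtain ⟨f, hf0, hf⟩ := hx
    refine ⟨D, f, hf0, rfl, fun v => ?_⟩
    rw [← hf v]
    show _ = ((n : ℤ) • (D : Divisor K F)) v
    rw [Finsupp.smul_apply, smul_eq_mul]
  · intro D f h m hf0 hD hfh
    have hh0 : h ≠ 0 := by
      rintro rfl
      rw [zero_pow hn] at hfh
      exact hf0 (eq_zero_of_pow_eq_zero hfh)
    have h1 : (m : ℤ) • Pic0.mk D = Pic0.mk ((m : ℤ) • D) := rfl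
    rw [h1, H33.mk_eq_zero_iff]
    refine ⟨h, hh0, fun v => ?_⟩
    show ((m : ℤ) • (D : Divisor K F)) v = _
    rw [Finsupp.smul_apply, smul_eq_mul]
    have h2 : (n : ℤ) * ((m : ℤ) * (D : Divisor K F) v) = (n : ℤ) * v.ord h := by
      have h3 : v.ord (f ^ m) = v.ord (h ^ n) := by rw [hfh]
      rw [← zpow_natCast, ← zpow_natCast, v.ord_zpow, v.ord_zpow] at h3
      rw [← h3, ← hD v]
      ring
    exact mul_left_cancel₀ (Int.natCast_ne_zero.mpr hn) h2

/-- **MONO-KUM1**. -/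
theorem stmt_KUM1 (M c : ℕ) (H : Subgroup (ZMod c)ˣ) (n : ℕ) : H98.Stmt_KUM1 M c H n := by
  intro _ _ _ hn
  exact kum1_general hn

end Fermat.Agent.NEB.EIG.H12
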