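import Fermat.Agent.NEB.EIG.H34_Char1
import Fermat.Agent.GTor.H76_HKan

/-!
# NEB / EIG-MONO, leaf HK1, part (a) (helper34): the Hecke product of a twisted form

`heckeProdD k M ℓ R = ∏_{x ∈ P¹(𝔽_ℓ)} R ∣[k] repD M ℓ x` (representatives of helper39's family).

* `heckeProdD_eq`      : `= (∏_{j<ℓ} (R ∣[k] κ) ∣[k] [1,j;0,ℓ]) * R ∣[k] [ℓ,0;0,1]`, `κ = kappaSL M ℓ`;
* `isTw1_heckeProdD`   : multiplier `ζ^(TDadd φ)` under `Gam1 M c`, weight `k (ℓ + 1)`;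
* `heckeProdD_of_invariant` : for `Γ₀(M)`-invariant `B` it is GTor's `heckeProd k ℓ B`
  (so `B' = GTor.H76.heckeProdForm hℓ hℓM B`);
* `heckeProdD_pow`     : `heckeProdD (n k) (Rⁿ) = ℓ^((n-1)(ℓ+1)) • (heckeProdD k R)ⁿ`;
* `hasChar1_heckeProdD`: packaging for `HasChar1`.
-/

set_option autoImplicit false
set_option linter.unusedSectionVars false
set_option linter.unusedVariables false
set_option linter.style.haveILetI false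

open UpperHalfPlane ModularForm CongruenceSubgroup ModularCurve AlgebraicCurve
  Matrix.SpecialLinearGroup
open scoped MatrixGroups ModularForm Manifold OnePoint
open P2MW.S_ModularForm_heckeT_slash_eq_self_of_mem_Gamma0.ModularForm.HeckeSlashInvariance

noncomputable section

namespace Fermat.Agent.NEB.EIG.H34

open Fermat.Agent.S23.H22 (Nice)
open Fermat.Agent.GTor Fermat.Agent.Betti
open Fermat.Agent.GTor.H76 (heckeProd heckeProd_eq_prod_onePoint heckeRep_apply_one_zero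
  smul_slash_heckeRep slash_mapGL prod_slash_mapGL zetaPow_sum prod_smul_fun card_onePoint_zmod
  prod_range_eq_prod_zmod)
open Fermat.Agent.NEB Fermat.Agent.NEB.H84 Fermat.Agent.NEB.EIG.H39 Fermat.Agent.NEB.EIG.H98

/-- The product of the slashes of `R` by the representatives `repD M ℓ x`. -/
def heckeProdD (k : ℤ) (M ℓ : ℕ) [NeZero ℓ] (R : ℍ → ℂ) : ℍ → ℂ :=
  ∏ x : OnePoint (ZMod ℓ), R ∣[k] repD M ℓ x

/-- The two-function Hecke product `(∏_{j<ℓ} R' ∣[k] [1,j;0,ℓ]) * R ∣[k] [ℓ,0;0,1]`. -/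
def heckeProd2 (k : ℤ) (ℓ : ℕ) (R' R : ℍ → ℂ) : ℍ → ℂ :=
  (∏ j ∈ Finset.range ℓ, R' ∣[k] heckeMatrix ℓ j) * R ∣[k] heckeDiagMatrix ℓ

theorem heckeProd2_self (k : ℤ) (ℓ : ℕ) (R : ℍ → ℂ) : heckeProd2 k ℓ R R = heckeProd k ℓ R := rfl

theorem heckeProdD_eq (k : ℤ) (M ℓ : ℕ) [NeZero ℓ] (R : ℍ → ℂ) :
    heckeProdD k M ℓ R = heckeProd2 k ℓ (R ∣[k] kappaSL M ℓ) R := by
  rw [heckeProdD, heckeProd2, prod_range_eq_prod_zmod, mul_comm]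
  refine (Fintype.prod_option (fun x : OnePoint (ZMod ℓ) ↦ R ∣[k] repD M ℓ x)).trans ?_
  congr 1
  refine Finset.prod_congr rfl fun j _ => ?_
  show R ∣[k] (mapGL ℝ (kappaSL M ℓ) * heckeMatrix ℓ j.val) = _
  rw [SlashAction.slash_mul]
  rfl

theorem heckeProd2_apply (k : ℤ) {ℓ : ℕ} (hℓ : ℓ ≠ 0) (R' R : ℍ → ℂ) (τ : ℍ) :
    heckeProd2 k ℓ R' R τ = (∏ j ∈ Finset.range ℓ, ((ℓ : ℂ)⁻¹ * R' (heckeMatrix ℓ j • τ)))
      * ((ℓ : ℂ) ^ (k - 1) * R (heckeDiagMatrix ℓ • τ)) := by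
  simp only [heckeProd2, Pi.mul_apply, Finset.prod_apply, slash_heckeMatrix_apply k hℓ,
    slash_heckeDiagMatrix_apply k hℓ]

theorem heckeProd2_pow (k : ℤ) {ℓ : ℕ} (hℓ : ℓ ≠ 0) (n : ℕ) (R' R : ℍ → ℂ) :
    heckeProd2 ((n : ℤ) * k) ℓ (fun z => R' z ^ n) (fun z => R z ^ n)
      = (((ℓ : ℂ) ^ ((n : ℤ) - 1)) ^ (ℓ + 1)) • fun z => heckeProd2 k ℓ R' R z ^ n := by
  have hℓ' : (ℓ : ℂ) ≠ 0 := by exact_mod_cast hℓ
  funext τ
  rw [Pi.smul_apply, heckeProd2_apply _ hℓ, heckeProd2_apply _ hℓ, smul_eq_mul]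
  have hA : ∏ j ∈ Finset.range ℓ, ((ℓ : ℂ)⁻¹ * R' (heckeMatrix ℓ j • τ) ^ n)
      = ((ℓ : ℂ)⁻¹) ^ ℓ * (∏ j ∈ Finset.range ℓ, R' (heckeMatrix ℓ j • τ)) ^ n := by
    rw [Finset.prod_mul_distrib, Finset.prod_const, Finset.card_range, Finset.prod_pow]
  have hB : ∏ j ∈ Finset.range ℓ, ((ℓ : ℂ)⁻¹ * R' (heckeMatrix ℓ j • τ))
      = ((ℓ : ℂ)⁻¹) ^ ℓ * ∏ j ∈ Finset.range ℓ, R' (heckeMatrix ℓ j • τ) := by
    rw [Finset.prod_mul_distrib, Finset.prod_const, Finset.card_range]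
  rw [hA, hB]
  exact Fermat.Agent.GTor.H76.heckeProd_pow_aux _ hℓ' _ _ _ _ _

/-- `heckeProdD (n k) (Rⁿ) = ℓ^((n-1)(ℓ+1)) • (heckeProdD k R)ⁿ`. -/
theorem heckeProdD_pow (k : ℤ) (M ℓ : ℕ) [NeZero ℓ] (n : ℕ) (R : ℍ → ℂ) :
    heckeProdD ((n : ℤ) * k) M ℓ (fun z => R z ^ n)
      = (((ℓ : ℂ) ^ ((n : ℤ) - 1)) ^ (ℓ + 1)) • fun z => heckeProdD k M ℓ R z ^ n := by
  rw [heckeProdD_eq, heckeProdD_eq, Fermat.Agent.GTor.H56.slash_pow_SL,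
    heckeProd2_pow k (NeZero.ne ℓ)]

/-- The slash of `heckeProdD` by an element of `SL₂(ℤ)`. -/
theorem heckeProdD_slash (k : ℤ) (M ℓ : ℕ) [NeZero ℓ] (R : ℍ → ℂ) (γ : SL(2, ℤ)) :
    (heckeProdD k M ℓ R) ∣[k * ((ℓ : ℤ) + 1)] γ
      = ∏ x : OnePoint (ZMod ℓ), R ∣[k] (repD M ℓ x * mapGL ℝ γ) := by
  rw [heckeProdD, ← slash_mapGL, ← card_onePoint_zmod, prod_slash_mapGL]
  refine Finset.prod_congr rfl fun x _ => ?_
  rw [SlashAction.slash_mul]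

theorem mdifferentiable_heckeProdD (k : ℤ) (M ℓ : ℕ) [NeZero ℓ] {R : ℍ → ℂ}
    (hR : MDifferentiable 𝓘(ℂ) 𝓘(ℂ) R) : MDifferentiable 𝓘(ℂ) 𝓘(ℂ) (heckeProdD k M ℓ R) := by
  rw [heckeProdD]
  exact MDifferentiable.prod fun j _ => hR.slash k _

theorem smul_slash_repD (k : ℤ) {M ℓ : ℕ} (hℓ : ℓ.Prime) (hℓM : ¬ ℓ ∣ M)
    (x : OnePoint (ZMod ℓ)) (a : ℂ) (F : ℍ → ℂ) :
    (a • F) ∣[k] repD M ℓ x = a • (F ∣[k] repD M ℓ x) := by
  obtain ⟨ε, -, hx⟩ := stmt_FAM_std M ℓ hℓ hℓM x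
  rw [hx, SlashAction.slash_mul, SlashAction.slash_mul, slash_mapGL, slash_mapGL,
    ModularForm.SL_smul_slash, smul_slash_heckeRep]

section Twisted

variable {M c n : ℕ} {k : ℤ} {φ : Additive (Gam1 M c) →+ ZMod n} {R : ℍ → ℂ}

/-- **HK1 (a)**: the Hecke product of a twisted form is a twisted form with multiplier
`ζ^(T_ℓ^D φ)`. -/
theorem isTw1_heckeProdD (hc : c ∣ M) {ℓ : ℕ} (hℓ : ℓ.Prime) (hℓM : ¬ ℓ ∣ M)
    (h : IsTw1 M c n k φ R) :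
    haveI : NeZero ℓ := ⟨hℓ.ne_zero⟩
    IsTw1 M c n (k * ((ℓ : ℤ) + 1)) (TDadd M c hc hℓ hℓM φ) (heckeProdD k M ℓ R) := by
  haveI : Fact ℓ.Prime := ⟨hℓ⟩
  haveI : NeZero ℓ := ⟨hℓ.ne_zero⟩
  refine ⟨mdifferentiable_heckeProdD k M ℓ h.mdiff, fun σ => ?_, fun γ => ?_⟩
  · -- bounded at the cusps
    rw [heckeProdD_slash]
    have hb : ∀ x : OnePoint (ZMod ℓ),
        IsBoundedAtImInfty (R ∣[k] (repD M ℓ x * mapGL ℝ σ)) := by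
      intro x
      obtain ⟨ε, -, hx⟩ := stmt_FAM_std M ℓ hℓ hℓM x
      obtain ⟨g', -, hg'⟩ := heckeRep_mul (N := 1) (p := ℓ) hℓ.not_dvd_one σ (by simp) x
      rw [hx, mul_assoc, hg', ← mul_assoc, ← map_mul, SlashAction.slash_mul, slash_mapGL]
      exact (h.bdd (ε * g')).slash k (heckeRep_apply_one_zero ℓ _)
    rw [IsBoundedAtImInfty]
    exact Filter.BoundedAtFilter.prod _ fun x _ => hb x
  · -- the multiplier
    set HF := stmt_FAM_hecke M c ℓ hc hℓ hℓM with hHF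
    rw [heckeProdD_slash]
    have hT : (TDadd M c hc hℓ hℓM φ) (Additive.ofMul γ)
        = ∑ x : OnePoint (ZMod ℓ), φ (Additive.ofMul (HF.kap γ x)) := rfl
    rw [hT, zetaPow_sum]
    have hterm : ∀ x : OnePoint (ZMod ℓ),
        R ∣[k] (repD M ℓ x * mapGL ℝ (γ : SL(2, ℤ)))
          = zetaPow n (φ (Additive.ofMul (HF.kap γ x))) • (R ∣[k] repD M ℓ (HF.perm γ x)) := by
      intro x
      have h1 := HF.rep_mul γ x
      rw [inc_apply, inc_apply] at h1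
      have h2 : R ∣[k] mapGL ℝ ((HF.kap γ x : Gam1 M c) : SL(2, ℤ))
          = zetaPow n (φ (Additive.ofMul (HF.kap γ x))) • R := h.slash (HF.kap γ x)
      rw [h1, SlashAction.slash_mul, h2, smul_slash_repD k hℓ hℓM]
    rw [Finset.prod_congr rfl fun x _ => hterm x, prod_smul_fun, heckeProdD]
    congr 1
    exact Equiv.prod_comp (HF.permEquiv (inc_injective _) γ)
      (fun x => R ∣[k] repD M ℓ x)

end Twisted

section Form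

variable {M : ℕ} [NeZero M] {k : ℤ} {ℓ : ℕ}

/-- For a `Γ₀(M)`-invariant function the product over `repD` is GTor's `heckeProd`. -/
theorem heckeProdD_of_invariant [NeZero ℓ] (hℓ : ℓ.Prime) (hℓM : ¬ ℓ ∣ M) {B : ℍ → ℂ}
    (hB : ∀ ε : SL(2, ℤ), ε ∈ Gamma0 M → B ∣[k] ε = B) :
    heckeProdD k M ℓ B = heckeProd k ℓ B := by
  rw [heckeProdD, heckeProd_eq_prod_onePoint]
  refine Finset.prod_congr rfl fun x _ => ?_
  obtain ⟨ε, hε, hx⟩ := stmt_FAM_std M ℓ hℓ hℓM x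
  rw [hx, SlashAction.slash_mul, slash_mapGL, hB ε hε]

theorem heckeProdD_modularForm [NeZero ℓ] (hℓ : ℓ.Prime) (hℓM : ¬ ℓ ∣ M)
    (B : ModularForm (Gamma0 M) k) :
    heckeProdD k M ℓ (B : ℍ → ℂ) = (Fermat.Agent.GTor.H76.heckeProdForm hℓ hℓM B : ℍ → ℂ) := by
  rw [Fermat.Agent.GTor.H76.coe_heckeProdForm]
  exact heckeProdD_of_invariant hℓ hℓM fun ε hε => slash_modularForm B hε

end Form

/-- **Packaging for `HasChar1`**: if `ι f = (R / B)ⁿ` and `g` is the ratio of the `q`-expansions of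
`(heckeProdD R)ⁿ` and `(heckeProdD B)ⁿ`, then `g` has character `T_ℓ^D φ`. -/
theorem hasChar1_heckeProdD {M c n : ℕ} [NeZero M] {H : Subgroup (ZMod c)ˣ} (hc : c ∣ M) {k : ℤ}
    {ℓ : ℕ} (hℓ : ℓ.Prime) (hℓM : ¬ ℓ ∣ M) {ι : Kbar →+* ℂ}
    {φ : Additive (Gam1 M c) →+ ZMod n} {R : ℍ → ℂ} (hR : IsTw1 M c n k φ R)
    {B : ModularForm (Gamma0 M) k} (hB : B ≠ 0) (g : ↥(FHbar M c H))
    (hq : haveI : NeZero ℓ := ⟨hℓ.ne_zero⟩
      qLaurent (fun z => heckeProdD k M ℓ R z ^ n)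
        = coeffMap ι (g : LaurentSeries Kbar) *
          qLaurent (fun z => heckeProdD k M ℓ (B : ℍ → ℂ) z ^ n)) :
    HasChar1 M c H n ι g (TDadd M c hc hℓ hℓM φ) := by
  haveI : NeZero ℓ := ⟨hℓ.ne_zero⟩
  refine hasChar1_iff.mpr ⟨k * ((ℓ : ℤ) + 1), heckeProdD k M ℓ R,
    Fermat.Agent.GTor.H76.heckeProdForm hℓ hℓM B, isTw1_heckeProdD hc hℓ hℓM hR,
    Fermat.Agent.GTor.H76.heckeProdForm_ne_zero hℓ hℓM hB, ?_⟩
  rw [← heckeProdD_modularForm hℓ hℓM B]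
  exact hq

end Fermat.Agent.NEB.EIG.H34
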