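import Fermat.Agent.Betti.Family
import Fermat.Agent.S41.H19_Transfer

/-!
# NEB / EIG (helper39): abstract lemmas for Betti twisting

* `heckeOp_intertwine` : the general intertwining lemma for transfer-type Hecke operators
  (two groups, two families, two "conjugations" `a`, `b` with `rep₁ i * b = e₁ (ε i) * a * rep₂ (π i)`).
  Special cases: restriction to a subgroup (`a = b = 1`), conjugation by an element normalising
  the group, the relation `T ∘ α_{u} = α_{ℓ u} ∘ T` for the twisting operators.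
* `exists_extension` : a homomorphism on a normal subgroup of finite index which is invariant under
  conjugation extends, up to the index, to the whole group (transfer).
* `jacobi_sum_zmod`, `twist_eq_zero_imp_fixed` : if `∑_u χ(u)⁻¹ A^u w = 0` for a nontrivial
  character `χ` mod a prime `q` and an operator `A` with `A^q = 1`, then `A w = w`.
-/

set_option autoImplicit false

namespace Fermat.Agent.NEB.EIG.H39

open Finset Fermat.Agent.Betti

section Intertwine

variable {Γ₁ Γ₂ G : Type*} [Group Γ₁] [Group Γ₂] [Group G]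
  {e₁ : Γ₁ →* G} {e₂ : Γ₂ →* G}
  {ι₁ ι₂ : Type*} [Fintype ι₁] [Fintype ι₂]
  {rep₁ : ι₁ → G} {rep₂ : ι₂ → G}
  (H₁ : IsHeckeFamily e₁ rep₁) (H₂ : IsHeckeFamily e₂ rep₂)
  {A : Type*} [AddCommGroup A]

/-- **General intertwining lemma.**  If `θa, θb : Γ₂ → Γ₁` are "conjugation by `a`, `b`"
and `rep₁ i * b = e₁ (ε i) * a * rep₂ (π i)`, then `(T₁ φ) ∘ θb = T₂ (φ ∘ θa)`. -/
theorem heckeOp_intertwine (he₁ : Function.Injective e₁) (he₂ : Function.Injective e₂)
    (a b : G) (θa θb : Γ₂ →* Γ₁)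
    (hθa : ∀ γ, e₁ (θa γ) * a = a * e₂ γ)
    (hθb : ∀ γ, e₁ (θb γ) * b = b * e₂ γ)
    (π : ι₁ ≃ ι₂) (ε : ι₁ → Γ₁)
    (hrep : ∀ i, rep₁ i * b = e₁ (ε i) * a * rep₂ (π i))
    (φ : Additive Γ₁ →+ A) :
    (H₁.heckeOp he₁ φ).comp (MonoidHom.toAdditive θb) =
      H₂.heckeOp he₂ (φ.comp (MonoidHom.toAdditive θa)) := by
  refine AddMonoidHom.ext fun γ => ?_
  obtain ⟨γ, rfl⟩ : ∃ g : Γ₂, Additive.ofMul g = γ := ⟨Additive.toMul γ, rfl⟩
  show ∑ i, φ (Additive.ofMul (H₁.kap (θb γ) i)) = ∑ j, φ (Additive.ofMul (θa (H₂.kap γ j)))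
  -- the permutation `i ↦ π⁻¹ (σ₂ (π i))`
  let τ : Equiv.Perm ι₁ := (π.trans (H₂.permEquiv he₂ γ)).trans π.symm
  have hτ : ∀ i, π (τ i) = H₂.perm γ (π i) := fun i => by simp [τ]
  have key : ∀ i, H₁.kap (θb γ) i = ε i * θa (H₂.kap γ (π i)) * (ε (τ i))⁻¹ := by
    intro i
    have h1 : rep₁ i * e₁ (θb γ) = rep₁ i * b * e₂ γ * b⁻¹ := by
      have := hθb γ
      have h' : e₁ (θb γ) = b * e₂ γ * b⁻¹ := by rw [← this]; group
      rw [h']; group
    have h2 : rep₂ (H₂.perm γ (π i)) * b⁻¹ = a⁻¹ * (e₁ (ε (τ i)))⁻¹ * rep₁ (τ i) := by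
      have := hrep (τ i)
      rw [hτ i] at this
      have h' : rep₁ (τ i) = e₁ (ε (τ i)) * a * rep₂ (H₂.perm γ (π i)) * b⁻¹ := by
        rw [← this]; group
      rw [h']; group
    have h3 : rep₁ i * e₁ (θb γ)
        = e₁ (ε i * θa (H₂.kap γ (π i)) * (ε (τ i))⁻¹) * rep₁ (τ i) := by
      rw [h1, hrep i]
      have h4 : e₁ (ε i) * a * rep₂ (π i) * e₂ γ * b⁻¹
          = e₁ (ε i) * a * (rep₂ (π i) * e₂ γ) * b⁻¹ := by group
      rw [h4, H₂.rep_mul γ (π i)]
      have h5 : e₁ (ε i) * a * (e₂ (H₂.kap γ (π i)) * rep₂ (H₂.perm γ (π i))) * b⁻¹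
          = e₁ (ε i) * (a * e₂ (H₂.kap γ (π i))) * (rep₂ (H₂.perm γ (π i)) * b⁻¹) := by group
      rw [h5, ← hθa, h2, map_mul, map_mul, map_inv]
      group
    exact ((H₁.unique he₁ h3).2).symm
  have hterm : ∀ i, φ (Additive.ofMul (H₁.kap (θb γ) i))
      = φ (Additive.ofMul (θa (H₂.kap γ (π i)))) + φ (Additive.ofMul (ε i))
        - φ (Additive.ofMul (ε (τ i))) := by
    intro i
    rw [key i]
    simp only [ofMul_mul, ofMul_inv, map_add, map_neg]
    abel
  simp only [hterm, sum_add_distrib, sum_sub_distrib]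
  have hperm : ∑ i, φ (Additive.ofMul (ε (τ i))) = ∑ i, φ (Additive.ofMul (ε i)) :=
    Equiv.sum_comp τ (fun i => φ (Additive.ofMul (ε i)))
  rw [hperm, add_sub_cancel_right]
  exact Equiv.sum_comp π (fun j => φ (Additive.ofMul (θa (H₂.kap γ j))))

end Intertwine

section Extension

open Fermat.Agent.S41 Fermat.Agent.S41.H19

variable {Γ' Γ : Type*} [Group Γ'] [Group Γ] {A : Type*} [AddCommGroup A]

/-- A homomorphism on a normal subgroup of finite index, invariant under conjugation, extends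
(up to the index) to the whole group: `Φ ∘ ι = index • w`. -/
theorem exists_extension (ι : Γ' →* Γ) (hι : Function.Injective ι)
    [hfin : ι.range.FiniteIndex]
    (hnorm : ∀ (g : Γ) (h : Γ'), ∃ h' : Γ', ι h' = g⁻¹ * ι h * g)
    (w : Additive Γ' →+ A)
    (hinv : ∀ (g : Γ) (h h' : Γ'), ι h' = g⁻¹ * ι h * g →
      w (Additive.ofMul h') = w (Additive.ofMul h)) :
    ∃ Φ : Additive Γ →+ A, ∀ h : Γ', Φ (Additive.ofMul (ι h)) = ι.range.index • w (Additive.ofMul h) := by
  classical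
  let _ : Fintype (Γ ⧸ ι.range) := ι.range.fintypeQuotientOfFiniteIndex
  refine ⟨corAlong A ι w, fun h => ?_⟩
  choose k hk using fun q : Γ ⧸ ι.range => hnorm q.out h
  rw [corAlong_eq_sum ι hι _ (isReps_out ι) w (ι h) id k (fun q => by
    rw [hk q, id]; group)]
  rw [Finset.sum_congr rfl (fun q _ => hinv q.out h (k q) (hk q)), Finset.sum_const,
    Finset.card_univ, Subgroup.index_eq_card, Nat.card_eq_fintype_card]

end Extension

end Fermat.Agent.NEB.EIG.H39
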