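import Mathlib

/-!
# NEB / EIG (helper39): `p`-adic limits of compatible families of homomorphisms

* `compSeq p` : the ring of compatible sequences in `∏_k ℤ/p^k`; `limZp : compSeq p →+* ℤ_[p]`;
* `padicLim φ hφ : G →+ ℤ_[p]` for a compatible family `φ k : G →+ ZMod (p ^ k)`, with
  `toZModPow k (padicLim φ hφ g) = φ k g`;
* `padic_hom_ext` : homomorphisms to `ℤ_[p]` are determined by their reductions.
-/

set_option autoImplicit false

namespace Fermat.Agent.NEB.EIG.H39

section Padic

variable (p : ℕ) [Fact p.Prime]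

/-- The reduction `ℤ/p^(k+1) → ℤ/p^k`. -/
def redZ (k : ℕ) : ZMod (p ^ (k + 1)) →+* ZMod (p ^ k) :=
  ZMod.castHom (pow_dvd_pow p (Nat.le_succ k)) (ZMod (p ^ k))

/-- The ring of compatible sequences. -/
def compSeq : Subring (∀ k : ℕ, ZMod (p ^ k)) where
  carrier := {a | ∀ k, redZ p k (a (k + 1)) = a k}
  mul_mem' := by
    intro a b ha hb k
    simp only [Pi.mul_apply, map_mul, ha k, hb k]
  one_mem' := by
    intro k
    simp only [Pi.one_apply, map_one]
  add_mem' := by
    intro a b ha hb k
    simp only [Pi.add_apply, map_add, ha k, hb k]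
  zero_mem' := by
    intro k
    simp only [Pi.zero_apply, map_zero]
  neg_mem' := by
    intro a ha k
    simp only [Pi.neg_apply, map_neg, ha k]

/-- The `k`-th component. -/
def compSeqProj (k : ℕ) : compSeq p →+* ZMod (p ^ k) :=
  (Pi.evalRingHom (fun k : ℕ => ZMod (p ^ k)) k).comp (compSeq p).subtype

omit [Fact p.Prime] in
@[simp] theorem compSeqProj_apply (k : ℕ) (a : compSeq p) : compSeqProj p k a = a.1 k := rfl

theorem compSeq_compat (k1 k2 : ℕ) (hk : k1 ≤ k2) :
    (ZMod.castHom (pow_dvd_pow p hk) (ZMod (p ^ k1))).comp (compSeqProj p k2)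
      = compSeqProj p k1 := by
  induction k2, hk using Nat.le_induction with
  | base =>
    ext a
    simp
  | succ n hn ih =>
    ext a
    have h1 := a.2 n
    have h2 := congrArg (fun f => f a) ih
    simp only [RingHom.comp_apply, compSeqProj_apply] at h2 ⊢
    rw [← h2, ← h1]
    unfold redZ
    rw [← RingHom.comp_apply, ZMod.castHom_comp]

/-- The limit of a compatible sequence. -/
noncomputable def limZp : compSeq p →+* ℤ_[p] := PadicInt.lift (compSeq_compat p)

theorem toZModPow_limZp (k : ℕ) (a : compSeq p) : PadicInt.toZModPow k (limZp p a) = a.1 k := by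
  have := congrArg (fun f => f a) (PadicInt.lift_spec (compSeq_compat p) k)
  exact this

variable {G : Type*} [AddZeroClass G]

/-- The `p`-adic limit of a compatible family of homomorphisms. -/
noncomputable def padicLim (φ : ∀ k : ℕ, G →+ ZMod (p ^ k))
    (hφ : ∀ k g, redZ p k (φ (k + 1) g) = φ k g) : G →+ ℤ_[p] where
  toFun g := limZp p ⟨fun k => φ k g, fun k => hφ k g⟩
  map_zero' := by
    rw [← map_zero (limZp p)]
    congr 1
    apply Subtype.ext
    funext k
    exact map_zero (φ k)
  map_add' g h := by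
    rw [← map_add (limZp p)]
    congr 1
    apply Subtype.ext
    funext k
    exact map_add (φ k) g h

theorem toZModPow_padicLim (φ : ∀ k : ℕ, G →+ ZMod (p ^ k))
    (hφ : ∀ k g, redZ p k (φ (k + 1) g) = φ k g) (k : ℕ) (g : G) :
    PadicInt.toZModPow k (padicLim p φ hφ g) = φ k g :=
  toZModPow_limZp p k _

theorem padic_hom_ext {ψ ψ' : G →+ ℤ_[p]}
    (h : ∀ k g, PadicInt.toZModPow k (ψ g) = PadicInt.toZModPow k (ψ' g)) : ψ = ψ' := by
  refine AddMonoidHom.ext fun g => ?_
  exact PadicInt.ext_of_toZModPow.mp fun k => h k g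

theorem redZ_toZModPow (k : ℕ) (x : ℤ_[p]) :
    redZ p k (PadicInt.toZModPow (k + 1) x) = PadicInt.toZModPow k x := by
  simp only [redZ, ZMod.castHom_apply]
  exact PadicInt.cast_toZModPow k (k + 1) (Nat.le_succ k) x

end Padic

end Fermat.Agent.NEB.EIG.H39
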