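import Fermat.Agent.NEB.EIG.H39_OPLattice
import Fermat.Agent.NEB.EIG.H39_Padic
import Fermat.Agent.S59.Lim.H2_TateMap

/-!
# NEB / EIG (helper39): EIG-A, part 1: the `p`-adic character of an element of the Tate module

`A` a `p`-divisible, `p`-power torsion abelian group (`= J_H[p^∞]`), `Γ = Gam1 M c`.
`MonoSys p M c A` : the data of EIG-MONO (helper98's `Stmt_MonoH`) in abstract form:
`m k : A[p^k] → Hom(Γ, ℤ/p^k)`, additive, kernel killed by `h ≠ 0`, parabolic, compatible in `k`.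

* `TDg`, `Dg` : the Hecke and diamond operators on `Hom(Γ, B)`, any coefficient group `B`
  (`= H98.TDadd`, `H98.Dadd`), natural in `B`;
* `mInf ms ξ : Γ → ℤ_[p]` for `ξ ∈ T_p A` (helper2's `H2.tate`), additive, injective, parabolic;
* `mInf_op` : operators on `A` compatible with `m k` are compatible with `mInf`;
* `mL ms ι : T_p A →ₗ[ℤ] Hom(Γ, L)` for `ι : ℤ_[p] →+* L` injective.
-/

set_option autoImplicit false

namespace Fermat.Agent.NEB.EIG.H39

open CongruenceSubgroup Matrix.SpecialLinearGroup ModularForm Finset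
open scoped MatrixGroups
open Fermat.Agent.Betti ModularCurve.Period
open Fermat.Agent.S59.Lim

section Ops

variable {M c : ℕ}

/-- The Hecke operator of the double coset of `diag(ℓ, 1)` on `Hom(Gam1 M c, B)`. -/
noncomputable def TDg (M c : ℕ) (hc : c ∣ M) {ℓ : ℕ} (hℓ : ℓ.Prime) (hℓM : ¬ ℓ ∣ M)
    {B : Type*} [AddCommGroup B] (φ : Additive (Gam1 M c) →+ B) : Additive (Gam1 M c) →+ B :=
  haveI : Fact ℓ.Prime := ⟨hℓ⟩
  (H98.stmt_FAM_hecke M c ℓ hc hℓ hℓM).heckeOp (inc_injective _) φ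

theorem TDg_comp (hc : c ∣ M) {ℓ : ℕ} (hℓ : ℓ.Prime) (hℓM : ¬ ℓ ∣ M)
    {B B' : Type*} [AddCommGroup B] [AddCommGroup B'] (u : B →+ B')
    (φ : Additive (Gam1 M c) →+ B) :
    TDg M c hc hℓ hℓM (u.comp φ) = u.comp (TDg M c hc hℓ hℓM φ) := by
  have : Fact ℓ.Prime := ⟨hℓ⟩
  exact (H98.stmt_FAM_hecke M c ℓ hc hℓ hℓM).heckeOp_comp (inc_injective _) u φ

theorem TD_eq_TDg (hc : c ∣ M) {ℓ : ℕ} (hℓ : ℓ.Prime) (hℓM : ¬ ℓ ∣ M)
    {L : Type*} [Field L] (φ : Additive (Gam1 M c) →+ L) :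
    TD M c hc hℓ hℓM φ = TDg M c hc hℓ hℓM φ := rfl

/-- The diamond operator `φ ↦ φ ∘ conj_g` on `Hom(Gam1 M c, B)`. -/
noncomputable def Dg (hc : c ∣ M) (g : SL(2, ℤ)) (hg : (M : ℤ) ∣ g 1 0)
    {B : Type*} [AddCommGroup B] (φ : Additive (Gam1 M c) →+ B) : Additive (Gam1 M c) →+ B :=
  tw (inc_injective _) ⟨mapGL ℝ g, gam0_mem_Nrm hc hg⟩ φ

theorem Dg_comp (hc : c ∣ M) (g : SL(2, ℤ)) (hg : (M : ℤ) ∣ g 1 0)
    {B B' : Type*} [AddCommGroup B] [AddCommGroup B'] (u : B →+ B')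
    (φ : Additive (Gam1 M c) →+ B) :
    Dg hc g hg (u.comp φ) = u.comp (Dg hc g hg φ) := rfl

theorem Dop_eq_Dg (hc : c ∣ M) (g : SL(2, ℤ)) (hg : (M : ℤ) ∣ g 1 0)
    {L : Type*} [Field L] (φ : Additive (Gam1 M c) →+ L) :
    Dop hc g hg φ = Dg hc g hg φ := rfl

end Ops

/-- The data of EIG-MONO in abstract form. -/
structure MonoSys (p M c : ℕ) (A : Type*) [AddCommGroup A] where
  /-- the character of a `p^k`-torsion element -/
  m : (k : ℕ) → A → (Additive (Gam1 M c) →+ ZMod (p ^ k))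
  m_add : ∀ (k : ℕ) (x y : A), p ^ k • x = 0 → p ^ k • y = 0 → m k (x + y) = m k x + m k y
  /-- the kernel is killed by `h` -/
  h : ℕ
  h_ne : h ≠ 0
  m_ker : ∀ (k : ℕ) (x : A), p ^ k • x = 0 → m k x = 0 → h • x = 0
  m_par : ∀ (k : ℕ) (x : A), p ^ k • x = 0 → IsParabolicHom (Gam1 M c) (m k x)
  m_red : ∀ (k : ℕ) (x : A), p ^ (k + 1) • x = 0 → ∀ γ,
    m k (p • x) γ = redZ p k (m (k + 1) x γ)

section Tate

variable {p : ℕ} [Fact p.Prime] {M c : ℕ} {A : Type*} [AddCommGroup A]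

/-- The `p`-adic Tate module of `A`. -/
abbrev Ta (p : ℕ) (A : Type*) [AddCommGroup A] : Type _ := ↥(H2.tate (p : ℤ) A)

omit [Fact p.Prime] in
theorem ev_tors (ξ : Ta p A) (k : ℕ) : p ^ k • (H2.ev (p : ℤ) A k ξ) = 0 := by
  have := H2.pow_smul_ev k ξ
  rw [← Nat.cast_pow, natCast_zsmul] at this
  exact this

omit [Fact p.Prime] in
theorem ev_succ (ξ : Ta p A) (k : ℕ) :
    p • (H2.ev (p : ℤ) A (k + 1) ξ) = H2.ev (p : ℤ) A k ξ := by
  have := H2.smul_ev_succ k ξ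
  rw [natCast_zsmul] at this
  exact this

/-- The `p`-adic character of an element of the Tate module. -/
noncomputable def mInf (ms : MonoSys p M c A) (ξ : Ta p A) : Additive (Gam1 M c) →+ ℤ_[p] :=
  padicLim p (fun k => ms.m k (H2.ev (p : ℤ) A k ξ)) (fun k γ => by
    have := ms.m_red k (H2.ev (p : ℤ) A (k + 1) ξ) (ev_tors ξ (k + 1)) γ
    rw [ev_succ] at this
    exact this.symm)

theorem toZModPow_mInf (ms : MonoSys p M c A) (ξ : Ta p A) (k : ℕ) (γ : Additive (Gam1 M c)) :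
    PadicInt.toZModPow k (mInf ms ξ γ) = ms.m k (H2.ev (p : ℤ) A k ξ) γ :=
  toZModPow_padicLim p _ _ k γ

theorem toZModPow_comp_mInf (ms : MonoSys p M c A) (ξ : Ta p A) (k : ℕ) :
    (PadicInt.toZModPow k).toAddMonoidHom.comp (mInf ms ξ) = ms.m k (H2.ev (p : ℤ) A k ξ) :=
  AddMonoidHom.ext fun γ => toZModPow_mInf ms ξ k γ

theorem mInf_add (ms : MonoSys p M c A) (ξ ξ' : Ta p A) :
    mInf ms (ξ + ξ') = mInf ms ξ + mInf ms ξ' := by
  apply padic_hom_ext
  intro k γ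
  rw [AddMonoidHom.add_apply, map_add, toZModPow_mInf, toZModPow_mInf, toZModPow_mInf, map_add,
    ms.m_add k _ _ (ev_tors ξ k) (ev_tors ξ' k)]
  rfl

/-- Elements of `A` killed by `h ≠ 0` and by a power of `p` are killed by `p ^ h`. -/
theorem pow_smul_of_smul {h : ℕ} (hh : h ≠ 0) {k : ℕ} {x : A} (h1 : h • x = 0)
    (h2 : p ^ k • x = 0) : p ^ h • x = 0 := by
  have hp : p.Prime := Fact.out
  have hd1 : addOrderOf x ∣ h := addOrderOf_dvd_of_nsmul_eq_zero h1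
  have hd2 : addOrderOf x ∣ p ^ k := addOrderOf_dvd_of_nsmul_eq_zero h2
  obtain ⟨j, -, hj⟩ := (Nat.dvd_prime_pow hp).mp hd2
  have hjh : j ≤ h := by
    have h3 : p ^ j ≤ h := Nat.le_of_dvd (Nat.pos_of_ne_zero hh) (hj ▸ hd1)
    exact (Nat.lt_pow_self hp.one_lt).le.trans h3
  have hd3 : addOrderOf x ∣ p ^ h := by
    rw [hj]
    exact pow_dvd_pow p hjh
  exact addOrderOf_dvd_iff_nsmul_eq_zero.mp hd3

theorem mInf_eq_zero (ms : MonoSys p M c A) (ξ : Ta p A) (h0 : mInf ms ξ = 0) : ξ = 0 := by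
  have h1 : ∀ k, ms.m k (H2.ev (p : ℤ) A k ξ) = 0 := by
    intro k
    rw [← toZModPow_comp_mInf, h0]
    exact AddMonoidHom.comp_zero _
  have h2 : ∀ k, p ^ ms.h • (H2.ev (p : ℤ) A k ξ) = 0 := fun k =>
    pow_smul_of_smul ms.h_ne (ms.m_ker k _ (ev_tors ξ k) (h1 k)) (ev_tors ξ k)
  apply H2.tate_ext
  intro k
  rw [← H2.pow_smul_ev_add k ms.h ξ, map_zero, ← Nat.cast_pow, natCast_zsmul]
  exact h2 (k + ms.h)

theorem mInf_par (ms : MonoSys p M c A) (ξ : Ta p A) :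
    IsParabolicHom (Gam1 M c) (mInf ms ξ) := by
  intro γ hγ
  apply PadicInt.ext_of_toZModPow.mp
  intro k
  rw [toZModPow_mInf, map_zero]
  exact ms.m_par k _ (ev_tors ξ k) γ hγ

/-- Operators on `A` compatible with the `m k` are compatible with `mInf`. -/
theorem mInf_op (ms : MonoSys p M c A) (f : Module.End ℤ A)
    (F : ∀ {B : Type} [AddCommGroup B], (Additive (Gam1 M c) →+ B) → (Additive (Gam1 M c) →+ B))
    (hF : ∀ {B B' : Type} [AddCommGroup B] [AddCommGroup B'] (u : B →+ B')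
      (φ : Additive (Gam1 M c) →+ B), F (u.comp φ) = u.comp (F φ))
    (hf : ∀ (k : ℕ) (x : A), p ^ k • x = 0 → ms.m k (f x) = F (ms.m k x)) (ξ : Ta p A) :
    mInf ms (H2.mapEnd (p : ℤ) A f ξ) = F (mInf ms ξ) := by
  apply padic_hom_ext
  intro k γ
  rw [toZModPow_mInf, H2.ev_mapEnd, hf k _ (ev_tors ξ k), ← toZModPow_comp_mInf, hF]
  rfl

end Tate

section ToField

variable {p : ℕ} [Fact p.Prime] {M c : ℕ} {A : Type*} [AddCommGroup A]
  {L : Type} [Field L] (ι : ℤ_[p] →+* L)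

/-- The character with values in `L`. -/
noncomputable def mL (ms : MonoSys p M c A) : Ta p A →ₗ[ℤ] (Additive (Gam1 M c) →+ L) :=
  AddMonoidHom.toIntLinearMap
    { toFun := fun ξ => ι.toAddMonoidHom.comp (mInf ms ξ)
      map_zero' := by
        have : mInf ms (0 : Ta p A) = 0 := by
          have := mInf_add ms 0 0
          rw [add_zero] at this
          exact left_eq_add.mp this
        rw [this]
        exact AddMonoidHom.comp_zero _
      map_add' := fun ξ ξ' => by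
        rw [mInf_add]
        exact AddMonoidHom.comp_add _ _ _ }

theorem mL_apply (ms : MonoSys p M c A) (ξ : Ta p A) :
    mL ι ms ξ = ι.toAddMonoidHom.comp (mInf ms ξ) := rfl

theorem mL_injective (hι : Function.Injective ι) (ms : MonoSys p M c A) :
    Function.Injective (mL ι ms) := by
  rw [injective_iff_map_eq_zero]
  intro ξ h
  apply mInf_eq_zero ms
  refine AddMonoidHom.ext fun γ => ?_
  have := congrArg (fun ψ : Additive (Gam1 M c) →+ L => ψ γ) h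
  simp only [mL_apply, AddMonoidHom.comp_apply, AddMonoidHom.zero_apply] at this
  apply hι
  rw [AddMonoidHom.zero_apply, map_zero]
  exact this

theorem mL_par (ms : MonoSys p M c A) (ξ : Ta p A) :
    IsParabolicHom (Gam1 M c) (mL ι ms ξ) := by
  intro γ hγ
  rw [mL_apply, AddMonoidHom.comp_apply, mInf_par ms ξ γ hγ, map_zero]

theorem mL_op (ms : MonoSys p M c A) (f : Module.End ℤ A)
    (F : ∀ {B : Type} [AddCommGroup B], (Additive (Gam1 M c) →+ B) → (Additive (Gam1 M c) →+ B))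
    (hF : ∀ {B B' : Type} [AddCommGroup B] [AddCommGroup B'] (u : B →+ B')
      (φ : Additive (Gam1 M c) →+ B), F (u.comp φ) = u.comp (F φ))
    (hf : ∀ (k : ℕ) (x : A), p ^ k • x = 0 → ms.m k (f x) = F (ms.m k x)) (ξ : Ta p A) :
    mL ι ms (H2.mapEnd (p : ℤ) A f ξ) = F (mL ι ms ξ) := by
  rw [mL_apply, mL_apply, mInf_op ms f F hF hf, hF]

end ToField

end Fermat.Agent.NEB.EIG.H39
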