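import Fermat.Agent.NEB.EIG.H39_EigA1

/-!
# NEB / EIG (helper39): EIG-A, part 2: the span of the characters of the Tate module

`V = Vsp ι ms ⊆ Hom(Γ, L)` : the `L`-span of the characters `mL ι ms ξ`, `ξ ∈ T_p A`.

* `gen : T_p A →ₗ[ℤ] V`, injective; `Vsp_ext` : linear maps on `V` are determined on generators;
* `Liftable e` : the additive endomorphism `e` of `T_p A` is induced by an `L`-linear operator on
  `Hom(Γ, L)`; `liftV e h : End_L V` with `liftV e h (gen ξ) = gen (e ξ)`;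
* `exists_gam0` : every `d ∈ (ℤ/c)ˣ` is the upper left entry of some `g ∈ Γ₀(M)`.
-/

set_option autoImplicit false

namespace Fermat.Agent.NEB.EIG.H39

open CongruenceSubgroup Matrix.SpecialLinearGroup ModularForm Finset
open scoped MatrixGroups
open Fermat.Agent.Betti ModularCurve.Period
open Fermat.Agent.S59.Lim

section Gam0

/-- Every unit mod `c` is the upper left entry of a matrix in `Γ₀(M)`. -/
theorem exists_gam0 {M c : ℕ} (hM : M ≠ 0) (hc : c ∣ M) (d : (ZMod c)ˣ) :
    ∃ g : SL(2, ℤ), (M : ℤ) ∣ g 1 0 ∧ (d : ZMod c) = ((g 0 0 : ℤ) : ZMod c) := by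
  have : NeZero M := ⟨hM⟩
  obtain ⟨v, hv⟩ := ZMod.unitsMap_surjective hc d
  have hcop : IsCoprime (((v : ZMod M).val : ℕ) : ℤ) (M : ℤ) := by
    rw [Nat.isCoprime_iff_coprime]
    exact ZMod.val_coe_unit_coprime v
  obtain ⟨g, h00, h10⟩ := hcop.exists_SL2_col 0
  refine ⟨g, by rw [h10], ?_⟩
  rw [h00, ← hv]
  simp [ZMod.unitsMap]

end Gam0

section Span

variable {p : ℕ} [Fact p.Prime] {M c : ℕ} {A : Type*} [AddCommGroup A]
  {L : Type} [Field L] (ι : ℤ_[p] →+* L) (ms : MonoSys p M c A)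

/-- The `L`-span of the characters of the elements of the Tate module. -/
def Vsp : Submodule L (Additive (Gam1 M c) →+ L) := Submodule.span L (Set.range (mL ι ms))

/-- The generators of `Vsp`. -/
noncomputable def gen : Ta p A →ₗ[ℤ] ↥(Vsp ι ms) where
  toFun ξ := ⟨mL ι ms ξ, Submodule.subset_span ⟨ξ, rfl⟩⟩
  map_add' ξ ξ' := Subtype.ext (map_add (mL ι ms) ξ ξ')
  map_smul' n ξ := by
    apply Subtype.ext
    rw [RingHom.id_apply, Submodule.coe_smul_of_tower]
    exact map_zsmul (mL ι ms) n ξ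

theorem coe_gen (ξ : Ta p A) :
    ((gen ι ms ξ : ↥(Vsp ι ms)) : Additive (Gam1 M c) →+ L) = mL ι ms ξ := rfl

theorem gen_injective (hι : Function.Injective ι) : Function.Injective (gen ι ms) := by
  intro ξ ξ' h
  apply mL_injective ι hι ms
  rw [← coe_gen, ← coe_gen, h]

/-- Linear maps on `Vsp` are determined by their values on the generators. -/
theorem Vsp_ext {W : Type*} [AddCommMonoid W] [Module L W] {E E' : ↥(Vsp ι ms) →ₗ[L] W}
    (h : ∀ ξ, E (gen ι ms ξ) = E' (gen ι ms ξ)) : E = E' := by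
  refine LinearMap.ext fun v => ?_
  obtain ⟨φ, hφ⟩ := v
  induction hφ using Submodule.span_induction with
  | mem x hx =>
    obtain ⟨ξ, rfl⟩ := hx
    exact h ξ
  | zero =>
    have : (⟨0, Submodule.zero_mem _⟩ : ↥(Vsp ι ms)) = 0 := rfl
    rw [this, map_zero, map_zero]
  | add x y hx hy ihx ihy =>
    have : (⟨x + y, Submodule.add_mem _ hx hy⟩ : ↥(Vsp ι ms)) = ⟨x, hx⟩ + ⟨y, hy⟩ := rfl
    rw [this, map_add, map_add, ihx, ihy]
  | smul a x hx ih =>
    have : (⟨a • x, Submodule.smul_mem _ a hx⟩ : ↥(Vsp ι ms)) = a • ⟨x, hx⟩ := rfl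
    rw [this, map_smul, map_smul, ih]

theorem Vsp_par (v : ↥(Vsp ι ms)) :
    IsParabolicHom (Gam1 M c) (v : Additive (Gam1 M c) →+ L) := by
  obtain ⟨φ, hφ⟩ := v
  show IsParabolicHom (Gam1 M c) φ
  induction hφ using Submodule.span_induction with
  | mem x hx =>
    obtain ⟨ξ, rfl⟩ := hx
    exact mL_par ι ms ξ
  | zero => exact isPar_zero
  | add x y hx hy ihx ihy => exact isPar_add ihx ihy
  | smul a x hx ih => exact isPar_smul a ih

/-- `e` is induced by an `L`-linear operator on `Hom(Γ, L)`. -/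
def Liftable (e : Ta p A → Ta p A) : Prop :=
  ∃ F : Module.End L (Additive (Gam1 M c) →+ L), ∀ ξ, F (mL ι ms ξ) = mL ι ms (e ξ)

theorem Liftable.map_mem {e : Ta p A → Ta p A} (h : Liftable ι ms e) :
    ∀ x ∈ Vsp ι ms, Classical.choose h x ∈ Vsp ι ms := by
  intro x hx
  induction hx using Submodule.span_induction with
  | mem x hx =>
    obtain ⟨ξ, rfl⟩ := hx
    rw [Classical.choose_spec h ξ]
    exact Submodule.subset_span ⟨e ξ, rfl⟩
  | zero =>
    rw [map_zero]
    exact Submodule.zero_mem _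
  | add x y hx hy ihx ihy =>
    rw [map_add]
    exact Submodule.add_mem _ ihx ihy
  | smul a x hx ih =>
    rw [map_smul]
    exact Submodule.smul_mem _ a ih

/-- The operator on `Vsp` induced by a liftable `e`. -/
noncomputable def liftV (e : Ta p A → Ta p A) (h : Liftable ι ms e) :
    Module.End L ↥(Vsp ι ms) :=
  (Classical.choose h).restrict (Liftable.map_mem ι ms h)

theorem liftV_gen (e : Ta p A → Ta p A) (h : Liftable ι ms e) (ξ : Ta p A) :
    liftV ι ms e h (gen ι ms ξ) = gen ι ms (e ξ) :=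
  Subtype.ext (Classical.choose_spec h ξ)

/-- The induced operator is the restriction of any ambient operator inducing `e`. -/
theorem coe_liftV (e : Ta p A → Ta p A) (h : Liftable ι ms e)
    (F : Module.End L (Additive (Gam1 M c) →+ L)) (hF : ∀ ξ, F (mL ι ms ξ) = mL ι ms (e ξ))
    (v : ↥(Vsp ι ms)) :
    ((liftV ι ms e h v : ↥(Vsp ι ms)) : Additive (Gam1 M c) →+ L)
      = F (v : Additive (Gam1 M c) →+ L) := by
  have key : (Vsp ι ms).subtype.comp (liftV ι ms e h) = F.comp (Vsp ι ms).subtype := by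
    apply Vsp_ext ι ms
    intro ξ
    rw [LinearMap.comp_apply, LinearMap.comp_apply, liftV_gen]
    exact (hF ξ).symm
  exact congrArg (fun f : ↥(Vsp ι ms) →ₗ[L] (Additive (Gam1 M c) →+ L) => f v) key

theorem liftV_congr {e e' : Ta p A → Ta p A} (h : Liftable ι ms e) (h' : Liftable ι ms e')
    (hee : ∀ ξ, e ξ = e' ξ) : liftV ι ms e h = liftV ι ms e' h' := by
  apply Vsp_ext ι ms
  intro ξ
  rw [liftV_gen, liftV_gen, hee]

theorem liftV_comp {e e' : Ta p A → Ta p A} (h : Liftable ι ms e) (h' : Liftable ι ms e')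
    (h'' : Liftable ι ms (fun ξ => e (e' ξ))) :
    liftV ι ms (fun ξ => e (e' ξ)) h'' = liftV ι ms e h * liftV ι ms e' h' := by
  apply Vsp_ext ι ms
  intro ξ
  rw [liftV_gen, Module.End.mul_apply, liftV_gen, liftV_gen]

theorem liftV_id (h : Liftable ι ms (fun ξ => ξ)) : liftV ι ms (fun ξ => ξ) h = 1 := by
  apply Vsp_ext ι ms
  intro ξ
  rw [liftV_gen, Module.End.one_apply]

theorem Liftable.comp {e e' : Ta p A → Ta p A} (h : Liftable ι ms e) (h' : Liftable ι ms e') :
    Liftable ι ms (fun ξ => e (e' ξ)) := by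
  obtain ⟨F, hF⟩ := h
  obtain ⟨F', hF'⟩ := h'
  exact ⟨F * F', fun ξ => by rw [Module.End.mul_apply, hF', hF]⟩

theorem Liftable.id : Liftable ι ms (fun ξ => ξ) := ⟨1, fun _ => rfl⟩

end Span

end Fermat.Agent.NEB.EIG.H39
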