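import Fermat.Agent.NEB.EIG.H39_Mat

/-!
# NEB / EIG (helper39): the Hecke family of the double coset `Γ diag(ℓ,1) Γ` for `Γ = Gam1 M c`

`repD M ℓ : OnePoint (ZMod ℓ) → GL₂(ℝ)`, `∞ ↦ diag(ℓ, 1)`, `j ↦ κ · [[1, j], [0, ℓ]]` with
`κ = [[ℓ, t], [M, s]] ∈ Γ₀(M)`, `s ℓ - t M = 1`.  (For `Γ₀(M)` itself this is the same set of cosets
as the prelude's `heckeRep`; for `Γ₀(M) ∩ Γ₁(c)` the factor `κ` is needed: all representatives have
upper-left entry `ℓ`.)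

Leaf **TW-FAM** = the four statements `Stmt_FAM_*` below (owner proves
`theorem stmt_FAM_hecke : Stmt_FAM_hecke` etc. in `NEB/EIG/H<seat>_Fam.lean`).  No `sorry` here.
-/

set_option autoImplicit false

namespace Fermat.Agent.NEB.EIG.H39

open CongruenceSubgroup Matrix.SpecialLinearGroup ModularForm
open scoped MatrixGroups
open P2MW.S_ModularForm_heckeT_slash_eq_self_of_mem_Gamma0.ModularForm.HeckeSlashInvariance
open Fermat.Agent.Betti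
open scoped OnePoint

/-- Bezout coefficient `s` with `s ℓ - t M = 1`. -/
noncomputable def bezS (M ℓ : ℕ) : ℤ := Int.gcdA ℓ M

/-- Bezout coefficient `t` with `s ℓ - t M = 1`. -/
noncomputable def bezT (M ℓ : ℕ) : ℤ := - Int.gcdB ℓ M

theorem bez_eq {M ℓ : ℕ} (h : Nat.Coprime ℓ M) : (ℓ : ℤ) * bezS M ℓ - bezT M ℓ * M = 1 := by
  have := Int.gcd_eq_gcd_ab ℓ M
  rw [Int.gcd_natCast_natCast, h] at this
  unfold bezS bezT
  push_cast at this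
  linear_combination -this

open Classical in
/-- `κ = [[ℓ, t], [M, s]]`, an element of `Γ₀(M)` with upper-left entry `ℓ`. -/
noncomputable def kappaSL (M ℓ : ℕ) : SL(2, ℤ) :=
  if h : Nat.Coprime ℓ M then mkSL ℓ (bezT M ℓ) M (bezS M ℓ) (bez_eq h) else 1

theorem kappaSL_eq {M ℓ : ℕ} (h : Nat.Coprime ℓ M) :
    kappaSL M ℓ = mkSL ℓ (bezT M ℓ) M (bezS M ℓ) (bez_eq h) := by
  unfold kappaSL
  rw [dif_pos h]

/-- The representatives of `Γ \ Γ diag(ℓ,1) Γ`. -/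
noncomputable def repD (M ℓ : ℕ) (x : OnePoint (ZMod ℓ)) : GL (Fin 2) ℝ :=
  x.elim (heckeDiagMatrix ℓ) (fun j => mapGL ℝ (kappaSL M ℓ) * heckeMatrix ℓ j.val)

@[simp] theorem repD_infty (M ℓ : ℕ) : repD M ℓ ∞ = heckeDiagMatrix ℓ := rfl

@[simp] theorem repD_coe (M ℓ : ℕ) (j : ZMod ℓ) :
    repD M ℓ (j : OnePoint (ZMod ℓ)) = mapGL ℝ (kappaSL M ℓ) * heckeMatrix ℓ j.val := rfl

/-- **TW-FAM (a)**: `repD M ℓ` is a Hecke family for `Gam1 M c`, `c ∣ M`, `ℓ ∤ M` prime. -/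
def Stmt_FAM_hecke : Prop :=
  ∀ (M c ℓ : ℕ), c ∣ M → ℓ.Prime → ¬ ℓ ∣ M → IsHeckeFamily (inc (Gam1 M c)) (repD M ℓ)

/-- **TW-FAM (b)**: change of level: for `M ∣ M'` the representatives of level `M` and `M'` differ by
elements of `Gam1 M c` (any `c ∣ M`). -/
def Stmt_FAM_level : Prop :=
  ∀ (M M' c ℓ : ℕ), c ∣ M → M ∣ M' → ℓ.Prime → ¬ ℓ ∣ M' →
    ∀ x : OnePoint (ZMod ℓ), ∃ ε ∈ Gam1 M c, repD M ℓ x = mapGL ℝ ε * repD M' ℓ x

/-- **TW-FAM (c)**: comparison with the prelude's representatives. -/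
def Stmt_FAM_std : Prop :=
  ∀ (M ℓ : ℕ), ℓ.Prime → ¬ ℓ ∣ M →
    ∀ x : OnePoint (ZMod ℓ), ∃ ε ∈ Gamma0 M, repD M ℓ x = mapGL ℝ ε * heckeRep ℓ x

/-- **TW-FAM (d)**: transitive form: every representative is `diag(ℓ,1) · δ` with `δ ∈ Gam1 M c`. -/
def Stmt_FAM_trans : Prop :=
  ∀ (M c ℓ : ℕ), c ∣ M → ℓ.Prime → ¬ ℓ ∣ M →
    ∀ x : OnePoint (ZMod ℓ), ∃ δ ∈ Gam1 M c, repD M ℓ x = heckeDiagMatrix ℓ * mapGL ℝ δ

end Fermat.Agent.NEB.EIG.H39
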