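import Fermat.Agent.NEB.EIG.H39_FamDefs

/-!
# NEB / EIG (helper39): TW-FAM (e), the Hecke family and the diamond operators

`Stmt_FAM_diam` generalises `Stmt_FAM_hecke` from `γ ∈ Gam1 M c` to `g ∈ Γ₀(M)`:
`repD x · g = ε · g · repD y` with `ε ∈ Gam1 M c` (same proof: compare the `(0,0)` entries mod `c`).
It gives: the Hecke operator of `Gam1 M c` commutes with the diamond operators.  No `sorry` here.
-/

set_option autoImplicit false

namespace Fermat.Agent.NEB.EIG.H39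

open CongruenceSubgroup Matrix.SpecialLinearGroup ModularForm
open scoped MatrixGroups

/-- **TW-FAM (e)**: for `g ∈ Γ₀(M)`: `repD x · g = ε · g · repD y` with `ε ∈ Gam1 M c`. -/
def Stmt_FAM_diam : Prop :=
  ∀ (M c ℓ : ℕ), c ∣ M → ℓ.Prime → ¬ ℓ ∣ M → ∀ g : SL(2, ℤ), (M : ℤ) ∣ g 1 0 →
    ∀ x : OnePoint (ZMod ℓ), ∃ ε ∈ Gam1 M c, ∃ y : OnePoint (ZMod ℓ),
      repD M ℓ x * mapGL ℝ g = mapGL ℝ ε * mapGL ℝ g * repD M ℓ y

end Fermat.Agent.NEB.EIG.H39
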