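import Fermat.Agent.NEB.EIG.H39_Abs
import Fermat.Agent.Betti.Defs

/-!
# NEB / EIG (helper39): groups and conjugations for Betti twisting

* `Nrm e`, `conjEnd`, `tw` : for `e : Γ →* G` injective, the submonoid of `G` conjugating `e(Γ)` into
  itself, conjugation as an endomorphism of `Γ`, and the induced operator `tw a φ = φ ∘ conj_a` on
  `Hom(Γ, A)`.
* `Gam1 M c = Γ₀(M) ∩ Γ₁(c)` (as a subgroup of `SL(2, ℤ)`), `inc K : K →* GL₂(ℝ)`.
* `mkSL`, entry lemmas.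
-/

set_option autoImplicit false

namespace Fermat.Agent.NEB.EIG.H39

open CongruenceSubgroup Matrix.SpecialLinearGroup ModularForm
open scoped MatrixGroups

/-! ## Conjugation endomorphisms -/

section ConjEnd

variable {Γ G : Type*} [Group Γ] [Group G] (e : Γ →* G)

/-- The elements of `G` conjugating `e(Γ)` into itself. -/
def Nrm : Submonoid G where
  carrier := {a | ∀ γ, a * e γ * a⁻¹ ∈ e.range}
  one_mem' := fun γ => ⟨γ, by simp⟩
  mul_mem' := by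
    intro a b ha hb γ
    obtain ⟨γ₁, h₁⟩ := hb γ
    obtain ⟨γ₂, h₂⟩ := ha γ₁
    exact ⟨γ₂, by rw [h₂, h₁]; group⟩

variable {e}

theorem mem_Nrm {a : G} : a ∈ Nrm e ↔ ∀ γ, ∃ γ', e γ' = a * e γ * a⁻¹ := Iff.rfl

theorem mem_Nrm_of_comm {a : G} (h : ∀ γ, ∃ γ', e γ' * a = a * e γ) : a ∈ Nrm e := by
  intro γ
  obtain ⟨γ', h'⟩ := h γ
  exact ⟨γ', by rw [← h']; group⟩

theorem range_le_Nrm (g : Γ) : e g ∈ Nrm e := fun γ => ⟨g * γ * g⁻¹, by simp⟩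

variable (he : Function.Injective e)

/-- Conjugation by `a ∈ Nrm e` as an endomorphism of `Γ`. -/
noncomputable def conjEnd (a : Nrm e) : Γ →* Γ :=
  (MonoidHom.ofInjective he).symm.toMonoidHom.comp
    (((MulAut.conj (a : G)).toMonoidHom.comp e).codRestrict e.range
      (fun γ => by simpa [MulAut.conj_apply] using a.2 γ))

theorem e_conjEnd (a : Nrm e) (γ : Γ) : e (conjEnd he a γ) = (a : G) * e γ * (a : G)⁻¹ := by
  have := (MonoidHom.ofInjective he).apply_symm_apply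
    ((((MulAut.conj (a : G)).toMonoidHom.comp e).codRestrict e.range
      (fun γ => by simpa [MulAut.conj_apply] using a.2 γ)) γ)
  have h2 := congrArg Subtype.val this
  simpa [conjEnd, MulAut.conj_apply] using h2

theorem e_conjEnd_mul (a : Nrm e) (γ : Γ) : e (conjEnd he a γ) * (a : G) = (a : G) * e γ := by
  rw [e_conjEnd]; group

theorem conjEnd_mul (a b : Nrm e) (γ : Γ) :
    conjEnd he (a * b) γ = conjEnd he a (conjEnd he b γ) := by
  apply he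
  rw [e_conjEnd, e_conjEnd, e_conjEnd]
  simp only [Submonoid.coe_mul]
  group

theorem conjEnd_range (g : Γ) (γ : Γ) :
    conjEnd he (⟨e g, range_le_Nrm g⟩ : Nrm e) γ = g * γ * g⁻¹ := by
  apply he
  rw [e_conjEnd]
  simp

variable {A : Type*} [AddCommGroup A]

/-- The operator `φ ↦ φ ∘ conj_a` on `Hom(Γ, A)`. -/
noncomputable def tw (a : Nrm e) (φ : Additive Γ →+ A) : Additive Γ →+ A :=
  φ.comp (MonoidHom.toAdditive (conjEnd he a))

theorem tw_apply (a : Nrm e) (φ : Additive Γ →+ A) (γ : Γ) :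
    tw he a φ (Additive.ofMul γ) = φ (Additive.ofMul (conjEnd he a γ)) := rfl

theorem tw_mul (a b : Nrm e) (φ : Additive Γ →+ A) :
    tw he (a * b) φ = tw he b (tw he a φ) := by
  refine AddMonoidHom.ext fun γ => ?_
  obtain ⟨γ, rfl⟩ : ∃ g : Γ, Additive.ofMul g = γ := ⟨Additive.toMul γ, rfl⟩
  rw [tw_apply, tw_apply, tw_apply, conjEnd_mul]

theorem tw_of_range (a : Nrm e) (g : Γ) (h : (a : G) = e g) (φ : Additive Γ →+ A) :
    tw he a φ = φ := by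
  refine AddMonoidHom.ext fun γ => ?_
  obtain ⟨γ, rfl⟩ : ∃ g : Γ, Additive.ofMul g = γ := ⟨Additive.toMul γ, rfl⟩
  have : conjEnd he a γ = g * γ * g⁻¹ := by
    apply he
    rw [e_conjEnd, h]
    simp
  rw [tw_apply, this]
  simp only [ofMul_mul, ofMul_inv, map_add, map_neg]
  abel

theorem tw_one (φ : Additive Γ →+ A) : tw he (1 : Nrm e) φ = φ :=
  tw_of_range he 1 1 (by simp) φ

theorem tw_congr {a b : Nrm e} (h : (a : G) = (b : G)) (φ : Additive Γ →+ A) :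
    tw he a φ = tw he b φ := by
  have : a = b := Subtype.ext h
  rw [this]

theorem tw_add (a : Nrm e) (φ ψ : Additive Γ →+ A) :
    tw he a (φ + ψ) = tw he a φ + tw he a ψ := rfl

theorem tw_zero (a : Nrm e) : tw he a (0 : Additive Γ →+ A) = 0 := rfl

theorem tw_smul {R : Type*} [Semiring R] [Module R A] (a : Nrm e) (r : R) (φ : Additive Γ →+ A) :
    tw he a (r • φ) = r • tw he a φ := rfl

theorem tw_sum {ι : Type*} (s : Finset ι) (a : Nrm e) (f : ι → (Additive Γ →+ A)) :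
    tw he a (∑ i ∈ s, f i) = ∑ i ∈ s, tw he a (f i) := by
  classical
  induction s using Finset.induction_on with
  | empty => simp [tw_zero]
  | insert i s hi ih => rw [Finset.sum_insert hi, Finset.sum_insert hi, tw_add, ih]

/-- If `a * b = e g * (b' * a')`-type relations hold in `G`, the operators agree. -/
theorem tw_eq_of_eq_mul {a b : Nrm e} (g : Γ) (h : (a : G) = e g * (b : G))
    (φ : Additive Γ →+ A) : tw he a φ = tw he b φ := by
  have hab : a = (⟨e g, range_le_Nrm g⟩ : Nrm e) * b := Subtype.ext (by simpa using h)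
  rw [hab, tw_mul, tw_of_range he (⟨e g, range_le_Nrm g⟩ : Nrm e) g rfl]

end ConjEnd

/-! ## Integer matrices -/

/-- The element `[[a, b], [c, d]]` of `SL(2, ℤ)`. -/
def mkSL (a b c d : ℤ) (h : a * d - b * c = 1) : SL(2, ℤ) :=
  ⟨!![a, b; c, d], by rw [Matrix.det_fin_two_of]; exact h⟩

@[simp] theorem mkSL_00 (a b c d : ℤ) (h : a * d - b * c = 1) : mkSL a b c d h 0 0 = a := rfl
@[simp] theorem mkSL_01 (a b c d : ℤ) (h : a * d - b * c = 1) : mkSL a b c d h 0 1 = b := rfl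
@[simp] theorem mkSL_10 (a b c d : ℤ) (h : a * d - b * c = 1) : mkSL a b c d h 1 0 = c := rfl
@[simp] theorem mkSL_11 (a b c d : ℤ) (h : a * d - b * c = 1) : mkSL a b c d h 1 1 = d := rfl

theorem sl_mul_00 (g h : SL(2, ℤ)) : (g * h) 0 0 = g 0 0 * h 0 0 + g 0 1 * h 1 0 := by
  rw [Matrix.SpecialLinearGroup.coe_mul, Matrix.mul_apply, Fin.sum_univ_two]
theorem sl_mul_01 (g h : SL(2, ℤ)) : (g * h) 0 1 = g 0 0 * h 0 1 + g 0 1 * h 1 1 := by
  rw [Matrix.SpecialLinearGroup.coe_mul, Matrix.mul_apply, Fin.sum_univ_two]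
theorem sl_mul_10 (g h : SL(2, ℤ)) : (g * h) 1 0 = g 1 0 * h 0 0 + g 1 1 * h 1 0 := by
  rw [Matrix.SpecialLinearGroup.coe_mul, Matrix.mul_apply, Fin.sum_univ_two]
theorem sl_mul_11 (g h : SL(2, ℤ)) : (g * h) 1 1 = g 1 0 * h 0 1 + g 1 1 * h 1 1 := by
  rw [Matrix.SpecialLinearGroup.coe_mul, Matrix.mul_apply, Fin.sum_univ_two]

theorem sl_det (g : SL(2, ℤ)) : g 0 0 * g 1 1 - g 0 1 * g 1 0 = 1 := by
  have := g.2
  rw [Matrix.det_fin_two] at this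
  exact this

theorem sl_inv_00 (g : SL(2, ℤ)) : g⁻¹ 0 0 = g 1 1 := by
  rw [Matrix.SpecialLinearGroup.SL2_inv_expl]; rfl
theorem sl_inv_01 (g : SL(2, ℤ)) : g⁻¹ 0 1 = - g 0 1 := by
  rw [Matrix.SpecialLinearGroup.SL2_inv_expl]; rfl
theorem sl_inv_10 (g : SL(2, ℤ)) : g⁻¹ 1 0 = - g 1 0 := by
  rw [Matrix.SpecialLinearGroup.SL2_inv_expl]; rfl
theorem sl_inv_11 (g : SL(2, ℤ)) : g⁻¹ 1 1 = g 0 0 := by
  rw [Matrix.SpecialLinearGroup.SL2_inv_expl]; rfl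

theorem sl_ext {g h : SL(2, ℤ)} (h00 : g 0 0 = h 0 0) (h01 : g 0 1 = h 0 1) (h10 : g 1 0 = h 1 0)
    (h11 : g 1 1 = h 1 1) : g = h := by
  ext i j
  fin_cases i <;> fin_cases j <;> assumption

/-! ## The groups -/

/-- `Γ₀(M) ∩ Γ₁(c)`: lower-left entry divisible by `M` and by `c`, upper-left entry `≡ 1 mod c`. -/
def Gam1 (M c : ℕ) : Subgroup SL(2, ℤ) where
  carrier := {γ | (M : ℤ) ∣ γ 1 0 ∧ (c : ℤ) ∣ γ 1 0 ∧ (c : ℤ) ∣ γ 0 0 - 1}
  one_mem' := by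
    refine ⟨?_, ?_, ?_⟩ <;> simp
  mul_mem' := by
    rintro g h ⟨g1, g2, g3⟩ ⟨h1, h2, h3⟩
    refine ⟨?_, ?_, ?_⟩
    · rw [sl_mul_10]
      exact dvd_add (Dvd.dvd.mul_right g1 _) (Dvd.dvd.mul_left h1 _)
    · rw [sl_mul_10]
      exact dvd_add (Dvd.dvd.mul_right g2 _) (Dvd.dvd.mul_left h2 _)
    · rw [sl_mul_00]
      have : g 0 0 * h 0 0 + g 0 1 * h 1 0 - 1
          = (g 0 0 - 1) * h 0 0 + (h 0 0 - 1) + g 0 1 * h 1 0 := by ring
      rw [this]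
      exact dvd_add (dvd_add (Dvd.dvd.mul_right g3 _) h3) (Dvd.dvd.mul_left h2 _)
  inv_mem' := by
    rintro g ⟨g1, g2, g3⟩
    refine ⟨?_, ?_, ?_⟩
    · rw [sl_inv_10]; exact (dvd_neg).mpr g1
    · rw [sl_inv_10]; exact (dvd_neg).mpr g2
    · rw [sl_inv_00]
      have hd := sl_det g
      have : g 1 1 - 1 = g 0 1 * g 1 0 - (g 0 0 - 1) * g 1 1 := by linear_combination hd
      rw [this]
      exact dvd_sub (Dvd.dvd.mul_left g2 _) (Dvd.dvd.mul_right g3 _)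

theorem mem_Gam1 {M c : ℕ} {γ : SL(2, ℤ)} :
    γ ∈ Gam1 M c ↔ (M : ℤ) ∣ γ 1 0 ∧ (c : ℤ) ∣ γ 1 0 ∧ (c : ℤ) ∣ γ 0 0 - 1 := Iff.rfl

theorem Gam1_dvd_11 {M c : ℕ} {γ : SL(2, ℤ)} (h : γ ∈ Gam1 M c) : (c : ℤ) ∣ γ 1 1 - 1 := by
  have := (Gam1 M c).inv_mem h
  have h3 := this.2.2
  rwa [sl_inv_00] at h3

theorem Gam1_le_Gamma0 (M c : ℕ) : Gam1 M c ≤ Gamma0 M := fun _ h =>
  Betti.mem_Gamma0_of_dvd h.1

theorem Gamma0_le_Gam1_one (M : ℕ) : Gamma0 M ≤ Gam1 M 1 := fun _ h =>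
  ⟨Betti.dvd_of_mem_Gamma0 h, by simp, by simp⟩

theorem Gam1_mono {M M' c c' : ℕ} (hM : M ∣ M') (hc : c ∣ c') : Gam1 M' c' ≤ Gam1 M c := by
  rintro γ ⟨h1, h2, h3⟩
  exact ⟨(Int.natCast_dvd_natCast.mpr hM).trans h1, (Int.natCast_dvd_natCast.mpr hc).trans h2,
    (Int.natCast_dvd_natCast.mpr hc).trans h3⟩

/-- The inclusion of a subgroup of `SL(2, ℤ)` into `GL₂(ℝ)`. -/
noncomputable def inc (K : Subgroup SL(2, ℤ)) : K →* GL (Fin 2) ℝ := (mapGL ℝ).comp K.subtype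

@[simp] theorem inc_apply (K : Subgroup SL(2, ℤ)) (γ : K) : inc K γ = mapGL ℝ (γ : SL(2, ℤ)) := rfl

theorem inc_injective (K : Subgroup SL(2, ℤ)) : Function.Injective (inc K) := fun _ _ h =>
  Subtype.ext (Betti.mapGL_real_injective h)

theorem mem_range_inc {K : Subgroup SL(2, ℤ)} {g : SL(2, ℤ)} (h : g ∈ K) :
    mapGL ℝ g ∈ (inc K).range := ⟨⟨g, h⟩, rfl⟩

/-- An element of `SL(2, ℤ)` normalising `K` gives an element of `Nrm (inc K)`. -/
theorem mapGL_mem_Nrm {K : Subgroup SL(2, ℤ)} {g : SL(2, ℤ)}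
    (h : ∀ γ ∈ K, g * γ * g⁻¹ ∈ K) : mapGL ℝ g ∈ Nrm (inc K) := by
  intro γ
  exact ⟨⟨g * γ * g⁻¹, h γ γ.2⟩, by simp⟩

end Fermat.Agent.NEB.EIG.H39
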