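import Mathlib

/-!
# NEB / EIG (helper39): the twisting operator of a nontrivial character mod a prime

`B : ZMod q → End_L(W)` a representation of the additive group `ℤ/q`, `χ` a nontrivial multiplicative
character mod `q`.  `twOp B χ = ∑_u χ⁻¹(u) • B u`.

* `twOp_shift`  : `twOp B χ ∘ B v`-type rule: `∑_u χ⁻¹(u) • B (u * a) = χ(a) • ...` (change of variable);
* `fixed_of_twOp_eq_zero` : `twOp B χ w = 0 → B 1 w = w`  (Jacobi sum identity
  `∑_v χ(v) χ⁻¹(u + v) = q·[u = 0] − 1`).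
-/

set_option autoImplicit false

namespace Fermat.Agent.NEB.EIG.H39

open Finset

section Jacobi

variable {q : ℕ} [Fact q.Prime] {L : Type*} [Field L]
  {W : Type*} [AddCommGroup W] [Module L W]

/-- The twisting operator `∑_u χ⁻¹(u) • B u`. -/
noncomputable def twOp (B : ZMod q → W →ₗ[L] W) (χ : MulChar (ZMod q) L) : W →ₗ[L] W :=
  ∑ u : ZMod q, χ⁻¹ u • B u

theorem twOp_apply (B : ZMod q → W →ₗ[L] W) (χ : MulChar (ZMod q) L) (w : W) :
    twOp B χ w = ∑ u : ZMod q, χ⁻¹ u • B u w := by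
  simp [twOp, LinearMap.sum_apply]

/-- The Jacobi-type sum `∑_v χ(v) χ⁻¹(u + v)`. -/
theorem jacobi_zmod (χ : MulChar (ZMod q) L) (hχ : χ ≠ 1) (u : ZMod q) :
    ∑ v : ZMod q, χ v * χ⁻¹ (u + v) = if u = 0 then (q : L) - 1 else -1 := by
  split_ifs with hu
  · subst hu
    have h1 : ∀ v : ZMod q, χ v * χ⁻¹ (0 + v) = (1 : MulChar (ZMod q) L) v := by
      intro v
      rw [zero_add, ← MulChar.mul_apply, mul_inv_cancel]
    rw [Finset.sum_congr rfl (fun v _ => h1 v), MulChar.sum_one_eq_card_units]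
    rw [ZMod.card_units_eq_totient, Nat.totient_prime Fact.out]
    have hq : 1 ≤ q := (Fact.out : q.Prime).one_lt.le
    push_cast [Nat.cast_sub hq]
    ring
  · -- substitute `v = -u * x`
    have hu' : IsUnit u := isUnit_iff_ne_zero.mpr hu
    have hneg : IsUnit (-u) := hu'.neg
    let e : ZMod q ≃ ZMod q :=
      { toFun := fun x => -u * x
        invFun := fun v => (-u)⁻¹ * v
        left_inv := fun x => by
          show (-u)⁻¹ * (-u * x) = x
          rw [← mul_assoc, inv_mul_cancel₀ (neg_ne_zero.mpr hu), one_mul]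
        right_inv := fun v => by
          show -u * ((-u)⁻¹ * v) = v
          rw [← mul_assoc, mul_inv_cancel₀ (neg_ne_zero.mpr hu), one_mul] }
    rw [← Equiv.sum_comp e]
    have h1 : ∀ x : ZMod q, χ (e x) * χ⁻¹ (u + e x) = χ (-1) * (χ x * χ⁻¹ (1 - x)) := by
      intro x
      show χ (-u * x) * χ⁻¹ (u + -u * x) = _
      have e1 : u + -u * x = u * (1 - x) := by ring
      have e2 : -u * x = (-1) * u * x := by ring
      rw [e1, e2, map_mul, map_mul, map_mul]
      have e3 : χ u * χ⁻¹ u = 1 := by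
        rw [← MulChar.mul_apply, mul_inv_cancel, MulChar.one_apply hu']
      calc χ (-1) * χ u * χ x * (χ⁻¹ u * χ⁻¹ (1 - x))
          = χ (-1) * (χ u * χ⁻¹ u) * (χ x * χ⁻¹ (1 - x)) := by ring
        _ = χ (-1) * (χ x * χ⁻¹ (1 - x)) := by rw [e3, mul_one]
    rw [Finset.sum_congr rfl (fun x _ => h1 x), ← Finset.mul_sum]
    have hJ : ∑ x : ZMod q, χ x * χ⁻¹ (1 - x) = jacobiSum χ χ⁻¹ := rfl
    rw [hJ, jacobiSum_nontrivial_inv hχ]
    have h2 : χ (-1) * χ (-1) = 1 := by
      rw [← map_mul]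
      simp
    linear_combination -h2

variable (B : ZMod q → W →ₗ[L] W) (hB0 : B 0 = LinearMap.id)
  (hBadd : ∀ u v, B (u + v) = (B u).comp (B v))

include hB0 hBadd in
/-- If the twist of `w` by a nontrivial character vanishes, then `w` is fixed by `B`. -/
theorem fixed_of_twOp_eq_zero [CharZero L] (χ : MulChar (ZMod q) L) (hχ : χ ≠ 1) (w : W)
    (h : twOp B χ w = 0) : B 1 w = w := by
  have hq0 : (q : L) ≠ 0 := by
    exact_mod_cast (Fact.out : q.Prime).ne_zero
  -- step 1: all translates vanish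
  have h1 : ∀ v : ZMod q, ∑ u : ZMod q, χ⁻¹ (u + v) • B u w = 0 := by
    intro v
    have := congrArg (B (-v)) h
    rw [twOp_apply, map_sum, map_zero] at this
    rw [← this]
    refine Fintype.sum_equiv (Equiv.addRight v) _ _ fun u => ?_
    show χ⁻¹ (u + v) • B u w = B (-v) (χ⁻¹ (u + v) • B (u + v) w)
    rw [map_smul]
    congr 1
    have : B (-v) (B (u + v) w) = ((B (-v)).comp (B (u + v))) w := rfl
    rw [this, ← hBadd]
    congr 2
    ring
  -- step 2
  have h2 : ∑ u : ZMod q, (∑ v : ZMod q, χ v * χ⁻¹ (u + v)) • B u w = 0 := by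
    have : ∑ v : ZMod q, χ v • ∑ u : ZMod q, χ⁻¹ (u + v) • B u w = 0 := by
      simp [h1]
    rw [← this]
    simp only [Finset.smul_sum, Finset.sum_smul, smul_smul]
    rw [Finset.sum_comm]
  simp only [jacobi_zmod χ hχ] at h2
  -- step 3: `q • w = ∑ B u w`
  have h3 : (q : L) • w = ∑ u : ZMod q, B u w := by
    have h4 : ∀ u : ZMod q, (if u = 0 then (q : L) - 1 else -1) • B u w
        = (if u = 0 then (q : L) • w else 0) - B u w := by
      intro u
      split_ifs with hu
      · subst hu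
        rw [hB0, LinearMap.id_apply, sub_smul, one_smul]
      · rw [neg_one_smul, zero_sub]
    rw [Finset.sum_congr rfl (fun u _ => h4 u), Finset.sum_sub_distrib,
      Finset.sum_ite_eq' Finset.univ (0 : ZMod q) (fun _ => (q : L) • w)] at h2
    simp only [Finset.mem_univ, if_true] at h2
    exact sub_eq_zero.mp h2
  -- step 4
  have h5 : B 1 (∑ u : ZMod q, B u w) = ∑ u : ZMod q, B u w := by
    rw [map_sum]
    refine Fintype.sum_equiv (Equiv.addLeft (1 : ZMod q)) _ _ fun u => ?_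
    show B 1 (B u w) = B (1 + u) w
    rw [hBadd]; rfl
  have h6 : (q : L) • B 1 w = (q : L) • w := by
    rw [← map_smul, h3, h5]
  exact smul_right_injective W hq0 h6

/-- Change of variable in the twisting operator. -/
theorem twOp_comp_mul (χ : MulChar (ZMod q) L) (a : (ZMod q)ˣ) (w : W) :
    ∑ u : ZMod q, χ⁻¹ u • B (u * (a : ZMod q)) w = χ (a : ZMod q) • twOp B χ w := by
  rw [twOp_apply, Finset.smul_sum]
  let e : ZMod q ≃ ZMod q :=
    { toFun := fun u => u * (a : ZMod q)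
      invFun := fun v => v * ((a⁻¹ : (ZMod q)ˣ) : ZMod q)
      left_inv := fun u => by
        show u * (a : ZMod q) * ((a⁻¹ : (ZMod q)ˣ) : ZMod q) = u
        rw [mul_assoc, ← Units.val_mul, mul_inv_cancel, Units.val_one, mul_one]
      right_inv := fun v => by
        show v * ((a⁻¹ : (ZMod q)ˣ) : ZMod q) * (a : ZMod q) = v
        rw [mul_assoc, ← Units.val_mul, inv_mul_cancel, Units.val_one, mul_one] }
  rw [← Equiv.sum_comp e (fun v => χ (a : ZMod q) • χ⁻¹ v • B v w)]
  refine Finset.sum_congr rfl fun u _ => ?_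
  show χ⁻¹ u • B (u * (a : ZMod q)) w = χ (a : ZMod q) • χ⁻¹ (u * (a : ZMod q)) • B (u * (a : ZMod q)) w
  rw [smul_smul, map_mul]
  congr 1
  have e3 : χ (a : ZMod q) * χ⁻¹ (a : ZMod q) = 1 := by
    rw [← MulChar.mul_apply, mul_inv_cancel, MulChar.one_apply a.isUnit]
  calc χ⁻¹ u = χ⁻¹ u * (χ (a : ZMod q) * χ⁻¹ (a : ZMod q)) := by rw [e3, mul_one]
    _ = χ (a : ZMod q) * (χ⁻¹ u * χ⁻¹ (a : ZMod q)) := by ring

end Jacobi

end Fermat.Agent.NEB.EIG.H39
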