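import Fermat.Agent.NEB.EIG.H39_Groups

/-!
# NEB / EIG (helper39): explicit matrices for Betti twisting

* `alphaGL q n = [[1, n/q], [0, 1]]`; it conjugates `Gam1 L₂ c` into itself when `q ∣ c`, `c q ∣ L₂`;
* `nuSL y = [[1, 0], [y, 1]]`;
* elements `g` of `Γ₀(L₂)` normalise `Gam1 L₂ c`;
* `gam0_alpha` : `g α_n = γ' α_{n a²} g` with `γ' ∈ Gam1 L₂ c`;
* `word_exists` : an element of `Gam1 (M q) c₁` with upper-left entry `≡ T mod q` which is a word in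
  `α` and `ν`.
-/

set_option autoImplicit false

namespace Fermat.Agent.NEB.EIG.H39

open CongruenceSubgroup Matrix.SpecialLinearGroup ModularForm
open scoped MatrixGroups

/-- `α_n = [[1, n/q], [0, 1]]`. -/
noncomputable def alphaGL (q : ℕ) (n : ℤ) : GL (Fin 2) ℝ :=
  upperTriangularGL 1 ((n : ℝ) / q) 1 (by simp)

@[simp] theorem val_alphaGL (q : ℕ) (n : ℤ) :
    ((alphaGL q n : GL (Fin 2) ℝ) : Matrix (Fin 2) (Fin 2) ℝ) = !![1, (n : ℝ) / q; 0, 1] := rfl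

theorem alphaGL_add (q : ℕ) (n m : ℤ) : alphaGL q n * alphaGL q m = alphaGL q (n + m) := by
  apply Units.ext
  ext i j
  fin_cases i <;> fin_cases j <;>
    simp [Matrix.mul_apply, Fin.sum_univ_two] <;> ring

theorem alphaGL_zero (q : ℕ) : alphaGL q 0 = 1 := by
  apply Units.ext
  ext i j
  fin_cases i <;> fin_cases j <;> simp

/-- `[[1, k], [0, 1]]`. -/
def tauSL (k : ℤ) : SL(2, ℤ) := mkSL 1 k 0 1 (by ring)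

/-- `[[1, 0], [y, 1]]`. -/
def nuSL (y : ℤ) : SL(2, ℤ) := mkSL 1 0 y 1 (by ring)

theorem alphaGL_mul_q {q : ℕ} (hq : q ≠ 0) (k : ℤ) : alphaGL q (q * k) = mapGL ℝ (tauSL k) := by
  have hq' : (q : ℝ) ≠ 0 := by exact_mod_cast hq
  apply Units.ext
  ext i j
  fin_cases i <;> fin_cases j <;>
    simp [tauSL] <;> field_simp

theorem tauSL_mem_Gam1 (L₂ c : ℕ) (k : ℤ) : tauSL k ∈ Gam1 L₂ c := by
  refine ⟨?_, ?_, ?_⟩ <;> simp [tauSL]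

/-- `δ α_n = α_{ℓ n} δ` for `δ = diag(ℓ, 1)`. -/
theorem heckeDiag_mul_alpha {ℓ : ℕ} (hℓ : ℓ ≠ 0) (q : ℕ) (n : ℤ) :
    heckeDiagMatrix ℓ * alphaGL q n = alphaGL q (ℓ * n) * heckeDiagMatrix ℓ := by
  apply Units.ext
  ext i j
  fin_cases i <;> fin_cases j <;>
    simp [Matrix.mul_apply, Fin.sum_univ_two, hℓ] <;> ring

/-- `α_n` conjugates `Gam1 L₂ c` into itself. -/
theorem alphaGL_mem_Nrm {L₂ c q : ℕ} (hq0 : q ≠ 0) (hq : q ∣ c) (hcq : c * q ∣ L₂) (n : ℤ) :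
    alphaGL q n ∈ Nrm (inc (Gam1 L₂ c)) := by
  apply mem_Nrm_of_comm
  rintro ⟨γ, hγ⟩
  obtain ⟨c', rfl⟩ := hq
  obtain ⟨C₃, hC⟩ : ((q * c' * q : ℕ) : ℤ) ∣ γ 1 0 :=
    (Int.natCast_dvd_natCast.mpr hcq).trans hγ.1
  have h00 := hγ.2.2
  have h11 := Gam1_dvd_11 hγ
  obtain ⟨e, he⟩ : (q : ℤ) ∣ γ 1 1 - γ 0 0 := by
    have h : ((q * c' : ℕ) : ℤ) ∣ γ 1 1 - γ 0 0 := by
      have := dvd_sub h11 h00
      simpa using this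
    exact (Int.natCast_dvd_natCast.mpr (Dvd.intro c' rfl)).trans h
  have hdet := sl_det γ
  push_cast at hC
  let γ' : SL(2, ℤ) := mkSL (γ 0 0 + n * (q * c') * C₃) (γ 0 1 + n * e - n ^ 2 * c' * C₃) (γ 1 0)
    (γ 1 1 - n * (q * c') * C₃) (by
      have he' : γ 1 1 = γ 0 0 + q * e := by linarith
      rw [he'] at hdet ⊢
      rw [hC] at hdet ⊢
      linear_combination hdet)
  have hγ' : γ' ∈ Gam1 L₂ (q * c') := by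
    refine ⟨hγ.1, hγ.2.1, ?_⟩
    show ((q * c' : ℕ) : ℤ) ∣ γ 0 0 + n * (q * c') * C₃ - 1
    have : γ 0 0 + n * (q * c') * C₃ - 1 = (γ 0 0 - 1) + ((q * c' : ℕ) : ℤ) * (n * C₃) := by
      push_cast; ring
    rw [this]
    exact dvd_add h00 (Dvd.intro _ rfl)
  refine ⟨⟨γ', hγ'⟩, ?_⟩
  have hq' : (q : ℝ) ≠ 0 := by exact_mod_cast hq0
  have hC' : ((γ 1 0 : ℤ) : ℝ) = q * c' * q * C₃ := by exact_mod_cast hC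
  have he' : ((γ 1 1 : ℤ) : ℝ) = γ 0 0 + q * e := by
    have := congrArg (Int.cast : ℤ → ℝ) he
    push_cast at this
    linarith
  apply Units.ext
  ext i j
  fin_cases i <;> fin_cases j <;>
    simp [γ', Matrix.mul_apply, Fin.sum_univ_two, hC', he'] <;>
    field_simp <;> ring

/-- Elements of `Γ₀(L₂)` normalise `Gam1 L₂ c` (`c ∣ L₂`). -/
theorem gam0_conj_mem {L₂ c : ℕ} (hc : c ∣ L₂) {g : SL(2, ℤ)} (hg : (L₂ : ℤ) ∣ g 1 0)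
    {γ : SL(2, ℤ)} (hγ : γ ∈ Gam1 L₂ c) : g * γ * g⁻¹ ∈ Gam1 L₂ c := by
  have hgc : (c : ℤ) ∣ g 1 0 := (Int.natCast_dvd_natCast.mpr hc).trans hg
  obtain ⟨G, hG⟩ := hg
  obtain ⟨G', hG'⟩ := hgc
  obtain ⟨Z, hZ⟩ := hγ.1
  obtain ⟨Z', hZ'⟩ := hγ.2.1
  obtain ⟨A, hA⟩ := hγ.2.2
  have hdet := sl_det g
  refine ⟨?_, ?_, ?_⟩
  · rw [sl_mul_10, sl_mul_10, sl_mul_11, sl_inv_00, sl_inv_10]
    refine ⟨(G * γ 0 0 + g 1 1 * Z) * g 1 1 - (g 1 0 * γ 0 1 + g 1 1 * γ 1 1) * G, ?_⟩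
    linear_combination (γ 0 0 * g 1 1 - (g 1 0 * γ 0 1 + g 1 1 * γ 1 1)) * hG + (g 1 1) ^ 2 * hZ
  · rw [sl_mul_10, sl_mul_10, sl_mul_11, sl_inv_00, sl_inv_10]
    refine ⟨(G' * γ 0 0 + g 1 1 * Z') * g 1 1 - (g 1 0 * γ 0 1 + g 1 1 * γ 1 1) * G', ?_⟩
    linear_combination (γ 0 0 * g 1 1 - (g 1 0 * γ 0 1 + g 1 1 * γ 1 1)) * hG' + (g 1 1) ^ 2 * hZ'
  · rw [sl_mul_00, sl_mul_00, sl_mul_01, sl_inv_00, sl_inv_10]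
    refine ⟨g 0 0 * g 1 1 * A + g 0 1 * G' + g 0 1 * Z' * g 1 1
      - (g 0 0 * γ 0 1 + g 0 1 * γ 1 1) * G', ?_⟩
    linear_combination (g 0 0 * g 1 1) * hA + hdet
      + (g 0 1 - (g 0 0 * γ 0 1 + g 0 1 * γ 1 1)) * hG' + (g 0 1 * g 1 1) * hZ'

theorem gam0_mem_Nrm {L₂ c : ℕ} (hc : c ∣ L₂) {g : SL(2, ℤ)} (hg : (L₂ : ℤ) ∣ g 1 0) :
    mapGL ℝ g ∈ Nrm (inc (Gam1 L₂ c)) :=
  mapGL_mem_Nrm fun _ hγ => gam0_conj_mem hc hg hγ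

/-- `ν = [[1,0],[y,1]]` normalises `Gam1 L₂ c` when `c ∣ y`, `L₂ ∣ y c`, `L₂ ∣ y²`. -/
theorem nu_conj_mem {L₂ c : ℕ} {y : ℤ} (h1 : (c : ℤ) ∣ y) (h2 : (L₂ : ℤ) ∣ y * c)
    (h3 : (L₂ : ℤ) ∣ y * y) {γ : SL(2, ℤ)} (hγ : γ ∈ Gam1 L₂ c) :
    nuSL y * γ * (nuSL y)⁻¹ ∈ Gam1 L₂ c := by
  obtain ⟨Y, hY⟩ := h1
  obtain ⟨Y₂, hY₂⟩ := h2
  obtain ⟨Y₃, hY₃⟩ := h3
  obtain ⟨Z, hZ⟩ := hγ.1
  obtain ⟨Z', hZ'⟩ := hγ.2.1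
  obtain ⟨A, hA⟩ := hγ.2.2
  obtain ⟨D, hD⟩ := Gam1_dvd_11 hγ
  have e10 : (nuSL y * γ * (nuSL y)⁻¹) 1 0 = γ 1 0 + y * (γ 0 0 - γ 1 1) - y * y * γ 0 1 := by
    rw [sl_mul_10, sl_mul_10, sl_mul_11, sl_inv_00, sl_inv_10]
    simp [nuSL]
    ring
  have e00 : (nuSL y * γ * (nuSL y)⁻¹) 0 0 = γ 0 0 - y * γ 0 1 := by
    rw [sl_mul_00, sl_mul_00, sl_mul_01, sl_inv_00, sl_inv_10]
    simp [nuSL]
    ring
  have hAD : γ 0 0 - γ 1 1 = c * (A - D) := by linear_combination hA - hD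
  refine ⟨?_, ?_, ?_⟩
  · rw [e10, hAD]
    refine ⟨Z + Y₂ * (A - D) - Y₃ * γ 0 1, ?_⟩
    rw [hZ]
    linear_combination (A - D) * hY₂ - (γ 0 1) * hY₃
  · rw [e10, hAD]
    refine ⟨Z' + y * (A - D) - Y * y * γ 0 1, ?_⟩
    rw [hZ']
    linear_combination (- y * γ 0 1) * hY
  · rw [e00]
    refine ⟨A - Y * γ 0 1, ?_⟩
    linear_combination hA - (γ 0 1) * hY

theorem nu_mem_Nrm {L₂ c : ℕ} {y : ℤ} (h1 : (c : ℤ) ∣ y) (h2 : (L₂ : ℤ) ∣ y * c)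
    (h3 : (L₂ : ℤ) ∣ y * y) : mapGL ℝ (nuSL y) ∈ Nrm (inc (Gam1 L₂ c)) :=
  mapGL_mem_Nrm fun _ hγ => nu_conj_mem h1 h2 h3 hγ

end Fermat.Agent.NEB.EIG.H39
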