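import Fermat.Agent.NEB.EIG.H39_Mat

/-!
# NEB / EIG (helper39): explicit matrices for Betti twisting, part 2

* `gam0_alpha` : for `g ∈ Γ₀(L₂)`: `g α_n = γ' α_{n a²} g` with `γ' ∈ Gam1 L₂ c`, `a = g 0 0`;
* `word_exists` : an element of `Gam1 (q m q) c₁` with upper-left entry `≡ T mod q` which is the word
  `α_{-T} ν^{k₁} α_1 ν^{k₂}`.
-/

set_option autoImplicit false

namespace Fermat.Agent.NEB.EIG.H39

open CongruenceSubgroup Matrix.SpecialLinearGroup ModularForm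
open scoped MatrixGroups

theorem val_mapGL_mkSL (a b c d : ℤ) (h : a * d - b * c = 1) :
    ((mapGL ℝ (mkSL a b c d h) : GL (Fin 2) ℝ) : Matrix (Fin 2) (Fin 2) ℝ)
      = !![(a : ℝ), (b : ℝ); (c : ℝ), (d : ℝ)] := by
  ext i j
  fin_cases i <;> fin_cases j <;> simp

/-- `g α_n = γ' α_{n a²} g`. -/
theorem gam0_alpha {L₂ c q : ℕ} (hq0 : q ≠ 0) (hq : q ∣ c) (hcq : c * q ∣ L₂) {g : SL(2, ℤ)}
    (hg : (L₂ : ℤ) ∣ g 1 0) (n : ℤ) :
    ∃ γ' ∈ Gam1 L₂ c,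
      mapGL ℝ g * alphaGL q n = mapGL ℝ γ' * alphaGL q (n * g 0 0 ^ 2) * mapGL ℝ g := by
  obtain ⟨c', rfl⟩ := hq
  obtain ⟨C₃, hC⟩ : ((q * c' * q : ℕ) : ℤ) ∣ g 1 0 :=
    (Int.natCast_dvd_natCast.mpr hcq).trans hg
  obtain ⟨G, hG⟩ := hg
  push_cast at hC
  have hdet := sl_det g
  let γ' : SL(2, ℤ) := mkSL (1 - n * g 0 0 * (q * c') * C₃) (n ^ 2 * g 0 0 ^ 3 * c' * C₃)
    (-(n * (q * c') ^ 2 * q * C₃ ^ 2)) (1 + n * g 0 0 * (q * c') * C₃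
      + n ^ 2 * g 0 0 ^ 2 * (q * c') ^ 2 * C₃ ^ 2) (by ring)
  have hγ' : γ' ∈ Gam1 L₂ (q * c') := by
    refine ⟨?_, ?_, ?_⟩
    · show (L₂ : ℤ) ∣ -(n * (q * c') ^ 2 * q * C₃ ^ 2)
      refine ⟨-(n * (q * c') * C₃ * G), ?_⟩
      have : -(n * ((q : ℤ) * c') ^ 2 * q * C₃ ^ 2) = -(n * (q * c') * C₃) * g 1 0 := by
        rw [hC]; ring
      rw [this, hG]; ring
    · show ((q * c' : ℕ) : ℤ) ∣ -(n * (q * c') ^ 2 * q * C₃ ^ 2)
      refine ⟨-(n * (q * c') * q * C₃ ^ 2), ?_⟩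
      push_cast; ring
    · show ((q * c' : ℕ) : ℤ) ∣ 1 - n * g 0 0 * (q * c') * C₃ - 1
      refine ⟨-(n * g 0 0 * C₃), ?_⟩
      push_cast; ring
  refine ⟨γ', hγ', ?_⟩
  have hq' : (q : ℝ) ≠ 0 := by exact_mod_cast hq0
  have hC' : ((g 1 0 : ℤ) : ℝ) = q * c' * q * C₃ := by exact_mod_cast hC
  have hdet' : ((g 0 0 : ℤ) : ℝ) * (g 1 1 : ℤ) - (g 0 1 : ℤ) * (q * c' * q * C₃) = 1 := by
    rw [← hC']; exact_mod_cast hdet
  apply Units.ext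
  ext i j
  fin_cases i <;> fin_cases j
  · simp [γ', Matrix.mul_apply, Fin.sum_univ_two, hC']
    field_simp
    ring
  · simp [γ', Matrix.mul_apply, Fin.sum_univ_two, hC']
    field_simp
    linear_combination (-(n : ℝ) * (g 0 0 : ℤ)) * hdet'
  · simp [γ', Matrix.mul_apply, Fin.sum_univ_two, hC']
    field_simp
    ring
  · simp [γ', Matrix.mul_apply, Fin.sum_univ_two, hC']
    field_simp
    linear_combination (-(n : ℝ) * q * c' * C₃) * hdet'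

/-- The word `α_{-T} ν^{k₁} α_1 ν^{k₂}` is an element of `Γ₀(q m q) ∩ Γ₁(c₁)` with upper-left entry
`≡ T mod q`. -/
theorem word_exists {q m c₁ : ℕ} (hq : q.Prime) (hqm : ¬ q ∣ m) (hc₁ : c₁ ∣ m) (T : ℤ)
    (hT : ¬ (q : ℤ) ∣ T) :
    ∃ (g : SL(2, ℤ)) (k₁ k₂ : ℤ), g ∈ Gam1 (q * m * q) c₁ ∧ (q : ℤ) ∣ g 0 0 - T ∧
      mapGL ℝ g = alphaGL q (-T) * mapGL ℝ (nuSL (k₁ * (q * m))) * alphaGL q 1
        * mapGL ℝ (nuSL (k₂ * (q * m))) := by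
  haveI : Fact q.Prime := ⟨hq⟩
  have hT' : (T : ZMod q) ≠ 0 := by
    rwa [Ne, ZMod.intCast_zmod_eq_zero_iff_dvd]
  have hm' : (m : ZMod q) ≠ 0 := by
    rwa [Ne, ZMod.natCast_eq_zero_iff]
  -- `k₁`, `k₂`
  set k₁ : ℤ := ((((T : ZMod q)⁻¹ - 1) * (m : ZMod q)⁻¹).val : ℤ) with hk₁
  set k₂ : ℤ := ((((T : ZMod q) - 1) * (m : ZMod q)⁻¹).val : ℤ) with hk₂
  have h1 : ((1 - T * (1 + k₁ * m) : ℤ) : ZMod q) = 0 := by
    push_cast
    rw [hk₁]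
    push_cast
    rw [ZMod.natCast_zmod_val]
    field_simp
    ring
  have h2 : ((1 + k₂ * m - T : ℤ) : ZMod q) = 0 := by
    push_cast
    rw [hk₂]
    push_cast
    rw [ZMod.natCast_zmod_val]
    field_simp
    ring
  obtain ⟨e₁, he₁⟩ := (ZMod.intCast_zmod_eq_zero_iff_dvd _ _).mp h1
  obtain ⟨e₂, he₂⟩ := (ZMod.intCast_zmod_eq_zero_iff_dvd _ _).mp h2
  -- `E = k₁ + k₂ + m k₁ k₂` is divisible by `q`
  have h3 : ((k₁ + k₂ + m * k₁ * k₂ : ℤ) : ZMod q) = 0 := by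
    have h1' : (T : ZMod q) * (1 + (k₁ : ZMod q) * m) = 1 := by
      have := h1; push_cast at this; linear_combination -this
    have h2' : (1 + (k₂ : ZMod q) * m) = T := by
      have := h2; push_cast at this; linear_combination this
    have h4 : (m : ZMod q) * ((k₁ : ZMod q) + k₂ + m * k₁ * k₂) = 0 := by
      have : (1 + (k₂ : ZMod q) * m) * (1 + (k₁ : ZMod q) * m) = 1 := by rw [h2', h1']
      linear_combination this
    push_cast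
    rcases mul_eq_zero.mp h4 with h | h
    · exact absurd h hm'
    · exact h
  obtain ⟨E', hE'⟩ := (ZMod.intCast_zmod_eq_zero_iff_dvd _ _).mp h3
  obtain ⟨m', hm'c⟩ := hc₁
  let g : SL(2, ℤ) := mkSL (1 + k₂ * m - T * m * (k₁ + k₂ + m * k₁ * k₂)) e₁
    (q * m * (k₁ + k₂ + m * k₁ * k₂)) (1 + k₁ * m) (by linear_combination ((m : ℤ) * (k₁ + k₂ + m * k₁ * k₂)) * he₁)
  refine ⟨g, k₁, k₂, ⟨?_, ?_, ?_⟩, ?_, ?_⟩
  · show ((q * m * q : ℕ) : ℤ) ∣ q * m * (k₁ + k₂ + m * k₁ * k₂)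
    refine ⟨E', ?_⟩
    rw [hE']; push_cast; ring
  · show (c₁ : ℤ) ∣ q * m * (k₁ + k₂ + m * k₁ * k₂)
    refine ⟨q * m' * (k₁ + k₂ + m * k₁ * k₂), ?_⟩
    rw [hm'c]; push_cast; ring
  · show (c₁ : ℤ) ∣ 1 + k₂ * m - T * m * (k₁ + k₂ + m * k₁ * k₂) - 1
    refine ⟨m' * (k₂ - T * (k₁ + k₂ + m * k₁ * k₂)), ?_⟩
    rw [hm'c]; push_cast; ring
  · show (q : ℤ) ∣ 1 + k₂ * m - T * m * (k₁ + k₂ + m * k₁ * k₂) - T
    refine ⟨e₂ - T * m * E', ?_⟩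
    linear_combination he₂ - (T * m) * hE'
  · have hq' : (q : ℝ) ≠ 0 := by exact_mod_cast hq.ne_zero
    have he₁' : (q : ℝ) * e₁ = 1 - T * (1 + k₁ * m) := by exact_mod_cast he₁.symm
    apply Units.ext
    simp only [g, nuSL, Matrix.GeneralLinearGroup.coe_mul, val_mapGL_mkSL, val_alphaGL,
      Matrix.mul_fin_two]
    ext i j
    fin_cases i <;> fin_cases j
    · simp
      field_simp
      ring
    · simp
      field_simp
      linear_combination he₁'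
    · simp
      field_simp
      ring
    · simp
      field_simp
      ring

end Fermat.Agent.NEB.EIG.H39
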