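import Fermat.Agent.NEB.EIG.H39_Mat2
import Fermat.Agent.NEB.EIG.H39_Jacobi
import Fermat.Agent.NEB.EIG.H39_FamDefs
import Fermat.Prelude.Def_ModularCurve_PeriodMap

/-!
# NEB / EIG (helper39): restriction, operators `A_n`, compatibility lemmas

* `heckeOp_intertwine'` : the intertwining lemma with a function `π` (bijectivity is automatic);
* `resK` : restriction of homomorphisms to a smaller subgroup of `SL(2, ℤ)`; injective on
  torsion-free coefficients when the subgroup contains a principal congruence subgroup;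
* `resK_tw` : restriction commutes with conjugation;
* `twLin`, `Aop`, `Bop` : the operators `φ ↦ φ ∘ conj(α_n)` on `Hom(Gam1 L₂ c, L)`.
-/

set_option autoImplicit false

namespace Fermat.Agent.NEB.EIG.H39

open CongruenceSubgroup Matrix.SpecialLinearGroup ModularForm Finset
open scoped MatrixGroups
open Fermat.Agent.Betti

section Intertwine'

variable {Γ G : Type*} [Group Γ] [Group G] {e : Γ →* G}
  {ι : Type*} [Fintype ι] {rep : ι → G} (H : IsHeckeFamily e rep)
  {A : Type*} [AddCommGroup A]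

/-- The intertwining lemma for one group and one family; `π` is any function. -/
theorem heckeOp_intertwine' (he : Function.Injective e)
    (a b : G) (θa θb : Γ →* Γ)
    (hθa : ∀ γ, e (θa γ) * a = a * e γ)
    (hθb : ∀ γ, e (θb γ) * b = b * e γ)
    (π : ι → ι) (ε : ι → Γ)
    (hrep : ∀ i, rep i * b = e (ε i) * a * rep (π i))
    (φ : Additive Γ →+ A) :
    (H.heckeOp he φ).comp (MonoidHom.toAdditive θb) =
      H.heckeOp he (φ.comp (MonoidHom.toAdditive θa)) := by
  have hinj : Function.Injective π := by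
    intro i j hij
    have h1 := hrep i
    have h2 := hrep j
    rw [hij] at h1
    have h3 : rep i = e (ε i * (ε j)⁻¹) * rep j := by
      have e1 : rep i = e (ε i) * a * rep (π j) * b⁻¹ := by rw [← h1]; group
      have e2 : a * rep (π j) * b⁻¹ = (e (ε j))⁻¹ * rep j := by
        have : rep j = e (ε j) * a * rep (π j) * b⁻¹ := by rw [← h2]; group
        rw [this]; group
      rw [e1, map_mul, map_inv]
      calc e (ε i) * a * rep (π j) * b⁻¹ = e (ε i) * (a * rep (π j) * b⁻¹) := by group
        _ = e (ε i) * ((e (ε j))⁻¹ * rep j) := by rw [e2]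
        _ = e (ε i) * (e (ε j))⁻¹ * rep j := by group
    exact H.inj _ _ _ h3
  have hbij : Function.Bijective π := Finite.injective_iff_bijective.mp hinj
  exact heckeOp_intertwine H H he he a b θa θb hθa hθb (Equiv.ofBijective π hbij) ε hrep φ

end Intertwine'

/-! ## Restriction -/

section Res

variable {A : Type*} [AddCommGroup A]

/-- Restriction of a homomorphism to a smaller subgroup. -/
def resK {K' K : Subgroup SL(2, ℤ)} (h : K' ≤ K) (φ : Additive K →+ A) : Additive K' →+ A :=
  φ.comp (MonoidHom.toAdditive (Subgroup.inclusion h))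

@[simp] theorem resK_apply {K' K : Subgroup SL(2, ℤ)} (h : K' ≤ K) (φ : Additive K →+ A) (γ : K') :
    resK h φ (Additive.ofMul γ) = φ (Additive.ofMul (Subgroup.inclusion h γ)) := rfl

theorem resK_add {K' K : Subgroup SL(2, ℤ)} (h : K' ≤ K) (φ ψ : Additive K →+ A) :
    resK h (φ + ψ) = resK h φ + resK h ψ := rfl

theorem resK_smul {R : Type*} [Semiring R] [Module R A] {K' K : Subgroup SL(2, ℤ)} (h : K' ≤ K)
    (r : R) (φ : Additive K →+ A) : resK h (r • φ) = r • resK h φ := rfl

theorem Gamma_le_Gam1 {N M c : ℕ} (hM : M ∣ N) (hc : c ∣ N) : Gamma N ≤ Gam1 M c := by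
  intro γ hγ
  rw [Gamma_mem] at hγ
  obtain ⟨h00, -, h10, -⟩ := hγ
  have h10' : (N : ℤ) ∣ γ 1 0 := (ZMod.intCast_zmod_eq_zero_iff_dvd _ _).mp h10
  have h00' : (N : ℤ) ∣ γ 0 0 - 1 := by
    rw [← ZMod.intCast_zmod_eq_zero_iff_dvd]
    push_cast
    rw [h00, sub_self]
  exact ⟨(Int.natCast_dvd_natCast.mpr hM).trans h10', (Int.natCast_dvd_natCast.mpr hc).trans h10',
    (Int.natCast_dvd_natCast.mpr hc).trans h00'⟩

/-- Restriction to a subgroup containing a principal congruence subgroup is injective on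
homomorphisms to a torsion-free group. -/
theorem resK_injective {K' K : Subgroup SL(2, ℤ)} (h : K' ≤ K) {N : ℕ} [NeZero N]
    (hN : Gamma N ≤ K') (htf : ∀ (n : ℕ) (a : A), n ≠ 0 → n • a = 0 → a = 0)
    (φ : Additive K →+ A) (hφ : resK h φ = 0) : φ = 0 := by
  refine AddMonoidHom.ext fun γ => ?_
  obtain ⟨γ, rfl⟩ : ∃ g : K, Additive.ofMul g = γ := ⟨Additive.toMul γ, rfl⟩
  have := Gamma_normal N
  have hidx : (Gamma N).index ≠ 0 := Subgroup.FiniteIndex.index_ne_zero
  have hmem : (γ : SL(2, ℤ)) ^ (Gamma N).index ∈ K' := hN (Subgroup.pow_index_mem _ _)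
  have h1 : φ (Additive.ofMul (γ ^ (Gamma N).index)) = 0 := by
    have := congrArg (fun ψ : Additive K' →+ A => ψ (Additive.ofMul ⟨_, hmem⟩)) hφ
    simp only [resK_apply, AddMonoidHom.zero_apply] at this
    have e : γ ^ (Gamma N).index = Subgroup.inclusion h ⟨_, hmem⟩ := Subtype.ext (by simp)
    rw [e]
    exact this
  rw [ofMul_pow, map_nsmul] at h1
  exact htf _ _ hidx h1

/-- Restriction commutes with conjugation. -/
theorem resK_tw {K' K : Subgroup SL(2, ℤ)} (h : K' ≤ K) (a : GL (Fin 2) ℝ)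
    (ha : a ∈ Nrm (inc K)) (ha' : a ∈ Nrm (inc K')) (φ : Additive K →+ A) :
    resK h (tw (inc_injective K) ⟨a, ha⟩ φ) = tw (inc_injective K') ⟨a, ha'⟩ (resK h φ) := by
  refine AddMonoidHom.ext fun γ => ?_
  obtain ⟨γ, rfl⟩ : ∃ g : K', Additive.ofMul g = γ := ⟨Additive.toMul γ, rfl⟩
  rw [resK_apply, tw_apply, tw_apply, resK_apply]
  congr 2
  apply inc_injective K
  rw [e_conjEnd]
  have := e_conjEnd (inc_injective K') ⟨a, ha'⟩ γ
  simp only [inc_apply] at this ⊢
  rw [Subgroup.coe_inclusion, Subgroup.coe_inclusion, this]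

end Res

end Fermat.Agent.NEB.EIG.H39
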