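import Fermat.Agent.NEB.EIG.H39_Res
import Fermat.Agent.NEB.EIG.H98_Fam

/-!
# NEB / EIG (helper39): the operators `A_n`, `B_u`, `D_g`, `T_ℓ` on `Hom(Gam1 L₂ c, L)` and their
commutation rules

* `Aop n φ = φ ∘ conj(α_n)`, `α_n = [[1, n/q], [0, 1]]`; `Bop u = Aop u.val` for `u : ZMod q`;
* `Dop g φ = φ ∘ conj(g)` for `g ∈ Γ₀(L₂)`;
* `TD` : the Hecke operator of the double coset of `diag(ℓ, 1)`;
* `Aop_Dop` : `A_n D_g = D_g A_{n a²}`, `a = g₀₀`;  `twOp_Dop` : `Tw_χ D_g = χ(a)² D_g Tw_χ`;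
* `Aop_TD` : `A_n T_ℓ = T_ℓ A_{ℓ n}`;  `TD_twOp` : `T_ℓ Tw_χ = χ(ℓ)⁻¹ Tw_χ T_ℓ`.
-/

set_option autoImplicit false

namespace Fermat.Agent.NEB.EIG.H39

open CongruenceSubgroup Matrix.SpecialLinearGroup ModularForm Finset
open scoped MatrixGroups
open P2MW.S_ModularForm_heckeT_slash_eq_self_of_mem_Gamma0.ModularForm.HeckeSlashInvariance
open Fermat.Agent.Betti
open scoped OnePoint

section TwLin

variable {Γ G : Type*} [Group Γ] [Group G] {e : Γ →* G} (he : Function.Injective e)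
  {L : Type*} [Field L]

/-- `tw` as a linear map. -/
noncomputable def twLin (a : G) (ha : a ∈ Nrm e) : (Additive Γ →+ L) →ₗ[L] (Additive Γ →+ L) where
  toFun := tw he ⟨a, ha⟩
  map_add' := tw_add he _
  map_smul' := fun r φ => tw_smul he _ r φ

@[simp] theorem twLin_apply (a : G) (ha : a ∈ Nrm e) (φ : Additive Γ →+ L) :
    twLin he a ha φ = tw he ⟨a, ha⟩ φ := rfl

theorem twLin_mul (a b : G) (ha : a ∈ Nrm e) (hb : b ∈ Nrm e) (hab : a * b ∈ Nrm e) :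
    twLin (L := L) he (a * b) hab = (twLin he b hb).comp (twLin he a ha) := by
  refine LinearMap.ext fun φ => ?_
  show tw he ⟨a * b, hab⟩ φ = tw he ⟨b, hb⟩ (tw he ⟨a, ha⟩ φ)
  rw [← tw_mul]
  exact tw_congr he rfl φ

theorem twLin_range (g : Γ) (ha : e g ∈ Nrm e) : twLin (L := L) he (e g) ha = LinearMap.id := by
  refine LinearMap.ext fun φ => ?_
  exact tw_of_range he _ g rfl φ

theorem twLin_congr {a b : G} (h : a = b) (ha : a ∈ Nrm e) (hb : b ∈ Nrm e) :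
    twLin (L := L) he a ha = twLin he b hb := by
  subst h; rfl

end TwLin

section Ops

variable {L₂ c q : ℕ} (hq0 : q ≠ 0) (hq : q ∣ c) (hcq : c * q ∣ L₂) {L : Type*} [Field L]

/-- `A_n φ = φ ∘ conj(α_n)`. -/
noncomputable def Aop (n : ℤ) :
    (Additive (Gam1 L₂ c) →+ L) →ₗ[L] (Additive (Gam1 L₂ c) →+ L) :=
  twLin (inc_injective _) (alphaGL q n) (alphaGL_mem_Nrm hq0 hq hcq n)

theorem Aop_apply (n : ℤ) (φ : Additive (Gam1 L₂ c) →+ L) :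
    Aop hq0 hq hcq n φ
      = tw (inc_injective _) ⟨alphaGL q n, alphaGL_mem_Nrm hq0 hq hcq n⟩ φ := rfl

theorem Aop_add (n m : ℤ) :
    Aop (L := L) hq0 hq hcq (n + m) = (Aop hq0 hq hcq n).comp (Aop hq0 hq hcq m) := by
  unfold Aop
  rw [← twLin_mul (inc_injective _) (alphaGL q m) (alphaGL q n) _ _
    (by rw [alphaGL_add]; exact alphaGL_mem_Nrm hq0 hq hcq _)]
  exact twLin_congr _ (by rw [alphaGL_add, add_comm]) _ _

theorem Aop_zero : Aop (L := L) hq0 hq hcq 0 = LinearMap.id := by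
  unfold Aop
  have h1 : alphaGL q 0 = inc (Gam1 L₂ c) 1 := by rw [alphaGL_zero, map_one]
  rw [twLin_congr (inc_injective _) h1 _ (range_le_Nrm 1)]
  exact twLin_range _ 1 _

theorem Aop_q_mul (k : ℤ) : Aop (L := L) hq0 hq hcq (q * k) = LinearMap.id := by
  unfold Aop
  have h1 : alphaGL q (q * k) = inc (Gam1 L₂ c) ⟨tauSL k, tauSL_mem_Gam1 L₂ c k⟩ := by
    rw [alphaGL_mul_q hq0]; rfl
  rw [twLin_congr (inc_injective _) h1 _ (range_le_Nrm _)]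
  exact twLin_range _ _ _

theorem Aop_congr {n m : ℤ} (h : (q : ℤ) ∣ n - m) :
    Aop (L := L) hq0 hq hcq n = Aop hq0 hq hcq m := by
  obtain ⟨k, hk⟩ := h
  have : n = q * k + m := by linarith
  rw [this, Aop_add, Aop_q_mul]
  rfl

/-- `B_u = A_{u.val}` for `u : ZMod q`. -/
noncomputable def Bop (u : ZMod q) :
    (Additive (Gam1 L₂ c) →+ L) →ₗ[L] (Additive (Gam1 L₂ c) →+ L) :=
  Aop hq0 hq hcq (u.val : ℤ)

theorem Bop_intCast (n : ℤ) : Bop (L := L) hq0 hq hcq (n : ZMod q) = Aop hq0 hq hcq n := by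
  haveI : NeZero q := ⟨hq0⟩
  unfold Bop
  apply Aop_congr
  rw [← ZMod.intCast_zmod_eq_zero_iff_dvd]
  push_cast
  simp

theorem Bop_zero : Bop (L := L) hq0 hq hcq 0 = LinearMap.id := by
  have := Bop_intCast (L := L) hq0 hq hcq 0
  rw [Int.cast_zero] at this
  rw [this, Aop_zero]

theorem Bop_add (u v : ZMod q) :
    Bop (L := L) hq0 hq hcq (u + v) = (Bop hq0 hq hcq u).comp (Bop hq0 hq hcq v) := by
  haveI : NeZero q := ⟨hq0⟩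
  have h1 : u + v = (((u.val : ℤ) + (v.val : ℤ) : ℤ) : ZMod q) := by
    push_cast
    simp
  rw [h1, Bop_intCast, Aop_add]
  rfl

/-- `D_g φ = φ ∘ conj(g)` for `g ∈ Γ₀(L₂)`. -/
noncomputable def Dop (hc : c ∣ L₂) (g : SL(2, ℤ)) (hg : (L₂ : ℤ) ∣ g 1 0) :
    (Additive (Gam1 L₂ c) →+ L) →ₗ[L] (Additive (Gam1 L₂ c) →+ L) :=
  twLin (inc_injective _) (mapGL ℝ g) (gam0_mem_Nrm hc hg)

theorem Dop_apply (hc : c ∣ L₂) (g : SL(2, ℤ)) (hg : (L₂ : ℤ) ∣ g 1 0)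
    (φ : Additive (Gam1 L₂ c) →+ L) :
    Dop hc g hg φ = tw (inc_injective _) ⟨mapGL ℝ g, gam0_mem_Nrm hc hg⟩ φ := rfl

/-- `A_n D_g = D_g A_{n a²}`. -/
theorem Aop_Dop (hc : c ∣ L₂) (g : SL(2, ℤ)) (hg : (L₂ : ℤ) ∣ g 1 0) (n : ℤ) :
    (Aop (L := L) hq0 hq hcq n).comp (Dop hc g hg)
      = (Dop hc g hg).comp (Aop hq0 hq hcq (n * g 0 0 ^ 2)) := by
  obtain ⟨γ', hγ', hrel⟩ := gam0_alpha hq0 hq hcq hg n
  have hN1 : mapGL ℝ g * alphaGL q n ∈ Nrm (inc (Gam1 L₂ c)) :=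
    (Nrm _).mul_mem (gam0_mem_Nrm hc hg) (alphaGL_mem_Nrm hq0 hq hcq n)
  have hNγ : mapGL ℝ γ' ∈ Nrm (inc (Gam1 L₂ c)) := range_le_Nrm (e := inc (Gam1 L₂ c)) ⟨γ', hγ'⟩
  have hN2 : mapGL ℝ γ' * alphaGL q (n * g 0 0 ^ 2) ∈ Nrm (inc (Gam1 L₂ c)) :=
    (Nrm _).mul_mem hNγ (alphaGL_mem_Nrm hq0 hq hcq _)
  have hN3 : mapGL ℝ γ' * alphaGL q (n * g 0 0 ^ 2) * mapGL ℝ g ∈ Nrm (inc (Gam1 L₂ c)) :=
    (Nrm _).mul_mem hN2 (gam0_mem_Nrm hc hg)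
  have e1 : (Aop (L := L) hq0 hq hcq n).comp (Dop hc g hg)
      = twLin (inc_injective _) (mapGL ℝ g * alphaGL q n) hN1 :=
    (twLin_mul _ _ _ _ _ _).symm
  have e2 : twLin (L := L) (inc_injective _) (mapGL ℝ γ' * alphaGL q (n * g 0 0 ^ 2) * mapGL ℝ g) hN3
      = (Dop hc g hg).comp (twLin (inc_injective _) (mapGL ℝ γ' * alphaGL q (n * g 0 0 ^ 2)) hN2) :=
    twLin_mul _ _ _ _ _ _
  have e3 : twLin (L := L) (inc_injective _) (mapGL ℝ γ' * alphaGL q (n * g 0 0 ^ 2)) hN2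
      = (Aop hq0 hq hcq (n * g 0 0 ^ 2)).comp (twLin (inc_injective _) (mapGL ℝ γ') hNγ) :=
    twLin_mul _ _ _ _ _ _
  have e4 : twLin (L := L) (inc_injective _) (mapGL ℝ γ') hNγ = LinearMap.id :=
    twLin_range (inc_injective _) (⟨γ', hγ'⟩ : Gam1 L₂ c) hNγ
  rw [e1, twLin_congr (inc_injective _) hrel hN1 hN3, e2, e3, e4, LinearMap.comp_id]

/-- The upper-left entry of `g ∈ Γ₀(L₂)` as a unit mod `q` (`q ∣ L₂`). -/
theorem entry_mul_eq_one {g : SL(2, ℤ)} (hg : (q : ℤ) ∣ g 1 0) :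
    ((g 0 0 : ℤ) : ZMod q) * ((g 1 1 : ℤ) : ZMod q) = 1 := by
  have hdet := sl_det g
  have h10 : ((g 1 0 : ℤ) : ZMod q) = 0 := (ZMod.intCast_zmod_eq_zero_iff_dvd _ _).mpr hg
  have := congrArg (Int.cast : ℤ → ZMod q) hdet
  push_cast at this
  rw [h10, mul_zero, sub_zero] at this
  exact this

/-- `Tw_χ D_g = χ(a)² D_g Tw_χ`, `a = g₀₀`. -/
theorem twOp_Dop [Fact q.Prime] (hc : c ∣ L₂) (χ : MulChar (ZMod q) L) (g : SL(2, ℤ))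
    (hg : (L₂ : ℤ) ∣ g 1 0) (φ : Additive (Gam1 L₂ c) →+ L) :
    twOp (Bop hq0 hq hcq) χ (Dop hc g hg φ)
      = χ ((g 0 0 : ℤ) : ZMod q) ^ 2 • Dop hc g hg (twOp (Bop hq0 hq hcq) χ φ) := by
  have hqg : (q : ℤ) ∣ g 1 0 :=
    (Int.natCast_dvd_natCast.mpr (hq.trans hc)).trans hg
  let a : (ZMod q)ˣ := Units.mkOfMulEqOne _ _ (entry_mul_eq_one hqg)
  have ha : (a : ZMod q) = ((g 0 0 : ℤ) : ZMod q) := rfl
  have h1 : ∀ u : ZMod q, Bop hq0 hq hcq u (Dop hc g hg φ)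
      = Dop hc g hg (Bop hq0 hq hcq (u * ((a ^ 2 : (ZMod q)ˣ) : ZMod q)) φ) := by
    intro u
    have e1 : u * ((a ^ 2 : (ZMod q)ˣ) : ZMod q) = (((u.val : ℤ) * g 0 0 ^ 2 : ℤ) : ZMod q) := by
      haveI : NeZero q := ⟨hq0⟩
      rw [Units.val_pow_eq_pow_val, ha]
      push_cast
      simp
    rw [e1, Bop_intCast]
    have := congrArg (fun F => F φ) (Aop_Dop (L := L) hq0 hq hcq hc g hg (u.val : ℤ))
    exact this
  rw [twOp_apply]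
  simp only [h1]
  have h2 : χ ((g 0 0 : ℤ) : ZMod q) ^ 2 = χ ((a ^ 2 : (ZMod q)ˣ) : ZMod q) := by
    rw [Units.val_pow_eq_pow_val, ha, map_pow]
  rw [h2, ← map_smul, ← twOp_comp_mul (Bop hq0 hq hcq) χ (a ^ 2) φ, map_sum]
  refine Finset.sum_congr rfl fun u _ => ?_
  rw [map_smul]

end Ops

section Hecke

variable {L : Type*} [Field L]

/-- The Hecke operator of the double coset of `diag(ℓ, 1)` on `Hom(Gam1 M c, L)`. -/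
noncomputable def TD (M c : ℕ) (hc : c ∣ M) {ℓ : ℕ} (hℓ : ℓ.Prime) (hℓM : ¬ ℓ ∣ M) :
    (Additive (Gam1 M c) →+ L) →ₗ[L] (Additive (Gam1 M c) →+ L) :=
  haveI : Fact ℓ.Prime := ⟨hℓ⟩
  (H98.stmt_FAM_hecke M c ℓ hc hℓ hℓM).heckeOpLin (inc_injective _) L

theorem TD_apply (M c : ℕ) (hc : c ∣ M) {ℓ : ℕ} (hℓ : ℓ.Prime) (hℓM : ¬ ℓ ∣ M)
    (φ : Additive (Gam1 M c) →+ L) :
    haveI : Fact ℓ.Prime := ⟨hℓ⟩
    TD M c hc hℓ hℓM φ = (H98.stmt_FAM_hecke M c ℓ hc hℓ hℓM).heckeOp (inc_injective _) φ := rfl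

variable {L₂ c q : ℕ} (hq0 : q ≠ 0) (hq : q ∣ c) (hcq : c * q ∣ L₂)

/-- `A_n T_ℓ = T_ℓ A_{ℓ n}`. -/
theorem Aop_TD (hc : c ∣ L₂) {ℓ : ℕ} (hℓ : ℓ.Prime) (hℓM : ¬ ℓ ∣ L₂) (n : ℤ)
    (φ : Additive (Gam1 L₂ c) →+ L) :
    Aop hq0 hq hcq n (TD L₂ c hc hℓ hℓM φ) = TD L₂ c hc hℓ hℓM (Aop hq0 hq hcq (ℓ * n) φ) := by
  haveI : Fact ℓ.Prime := ⟨hℓ⟩
  have H := H98.stmt_FAM_hecke L₂ c ℓ hc hℓ hℓM
  have he := inc_injective (Gam1 L₂ c)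
  have hex : ∀ i : OnePoint (ZMod ℓ), ∃ (j : OnePoint (ZMod ℓ)) (ε : Gam1 L₂ c),
      repD L₂ ℓ i * alphaGL q n = inc (Gam1 L₂ c) ε * alphaGL q (ℓ * n) * repD L₂ ℓ j := by
    intro i
    obtain ⟨d, hd, hrep⟩ := H98.stmt_FAM_trans L₂ c ℓ hc hℓ hℓM i
    -- move `α_n` past `d`
    obtain ⟨d', hd'⟩ := alphaGL_mem_Nrm hq0 hq hcq (-n) (⟨d, hd⟩ : Gam1 L₂ c)
    have hinv : alphaGL q (-n) = (alphaGL q n)⁻¹ := by
      rw [eq_inv_iff_mul_eq_one, alphaGL_add]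
      simp [alphaGL_zero]
    have h1 : mapGL ℝ d * alphaGL q n = alphaGL q n * inc (Gam1 L₂ c) d' := by
      rw [hd', hinv]
      simp only [inc_apply, inv_inv]
      group
    obtain ⟨j, κ, hκ⟩ := H.exists_mul d' (∞ : OnePoint (ZMod ℓ))
    rw [repD_infty] at hκ
    obtain ⟨κ', hκ'⟩ := alphaGL_mem_Nrm hq0 hq hcq (ℓ * n) κ
    refine ⟨j, κ', ?_⟩
    rw [hrep, hκ']
    calc heckeDiagMatrix ℓ * mapGL ℝ d * alphaGL q n
        = heckeDiagMatrix ℓ * (mapGL ℝ d * alphaGL q n) := by group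
      _ = heckeDiagMatrix ℓ * alphaGL q n * inc (Gam1 L₂ c) d' := by rw [h1]; group
      _ = alphaGL q (ℓ * n) * (heckeDiagMatrix ℓ * inc (Gam1 L₂ c) d') := by
          rw [heckeDiag_mul_alpha hℓ.ne_zero]; group
      _ = alphaGL q (ℓ * n) * (inc (Gam1 L₂ c) κ * repD L₂ ℓ j) := by rw [hκ]
      _ = alphaGL q (ℓ * n) * inc (Gam1 L₂ c) κ * (alphaGL q (ℓ * n))⁻¹ * alphaGL q (ℓ * n)
            * repD L₂ ℓ j := by group
  choose π ε hπ using hex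
  have := heckeOp_intertwine' (A := L) H he (alphaGL q (ℓ * n)) (alphaGL q n)
    (conjEnd he ⟨alphaGL q (ℓ * n), alphaGL_mem_Nrm hq0 hq hcq _⟩)
    (conjEnd he ⟨alphaGL q n, alphaGL_mem_Nrm hq0 hq hcq _⟩)
    (fun γ => e_conjEnd_mul he _ γ) (fun γ => e_conjEnd_mul he _ γ) π ε hπ φ
  exact this

/-- `T_ℓ Tw_χ = χ(ℓ)⁻¹ Tw_χ T_ℓ`. -/
theorem TD_twOp [Fact q.Prime] (hc : c ∣ L₂) (χ : MulChar (ZMod q) L) {ℓ : ℕ} (hℓ : ℓ.Prime)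
    (hℓM : ¬ ℓ ∣ L₂) (φ : Additive (Gam1 L₂ c) →+ L) :
    TD L₂ c hc hℓ hℓM (twOp (Bop hq0 hq hcq) χ φ)
      = (χ (ℓ : ZMod q))⁻¹ • twOp (Bop hq0 hq hcq) χ (TD L₂ c hc hℓ hℓM φ) := by
  have hqL : q ∣ L₂ := hq.trans hc
  have hℓq : ℓ ≠ q := fun h => hℓM (h ▸ hqL)
  have hunit : IsUnit ((ℓ : ZMod q)) := by
    rw [ZMod.isUnit_iff_coprime]
    exact (Nat.coprime_primes hℓ (Fact.out : q.Prime)).mpr hℓq
  obtain ⟨a, ha⟩ := hunit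
  have hχ0 : χ (ℓ : ZMod q) ≠ 0 := by
    rw [← ha]
    exact (IsUnit.map χ a.isUnit).ne_zero
  have h1 : ∀ u : ZMod q, Bop hq0 hq hcq u (TD L₂ c hc hℓ hℓM φ)
      = TD L₂ c hc hℓ hℓM (Bop hq0 hq hcq (u * (a : ZMod q)) φ) := by
    intro u
    have e1 : u * (a : ZMod q) = (((ℓ : ℤ) * (u.val : ℤ) : ℤ) : ZMod q) := by
      haveI : NeZero q := ⟨hq0⟩
      push_cast
      rw [ha]
      simp [mul_comm]
    rw [e1, Bop_intCast]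
    exact Aop_TD hq0 hq hcq hc hℓ hℓM _ φ
  have h2 : twOp (Bop hq0 hq hcq) χ (TD L₂ c hc hℓ hℓM φ)
      = χ (ℓ : ZMod q) • TD L₂ c hc hℓ hℓM (twOp (Bop hq0 hq hcq) χ φ) := by
    rw [twOp_apply]
    simp only [h1]
    rw [← map_smul, ← ha, ← twOp_comp_mul (Bop hq0 hq hcq) χ a φ, map_sum]
    refine Finset.sum_congr rfl fun u _ => ?_
    rw [map_smul]
  rw [h2, smul_smul, inv_mul_cancel₀ hχ0, one_smul]

end Hecke

end Fermat.Agent.NEB.EIG.H39
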