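import Fermat.Agent.NEB.EIG.H98_Fam
import Fermat.Agent.NEB.EIG.H39_FamDefs2

/-!
# NEB / EIG, leaf TW-FAM (e) (helper98): the Hecke family and the diamond operators

* `stmt_FAM_diam : Stmt_FAM_diam` : for `g ∈ Γ₀(M)`, `repD x · g = ε · g · repD y`, `ε ∈ Gam1 M c`.
-/

set_option autoImplicit false

namespace Fermat.Agent.NEB.EIG.H98

open CongruenceSubgroup Matrix.SpecialLinearGroup ModularForm
open scoped MatrixGroups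
open P2MW.S_ModularForm_heckeT_slash_eq_self_of_mem_Gamma0.ModularForm.HeckeSlashInvariance
open Fermat.Agent.Betti Fermat.Agent.NEB.EIG.H39
open scoped OnePoint

section Mod

variable {c : ℕ}

theorem cast_eq_zero_of_dvd {a : ℤ} (h : (c : ℤ) ∣ a) : ((a : ℤ) : ZMod c) = 0 :=
  (ZMod.intCast_zmod_eq_zero_iff_dvd a c).mpr h

theorem cast00_mul (h k : SL(2, ℤ)) (hk : ((k 1 0 : ℤ) : ZMod c) = 0) :
    (((h * k) 0 0 : ℤ) : ZMod c) = ((h 0 0 : ℤ) : ZMod c) * ((k 0 0 : ℤ) : ZMod c) := by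
  rw [sl_mul_00]
  push_cast
  rw [hk]
  ring

theorem cast10_mul (h k : SL(2, ℤ)) (hh : ((h 1 0 : ℤ) : ZMod c) = 0)
    (hk : ((k 1 0 : ℤ) : ZMod c) = 0) : (((h * k) 1 0 : ℤ) : ZMod c) = 0 := by
  rw [sl_mul_10]
  push_cast
  rw [hh, hk]
  ring

theorem cast00_mul_cast11 (g : SL(2, ℤ)) (hg : ((g 1 0 : ℤ) : ZMod c) = 0) :
    ((g 0 0 : ℤ) : ZMod c) * ((g 1 1 : ℤ) : ZMod c) = 1 := by
  have := congrArg (Int.cast : ℤ → ZMod c) (sl_det g)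
  push_cast at this
  rw [hg] at this
  linear_combination this

theorem Gam1_cast00 {M : ℕ} {δ : SL(2, ℤ)} (h : δ ∈ Gam1 M c) : ((δ 0 0 : ℤ) : ZMod c) = 1 := by
  have := cast_eq_zero_of_dvd h.2.2
  push_cast at this
  linear_combination this

theorem Gam1_cast10 {M : ℕ} {δ : SL(2, ℤ)} (h : δ ∈ Gam1 M c) : ((δ 1 0 : ℤ) : ZMod c) = 0 :=
  cast_eq_zero_of_dvd h.2.1

end Mod

/-- **TW-FAM (e)**. -/
theorem stmt_FAM_diam : Stmt_FAM_diam := by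
  intro M c ℓ hc hℓ hℓM g hg x
  have : Fact ℓ.Prime := ⟨hℓ⟩
  have hℓ0 : ℓ ≠ 0 := hℓ.ne_zero
  have hT := isHeckeFamily_T M hℓM
  have hcM : (c : ℤ) ∣ (M : ℤ) := Int.natCast_dvd_natCast.mpr hc
  obtain ⟨εx, hεx, hx⟩ := stmt_FAM_std M ℓ hℓ hℓM x
  obtain ⟨y, g', hg'⟩ := hT.exists_mul ⟨g, mem_Gamma0_of_dvd hg⟩ x
  obtain ⟨εy, hεy, hy⟩ := stmt_FAM_std M ℓ hℓ hℓM y
  obtain ⟨δx, hδx, hx'⟩ := stmt_FAM_trans M c ℓ hc hℓ hℓM x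
  obtain ⟨δy, hδy, hy'⟩ := stmt_FAM_trans M c ℓ hc hℓ hℓM y
  have hg'' : heckeRep ℓ x * mapGL ℝ g = mapGL ℝ (g' : SL(2, ℤ)) * heckeRep ℓ y := hg'
  have hrepy : heckeRep ℓ y = mapGL ℝ εy⁻¹ * repD M ℓ y := by
    rw [hy, ← mul_assoc, ← map_mul, inv_mul_cancel, map_one, one_mul]
  set κ : SL(2, ℤ) := εx * (g' : SL(2, ℤ)) * εy⁻¹ with hκ
  have E : repD M ℓ x * mapGL ℝ g = mapGL ℝ κ * repD M ℓ y := by
    rw [hx, mul_assoc, hg'', hrepy, hκ, map_mul, map_mul]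
    simp only [mul_assoc]
  have hΓ0 : κ ∈ Gamma0 M :=
    (Gamma0 M).mul_mem ((Gamma0 M).mul_mem hεx g'.2) ((Gamma0 M).inv_mem hεy)
  have hM10 : (M : ℤ) ∣ κ 1 0 := dvd_of_mem_Gamma0 hΓ0
  have hcomm : heckeDiagMatrix ℓ * mapGL ℝ (δx * g * δy⁻¹) = mapGL ℝ κ * heckeDiagMatrix ℓ := by
    have h1 : heckeDiagMatrix ℓ * mapGL ℝ δx * mapGL ℝ g
        = mapGL ℝ κ * (heckeDiagMatrix ℓ * mapGL ℝ δy) := by
      rw [← hx', ← hy']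
      exact E
    calc heckeDiagMatrix ℓ * mapGL ℝ (δx * g * δy⁻¹)
        = heckeDiagMatrix ℓ * mapGL ℝ δx * mapGL ℝ g * (mapGL ℝ δy)⁻¹ := by
          rw [map_mul, map_mul, map_inv]
          simp only [mul_assoc]
      _ = mapGL ℝ κ * (heckeDiagMatrix ℓ * mapGL ℝ δy) * (mapGL ℝ δy)⁻¹ := by rw [h1]
      _ = mapGL ℝ κ * heckeDiagMatrix ℓ := by rw [mul_assoc, mul_inv_cancel_right]
  have h00 := diag_comm_00 hℓ0 hcomm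
  -- congruences modulo `c`
  have hg10 : ((g 1 0 : ℤ) : ZMod c) = 0 := cast_eq_zero_of_dvd (hcM.trans hg)
  have hκ10 : ((κ 1 0 : ℤ) : ZMod c) = 0 := cast_eq_zero_of_dvd (hcM.trans hM10)
  have hδy' : δy⁻¹ ∈ Gam1 M c := (Gam1 M c).inv_mem hδy
  have hκ00 : ((κ 0 0 : ℤ) : ZMod c) = ((g 0 0 : ℤ) : ZMod c) := by
    rw [h00, cast00_mul _ _ (Gam1_cast10 hδy'), cast00_mul _ _ hg10, Gam1_cast00 hδx,
      Gam1_cast00 hδy', one_mul, mul_one]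
  have hginv10 : (((g⁻¹) 1 0 : ℤ) : ZMod c) = 0 := by
    rw [sl_inv_10]
    push_cast
    rw [hg10, neg_zero]
  refine ⟨κ * g⁻¹, ⟨?_, ?_, ?_⟩, y, ?_⟩
  · have : κ * g⁻¹ ∈ Gamma0 M :=
      (Gamma0 M).mul_mem hΓ0 ((Gamma0 M).inv_mem (mem_Gamma0_of_dvd hg))
    exact dvd_of_mem_Gamma0 this
  · have : κ * g⁻¹ ∈ Gamma0 M :=
      (Gamma0 M).mul_mem hΓ0 ((Gamma0 M).inv_mem (mem_Gamma0_of_dvd hg))
    exact hcM.trans (dvd_of_mem_Gamma0 this)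
  · rw [← ZMod.intCast_zmod_eq_zero_iff_dvd]
    push_cast
    rw [cast00_mul _ _ hginv10, hκ00, sl_inv_00, cast00_mul_cast11 g hg10, sub_self]
  · rw [E, ← map_mul, inv_mul_cancel_right]

end Fermat.Agent.NEB.EIG.H98
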