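import Fermat.Agent.NEB.EIG.H39_Step1
import Fermat.Agent.NEB.EIG.H98_FamDiam
import Fermat.Agent.Betti.Basic

/-!
# NEB / EIG (helper39): diamond eigenspaces, restriction, corestriction, parabolic homomorphisms

* `Dop_TD` : the Hecke operator commutes with the diamond operators `D_g`, `g ∈ Γ₀(M)`;
* `IsEig M c hc ω φ` : `D_g φ = ω(g) φ` for all `g ∈ Γ₀(M)`;  `IsEig.TD`;
* `resK_TD` : restriction to `Gam1 M' c' ≤ Gam1 M c` commutes with the Hecke operators;
* `resK_corAlong` : `res (cor w) = index • w` for an invariant `w` on a normal subgroup;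
* parabolic homomorphisms: `isPar_resK`, `isPar_tw`, `isPar_twOp`, `isPar_corAlong`.
-/

set_option autoImplicit false

namespace Fermat.Agent.NEB.EIG.H39

open CongruenceSubgroup Matrix.SpecialLinearGroup ModularForm Finset
open scoped MatrixGroups
open P2MW.S_ModularForm_heckeT_slash_eq_self_of_mem_Gamma0.ModularForm.HeckeSlashInvariance
open Fermat.Agent.Betti ModularCurve.Period
open scoped OnePoint

section Diamond

variable {L : Type*} [Field L] {M c : ℕ}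

/-- The Hecke operator commutes with the diamond operators. -/
theorem Dop_TD (hc : c ∣ M) {ℓ : ℕ} (hℓ : ℓ.Prime) (hℓM : ¬ ℓ ∣ M) (g : SL(2, ℤ))
    (hg : (M : ℤ) ∣ g 1 0) (φ : Additive (Gam1 M c) →+ L) :
    Dop hc g hg (TD M c hc hℓ hℓM φ) = TD M c hc hℓ hℓM (Dop hc g hg φ) := by
  haveI : Fact ℓ.Prime := ⟨hℓ⟩
  have H := H98.stmt_FAM_hecke M c ℓ hc hℓ hℓM
  have he := inc_injective (Gam1 M c)
  have hex : ∀ i : OnePoint (ZMod ℓ), ∃ (j : OnePoint (ZMod ℓ)) (ε : Gam1 M c),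
      repD M ℓ i * mapGL ℝ g = inc (Gam1 M c) ε * mapGL ℝ g * repD M ℓ j := by
    intro i
    obtain ⟨ε, hε, y, hy⟩ := H98.stmt_FAM_diam M c ℓ hc hℓ hℓM g hg i
    exact ⟨y, ⟨ε, hε⟩, hy⟩
  choose π ε hπ using hex
  exact heckeOp_intertwine' (A := L) H he (mapGL ℝ g) (mapGL ℝ g)
    (conjEnd he ⟨mapGL ℝ g, gam0_mem_Nrm hc hg⟩) (conjEnd he ⟨mapGL ℝ g, gam0_mem_Nrm hc hg⟩)
    (fun γ => e_conjEnd_mul he _ γ) (fun γ => e_conjEnd_mul he _ γ) π ε hπ φ

/-- `φ` is an eigenvector of the diamond operators with weight `ω`. -/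
def IsEig (M c : ℕ) (hc : c ∣ M) (ω : SL(2, ℤ) → L) (φ : Additive (Gam1 M c) →+ L) : Prop :=
  ∀ (g : SL(2, ℤ)) (hg : (M : ℤ) ∣ g 1 0), Dop hc g hg φ = ω g • φ

theorem IsEig.TD {hc : c ∣ M} {ω : SL(2, ℤ) → L} {φ : Additive (Gam1 M c) →+ L}
    (h : IsEig M c hc ω φ) {ℓ : ℕ} (hℓ : ℓ.Prime) (hℓM : ¬ ℓ ∣ M) :
    IsEig M c hc ω (TD M c hc hℓ hℓM φ) := by
  intro g hg
  rw [Dop_TD, h g hg, map_smul]

theorem IsEig.congr {hc : c ∣ M} {ω ω' : SL(2, ℤ) → L} {φ : Additive (Gam1 M c) →+ L}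
    (h : IsEig M c hc ω φ) (hω : ∀ g : SL(2, ℤ), (M : ℤ) ∣ g 1 0 → ω g = ω' g) :
    IsEig M c hc ω' φ := by
  intro g hg
  rw [h g hg, hω g hg]

end Diamond

section ResLin

variable {L : Type*} [Field L]

/-- `resK` as a linear map. -/
def resLin {K' K : Subgroup SL(2, ℤ)} (h : K' ≤ K) :
    (Additive K →+ L) →ₗ[L] (Additive K' →+ L) where
  toFun := resK h
  map_add' := resK_add h
  map_smul' := fun r φ => resK_smul h r φ

@[simp] theorem resLin_apply {K' K : Subgroup SL(2, ℤ)} (h : K' ≤ K) (φ : Additive K →+ L) :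
    resLin h φ = resK h φ := rfl

/-- Restriction commutes with the diamond operators. -/
theorem resK_Dop {M M' c c' : ℕ} (hc : c ∣ M) (hc' : c' ∣ M') (hle : Gam1 M' c' ≤ Gam1 M c)
    (g : SL(2, ℤ)) (hg : (M : ℤ) ∣ g 1 0) (hg' : (M' : ℤ) ∣ g 1 0)
    (φ : Additive (Gam1 M c) →+ L) :
    resK hle (Dop hc g hg φ) = Dop hc' g hg' (resK hle φ) :=
  resK_tw hle (mapGL ℝ g) _ _ φ

/-- Restriction commutes with the Hecke operators. -/
theorem resK_TD {M M' c c' : ℕ} (hc : c ∣ M) (hc' : c' ∣ M') (hM : M ∣ M') (hcc : c ∣ c')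
    {ℓ : ℕ} (hℓ : ℓ.Prime) (hℓM : ¬ ℓ ∣ M) (hℓM' : ¬ ℓ ∣ M') (φ : Additive (Gam1 M c) →+ L) :
    resK (Gam1_mono hM hcc) (TD M c hc hℓ hℓM φ) = TD M' c' hc' hℓ hℓM' (resK (Gam1_mono hM hcc) φ) := by
  haveI : Fact ℓ.Prime := ⟨hℓ⟩
  have H₁ := H98.stmt_FAM_hecke M c ℓ hc hℓ hℓM
  have H₂ := H98.stmt_FAM_hecke M' c' ℓ hc' hℓ hℓM'
  have hex : ∀ i : OnePoint (ZMod ℓ), ∃ ε : Gam1 M c,
      repD M ℓ i * 1 = inc (Gam1 M c) ε * 1 * repD M' ℓ i := by
    intro i
    obtain ⟨ε, hε, h⟩ := H98.stmt_FAM_level M M' c ℓ hc hM hℓ hℓM' i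
    exact ⟨⟨ε, hε⟩, by rw [mul_one, mul_one, h]; rfl⟩
  choose ε hε using hex
  exact heckeOp_intertwine (A := L) H₁ H₂ (inc_injective _) (inc_injective _) 1 1
    (Subgroup.inclusion (Gam1_mono hM hcc)) (Subgroup.inclusion (Gam1_mono hM hcc))
    (fun γ => by simp) (fun γ => by simp) (Equiv.refl _) ε hε φ

end ResLin

section Cor

open Fermat.Agent.S41 Fermat.Agent.S41.H19

variable {A : Type*} [AddCommGroup A]

theorem finiteIndex_inclusion {K' K : Subgroup SL(2, ℤ)} (hle : K' ≤ K) {N : ℕ} [NeZero N]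
    (hN : Gamma N ≤ K') : (Subgroup.inclusion hle).range.FiniteIndex := by
  rw [Subgroup.inclusion_range]
  haveI : K'.FiniteIndex := Subgroup.finiteIndex_of_le hN
  infer_instance

/-- `res (cor w) = index • w` for an invariant homomorphism `w` on a normal subgroup of finite
index. -/
theorem resK_corAlong {K' K : Subgroup SL(2, ℤ)} (hle : K' ≤ K) {N : ℕ} [NeZero N]
    (hN : Gamma N ≤ K')
    (hnorm : ∀ g ∈ K, ∀ h ∈ K', g⁻¹ * h * g ∈ K')
    (w : Additive K' →+ A)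
    (hinv : ∀ (g : SL(2, ℤ)) (_ : g ∈ K) (h : K') (hh : g⁻¹ * (h : SL(2, ℤ)) * g ∈ K'),
      w (Additive.ofMul ⟨_, hh⟩) = w (Additive.ofMul h)) :
    resK hle (corAlong A (Subgroup.inclusion hle) w)
      = (Subgroup.inclusion hle).range.index • w := by
  classical
  haveI := finiteIndex_inclusion hle hN
  let _ : Fintype (K ⧸ (Subgroup.inclusion hle).range) :=
    (Subgroup.inclusion hle).range.fintypeQuotientOfFiniteIndex
  refine AddMonoidHom.ext fun h => ?_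
  obtain ⟨h, rfl⟩ : ∃ g : K', Additive.ofMul g = h := ⟨Additive.toMul h, rfl⟩
  rw [resK_apply, AddMonoidHom.smul_apply]
  have hι : Function.Injective (Subgroup.inclusion hle) := Subgroup.inclusion_injective hle
  let k : K ⧸ (Subgroup.inclusion hle).range → K' := fun r =>
    ⟨(r.out : SL(2, ℤ))⁻¹ * (h : SL(2, ℤ)) * (r.out : SL(2, ℤ)), hnorm _ r.out.2 _ h.2⟩
  rw [corAlong_eq_sum (Subgroup.inclusion hle) hι _ (isReps_out _) w
    (Subgroup.inclusion hle h) id k (fun r => by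
      apply Subtype.ext
      simp only [id, Subgroup.coe_mul, Subgroup.coe_inclusion, k]
      group)]
  rw [Finset.sum_congr rfl (fun r _ => hinv r.out r.out.2 h (hnorm _ r.out.2 _ h.2)),
    Finset.sum_const, Finset.card_univ, Subgroup.index_eq_card, Nat.card_eq_fintype_card]

end Cor

section Parabolic

variable {A : Type*} [AddCommGroup A]

theorem isPar_resK {K' K : Subgroup SL(2, ℤ)} (h : K' ≤ K) {φ : Additive K →+ A}
    (hφ : IsParabolicHom K φ) : IsParabolicHom K' (resK h φ) := by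
  intro γ hγ
  rw [resK_apply]
  exact hφ _ (by simpa using hγ)

theorem isPar_tw {K : Subgroup SL(2, ℤ)} (a : Nrm (inc K)) {φ : Additive K →+ A}
    (hφ : IsParabolicHom K φ) : IsParabolicHom K (tw (inc_injective K) a φ) := by
  intro γ hγ
  rw [tw_apply]
  apply hφ
  have h1 := e_conjEnd (inc_injective K) a γ
  have h2 : ((inc K (conjEnd (inc_injective K) a γ) : GL (Fin 2) ℝ) :
      Matrix (Fin 2) (Fin 2) ℝ).trace
      = ((inc K γ : GL (Fin 2) ℝ) : Matrix (Fin 2) (Fin 2) ℝ).trace := by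
    rw [h1]
    exact Matrix.trace_units_conj (a : GL (Fin 2) ℝ) _
  rw [inc_apply, inc_apply, trace_mapGL, trace_mapGL] at h2
  have h3 : ((conjEnd (inc_injective K) a γ : SL(2, ℤ)) : Matrix (Fin 2) (Fin 2) ℤ).trace
      = ((γ : SL(2, ℤ)) : Matrix (Fin 2) (Fin 2) ℤ).trace := by
    exact_mod_cast h2
  rw [h3]
  exact hγ

theorem isPar_add {K : Subgroup SL(2, ℤ)} {φ ψ : Additive K →+ A}
    (hφ : IsParabolicHom K φ) (hψ : IsParabolicHom K ψ) : IsParabolicHom K (φ + ψ) := by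
  intro γ hγ
  rw [AddMonoidHom.add_apply, hφ γ hγ, hψ γ hγ, add_zero]

theorem isPar_zero {K : Subgroup SL(2, ℤ)} : IsParabolicHom K (0 : Additive K →+ A) :=
  fun _ _ => rfl

theorem isPar_smul {R : Type*} [Semiring R] [Module R A] {K : Subgroup SL(2, ℤ)} (r : R)
    {φ : Additive K →+ A} (hφ : IsParabolicHom K φ) : IsParabolicHom K (r • φ) := by
  intro γ hγ
  rw [AddMonoidHom.smul_apply, hφ γ hγ, smul_zero]

theorem isPar_sum {K : Subgroup SL(2, ℤ)} {ι : Type*} (s : Finset ι)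
    (f : ι → (Additive K →+ A)) (hf : ∀ i ∈ s, IsParabolicHom K (f i)) :
    IsParabolicHom K (∑ i ∈ s, f i) := by
  classical
  induction s using Finset.induction_on with
  | empty => simpa using isPar_zero
  | insert i s hi ih =>
    rw [Finset.sum_insert hi]
    exact isPar_add (hf i (Finset.mem_insert_self i s))
      (ih fun j hj => hf j (Finset.mem_insert_of_mem hj))

/-- A homomorphism to a torsion-free group whose restriction to a subgroup containing `Γ(N)` is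
parabolic is parabolic. -/
theorem isPar_of_resK {K' K : Subgroup SL(2, ℤ)} (h : K' ≤ K) {N : ℕ} [NeZero N]
    (hN : Gamma N ≤ K') (htf : ∀ (n : ℕ) (a : A), n ≠ 0 → n • a = 0 → a = 0)
    {φ : Additive K →+ A} (hφ : IsParabolicHom K' (resK h φ)) : IsParabolicHom K φ := by
  intro γ hγ
  have := Gamma_normal N
  have hidx : (Gamma N).index ≠ 0 := Subgroup.FiniteIndex.index_ne_zero
  have hmem : (γ : SL(2, ℤ)) ^ (Gamma N).index ∈ K' := hN (Subgroup.pow_index_mem _ _)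
  have h1 := hφ ⟨_, hmem⟩ (trace_pow_sq_eq_four _ hγ _)
  rw [resK_apply] at h1
  have e : Subgroup.inclusion h ⟨_, hmem⟩ = γ ^ (Gamma N).index := Subtype.ext (by simp)
  rw [e, ofMul_pow, map_nsmul] at h1
  exact htf _ _ hidx h1

end Parabolic

end Fermat.Agent.NEB.EIG.H39
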