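import Fermat.Agent.NEB.EIG.H39_Step2

/-!
# NEB / EIG (helper39): the twisting step at one prime `q`

`q` prime, `q ∤ m`, `c₁ ∣ m`.  `K₁ = Gam1 (q m) (q c₁) ⊇ Γ' = Gam1 (q m q) (q c₁) ⊆ K₂ = Gam1 (q m q) c₁`.
`stepMap χ φ = cor_{Γ' → K₂} (Tw_χ (res_{K₁ → Γ'} φ))` (`Tw_χ = id` if `χ = 1`).
For `φ` with `D_g φ = χ(a_g)² ω(g) φ` (`g ∈ Γ₀(q m)`), `ω = 1` on `K₂`:
* `stepMap_isEig`  : `D_g (S φ) = ω(g) S φ` for `g ∈ Γ₀(q m q)`;
* `stepMap_inj`    : `S φ = 0 → φ = 0` (if `χ = 1` or `χ(T)² ≠ 1` for some `T`);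
* `stepMap_TD`     : `T_ℓ (S φ) = χ(ℓ)⁻¹ S (T_ℓ φ)`;
* `stepMap_isPar`  : `S φ` is parabolic if `φ` is.
-/

set_option autoImplicit false

namespace Fermat.Agent.NEB.EIG.H39

open CongruenceSubgroup Matrix.SpecialLinearGroup ModularForm Finset
open scoped MatrixGroups
open P2MW.S_ModularForm_heckeT_slash_eq_self_of_mem_Gamma0.ModularForm.HeckeSlashInvariance
open Fermat.Agent.Betti ModularCurve.Period
open scoped OnePoint

section CorLin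

open Fermat.Agent.S41 Fermat.Agent.S41.H19

variable {L : Type*} [Field L]

/-- Corestriction as a linear map. -/
noncomputable def corLin {K' K : Subgroup SL(2, ℤ)} (h : K' ≤ K) :
    (Additive K' →+ L) →ₗ[L] (Additive K →+ L) where
  toFun := corAlong L (Subgroup.inclusion h)
  map_add' := corAlong_add _
  map_smul' := fun r φ => corAlong_smul _ r φ

theorem corLin_apply {K' K : Subgroup SL(2, ℤ)} (h : K' ≤ K) (w : Additive K' →+ L) :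
    corLin h w = corAlong L (Subgroup.inclusion h) w := rfl

theorem resK_sub {A : Type*} [AddCommGroup A] {K' K : Subgroup SL(2, ℤ)} (h : K' ≤ K)
    (φ ψ : Additive K →+ A) : resK h (φ - ψ) = resK h φ - resK h ψ := rfl

theorem resK_inj [CharZero L] {K' K : Subgroup SL(2, ℤ)} (h : K' ≤ K) {N : ℕ} [NeZero N]
    (hN : Gamma N ≤ K') {φ ψ : Additive K →+ L} (hφ : resK h φ = resK h ψ) : φ = ψ := by
  have h1 : resK h (φ - ψ) = 0 := by rw [resK_sub, hφ, sub_self]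
  have h2 := resK_injective h hN (fun n a hn ha => by
    rw [nsmul_eq_mul] at ha
    rcases mul_eq_zero.mp ha with h' | h'
    · exact absurd (Nat.cast_eq_zero.mp h') hn
    · exact h') (φ - ψ) h1
  exact sub_eq_zero.mp h2

end CorLin

section Step

variable {q m c₁ : ℕ} {L : Type*} [Field L]

theorem step_hcK1 (hc₁ : c₁ ∣ m) : q * c₁ ∣ q * m := Nat.mul_dvd_mul_left q hc₁
theorem step_hcG (hc₁ : c₁ ∣ m) : q * c₁ ∣ q * m * q := (step_hcK1 hc₁).trans (dvd_mul_right _ _)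
theorem step_hcK2 (hc₁ : c₁ ∣ m) : c₁ ∣ q * m * q :=
  (hc₁.trans (dvd_mul_left m q)).trans (dvd_mul_right _ _)
theorem step_hcq (hc₁ : c₁ ∣ m) : q * c₁ * q ∣ q * m * q := Nat.mul_dvd_mul_right (step_hcK1 hc₁) q
theorem step_hle1 (q m c₁ : ℕ) : Gam1 (q * m * q) (q * c₁) ≤ Gam1 (q * m) (q * c₁) :=
  Gam1_mono (dvd_mul_right _ _) dvd_rfl
theorem step_hle2 (q m c₁ : ℕ) : Gam1 (q * m * q) (q * c₁) ≤ Gam1 (q * m * q) c₁ :=
  Gam1_mono dvd_rfl (dvd_mul_left _ _)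
theorem step_hN (hc₁ : c₁ ∣ m) : Gamma (q * m * q) ≤ Gam1 (q * m * q) (q * c₁) :=
  Gamma_le_Gam1 dvd_rfl (step_hcG hc₁)

theorem step_neZero (hq : q.Prime) (hqm : ¬ q ∣ m) : NeZero (q * m * q) := by
  refine ⟨?_⟩
  have hm : m ≠ 0 := fun h => hqm (h ▸ dvd_zero q)
  exact Nat.mul_ne_zero (Nat.mul_ne_zero hq.ne_zero hm) hq.ne_zero

open Classical in
/-- The twisting operator at `q` (the identity if `χ = 1`). -/
noncomputable def tqOp (hq : q.Prime) (hc₁ : c₁ ∣ m) (χ : MulChar (ZMod q) L) :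
    (Additive (Gam1 (q * m * q) (q * c₁)) →+ L) →ₗ[L]
      (Additive (Gam1 (q * m * q) (q * c₁)) →+ L) :=
  haveI : Fact q.Prime := ⟨hq⟩
  if χ = 1 then LinearMap.id
  else twOp (Bop hq.ne_zero (dvd_mul_right q c₁) (step_hcq hc₁)) χ

theorem tqOp_one (hq : q.Prime) (hc₁ : c₁ ∣ m) {χ : MulChar (ZMod q) L} (hχ : χ = 1) :
    tqOp (m := m) hq hc₁ χ = LinearMap.id := by
  unfold tqOp
  rw [if_pos hχ]

theorem tqOp_ne (hq : q.Prime) (hc₁ : c₁ ∣ m) {χ : MulChar (ZMod q) L} (hχ : χ ≠ 1) :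
    haveI : Fact q.Prime := ⟨hq⟩
    tqOp (m := m) hq hc₁ χ = twOp (Bop hq.ne_zero (dvd_mul_right q c₁) (step_hcq hc₁)) χ := by
  unfold tqOp
  rw [if_neg hχ]

/-- The step map `Hom(K₁, L) → Hom(K₂, L)`. -/
noncomputable def stepMap (hq : q.Prime) (hc₁ : c₁ ∣ m) (χ : MulChar (ZMod q) L) :
    (Additive (Gam1 (q * m) (q * c₁)) →+ L) →ₗ[L] (Additive (Gam1 (q * m * q) c₁) →+ L) :=
  (corLin (step_hle2 q m c₁)).comp ((tqOp hq hc₁ χ).comp (resLin (step_hle1 q m c₁)))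

/-- The intermediate homomorphism `w = Tw_χ (res φ)` on `Γ'`. -/
noncomputable def stepW (hq : q.Prime) (hc₁ : c₁ ∣ m) (χ : MulChar (ZMod q) L)
    (φ : Additive (Gam1 (q * m) (q * c₁)) →+ L) : Additive (Gam1 (q * m * q) (q * c₁)) →+ L :=
  tqOp hq hc₁ χ (resK (step_hle1 q m c₁) φ)

theorem stepMap_eq (hq : q.Prime) (hc₁ : c₁ ∣ m) (χ : MulChar (ZMod q) L)
    (φ : Additive (Gam1 (q * m) (q * c₁)) →+ L) :
    stepMap hq hc₁ χ φ
      = Fermat.Agent.S41.corAlong L (Subgroup.inclusion (step_hle2 q m c₁)) (stepW hq hc₁ χ φ) :=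
  rfl

/-- The value of a character at the upper-left entry of `g ∈ Γ₀(q ·)` is not zero. -/
theorem chi_entry_ne_zero (χ : MulChar (ZMod q) L) {g : SL(2, ℤ)} (hg : (q : ℤ) ∣ g 1 0) :
    χ ((g 0 0 : ℤ) : ZMod q) ≠ 0 := by
  have hu : IsUnit (((g 0 0 : ℤ) : ZMod q)) :=
    IsUnit.of_mul_eq_one _ (entry_mul_eq_one hg)
  exact (IsUnit.map χ hu).ne_zero

theorem chi_entry_one {χ : MulChar (ZMod q) L} (hχ : χ = 1) {g : SL(2, ℤ)}
    (hg : (q : ℤ) ∣ g 1 0) : χ ((g 0 0 : ℤ) : ZMod q) = 1 := by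
  have hu : IsUnit (((g 0 0 : ℤ) : ZMod q)) :=
    IsUnit.of_mul_eq_one _ (entry_mul_eq_one hg)
  rw [hχ, MulChar.one_apply hu]

theorem dvd10_of_dvd {g : SL(2, ℤ)} (hg : ((q * m * q : ℕ) : ℤ) ∣ g 1 0) :
    ((q * m : ℕ) : ℤ) ∣ g 1 0 :=
  (Int.natCast_dvd_natCast.mpr (dvd_mul_right _ _)).trans hg

theorem q_dvd10_of_dvd {g : SL(2, ℤ)} (hg : ((q * m * q : ℕ) : ℤ) ∣ g 1 0) : (q : ℤ) ∣ g 1 0 :=
  (Int.natCast_dvd_natCast.mpr (dvd_mul_left _ _)).trans hg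

variable (hq : q.Prime) (hc₁ : c₁ ∣ m) (χ : MulChar (ZMod q) L) (ω : SL(2, ℤ) → L)

/-- (L1) `w = Tw_χ (res φ)` is an eigenvector of the diamond operators of `Γ₀(q m q)` with
weight `ω`. -/
theorem stepW_isEig {φ : Additive (Gam1 (q * m) (q * c₁)) →+ L}
    (hφ : IsEig (q * m) (q * c₁) (step_hcK1 hc₁)
      (fun g => χ ((g 0 0 : ℤ) : ZMod q) ^ 2 * ω g) φ) :
    IsEig (q * m * q) (q * c₁) (step_hcG hc₁) ω (stepW hq hc₁ χ φ) := by
  haveI : Fact q.Prime := ⟨hq⟩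
  intro g hg
  have hg1 := dvd10_of_dvd hg
  have hgq := q_dvd10_of_dvd hg
  have hres : Dop (step_hcG hc₁) g hg (resK (step_hle1 q m c₁) φ)
      = (χ ((g 0 0 : ℤ) : ZMod q) ^ 2 * ω g) • resK (step_hle1 q m c₁) φ := by
    rw [← resK_Dop (step_hcK1 hc₁) (step_hcG hc₁) (step_hle1 q m c₁) g hg1 hg, hφ g hg1, resK_smul]
  unfold stepW
  by_cases hχ : χ = 1
  · rw [tqOp_one hq hc₁ hχ, LinearMap.id_apply, hres, chi_entry_one hχ hgq, one_pow, one_mul]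
  · rw [tqOp_ne hq hc₁ hχ]
    have h1 := twOp_Dop hq.ne_zero (dvd_mul_right q c₁) (step_hcq hc₁) (step_hcG hc₁) χ g hg
      (resK (step_hle1 q m c₁) φ)
    rw [hres, map_smul] at h1
    have h0 : χ ((g 0 0 : ℤ) : ZMod q) ^ 2 ≠ 0 := pow_ne_zero _ (chi_entry_ne_zero χ hgq)
    have h2 := congrArg (fun x => (χ ((g 0 0 : ℤ) : ZMod q) ^ 2)⁻¹ • x) h1
    simp only [smul_smul] at h2
    rw [inv_mul_cancel₀ h0, one_smul, ← mul_assoc, inv_mul_cancel₀ h0, one_mul] at h2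
    exact h2.symm

end Step

end Fermat.Agent.NEB.EIG.H39
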