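import Fermat.Agent.NEB.EIG.H39_Step3

/-!
# NEB / EIG (helper39): the twisting step at one prime `q`, properties of `stepMap`

* `resK_stepMap`   : `res_{K₂ → Γ'} (S φ) = [K₂ : Γ'] • Tw_χ (res φ)`;
* `stepMap_isEig`  : `D_g (S φ) = ω(g) S φ` for `g ∈ Γ₀(q m q)`;
* `stepMap_TD`     : `T_ℓ (S φ) = χ(ℓ)⁻¹ S (T_ℓ φ)`;
* `stepMap_isPar`  : `S φ` is parabolic if `φ` is.
-/

set_option autoImplicit false

namespace Fermat.Agent.NEB.EIG.H39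

open CongruenceSubgroup Matrix.SpecialLinearGroup ModularForm Finset
open scoped MatrixGroups
open P2MW.S_ModularForm_heckeT_slash_eq_self_of_mem_Gamma0.ModularForm.HeckeSlashInvariance
open Fermat.Agent.Betti ModularCurve.Period
open scoped OnePoint

section DopApply

variable {L₂ c : ℕ} {L : Type*} [Field L]

theorem Dop_inv_apply_apply (hc : c ∣ L₂) (g : SL(2, ℤ)) (hg : (L₂ : ℤ) ∣ (g⁻¹ : SL(2, ℤ)) 1 0)
    (φ : Additive (Gam1 L₂ c) →+ L) (h : Gam1 L₂ c)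
    (hh : g⁻¹ * (h : SL(2, ℤ)) * g ∈ Gam1 L₂ c) :
    Dop hc g⁻¹ hg φ (Additive.ofMul h) = φ (Additive.ofMul ⟨g⁻¹ * (h : SL(2, ℤ)) * g, hh⟩) := by
  rw [Dop_apply, tw_apply]
  congr 2
  apply inc_injective
  rw [e_conjEnd]
  simp only [inc_apply, map_mul, map_inv, inv_inv]

theorem dvd_inv10 {g : SL(2, ℤ)} (hg : (L₂ : ℤ) ∣ g 1 0) : (L₂ : ℤ) ∣ (g⁻¹ : SL(2, ℤ)) 1 0 := by
  rw [sl_inv_10]
  exact (dvd_neg).mpr hg

end DopApply

section Step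

variable {q m c₁ : ℕ} {L : Type*} [Field L] [CharZero L]
variable (hq : q.Prime) (hqm : ¬ q ∣ m) (hc₁ : c₁ ∣ m) (χ : MulChar (ZMod q) L)
  (ω : SL(2, ℤ) → L)

/-- The index of `Γ'` in `K₂`. -/
noncomputable def stepIdx (q m c₁ : ℕ) : ℕ :=
  (Subgroup.inclusion (step_hle2 q m c₁)).range.index

include hq hqm hc₁ in
theorem stepIdx_ne_zero : stepIdx q m c₁ ≠ 0 := by
  haveI := step_neZero hq hqm
  haveI := finiteIndex_inclusion (step_hle2 q m c₁) (step_hN hc₁)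
  exact Subgroup.FiniteIndex.index_ne_zero

omit [CharZero L] in
include hqm in
/-- (L2) `res (S φ) = index • w`. -/
theorem resK_stepMap (hω : ∀ g ∈ Gam1 (q * m * q) c₁, ω g = 1)
    {φ : Additive (Gam1 (q * m) (q * c₁)) →+ L}
    (hφ : IsEig (q * m) (q * c₁) (step_hcK1 hc₁)
      (fun g => χ ((g 0 0 : ℤ) : ZMod q) ^ 2 * ω g) φ) :
    resK (step_hle2 q m c₁) (stepMap hq hc₁ χ φ) = stepIdx q m c₁ • stepW hq hc₁ χ φ := by
  haveI := step_neZero hq hqm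
  rw [stepMap_eq]
  refine resK_corAlong (step_hle2 q m c₁) (step_hN hc₁) ?_ _ ?_
  · intro g hg h hh
    have := gam0_conj_mem (step_hcG hc₁) (dvd_inv10 hg.1) hh
    rwa [inv_inv] at this
  · intro g hg h hh
    have h1 := stepW_isEig hq hc₁ χ ω hφ g⁻¹ (dvd_inv10 hg.1)
    have h2 := congrArg (fun ψ : Additive (Gam1 (q * m * q) (q * c₁)) →+ L =>
      ψ (Additive.ofMul h)) h1
    simp only [AddMonoidHom.smul_apply] at h2
    rw [Dop_inv_apply_apply (step_hcG hc₁) g _ _ h hh, hω _ (Subgroup.inv_mem _ hg), one_smul] at h2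
    exact h2

include hqm in
/-- (L3) `S φ` is an eigenvector of the diamond operators with weight `ω`. -/
theorem stepMap_isEig (hω : ∀ g ∈ Gam1 (q * m * q) c₁, ω g = 1)
    {φ : Additive (Gam1 (q * m) (q * c₁)) →+ L}
    (hφ : IsEig (q * m) (q * c₁) (step_hcK1 hc₁)
      (fun g => χ ((g 0 0 : ℤ) : ZMod q) ^ 2 * ω g) φ) :
    IsEig (q * m * q) c₁ (step_hcK2 hc₁) ω (stepMap hq hc₁ χ φ) := by
  haveI := step_neZero hq hqm
  intro g hg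
  apply resK_inj (step_hle2 q m c₁) (step_hN hc₁)
  rw [resK_Dop (step_hcK2 hc₁) (step_hcG hc₁) (step_hle2 q m c₁) g hg hg, resK_smul,
    resK_stepMap hq hqm hc₁ χ ω hω hφ]
  have h1 := stepW_isEig hq hc₁ χ ω hφ g hg
  rw [map_nsmul, h1, smul_comm]

include hqm in
/-- (L6) `S φ` is parabolic if `φ` is. -/
theorem stepMap_isPar (hω : ∀ g ∈ Gam1 (q * m * q) c₁, ω g = 1)
    {φ : Additive (Gam1 (q * m) (q * c₁)) →+ L}
    (hφ : IsEig (q * m) (q * c₁) (step_hcK1 hc₁)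
      (fun g => χ ((g 0 0 : ℤ) : ZMod q) ^ 2 * ω g) φ)
    (hpar : IsParabolicHom (Gam1 (q * m) (q * c₁)) φ) :
    IsParabolicHom (Gam1 (q * m * q) c₁) (stepMap hq hc₁ χ φ) := by
  haveI := step_neZero hq hqm
  haveI : Fact q.Prime := ⟨hq⟩
  refine isPar_of_resK (step_hle2 q m c₁) (step_hN hc₁) (fun n a hn ha => ?_) ?_
  · rw [nsmul_eq_mul] at ha
    rcases mul_eq_zero.mp ha with h' | h'
    · exact absurd (Nat.cast_eq_zero.mp h') hn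
    · exact h'
  rw [resK_stepMap hq hqm hc₁ χ ω hω hφ]
  apply isPar_smul
  have h0 := isPar_resK (step_hle1 q m c₁) hpar
  unfold stepW
  by_cases hχ : χ = 1
  · rw [tqOp_one hq hc₁ hχ]
    exact h0
  · rw [tqOp_ne hq hc₁ hχ, twOp_apply]
    refine isPar_sum _ _ fun u _ => isPar_smul _ ?_
    exact isPar_tw _ h0

include hqm in
/-- (L5) `T_ℓ (S φ) = χ(ℓ)⁻¹ S (T_ℓ φ)`. -/
theorem stepMap_TD (hω : ∀ g ∈ Gam1 (q * m * q) c₁, ω g = 1)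
    {φ : Additive (Gam1 (q * m) (q * c₁)) →+ L}
    (hφ : IsEig (q * m) (q * c₁) (step_hcK1 hc₁)
      (fun g => χ ((g 0 0 : ℤ) : ZMod q) ^ 2 * ω g) φ)
    {ℓ : ℕ} (hℓ : ℓ.Prime) (hℓ1 : ¬ ℓ ∣ q * m) (hℓ2 : ¬ ℓ ∣ q * m * q) :
    TD (q * m * q) c₁ (step_hcK2 hc₁) hℓ hℓ2 (stepMap hq hc₁ χ φ)
      = (χ (ℓ : ZMod q))⁻¹ • stepMap hq hc₁ χ (TD (q * m) (q * c₁) (step_hcK1 hc₁) hℓ hℓ1 φ) := by
  haveI := step_neZero hq hqm
  haveI : Fact q.Prime := ⟨hq⟩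
  apply resK_inj (step_hle2 q m c₁) (step_hN hc₁)
  have hT := hφ.TD hℓ hℓ1
  have e1 := resK_TD (L := L) (step_hcK2 hc₁) (step_hcG hc₁) (dvd_refl (q * m * q))
    (dvd_mul_left c₁ q) hℓ hℓ2 hℓ2 (stepMap hq hc₁ χ φ)
  have e2 := resK_TD (L := L) (step_hcK1 hc₁) (step_hcG hc₁) (dvd_mul_right (q * m) q)
    (dvd_refl (q * c₁)) hℓ hℓ1 hℓ2 φ
  change resK (step_hle2 q m c₁) _ = _ at e1
  change resK (step_hle1 q m c₁) _ = _ at e2
  rw [e1, resK_smul, resK_stepMap hq hqm hc₁ χ ω hω hφ, resK_stepMap hq hqm hc₁ χ ω hω hT,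
    map_nsmul, smul_comm]
  congr 1
  unfold stepW
  rw [e2]
  by_cases hχ : χ = 1
  · rw [tqOp_one hq hc₁ hχ, LinearMap.id_apply, LinearMap.id_apply]
    have hℓq : ℓ ≠ q := fun h => hℓ1 (h ▸ dvd_mul_right q m)
    have hunit : IsUnit ((ℓ : ZMod q)) := by
      rw [ZMod.isUnit_iff_coprime]
      exact (Nat.coprime_primes hℓ hq).mpr hℓq
    rw [hχ, MulChar.one_apply hunit, inv_one, one_smul]
  · rw [tqOp_ne hq hc₁ hχ]
    exact TD_twOp hq.ne_zero (dvd_mul_right q c₁) (step_hcq hc₁) (step_hcG hc₁) χ hℓ hℓ2 _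

end Step

end Fermat.Agent.NEB.EIG.H39
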