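import Fermat.Agent.NEB.EIG.H39_Step4

/-!
# NEB / EIG (helper39): the twisting step at one prime `q` is injective on the eigenspace

`stepMap_inj` : `S φ = 0 → φ = 0` if `χ = 1` or `χ(T)² ≠ 1` for some `T` prime to `q`.
(If `Tw_χ w = 0`, `w = res φ`, then `w` is invariant under `α_1` by the Jacobi sum identity, and under
`ν = [[1,0],[k q m,1]] ∈ K₁`; the word `α_{-T} ν^{k₁} α_1 ν^{k₂}` is an element `g` of `Γ₀(q m q)` with
`a_g ≡ T mod q`, so `w = D_g w = χ(T)² w`.)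
-/

set_option autoImplicit false

namespace Fermat.Agent.NEB.EIG.H39

open CongruenceSubgroup Matrix.SpecialLinearGroup ModularForm Finset
open scoped MatrixGroups
open P2MW.S_ModularForm_heckeT_slash_eq_self_of_mem_Gamma0.ModularForm.HeckeSlashInvariance
open Fermat.Agent.Betti ModularCurve.Period
open scoped OnePoint

section Step

variable {q m c₁ : ℕ} {L : Type*} [Field L] [CharZero L]
variable (hq : q.Prime) (hqm : ¬ q ∣ m) (hc₁ : c₁ ∣ m) (χ : MulChar (ZMod q) L)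
  (ω : SL(2, ℤ) → L)

omit [CharZero L] in
theorem nu_step_mem_Nrm (hc₁ : c₁ ∣ m) (k : ℤ) :
    mapGL ℝ (nuSL (k * ((q : ℤ) * (m : ℤ)))) ∈ Nrm (inc (Gam1 (q * m * q) (q * c₁))) := by
  obtain ⟨d, rfl⟩ := hc₁
  refine nu_mem_Nrm ?_ ?_ ?_
  · push_cast
    exact ⟨k * d, by ring⟩
  · push_cast
    exact ⟨k * c₁, by ring⟩
  · push_cast
    exact ⟨k * k * c₁ * d, by ring⟩

theorem nu_step_mem_K1 (hc₁ : c₁ ∣ m) (k : ℤ) :
    nuSL (k * ((q : ℤ) * (m : ℤ))) ∈ Gam1 (q * m) (q * c₁) := by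
  obtain ⟨d, rfl⟩ := hc₁
  refine ⟨?_, ?_, ?_⟩
  · show ((q * (c₁ * d) : ℕ) : ℤ) ∣ k * ((q : ℤ) * ((c₁ * d : ℕ) : ℤ))
    push_cast
    exact ⟨k, by ring⟩
  · show ((q * c₁ : ℕ) : ℤ) ∣ k * ((q : ℤ) * ((c₁ * d : ℕ) : ℤ))
    push_cast
    exact ⟨k * d, by ring⟩
  · show ((q * c₁ : ℕ) : ℤ) ∣ (1 : ℤ) - 1
    simp

omit [CharZero L] in
/-- `res φ` is invariant under conjugation by `ν ∈ K₁`. -/
theorem twLin_nu_res (hc₁ : c₁ ∣ m) (k : ℤ) (φ : Additive (Gam1 (q * m) (q * c₁)) →+ L) :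
    twLin (inc_injective _) (mapGL ℝ (nuSL (k * ((q : ℤ) * (m : ℤ))))) (nu_step_mem_Nrm hc₁ k)
      (resK (step_hle1 q m c₁) φ) = resK (step_hle1 q m c₁) φ := by
  have hmem := nu_step_mem_K1 (q := q) hc₁ k
  have ha : mapGL ℝ (nuSL (k * ((q : ℤ) * (m : ℤ)))) ∈ Nrm (inc (Gam1 (q * m) (q * c₁))) :=
    range_le_Nrm (e := inc (Gam1 (q * m) (q * c₁))) ⟨_, hmem⟩
  rw [twLin_apply, ← resK_tw (step_hle1 q m c₁) _ ha (nu_step_mem_Nrm hc₁ k) φ]
  congr 1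
  exact tw_of_range (inc_injective _) _ ⟨_, hmem⟩ rfl φ

include hqm in
/-- (L4) the step map is injective on the eigenspace. -/
theorem stepMap_inj (hω : ∀ g ∈ Gam1 (q * m * q) c₁, ω g = 1)
    (hχ : χ = 1 ∨ ∃ T : ℤ, ¬ (q : ℤ) ∣ T ∧ χ ((T : ℤ) : ZMod q) ^ 2 ≠ 1)
    {φ : Additive (Gam1 (q * m) (q * c₁)) →+ L}
    (hφ : IsEig (q * m) (q * c₁) (step_hcK1 hc₁)
      (fun g => χ ((g 0 0 : ℤ) : ZMod q) ^ 2 * ω g) φ)
    (h0 : stepMap hq hc₁ χ φ = 0) : φ = 0 := by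
  haveI := step_neZero hq hqm
  haveI : Fact q.Prime := ⟨hq⟩
  have hN1 : Gamma (q * m * q) ≤ Gam1 (q * m * q) (q * c₁) := step_hN hc₁
  -- `w = 0`
  have hw : stepW hq hc₁ χ φ = 0 := by
    have h1 := resK_stepMap hq hqm hc₁ χ ω hω hφ
    rw [h0] at h1
    have h2 : ((stepIdx q m c₁ : ℕ) : L) • stepW hq hc₁ χ φ = 0 := by
      rw [Nat.cast_smul_eq_nsmul, ← h1]; rfl
    rcases smul_eq_zero.mp h2 with h3 | h3
    · exact absurd (Nat.cast_eq_zero.mp h3) (stepIdx_ne_zero hq hqm hc₁)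
    · exact h3
  -- it suffices that `res φ = 0`
  suffices hres : resK (step_hle1 q m c₁) φ = 0 by
    have hz : resK (step_hle1 q m c₁) (0 : Additive (Gam1 (q * m) (q * c₁)) →+ L) = 0 :=
      AddMonoidHom.zero_comp _
    have h5 : resK (step_hle1 q m c₁) φ
        = resK (step_hle1 q m c₁) (0 : Additive (Gam1 (q * m) (q * c₁)) →+ L) := hres.trans hz.symm
    exact resK_inj (step_hle1 q m c₁) hN1 h5
  unfold stepW at hw
  by_cases hχ1 : χ = 1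
  · rw [tqOp_one hq hc₁ hχ1] at hw
    exact hw
  · rw [tqOp_ne hq hc₁ hχ1] at hw
    obtain ⟨T, hT, hχT⟩ := hχ.resolve_left hχ1
    set w₀ := resK (step_hle1 q m c₁) φ with hw₀
    have hq0 := hq.ne_zero
    have hqc : q ∣ q * c₁ := dvd_mul_right q c₁
    have hcq := step_hcq (q := q) hc₁
    -- invariance under `B 1`
    have hw' : twOp (Bop hq0 hqc hcq) χ w₀ = 0 := hw
    have hB0 := Bop_zero (L := L) (L₂ := q * m * q) hq0 hqc hcq
    have hBadd := Bop_add (L := L) (L₂ := q * m * q) hq0 hqc hcq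
    have hfix : Bop hq0 hqc hcq 1 w₀ = w₀ :=
      @fixed_of_twOp_eq_zero q _ L _ (Additive (Gam1 (q * m * q) (q * c₁)) →+ L) _ _
        (Bop hq0 hqc hcq) hB0 hBadd _ χ hχ1 w₀ hw'
    have hB : ∀ k : ℕ, Bop hq0 hqc hcq (k : ZMod q) w₀ = w₀ := by
      intro k
      induction k with
      | zero => rw [Nat.cast_zero, Bop_zero]; rfl
      | succ k ih =>
        rw [Nat.cast_succ, Bop_add, LinearMap.comp_apply, hfix, ih]
    have hA : ∀ n : ℤ, Aop hq0 hqc hcq n w₀ = w₀ := by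
      intro n
      rw [← Bop_intCast, ← ZMod.natCast_zmod_val ((n : ℤ) : ZMod q)]
      exact hB _
    -- the word
    obtain ⟨g, k₁, k₂, hgmem, hgT, hgw⟩ := word_exists hq hqm hc₁ T hT
    have hg : ((q * m * q : ℕ) : ℤ) ∣ g 1 0 := hgmem.1
    have hg1 := dvd10_of_dvd hg
    -- `D_g w₀ = w₀`
    have hNα1 := alphaGL_mem_Nrm (L₂ := q * m * q) hq0 hqc hcq (-T)
    have hNα2 := alphaGL_mem_Nrm (L₂ := q * m * q) hq0 hqc hcq 1
    have hNν1 := nu_step_mem_Nrm (q := q) hc₁ k₁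
    have hNν2 := nu_step_mem_Nrm (q := q) hc₁ k₂
    have hN12 := (Nrm _).mul_mem hNα1 hNν1
    have hN123 := (Nrm _).mul_mem hN12 hNα2
    have hN1234 := (Nrm _).mul_mem hN123 hNν2
    have hD1 : Dop (step_hcG hc₁) g hg w₀ = w₀ := by
      unfold Dop
      rw [twLin_congr (L := L) (inc_injective _) hgw (gam0_mem_Nrm (step_hcG hc₁) hg) hN1234,
        twLin_mul (inc_injective _) _ _ hN123 hNν2, twLin_mul (inc_injective _) _ _ hN12 hNα2,
        twLin_mul (inc_injective _) _ _ hNα1 hNν1]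
      simp only [LinearMap.comp_apply]
      have e1 : twLin (L := L) (inc_injective _) (alphaGL q (-T)) hNα1 w₀ = w₀ := hA (-T)
      have e2 : twLin (L := L) (inc_injective _) (alphaGL q 1) hNα2 w₀ = w₀ := hA 1
      rw [e1, twLin_nu_res hc₁ k₁ φ, e2, twLin_nu_res hc₁ k₂ φ]
    -- `D_g w₀ = χ(T)² w₀`
    have hD2 : Dop (step_hcG hc₁) g hg w₀ = χ ((T : ℤ) : ZMod q) ^ 2 • w₀ := by
      rw [hw₀, ← resK_Dop (step_hcK1 hc₁) (step_hcG hc₁) (step_hle1 q m c₁) g hg1 hg, hφ g hg1,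
        resK_smul]
      beta_reduce
      rw [hω g hgmem, mul_one]
      congr 3
      rw [← sub_eq_zero, ← Int.cast_sub]
      exact (ZMod.intCast_zmod_eq_zero_iff_dvd _ _).mpr hgT
    rw [hD1] at hD2
    have h3 : (χ ((T : ℤ) : ZMod q) ^ 2 - 1) • w₀ = 0 := by
      rw [sub_smul, one_smul, ← hD2, sub_self]
    rcases smul_eq_zero.mp h3 with h4 | h4
    · exact absurd (sub_eq_zero.mp h4) hχT
    · exact h4

end Step

end Fermat.Agent.NEB.EIG.H39
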