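import Fermat.Agent.NEB.EIG.H39_Step5

/-!
# NEB / EIG (helper39): Betti twisting, induction over the primes of `c`  (leaf EIG-TW)

`qs` a list of distinct primes not dividing `N₀`, `c = ∏ qs`, `χ_q` characters mod `q ∈ qs` with values
in a field `L` of characteristic zero, `χ_q = 1` or `χ_q² ≠ 1`.  `Om χ qs g = ∏_q χ_q(a_g)²`,
`chiProd χ qs ℓ = ∏_q χ_q(ℓ)`.

* `tw_exists` : a linear map `Tw : Hom(Gam1 (N₀ c) c, L) → Hom(Gam1 (N₀ c²) 1, L)` which on the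
  `Om`-eigenspace of the diamond operators is injective, preserves parabolic homomorphisms and
  satisfies `T_ℓ (Tw φ) = (∏ χ_q(ℓ))⁻¹ Tw (T_ℓ φ)`.
* `stmt_TW` : the same with target `Hom(Γ₀(N c²), L)` and the Betti Hecke operators `TB_ℓ`.
-/

set_option autoImplicit false

namespace Fermat.Agent.NEB.EIG.H39

open CongruenceSubgroup Matrix.SpecialLinearGroup ModularForm Finset
open scoped MatrixGroups
open P2MW.S_ModularForm_heckeT_slash_eq_self_of_mem_Gamma0.ModularForm.HeckeSlashInvariance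
open Fermat.Agent.Betti ModularCurve.Period
open scoped OnePoint

section Weights

variable {L : Type*} [Field L]

/-- The weight `g ↦ ∏_q χ_q(a_g)²`. -/
noncomputable def Om (χ : (q : ℕ) → MulChar (ZMod q) L) (qs : List ℕ) (g : SL(2, ℤ)) : L :=
  (qs.map fun q => χ q ((g 0 0 : ℤ) : ZMod q) ^ 2).prod

/-- The factor `∏_q χ_q(ℓ)`. -/
noncomputable def chiProd (χ : (q : ℕ) → MulChar (ZMod q) L) (qs : List ℕ) (ℓ : ℕ) : L :=
  (qs.map fun q => χ q (ℓ : ZMod q)).prod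

theorem Om_nil (χ : (q : ℕ) → MulChar (ZMod q) L) (g : SL(2, ℤ)) : Om χ [] g = 1 := rfl

theorem Om_cons (χ : (q : ℕ) → MulChar (ZMod q) L) (q : ℕ) (qs : List ℕ) (g : SL(2, ℤ)) :
    Om χ (q :: qs) g = χ q ((g 0 0 : ℤ) : ZMod q) ^ 2 * Om χ qs g := by
  unfold Om
  rw [List.map_cons, List.prod_cons]

theorem chiProd_nil (χ : (q : ℕ) → MulChar (ZMod q) L) (ℓ : ℕ) : chiProd χ [] ℓ = 1 := rfl

theorem chiProd_cons (χ : (q : ℕ) → MulChar (ZMod q) L) (q : ℕ) (qs : List ℕ) (ℓ : ℕ) :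
    chiProd χ (q :: qs) ℓ = χ q (ℓ : ZMod q) * chiProd χ qs ℓ := by
  unfold chiProd
  rw [List.map_cons, List.prod_cons]

/-- `Om χ qs g = 1` if `a_g ≡ 1 mod ∏ qs`. -/
theorem Om_eq_one (χ : (q : ℕ) → MulChar (ZMod q) L) (qs : List ℕ) {g : SL(2, ℤ)}
    (hg : ((qs.prod : ℕ) : ℤ) ∣ g 0 0 - 1) : Om χ qs g = 1 := by
  unfold Om
  apply List.prod_eq_one
  intro x hx
  rw [List.mem_map] at hx
  obtain ⟨q, hq, rfl⟩ := hx
  have h1 : (q : ℤ) ∣ g 0 0 - 1 :=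
    (Int.natCast_dvd_natCast.mpr (List.dvd_prod hq)).trans hg
  have h2 : ((g 0 0 : ℤ) : ZMod q) = 1 := by
    have := (ZMod.intCast_zmod_eq_zero_iff_dvd _ _).mpr h1
    push_cast at this
    exact sub_eq_zero.mp this
  rw [h2, map_one, one_pow]

end Weights

section Base

variable {L : Type*} [Field L]

theorem Gamma_le_Gamma0' (N : ℕ) : Gamma N ≤ Gamma0 N :=
  (Gamma_le_Gam1 (dvd_refl N) (one_dvd N)).trans (Gam1_le_Gamma0 N 1)

/-- Restriction from `Gam1 M 1` to `Γ₀(M)` intertwines `TD` and the Betti Hecke operator `TB`. -/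
theorem resK_TD_TB (M : ℕ) {ℓ : ℕ} (hℓ : ℓ.Prime) (hℓM : ¬ ℓ ∣ M)
    (ψ : Additive (Gam1 M 1) →+ L) :
    resK (Gamma0_le_Gam1_one M) (TD M 1 (one_dvd M) hℓ hℓM ψ)
      = TB M L hℓ hℓM (resK (Gamma0_le_Gam1_one M) ψ) := by
  haveI : Fact ℓ.Prime := ⟨hℓ⟩
  have H₁ := H98.stmt_FAM_hecke M 1 ℓ (one_dvd M) hℓ hℓM
  have H₂ := isHeckeFamily_T M hℓM
  have hex : ∀ i : OnePoint (ZMod ℓ), ∃ ε : Gam1 M 1,
      repD M ℓ i * 1 = inc (Gam1 M 1) ε * 1 * repT ℓ i := by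
    intro i
    obtain ⟨ε, hε, h⟩ := H98.stmt_FAM_std M ℓ hℓ hℓM i
    exact ⟨⟨ε, Gamma0_le_Gam1_one M hε⟩, by rw [mul_one, mul_one, h]; rfl⟩
  choose ε hε using hex
  exact heckeOp_intertwine (A := L) H₁ H₂ (inc_injective _) (incl_injective M) 1 1
    (Subgroup.inclusion (Gamma0_le_Gam1_one M)) (Subgroup.inclusion (Gamma0_le_Gam1_one M))
    (fun γ => by simp) (fun γ => by simp) (Equiv.refl _) ε hε ψ

end Base

section Induction

variable {L : Type*} [Field L] [CharZero L]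

/-- The properties of the twisting map on the `Om χ qs`-eigenspace. -/
def IsTwMap (χ : (q : ℕ) → MulChar (ZMod q) L) (qs : List ℕ) (M M' c : ℕ) (hc : c ∣ M)
    (Tw : (Additive (Gam1 M c) →+ L) →ₗ[L] (Additive (Gam1 M' 1) →+ L)) : Prop :=
  ∀ φ, IsEig M c hc (Om χ qs) φ →
    (Tw φ = 0 → φ = 0) ∧
    (∀ (ℓ : ℕ) (hℓ : ℓ.Prime) (hℓM : ¬ ℓ ∣ M) (hℓM' : ¬ ℓ ∣ M'),
      TD M' 1 (one_dvd M') hℓ hℓM' (Tw φ) = (chiProd χ qs ℓ)⁻¹ • Tw (TD M c hc hℓ hℓM φ)) ∧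
    (IsParabolicHom (Gam1 M c) φ → IsParabolicHom (Gam1 M' 1) (Tw φ))

/-- **Betti twisting**, by induction over the primes. -/
theorem tw_exists (χ : (q : ℕ) → MulChar (ZMod q) L) :
    ∀ (qs : List ℕ), qs.Nodup → (∀ q ∈ qs, q.Prime) →
      (∀ q ∈ qs, χ q = 1 ∨ ∃ T : ℤ, ¬ (q : ℤ) ∣ T ∧ χ q ((T : ℤ) : ZMod q) ^ 2 ≠ 1) →
      ∀ (N₀ M M' c : ℕ), N₀ ≠ 0 → (∀ q ∈ qs, ¬ q ∣ N₀) → c = qs.prod → M = N₀ * c →
        M' = M * c → ∀ hc : c ∣ M,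
          ∃ Tw : (Additive (Gam1 M c) →+ L) →ₗ[L] (Additive (Gam1 M' 1) →+ L),
            IsTwMap χ qs M M' c hc Tw := by
  intro qs
  induction qs with
  | nil =>
    intro _ _ _ N₀ M M' c hN₀ _ hcp hM hM' hc
    simp only [List.prod_nil] at hcp
    subst hcp
    have hMM' : M' = M := by rw [hM', mul_one]
    subst hMM'
    refine ⟨LinearMap.id, fun φ _ => ⟨fun h => h, ?_, fun h => h⟩⟩
    intro ℓ hℓ hℓM hℓM'
    rw [chiProd_nil, inv_one, one_smul]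
    rfl
  | cons q qs' ih =>
    intro hnd hpr hχ N₀ M M' c hN₀ hqN hcp hM hM' hc
    have hq : q.Prime := hpr q List.mem_cons_self
    have hnd' : qs'.Nodup := (List.nodup_cons.mp hnd).2
    have hq_notin : q ∉ qs' := (List.nodup_cons.mp hnd).1
    have hpr' : ∀ q' ∈ qs', q'.Prime := fun q' h => hpr q' (List.mem_cons_of_mem _ h)
    have hχ' : ∀ q' ∈ qs', χ q' = 1 ∨ ∃ T : ℤ, ¬ (q' : ℤ) ∣ T ∧ χ q' ((T : ℤ) : ZMod q') ^ 2 ≠ 1 :=
      fun q' h => hχ q' (List.mem_cons_of_mem _ h)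
    obtain ⟨c₁, hc₁def⟩ : ∃ c₁ : ℕ, c₁ = qs'.prod := ⟨_, rfl⟩
    rw [List.prod_cons, ← hc₁def] at hcp
    subst hcp
    have hM2 : M = q * (N₀ * c₁) := by rw [hM]; ring
    subst hM2
    have hc₁ : c₁ ∣ N₀ * c₁ := dvd_mul_left _ _
    have hq_c₁ : ¬ q ∣ c₁ := by
      intro h
      rw [hc₁def] at h
      obtain ⟨a, ha, hqa⟩ := (Prime.dvd_prod_iff (Nat.Prime.prime hq)).mp h
      have : q = a := (Nat.prime_dvd_prime_iff_eq hq (hpr' a ha)).mp hqa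
      exact hq_notin (this ▸ ha)
    have hqm : ¬ q ∣ N₀ * c₁ := by
      intro h
      rcases (Nat.Prime.dvd_mul hq).mp h with h | h
      · exact hqN q List.mem_cons_self h
      · exact hq_c₁ h
    have hω : ∀ g ∈ Gam1 (q * (N₀ * c₁) * q) c₁, Om χ qs' g = 1 := fun g hg =>
      Om_eq_one χ qs' (hc₁def ▸ hg.2.2)
    have hN₀' : N₀ * q * q ≠ 0 :=
      Nat.mul_ne_zero (Nat.mul_ne_zero hN₀ hq.ne_zero) hq.ne_zero
    have hqN' : ∀ q' ∈ qs', ¬ q' ∣ N₀ * q * q := by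
      intro q' hq' h
      have hq'p := hpr' q' hq'
      have hne : q' ≠ q := fun e => hq_notin (e ▸ hq')
      have h1 : ¬ q' ∣ q := fun h' => hne ((Nat.prime_dvd_prime_iff_eq hq'p hq).mp h')
      rcases (Nat.Prime.dvd_mul hq'p).mp h with h | h
      · rcases (Nat.Prime.dvd_mul hq'p).mp h with h | h
        · exact hqN q' (List.mem_cons_of_mem _ hq') h
        · exact h1 h
      · exact h1 h
    have hM₂ : q * (N₀ * c₁) * q = N₀ * q * q * c₁ := by ring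
    have hM'₂ : M' = q * (N₀ * c₁) * q * c₁ := by rw [hM']; ring
    obtain ⟨Tw', hTw'⟩ := ih hnd' hpr' hχ' (N₀ * q * q) (q * (N₀ * c₁) * q) M' c₁ hN₀' hqN'
      hc₁def hM₂ hM'₂ (step_hcK2 hc₁)
    refine ⟨Tw'.comp (stepMap hq hc₁ (χ q)), fun φ hφ => ?_⟩
    have hφ' : IsEig (q * (N₀ * c₁)) (q * c₁) (step_hcK1 hc₁)
        (fun g => χ q ((g 0 0 : ℤ) : ZMod q) ^ 2 * Om χ qs' g) φ :=
      hφ.congr (fun g _ => Om_cons χ q qs' g)
    have hS := stepMap_isEig hq hqm hc₁ (χ q) (Om χ qs') hω hφ'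
    obtain ⟨h1, h2, h3⟩ := hTw' _ hS
    refine ⟨?_, ?_, ?_⟩
    · intro h
      exact stepMap_inj hq hqm hc₁ (χ q) (Om χ qs') hω (hχ q List.mem_cons_self) hφ' (h1 h)
    · intro ℓ hℓ hℓM hℓM'
      have hℓ2 : ¬ ℓ ∣ q * (N₀ * c₁) * q := fun h => hℓM' (h.trans ⟨c₁, hM'₂⟩)
      rw [LinearMap.comp_apply, h2 ℓ hℓ hℓ2 hℓM',
        stepMap_TD hq hqm hc₁ (χ q) (Om χ qs') hω hφ' hℓ hℓM hℓ2, map_smul, smul_smul,
        chiProd_cons, mul_inv, mul_comm]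
      rfl
    · intro hpar
      exact h3 (stepMap_isPar hq hqm hc₁ (χ q) (Om χ qs') hω hφ' hpar)

/-- The product of a list of primes is not zero. -/
theorem prod_primes_ne_zero {qs : List ℕ} (hpr : ∀ q ∈ qs, q.Prime) : qs.prod ≠ 0 := by
  apply List.prod_ne_zero
  intro h
  exact Nat.not_prime_zero (hpr 0 h)

/-- **EIG-TW** (Betti twisting): for a list `qs` of distinct primes not dividing `N`, `c = ∏ qs`,
and characters `χ_q` mod `q` (`χ_q = 1` or `χ_q² ≠ 1`) there is a linear map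
`Tw : Hom(Γ₀(N c) ∩ Γ₁(c), L) → Hom(Γ₀(N c²), L)` which, on the eigenspace
`D_g φ = ∏ χ_q(a_g)² φ` of the diamond operators, is injective, preserves parabolic homomorphisms
and satisfies `TB_ℓ (Tw φ) = (∏ χ_q(ℓ))⁻¹ Tw (T_ℓ φ)`. -/
theorem stmt_TW (N : ℕ) (hN : N ≠ 0) (qs : List ℕ) (hnd : qs.Nodup) (hpr : ∀ q ∈ qs, q.Prime)
    (hqN : ∀ q ∈ qs, ¬ q ∣ N) (χ : (q : ℕ) → MulChar (ZMod q) L)
    (hχ : ∀ q ∈ qs, χ q = 1 ∨ ∃ T : ℤ, ¬ (q : ℤ) ∣ T ∧ χ q ((T : ℤ) : ZMod q) ^ 2 ≠ 1) :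
    ∃ Tw : (Additive (Gam1 (N * qs.prod) qs.prod) →+ L) →ₗ[L]
        (Additive (Gamma0 (N * qs.prod * qs.prod)) →+ L),
      ∀ φ, IsEig (N * qs.prod) qs.prod (dvd_mul_left _ _) (Om χ qs) φ →
        (Tw φ = 0 → φ = 0) ∧
        (∀ (ℓ : ℕ) (hℓ : ℓ.Prime) (hℓM : ¬ ℓ ∣ N * qs.prod)
          (hℓM' : ¬ ℓ ∣ N * qs.prod * qs.prod),
          TB (N * qs.prod * qs.prod) L hℓ hℓM' (Tw φ)
            = (chiProd χ qs ℓ)⁻¹ •
              Tw (TD (N * qs.prod) qs.prod (dvd_mul_left _ _) hℓ hℓM φ)) ∧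
        (IsParabolicHom (Gam1 (N * qs.prod) qs.prod) φ →
          IsParabolicHom (Gamma0 (N * qs.prod * qs.prod)) (Tw φ)) := by
  have hc0 : qs.prod ≠ 0 := prod_primes_ne_zero hpr
  haveI : NeZero (N * qs.prod * qs.prod) := ⟨Nat.mul_ne_zero (Nat.mul_ne_zero hN hc0) hc0⟩
  obtain ⟨Tw, hTw⟩ := tw_exists χ qs hnd hpr hχ N (N * qs.prod) (N * qs.prod * qs.prod) qs.prod
    hN hqN rfl rfl rfl (dvd_mul_left _ _)
  refine ⟨(resLin (Gamma0_le_Gam1_one _)).comp Tw, fun φ hφ => ?_⟩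
  obtain ⟨h1, h2, h3⟩ := hTw φ hφ
  refine ⟨?_, ?_, ?_⟩
  · intro h
    apply h1
    have hz : resK (Gamma0_le_Gam1_one (N * qs.prod * qs.prod))
        (0 : Additive (Gam1 (N * qs.prod * qs.prod) 1) →+ L) = 0 := AddMonoidHom.zero_comp _
    exact resK_inj (Gamma0_le_Gam1_one _) (Gamma_le_Gamma0' _) (h.trans hz.symm)
  · intro ℓ hℓ hℓM hℓM'
    rw [LinearMap.comp_apply, LinearMap.comp_apply, resLin_apply, resLin_apply,
      ← resK_TD_TB _ hℓ hℓM', h2 ℓ hℓ hℓM hℓM', resK_smul]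
  · intro hpar
    exact isPar_resK _ (h3 hpar)

end Induction

end Fermat.Agent.NEB.EIG.H39
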