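import Fermat.Agent.NEB.EIG.H98_MonoDefs
import Fermat.Agent.NEB.H34_UnrChar
import Fermat.Agent.NEB.H84_Fix
import Fermat.Agent.NEB.H84_Ker
import Mathlib.NumberTheory.DirichletCharacter.Orthogonality

/-!
# NEB / EIG-MONO, leaf A2-H (helper46): `Γ_H`-invariant ratios of forms on `Γ₁(M)` lie in `F_H · ℂ`

Plan: `NOTES/plan/NEB_EIG_MONO.md`.  For `A, B` forms of weight `k` on `Γ₁(M)` with
`(A ∣ γ) B = A (B ∣ γ)` for all `γ ∈ Γ_H = {γ ∈ Γ₀(M) : a_γ ∈ ±H}`, the ratio `x₀ = A / B` of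
`q`-expansions lies in `laurentBaseChange ℂ (FHQ M c H)`.

Proof.  `X u := (A ∣ γ) / (B ∣ γ)` depends only on `u = d_γ mod c`, and on `u` mod `±H`.  For a
character `ψ` of `(ℤ/c)ˣ` put `G_ψ := ∑_u ψ(u) X u`.  Then `γ` maps `G_ψ` to `ψ(d_γ)⁻¹ G_ψ`, as it
does for `y_ψ = ∑_a ψ(a)⁻¹ e_{±aH}` (helper34's `yC`).  If `ψ` is trivial on `±H` then `y_ψ ≠ 0`
(its `q¹`-coefficient is `|±H|`) and `G_ψ / y_ψ` is `Γ₀(M)`-invariant, hence in `F₀ · ℂ`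
(`H84.mem_FNL_of_rel`); otherwise `G_ψ = 0`.  Finally `φ(c) x₀ = ∑_ψ G_ψ` (orthogonality).
-/

set_option autoImplicit false

open UpperHalfPlane ModularForm CongruenceSubgroup ModularCurve
open scoped MatrixGroups ModularForm Manifold

noncomputable section

namespace Fermat.Agent.NEB.EIG.H46

open Fermat.Agent.S23.H22 (Nice)
open Fermat.Agent.GTor (qLaurent)
open Fermat.Agent.GTor.H56 (qLaurent_mul qLaurent_injective qLaurent_eq_zero_iff qLaurent_zero)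
open Fermat.Agent.NEB Fermat.Agent.NEB.H84 Fermat.Agent.NEB.H34

variable {M c : ℕ}

/-! ### Sums of related series -/

theorem rel_zero (M : ℕ) (γ : SL(2, ℤ)) : Rel M γ 0 0 := by
  have := rel_C M γ 0
  rwa [map_zero] at this

theorem rel_sum {ι : Type*} (s : Finset ι) {γ : SL(2, ℤ)} (hγ : γ ∈ Gamma0 M)
    (f g : ι → LaurentSeries ℂ) (h : ∀ i ∈ s, Rel M γ (f i) (g i)) :
    Rel M γ (∑ i ∈ s, f i) (∑ i ∈ s, g i) := by
  classical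
  induction s using Finset.induction_on with
  | empty => simpa using rel_zero M γ
  | insert a s ha ih =>
    rw [Finset.sum_insert ha, Finset.sum_insert ha]
    exact rel_add hγ (h a (Finset.mem_insert_self a s))
      (ih fun i hi => h i (Finset.mem_insert_of_mem hi))

/-! ### The twisted generators `y_ψ` -/

section YC

variable [NeZero c] (H : Subgroup (ZMod c)ˣ)

theorem smul_eq_C_mul (z : ℂ) (x : LaurentSeries ℂ) : z • x = HahnSeries.C z * x :=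
  (HahnSeries.C_mul_eq_smul).symm

theorem C_mem_bc (F₀ : IntermediateField ℚ (LaurentSeries ℚ)) (z : ℂ) :
    (HahnSeries.C z : LaurentSeries ℂ) ∈ laurentBaseChange ℂ F₀ := by
  have : (HahnSeries.C z : LaurentSeries ℂ) = algebraMap ℂ (LaurentSeries ℂ) z := by
    rw [algebraMap_laurentSeries_eq_single]
    rfl
  rw [this]
  exact (laurentBaseChange ℂ F₀).algebraMap_mem _

theorem yC_mem (M : ℕ) (ψ : (ZMod c)ˣ →* ℂˣ) :
    yC H ψ ∈ laurentBaseChange ℂ (FHQ M c H) := by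
  unfold yC
  refine sum_mem fun a _ => ?_
  rw [smul_eq_C_mul]
  exact mul_mem (C_mem_bc _ _) (coeffEmb_mem_laurentBaseChange ℂ (eisGen_mem_FHQ M c H a))

/-- The denominator `C · E₄` of `RAn`. -/
def den4 : ℍ → ℂ := Fermat.Agent.NEB.H29.eisConst • ((E₄ : ModularForm 𝒮ℒ 4) : ℍ → ℂ)

theorem isW_den4 (M : ℕ) : IsW M 4 den4 := isW_smul (isW_levelOne M _) _

theorem den4_ne_zero : den4 ≠ 0 := by
  intro h
  apply E4_fun_ne_zero
  funext z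
  have := congrFun h z
  simp only [den4, Pi.smul_apply, smul_eq_mul, Pi.zero_apply, mul_eq_zero] at this
  rcases this with h1 | h1
  · exact absurd h1 Fermat.Agent.NEB.H29.eisConst_ne_zero
  · exact h1

theorem den4_slash (γ : SL(2, ℤ)) : den4 ∣[(4 : ℤ)] γ = den4 := by
  unfold den4
  rw [ModularForm.SL_smul_slash, slash_levelOne']

theorem qLaurent_den4 : qLaurent den4 =
    Fermat.Agent.NEB.H29.eisConst • qLaurent ((E₄ : ModularForm 𝒮ℒ 4) : ℍ → ℂ) := by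
  unfold den4
  rw [qLaurent_smul (isW_levelOne 1 _).nice]

/-- `γ ∈ Γ₀(M)` maps `y_ψ` to `ψ(d_γ)⁻¹ y_ψ`. -/
theorem rel_yC [NeZero M] [Fact (1 < c)] (hc : c ∣ M) (ψ : (ZMod c)ˣ →* ℂˣ) (γ : Gamma0 M) :
    Rel M (γ : SL(2, ℤ)) (yC H ψ)
      (HahnSeries.C ((ψ (dUnit hc γ)⁻¹ : ℂˣ) : ℂ) * yC H ψ) := by
  refine ⟨4, RAn H ψ, den4, isW_RAn H hc ψ, isW_den4 M, den4_ne_zero, ?_, ?_⟩
  · rw [qLaurent_RAn H hc ψ, qLaurent_den4]
  · rw [RAn_slash H hc ψ γ, den4_slash, qLaurent_smul (isW_RAn H hc ψ).nice,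
      qLaurent_RAn H hc ψ, qLaurent_den4, smul_eq_C_mul, mul_assoc]

end YC

/-! ### Nonvanishing of `y_ψ` for `ψ` trivial on `±H` -/

section YNe

variable [NeZero c] (H : Subgroup (ZMod c)ˣ)

open scoped Classical in
theorem coeff_one_eisGen (S : Set (ZMod c)) :
    (coeffEmb ℂ (eisGen c S)).coeff 1 = if (1 : ZMod c) ∈ S then 1 else 0 := by
  rw [coeffEmb_coeff, eisGen]
  have h1 : ((1 : ℕ) : ℤ) = 1 := Nat.cast_one
  rw [← h1, HahnSeries.ofPowerSeries_apply_coeff, PowerSeries.coeff_map, eisQuot,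
    PowerSeries.coeff_mul]
  have h2 : ∀ f : ℕ × ℕ → ℤ, ∑ p ∈ Finset.HasAntidiagonal.antidiagonal (1 : ℕ), f p = f (0, 1) + f (1, 0) := by
    intro f
    rw [Finset.Nat.sum_antidiagonal_succ, Finset.Nat.antidiagonal_zero, Finset.sum_singleton]
  rw [h2]
  have h3 : PowerSeries.coeff 0 (eisNum c S) = 0 := by
    rw [eisNum, PowerSeries.coeff_mk, eisCoeff]
    simp
  have h4 : PowerSeries.coeff 0 (eisenstein4.invOfUnit 1) = 1 := by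
    rw [PowerSeries.coeff_zero_eq_constantCoeff_apply, PowerSeries.constantCoeff_invOfUnit]
    simp
  have h5 : PowerSeries.coeff 1 (eisNum c S) = if (1 : ZMod c) ∈ S then 1 else 0 := by
    rw [eisNum, PowerSeries.coeff_mk, eisCoeff_one]
  rw [h3, h4, h5, zero_mul, zero_add, mul_one]
  split_ifs <;> simp

open scoped Classical in
theorem coeff_one_yC (ψ : (ZMod c)ˣ →* ℂˣ) :
    (yC H ψ).coeff 1 =
      ∑ a : (ZMod c)ˣ, if (a ∈ H ∨ -a ∈ H) then ((ψ a⁻¹ : ℂˣ) : ℂ) else 0 := by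
  unfold yC
  rw [HahnSeries.coeff_sum]
  refine Finset.sum_congr rfl fun a _ => ?_
  rw [HahnSeries.coeff_smul, coeff_one_eisGen]
  by_cases h : (a ∈ H ∨ -a ∈ H)
  · rw [if_pos h, if_pos ((one_mem_cosetSet_iff H a).mpr h), smul_eq_mul, mul_one]
  · rw [if_neg h, if_neg (fun h' => h ((one_mem_cosetSet_iff H a).mp h')), smul_zero]

theorem pm_inv {a : (ZMod c)ˣ} (h : a ∈ H ∨ -a ∈ H) : a⁻¹ ∈ H ∨ -a⁻¹ ∈ H := by
  rcases h with h | h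
  · exact Or.inl (H.inv_mem h)
  · right
    have : -a⁻¹ = (-a)⁻¹ := by
      rw [eq_comm, inv_eq_iff_eq_inv, inv_neg, inv_inv]
    rw [this]
    exact H.inv_mem h

theorem pm_mul {a b : (ZMod c)ˣ} (ha : a ∈ H ∨ -a ∈ H) (hb : b ∈ H ∨ -b ∈ H) :
    a * b ∈ H ∨ -(a * b) ∈ H := by
  rcases ha with ha | ha <;> rcases hb with hb | hb
  · exact Or.inl (H.mul_mem ha hb)
  · right
    have : -(a * b) = a * -b := by rw [mul_neg]
    rw [this]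
    exact H.mul_mem ha hb
  · right
    have : -(a * b) = -a * b := by rw [neg_mul]
    rw [this]
    exact H.mul_mem ha hb
  · left
    have : a * b = -a * -b := by rw [neg_mul_neg]
    rw [this]
    exact H.mul_mem ha hb

theorem pm_one : (1 : (ZMod c)ˣ) ∈ H ∨ -(1 : (ZMod c)ˣ) ∈ H := Or.inl H.one_mem

theorem yC_ne_zero (ψ : (ZMod c)ˣ →* ℂˣ)
    (hψ : ∀ u : (ZMod c)ˣ, (u ∈ H ∨ -u ∈ H) → ψ u = 1) : yC H ψ ≠ 0 := by
  classical
  intro h0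
  have h1 := coeff_one_yC H ψ
  rw [h0, HahnSeries.coeff_zero] at h1
  have h2 : ∀ a : (ZMod c)ˣ, (if (a ∈ H ∨ -a ∈ H) then ((ψ a⁻¹ : ℂˣ) : ℂ) else 0)
      = if (a ∈ H ∨ -a ∈ H) then 1 else 0 := by
    intro a
    by_cases h : (a ∈ H ∨ -a ∈ H)
    · rw [if_pos h, if_pos h, hψ _ (pm_inv H h), Units.val_one]
    · rw [if_neg h, if_neg h]
  rw [Finset.sum_congr rfl fun a _ => h2 a, Finset.sum_boole] at h1
  have h3 : (Finset.univ.filter fun a : (ZMod c)ˣ => (a ∈ H ∨ -a ∈ H)).card ≠ 0 := by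
    rw [Finset.card_ne_zero]
    exact ⟨1, Finset.mem_filter.mpr ⟨Finset.mem_univ _, pm_one H⟩⟩
  exact h3 (Nat.cast_eq_zero.mp h1.symm)

end YNe

/-! ### The ratios `(A ∣ γ) / (B ∣ γ)` -/

section XG

variable {k : ℤ} {A B : ℍ → ℂ}

/-- The ratio `(A ∣ γ) / (B ∣ γ)` of `q`-expansions. -/
def xg (k : ℤ) (A B : ℍ → ℂ) (γ : SL(2, ℤ)) : LaurentSeries ℂ :=
  qLaurent (A ∣[k] γ) / qLaurent (B ∣[k] γ)

theorem xg_one (k : ℤ) (A B : ℍ → ℂ) : xg k A B 1 = qLaurent A / qLaurent B := by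
  unfold xg
  rw [SlashAction.slash_one, SlashAction.slash_one]

theorem xg_rel (hA : IsW M k A) (hB : IsW M k B) (hB0 : B ≠ 0) {γ γ' : SL(2, ℤ)}
    (hγ : γ ∈ Gamma0 M) (hγ' : γ' ∈ Gamma0 M) :
    Rel M γ' (xg k A B γ) (xg k A B (γ * γ')) := by
  have hAγ := hA.slash_Gamma0 hγ
  have hBγ := hB.slash_Gamma0 hγ
  have n1 : qLaurent (B ∣[k] γ) ≠ 0 := qLaurent_ne_zero hBγ.nice (slash_ne_zero k γ hB0)
  have n2 : qLaurent (B ∣[k] (γ * γ')) ≠ 0 :=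
    qLaurent_ne_zero (hB.slash_Gamma0 ((Gamma0 M).mul_mem hγ hγ')).nice (slash_ne_zero k _ hB0)
  refine ⟨k, A ∣[k] γ, B ∣[k] γ, hAγ, hBγ, slash_ne_zero k γ hB0, ?_, ?_⟩
  · unfold xg
    field_simp
  · rw [← SlashAction.slash_mul, ← SlashAction.slash_mul]
    unfold xg
    field_simp

variable [NeZero M] [NeZero c] (H : Subgroup (ZMod c)ˣ) (hc : c ∣ M)

theorem a_mem_cosetSet (γ : Gamma0 M) (h : H34.dUnit hc γ ∈ H ∨ -H34.dUnit hc γ ∈ H) :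
    ((((γ : SL(2, ℤ)) 0 0 : ℤ)) : ZMod c) ∈ cosetSet c H 1 := by
  have h1 := a_mul_dUnit hc γ
  have h2 : ((((γ : SL(2, ℤ)) 0 0 : ℤ)) : ZMod c) = (((H34.dUnit hc γ)⁻¹ : (ZMod c)ˣ) : ZMod c) := by
    have h3 : (((H34.dUnit hc γ) : (ZMod c)ˣ) : ZMod c) * (((H34.dUnit hc γ)⁻¹ : (ZMod c)ˣ) : ZMod c)
        = 1 := by
      rw [← Units.val_mul, mul_inv_cancel, Units.val_one]
    calc ((((γ : SL(2, ℤ)) 0 0 : ℤ)) : ZMod c)
        = ((((γ : SL(2, ℤ)) 0 0 : ℤ)) : ZMod c) * ((((H34.dUnit hc γ) : (ZMod c)ˣ) : ZMod c)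
            * (((H34.dUnit hc γ)⁻¹ : (ZMod c)ˣ) : ZMod c)) := by rw [h3, mul_one]
      _ = (((H34.dUnit hc γ)⁻¹ : (ZMod c)ˣ) : ZMod c) := by rw [← mul_assoc, h1, one_mul]
  rw [h2]
  rcases h with h | h
  · exact ⟨(H34.dUnit hc γ)⁻¹, H.inv_mem h, Or.inl (by rw [one_mul])⟩
  · refine ⟨(-H34.dUnit hc γ)⁻¹, H.inv_mem h, Or.inr ?_⟩
    rw [one_mul, inv_neg, Units.val_neg, neg_neg]

variable (hA : IsW M k A) (hB : IsW M k B) (hB0 : B ≠ 0)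
  (hinv : ∀ γ : SL(2, ℤ), γ ∈ Gamma0 M → ((γ 0 0 : ℤ) : ZMod c) ∈ cosetSet c H 1 →
      (A ∣[k] γ) * B = A * (B ∣[k] γ))

include hA hB hB0 hinv

theorem xg_fix (h : Gamma0 M) (hh : H34.dUnit hc h ∈ H ∨ -H34.dUnit hc h ∈ H) :
    xg k A B (h : SL(2, ℤ)) = xg k A B 1 := by
  have h1 := hinv (h : SL(2, ℤ)) h.2 (a_mem_cosetSet H hc h hh)
  have hAh := hA.slash_Gamma0 h.2
  have hBh := hB.slash_Gamma0 h.2
  have h2 := congrArg qLaurent h1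
  rw [qLaurent_mul hAh.nice hB.nice, qLaurent_mul hA.nice hBh.nice] at h2
  have n1 : qLaurent (B ∣[k] (h : SL(2, ℤ))) ≠ 0 :=
    qLaurent_ne_zero hBh.nice (slash_ne_zero k _ hB0)
  have n2 : qLaurent B ≠ 0 := qLaurent_ne_zero hB.nice hB0
  rw [xg_one]
  unfold xg
  rw [div_eq_div_iff n1 n2]
  exact h2

theorem xg_mul_left (h γ : Gamma0 M) (hh : H34.dUnit hc h ∈ H ∨ -H34.dUnit hc h ∈ H) :
    xg k A B ((h * γ : Gamma0 M) : SL(2, ℤ)) = xg k A B (γ : SL(2, ℤ)) := by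
  have h1 : Rel M (γ : SL(2, ℤ)) (xg k A B (h : SL(2, ℤ)))
      (xg k A B ((h : SL(2, ℤ)) * (γ : SL(2, ℤ)))) := xg_rel hA hB hB0 h.2 γ.2
  have h2 : Rel M (γ : SL(2, ℤ)) (xg k A B 1) (xg k A B (1 * (γ : SL(2, ℤ)))) :=
    xg_rel hA hB hB0 (Gamma0 M).one_mem γ.2
  rw [xg_fix H hc hA hB hB0 hinv h hh] at h1
  rw [one_mul] at h2
  exact rel_unique γ.2 h1 h2

theorem xg_eq_of (γ₁ γ₂ : Gamma0 M)
    (h : H34.dUnit hc γ₁ * (H34.dUnit hc γ₂)⁻¹ ∈ H ∨ -(H34.dUnit hc γ₁ * (H34.dUnit hc γ₂)⁻¹) ∈ H) :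
    xg k A B (γ₁ : SL(2, ℤ)) = xg k A B (γ₂ : SL(2, ℤ)) := by
  have h1 := xg_mul_left H hc hA hB hB0 hinv (γ₁ * γ₂⁻¹) γ₂ (by
    rw [map_mul, map_inv]
    exact h)
  rw [inv_mul_cancel_right] at h1
  exact h1

end XG

/-! ### The functions `X u`, `u ∈ (ℤ/c)ˣ`, and their character sums -/

section XU

variable {k : ℤ} {A B : ℍ → ℂ}
variable [NeZero M] [NeZero c] (H : Subgroup (ZMod c)ˣ) (hc : c ∣ M)

theorem exists_rep (u : (ZMod c)ˣ) : ∃ γ : Gamma0 M, H34.dUnit hc γ = u := by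
  obtain ⟨γ, hγ⟩ := H84.exists_gamma hc u
  refine ⟨γ, ?_⟩
  apply Units.ext
  rw [H34.coe_dUnit, ← hγ, H84.coe_dUnit]

/-- A matrix in `Γ₀(M)` with `d ≡ u mod c`. -/
def rep (u : (ZMod c)ˣ) : Gamma0 M := (exists_rep hc u).choose

theorem dUnit_rep (u : (ZMod c)ˣ) : H34.dUnit hc (rep hc u) = u := (exists_rep hc u).choose_spec

/-- `X u = (A ∣ γ) / (B ∣ γ)` for any `γ ∈ Γ₀(M)` with `d_γ ≡ u mod c`. -/
def XU (k : ℤ) (A B : ℍ → ℂ) (u : (ZMod c)ˣ) : LaurentSeries ℂ :=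
  xg k A B (rep hc u : SL(2, ℤ))

/-- The character sum `G_ψ = ∑_u ψ(u) X u`. -/
def GS (k : ℤ) (A B : ℍ → ℂ) (ψ : (ZMod c)ˣ →* ℂˣ) : LaurentSeries ℂ :=
  ∑ u : (ZMod c)ˣ, HahnSeries.C ((ψ u : ℂˣ) : ℂ) * XU hc k A B u

variable (hA : IsW M k A) (hB : IsW M k B) (hB0 : B ≠ 0)
  (hinv : ∀ γ : SL(2, ℤ), γ ∈ Gamma0 M → ((γ 0 0 : ℤ) : ZMod c) ∈ cosetSet c H 1 →
      (A ∣[k] γ) * B = A * (B ∣[k] γ))

include hA hB hB0 hinv

theorem xg_eq_XU (γ : Gamma0 M) :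
    xg k A B (γ : SL(2, ℤ)) = XU hc k A B (H34.dUnit hc γ) := by
  unfold XU
  refine xg_eq_of H hc hA hB hB0 hinv _ _ ?_
  rw [dUnit_rep, mul_inv_cancel]
  exact pm_one H

theorem XU_mul (u p : (ZMod c)ˣ) (hp : p ∈ H ∨ -p ∈ H) :
    XU hc k A B (u * p) = XU hc k A B u := by
  unfold XU
  refine xg_eq_of H hc hA hB hB0 hinv _ _ ?_
  rw [dUnit_rep, dUnit_rep, mul_comm u p, mul_inv_cancel_right]
  exact hp

theorem XU_rel (u : (ZMod c)ˣ) (γ : Gamma0 M) :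
    Rel M (γ : SL(2, ℤ)) (XU hc k A B u) (XU hc k A B (u * H34.dUnit hc γ)) := by
  have h1 : Rel M (γ : SL(2, ℤ)) (xg k A B (rep hc u : SL(2, ℤ)))
      (xg k A B ((rep hc u : SL(2, ℤ)) * (γ : SL(2, ℤ)))) :=
    xg_rel hA hB hB0 (rep hc u).2 γ.2
  have h2 := xg_eq_XU H hc hA hB hB0 hinv (rep hc u * γ)
  rw [map_mul, dUnit_rep] at h2
  have h3 : ((rep hc u * γ : Gamma0 M) : SL(2, ℤ)) = (rep hc u : SL(2, ℤ)) * (γ : SL(2, ℤ)) :=
    rfl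
  rw [h3] at h2
  rw [h2] at h1
  exact h1

theorem GS_rel (ψ : (ZMod c)ˣ →* ℂˣ) (γ : Gamma0 M) :
    Rel M (γ : SL(2, ℤ)) (GS hc k A B ψ)
      (HahnSeries.C ((ψ (H34.dUnit hc γ)⁻¹ : ℂˣ) : ℂ) * GS hc k A B ψ) := by
  have h1 : Rel M (γ : SL(2, ℤ)) (GS hc k A B ψ)
      (∑ u : (ZMod c)ˣ, HahnSeries.C ((ψ u : ℂˣ) : ℂ) * XU hc k A B (u * H34.dUnit hc γ)) := by
    unfold GS
    exact rel_sum Finset.univ γ.2 _ _ fun u _ =>
      rel_mul γ.2 (rel_C M _ _) (XU_rel H hc hA hB hB0 hinv u γ)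
  have h2 : (∑ u : (ZMod c)ˣ, HahnSeries.C ((ψ u : ℂˣ) : ℂ)
        * XU hc k A B (u * H34.dUnit hc γ))
      = HahnSeries.C ((ψ (H34.dUnit hc γ)⁻¹ : ℂˣ) : ℂ) * GS hc k A B ψ := by
    unfold GS
    rw [Finset.mul_sum]
    refine Fintype.sum_equiv (Equiv.mulRight (H34.dUnit hc γ)) _ _ fun u => ?_
    simp only [Equiv.coe_mulRight]
    have e : (H34.dUnit hc γ)⁻¹ * (u * H34.dUnit hc γ) = u := by
      rw [mul_comm u, inv_mul_cancel_left]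
    rw [← mul_assoc, ← map_mul, ← Units.val_mul, ← map_mul, e]
  rw [h2] at h1
  exact h1

/-- `G_ψ = 0` if `ψ` is not trivial on `±H`. -/
theorem GS_eq_zero (ψ : (ZMod c)ˣ →* ℂˣ) (p : (ZMod c)ˣ) (hp : p ∈ H ∨ -p ∈ H)
    (hψ : ψ p ≠ 1) : GS hc k A B ψ = 0 := by
  have h1 : GS hc k A B ψ = HahnSeries.C ((ψ p : ℂˣ) : ℂ) * GS hc k A B ψ := by
    unfold GS
    rw [Finset.mul_sum]
    refine Fintype.sum_equiv (Equiv.mulRight p⁻¹) _ _ fun u => ?_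
    simp only [Equiv.coe_mulRight]
    have e : p * (u * p⁻¹) = u := by
      rw [mul_comm u, mul_inv_cancel_left]
    rw [XU_mul H hc hA hB hB0 hinv u p⁻¹ (pm_inv H hp), ← mul_assoc, ← map_mul,
      ← Units.val_mul, ← map_mul, e]
  have h2 : (1 - HahnSeries.C ((ψ p : ℂˣ) : ℂ)) * GS hc k A B ψ = 0 := by
    rw [sub_mul, one_mul, ← h1, sub_self]
  rcases mul_eq_zero.mp h2 with h3 | h3
  · exfalso
    apply hψ
    have h4 : (HahnSeries.C ((ψ p : ℂˣ) : ℂ) : LaurentSeries ℂ) = HahnSeries.C (1 : ℂ) := by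
      rw [map_one]
      exact (sub_eq_zero.mp h3).symm
    exact Units.ext (HahnSeries.C_injective h4)
  · exact h3

/-- `G_ψ ∈ F_H · ℂ` if `ψ` is trivial on `±H`. -/
theorem GS_mem_of_trivial [Fact (1 < c)] (ψ : (ZMod c)ˣ →* ℂˣ)
    (hψ : ∀ u : (ZMod c)ˣ, (u ∈ H ∨ -u ∈ H) → ψ u = 1) :
    GS hc k A B ψ ∈ laurentBaseChange ℂ (FHQ M c H) := by
  have hy := yC_ne_zero H ψ hψ
  have h1 : ∀ γ : SL(2, ℤ), γ ∈ Gamma0 M →
      Rel M γ (GS hc k A B ψ * (yC H ψ)⁻¹) (GS hc k A B ψ * (yC H ψ)⁻¹) := by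
    intro γ hγ
    have h2 := rel_mul hγ (GS_rel H hc hA hB hB0 hinv ψ ⟨γ, hγ⟩)
      (rel_inv hγ (rel_yC H hc ψ ⟨γ, hγ⟩) hy)
    have h3 : HahnSeries.C ((ψ (H34.dUnit hc ⟨γ, hγ⟩)⁻¹ : ℂˣ) : ℂ) ≠ (0 : LaurentSeries ℂ) := by
      intro h0
      have : (HahnSeries.C ((ψ (H34.dUnit hc ⟨γ, hγ⟩)⁻¹ : ℂˣ) : ℂ) : LaurentSeries ℂ)
          = HahnSeries.C (0 : ℂ) := by
        rw [map_zero]
        exact h0
      exact (ψ (H34.dUnit hc ⟨γ, hγ⟩)⁻¹).ne_zero (HahnSeries.C_injective this)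
    have h4 : HahnSeries.C ((ψ (H34.dUnit hc ⟨γ, hγ⟩)⁻¹ : ℂˣ) : ℂ) * GS hc k A B ψ
        * (HahnSeries.C ((ψ (H34.dUnit hc ⟨γ, hγ⟩)⁻¹ : ℂˣ) : ℂ) * yC H ψ)⁻¹
        = GS hc k A B ψ * (yC H ψ)⁻¹ := by
      rw [mul_inv, mul_mul_mul_comm, mul_inv_cancel₀ h3, one_mul]
    rw [h4] at h2
    exact h2
  have h5 := laurentBaseChange_mono (L := ℂ) (full_le_FHQ M c H) (mem_FNL_of_rel h1)
  have h6 : GS hc k A B ψ = GS hc k A B ψ * (yC H ψ)⁻¹ * yC H ψ := by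
    rw [inv_mul_cancel_right₀ hy]
  rw [h6]
  exact mul_mem h5 (yC_mem H M ψ)

theorem GS_mem [Fact (1 < c)] (ψ : (ZMod c)ˣ →* ℂˣ) :
    GS hc k A B ψ ∈ laurentBaseChange ℂ (FHQ M c H) := by
  by_cases hψ : ∀ u : (ZMod c)ˣ, (u ∈ H ∨ -u ∈ H) → ψ u = 1
  · exact GS_mem_of_trivial H hc hA hB hB0 hinv ψ hψ
  · push_neg at hψ
    obtain ⟨p, hp, hp1⟩ := hψ
    rw [GS_eq_zero H hc hA hB hB0 hinv ψ p hp hp1]
    exact zero_mem _

end XU

/-! ### Orthogonality and the statement -/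

section Final

variable [NeZero M] [NeZero c] (hc : c ∣ M)

theorem sum_GS (k : ℤ) (A B : ℍ → ℂ) :
    ∑ χ : DirichletCharacter ℂ c, GS hc k A B χ.toUnitHom
      = HahnSeries.C ((c.totient : ℂ)) * XU hc k A B 1 := by
  classical
  unfold GS
  rw [Finset.sum_comm]
  have h1 : ∀ u : (ZMod c)ˣ,
      ∑ χ : DirichletCharacter ℂ c, HahnSeries.C ((χ.toUnitHom u : ℂˣ) : ℂ) * XU hc k A B u
      = HahnSeries.C (if u = 1 then (c.totient : ℂ) else 0) * XU hc k A B u := by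
    intro u
    rw [← Finset.sum_mul, ← map_sum]
    congr 2
    simp only [MulChar.coe_toUnitHom]
    rw [DirichletCharacter.sum_characters_eq ℂ]
    simp only [Units.val_eq_one]
  rw [Finset.sum_congr rfl fun u _ => h1 u, Finset.sum_eq_single 1]
  · rw [if_pos rfl]
  · intro u _ hu
    rw [if_neg hu, map_zero, zero_mul]
  · intro h
    exact absurd (Finset.mem_univ _) h

end Final

/-- **A2-H**: a ratio of two forms of the same weight on `Γ₁(M)` which is invariant under `Γ_H`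
lies in `F_H · ℂ`. -/
theorem stmt_A2H (M c : ℕ) (H : Subgroup (ZMod c)ˣ) : H98.Stmt_A2H M c H := by
  intro hc2 hc hM k A B hA hB hB0 hinv
  haveI : NeZero M := ⟨hM⟩
  haveI : NeZero c := ⟨by omega⟩
  haveI : Fact (1 < c) := ⟨by omega⟩
  have n2 : qLaurent B ≠ 0 := qLaurent_ne_zero hB.nice hB0
  refine ⟨qLaurent A / qLaurent B, ?_, (div_mul_cancel₀ _ n2).symm⟩
  have h1 := sum_GS hc k A B
  have h2 : XU hc k A B 1 = qLaurent A / qLaurent B := by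
    have h := xg_eq_XU H hc hA hB hB0 hinv 1
    rw [map_one] at h
    rw [← h]
    exact xg_one k A B
  have h3 : (∑ χ : DirichletCharacter ℂ c, GS hc k A B χ.toUnitHom)
      ∈ laurentBaseChange ℂ (FHQ M c H) :=
    sum_mem fun χ _ => GS_mem H hc hA hB hB0 hinv _
  rw [h1, h2] at h3
  have hφ : (c.totient : ℂ) ≠ 0 :=
    Nat.cast_ne_zero.mpr (Nat.totient_pos.mpr (by omega)).ne'
  have hC : (HahnSeries.C (c.totient : ℂ) : LaurentSeries ℂ) ≠ 0 := by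
    intro h0
    have : (HahnSeries.C (c.totient : ℂ) : LaurentSeries ℂ) = HahnSeries.C (0 : ℂ) := by
      rw [map_zero]
      exact h0
    exact hφ (HahnSeries.C_injective this)
  have h4 : qLaurent A / qLaurent B = (HahnSeries.C (c.totient : ℂ) : LaurentSeries ℂ)⁻¹
      * (HahnSeries.C (c.totient : ℂ) * (qLaurent A / qLaurent B)) := by
    rw [inv_mul_cancel_left₀ hC]
  rw [h4]
  exact mul_mem (inv_mem (C_mem_bc _ _)) h3

end Fermat.Agent.NEB.EIG.H46
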