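import Fermat.Agent.Betti.Basis
import Fermat.Agent.Betti.H76_MatrixRep

/-!
# NEB / EIG-CHAR (item 72, helper98): eigenvectors give characters of the Hecke algebra

A nonzero parabolic homomorphism `φ : Γ₀(N) → L` (`L` a field of characteristic zero) which is an
eigenvector of the Betti Hecke operators `TB_ℓ`, `ℓ ∉ S`, `ℓ ∤ N`, with eigenvalues `lam ℓ`, gives
a ring homomorphism `y : heckeAlgebra N 2 S → L` with `y (T_ℓ) = lam ℓ`, provided `S` contains
the primes dividing `N` (so that the Hecke algebra is generated by the `T_ℓ`).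

* `exists_char_of_eigen` : the character with values in `L`;
* `exists_char_of_eigen_subring` : with values in a subring `O` of `L` containing the `lam ℓ`;
* `stmt_CHAR : Stmt_CHAR`.

Ingredients: the universal basis of `Hom_par(Γ₀(N), ℤ)` (helper20) and the faithful matrix
representation of the Hecke algebra on it (helper76).
-/

set_option autoImplicit false

open scoped MatrixGroups
open CongruenceSubgroup Matrix

namespace Fermat.Agent.NEB.EIG.H98

open Fermat.Agent.Betti ModularCurve ModularCurve.Period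

/-- **EIG-CHAR**: a nonzero parabolic eigenvector of the `TB_ℓ` (`ℓ ∉ S`) with values in a field
of characteristic zero gives a character of the Hecke algebra away from `S`, if `S` contains the
primes dividing the level. -/
def Stmt_CHAR : Prop :=
  ∀ (N : ℕ) [NeZero N] (S : Set ℕ), (∀ q : ℕ, q.Prime → q ∣ N → q ∈ S) →
  ∀ (L : Type) [Field L] [CharZero L] (φ : Additive (Gamma0 N) →+ L) (lam : ℕ → L),
    φ ≠ 0 → IsParabolicHom (Gamma0 N) φ →
    (∀ (ℓ : ℕ) (hℓ : ℓ.Prime) (hℓN : ¬ ℓ ∣ N), ℓ ∉ S → TB N L hℓ hℓN φ = lam ℓ • φ) →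
    ∃ y : CuspForm.heckeAlgebra N 2 S →+* L,
      ∀ (ℓ : ℕ) (hℓ : ℓ.Prime) (hℓN : ¬ ℓ ∣ N) (hℓS : ℓ ∉ S),
        y (CuspForm.heckeAlgebra.T hℓ hℓN hℓS) = lam ℓ

section Coord

variable {N r : ℕ} (b : Fin r → (Additive (Gamma0 N) →+ ℤ)) {L : Type} [CommRing L]

/-- The homomorphism `γ ↦ ∑ i, b i γ • a i`. -/
noncomputable def coordHom (a : Fin r → L) : Additive (Gamma0 N) →+ L :=
  ∑ i, (AddMonoidHom.mulLeft (a i)).comp ((Int.castAddHom L).comp (b i))

theorem coordHom_apply (a : Fin r → L) (γ : Additive (Gamma0 N)) :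
    coordHom b a γ = ∑ i, b i γ • a i := by
  simp only [coordHom, AddMonoidHom.finsetSum_apply, AddMonoidHom.comp_apply,
    AddMonoidHom.coe_mulLeft, Int.coe_castAddHom, zsmul_eq_mul]
  exact Finset.sum_congr rfl fun i _ => mul_comm _ _

theorem coordHom_smul (c : L) (a : Fin r → L) : coordHom b (c • a) = c • coordHom b a := by
  refine AddMonoidHom.ext fun γ => ?_
  rw [AddMonoidHom.smul_apply, coordHom_apply, coordHom_apply, Finset.smul_sum]
  refine Finset.sum_congr rfl fun i _ => ?_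
  simp only [Pi.smul_apply, smul_eq_mul, zsmul_eq_mul]
  ring

variable {b}

/-- The Betti Hecke operator on `coordHom b a` in terms of its matrix on the basis `b`. -/
theorem TB_coordHom {ℓ : ℕ} (hℓ : ℓ.Prime) (hℓN : ¬ ℓ ∣ N) (Mℓ : Matrix (Fin r) (Fin r) ℤ)
    (hM : ∀ j, TB N ℤ hℓ hℓN (b j) = ∑ i, Mℓ i j • b i) (a : Fin r → L) :
    TB N L hℓ hℓN (coordHom b a)
      = coordHom b ((Mℓ.map (Int.cast : ℤ → L)).mulVec a) := by
  have : Fact ℓ.Prime := ⟨hℓ⟩
  have hcomp : ∀ j, TB N L hℓ hℓN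
      ((AddMonoidHom.mulLeft (a j)).comp ((Int.castAddHom L).comp (b j)))
      = (AddMonoidHom.mulLeft (a j)).comp ((Int.castAddHom L).comp
          (TB N ℤ hℓ hℓN (b j))) := by
    intro j
    rw [← AddMonoidHom.comp_assoc, ← AddMonoidHom.comp_assoc]
    exact (isHeckeFamily_T N hℓN).heckeOp_comp (incl_injective N) _ (b j)
  refine AddMonoidHom.ext fun γ => ?_
  rw [coordHom, map_sum, AddMonoidHom.finsetSum_apply, coordHom_apply]
  simp only [hcomp, hM]
  simp only [AddMonoidHom.comp_apply, AddMonoidHom.finsetSum_apply, AddMonoidHom.smul_apply,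
    AddMonoidHom.coe_mulLeft, Int.coe_castAddHom, Matrix.mulVec, dotProduct, Matrix.map_apply,
    smul_eq_mul, zsmul_eq_mul]
  push_cast
  simp only [Finset.mul_sum]
  rw [Finset.sum_comm]
  refine Finset.sum_congr rfl fun i _ => Finset.sum_congr rfl fun j _ => ?_
  ring

end Coord

section Main

variable {N : ℕ} [NeZero N] {S : Set ℕ} {L : Type} [Field L] [CharZero L]

/-- The character with values in a subring `O` of `L` containing the eigenvalues. -/
theorem exists_char_of_eigen_subring (hS : ∀ q : ℕ, q.Prime → q ∣ N → q ∈ S) (O : Subring L)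
    (φ : Additive (Gamma0 N) →+ L) (lam : ℕ → L) (hφ : φ ≠ 0)
    (hpar : IsParabolicHom (Gamma0 N) φ)
    (heig : ∀ (ℓ : ℕ) (hℓ : ℓ.Prime) (hℓN : ¬ ℓ ∣ N), ℓ ∉ S → TB N L hℓ hℓN φ = lam ℓ • φ)
    (hlam : ∀ ℓ : ℕ, ℓ.Prime → ¬ ℓ ∣ N → ℓ ∉ S → lam ℓ ∈ O) :
    ∃ y : CuspForm.heckeAlgebra N 2 S →+* O,
      ∀ (ℓ : ℕ) (hℓ : ℓ.Prime) (hℓN : ¬ ℓ ∣ N) (hℓS : ℓ ∉ S),
        ((y (CuspForm.heckeAlgebra.T hℓ hℓN hℓS) : O) : L) = lam ℓ := by
  classical
  obtain ⟨r, b, hb⟩ := Fermat.Agent.Betti.stmt_basis N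
  obtain ⟨M, -, hMT, -⟩ := Fermat.Agent.Betti.H76.stmt_matrixRep N S r b hb
  -- coordinates of `φ`
  obtain ⟨a, ha, hauniq⟩ := hb.2 L φ hpar
  have hφa : φ = coordHom b a := AddMonoidHom.ext fun γ => by rw [ha γ, coordHom_apply]
  have hinj : ∀ a₁ a₂ : Fin r → L, coordHom b a₁ = coordHom b a₂ → a₁ = a₂ := by
    intro a₁ a₂ h
    have hpar₁ : IsParabolicHom (Gamma0 N) (coordHom b a₁) := by
      intro γ hγ
      rw [coordHom_apply]
      exact Finset.sum_eq_zero fun i _ => by rw [hb.1 i γ hγ, zero_smul]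
    obtain ⟨a₀, -, huniq⟩ := hb.2 L (coordHom b a₁) hpar₁
    rw [huniq a₁ (fun γ => coordHom_apply b a₁ γ),
      huniq a₂ (fun γ => by rw [h, coordHom_apply])]
  have ha0 : a ≠ 0 := by
    rintro rfl
    apply hφ
    rw [hφa]
    refine AddMonoidHom.ext fun γ => ?_
    rw [coordHom_apply]
    simp
  obtain ⟨i₀, hi₀⟩ : ∃ i₀, a i₀ ≠ 0 := Function.ne_iff.mp ha0
  -- the representation over `L`
  let ML : CuspForm.heckeAlgebra N 2 S →+* Matrix (Fin r) (Fin r) L :=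
    (Int.castRingHom L).mapMatrix.comp M
  have hMLT : ∀ (ℓ : ℕ) (hℓ : ℓ.Prime) (hℓN : ¬ ℓ ∣ N) (hℓS : ℓ ∉ S),
      (ML (CuspForm.heckeAlgebra.T hℓ hℓN hℓS)).mulVec a = lam ℓ • a := by
    intro ℓ hℓ hℓN hℓS
    apply hinj
    rw [coordHom_smul, ← hφa, ← heig ℓ hℓ hℓN hℓS, hφa]
    exact (TB_coordHom hℓ hℓN _ (hMT ℓ hℓ hℓN hℓS) a).symm
  -- every element acts by a scalar of `O`
  have hall : ∀ t : CuspForm.heckeAlgebra N 2 S, ∃ c ∈ O, (ML t).mulVec a = c • a := by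
    rintro ⟨t, ht⟩
    induction ht using Algebra.adjoin_induction with
    | mem x hx =>
      rcases hx with ⟨ℓ, hℓ, hℓN, hℓS, rfl⟩ | ⟨q, hqN, hq, hqS, rfl⟩
      · exact ⟨lam ℓ, hlam ℓ hℓ hℓN hℓS, hMLT ℓ hℓ hℓN hℓS⟩
      · exact absurd (hS q hq hqN) hqS
    | algebraMap n =>
      refine ⟨(n : L), intCast_mem O n, ?_⟩
      have : (⟨algebraMap ℤ _ n, Subalgebra.algebraMap_mem _ n⟩ : CuspForm.heckeAlgebra N 2 S)
          = (n : CuspForm.heckeAlgebra N 2 S) := by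
        apply Subtype.ext
        simp
      rw [this, map_intCast]
      funext i
      simp [Matrix.mulVec, dotProduct, Matrix.intCast_apply]
    | add x y hx hy ihx ihy =>
      obtain ⟨c, hc, h1⟩ := ihx
      obtain ⟨d, hd, h2⟩ := ihy
      refine ⟨c + d, O.add_mem hc hd, ?_⟩
      have : (⟨x + y, Subalgebra.add_mem _ hx hy⟩ : CuspForm.heckeAlgebra N 2 S)
          = ⟨x, hx⟩ + ⟨y, hy⟩ := rfl
      rw [this, map_add, Matrix.add_mulVec, h1, h2, add_smul]
    | mul x y hx hy ihx ihy =>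
      obtain ⟨c, hc, h1⟩ := ihx
      obtain ⟨d, hd, h2⟩ := ihy
      refine ⟨c * d, O.mul_mem hc hd, ?_⟩
      have : (⟨x * y, Subalgebra.mul_mem _ hx hy⟩ : CuspForm.heckeAlgebra N 2 S)
          = ⟨x, hx⟩ * ⟨y, hy⟩ := rfl
      rw [this, map_mul, ← Matrix.mulVec_mulVec, h2, Matrix.mulVec_smul, h1, smul_smul,
        mul_comm]
  choose c hcO hc using hall
  have hcuniq : ∀ (t : CuspForm.heckeAlgebra N 2 S) (d : L), (ML t).mulVec a = d • a →
      c t = d := by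
    intro t d hd
    have := congrFun ((hc t).symm.trans hd) i₀
    simp only [Pi.smul_apply, smul_eq_mul] at this
    exact mul_right_cancel₀ hi₀ this
  let y : CuspForm.heckeAlgebra N 2 S →+* O :=
    { toFun := fun t => ⟨c t, hcO t⟩
      map_one' := Subtype.ext (hcuniq 1 1 (by rw [map_one, Matrix.one_mulVec, one_smul]))
      map_mul' := fun s t => Subtype.ext (hcuniq (s * t) (c s * c t) (by
        rw [map_mul, ← Matrix.mulVec_mulVec, hc t, Matrix.mulVec_smul, hc s, smul_smul,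
          mul_comm]))
      map_zero' := Subtype.ext (hcuniq 0 0 (by rw [map_zero, Matrix.zero_mulVec, zero_smul]))
      map_add' := fun s t => Subtype.ext (hcuniq (s + t) (c s + c t) (by
        rw [map_add, Matrix.add_mulVec, hc s, hc t, add_smul])) }
  exact ⟨y, fun ℓ hℓ hℓN hℓS => hcuniq _ _ (hMLT ℓ hℓ hℓN hℓS)⟩

/-- The character with values in `L`. -/
theorem exists_char_of_eigen (hS : ∀ q : ℕ, q.Prime → q ∣ N → q ∈ S)
    (φ : Additive (Gamma0 N) →+ L) (lam : ℕ → L) (hφ : φ ≠ 0)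
    (hpar : IsParabolicHom (Gamma0 N) φ)
    (heig : ∀ (ℓ : ℕ) (hℓ : ℓ.Prime) (hℓN : ¬ ℓ ∣ N), ℓ ∉ S → TB N L hℓ hℓN φ = lam ℓ • φ) :
    ∃ y : CuspForm.heckeAlgebra N 2 S →+* L,
      ∀ (ℓ : ℕ) (hℓ : ℓ.Prime) (hℓN : ¬ ℓ ∣ N) (hℓS : ℓ ∉ S),
        y (CuspForm.heckeAlgebra.T hℓ hℓN hℓS) = lam ℓ := by
  obtain ⟨y, hy⟩ := exists_char_of_eigen_subring hS (⊤ : Subring L) φ lam hφ hpar heig
    (fun _ _ _ _ => Subring.mem_top _)
  exact ⟨(Subring.subtype ⊤).comp y, fun ℓ hℓ hℓN hℓS => hy ℓ hℓ hℓN hℓS⟩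

end Main

/-- **EIG-CHAR**. -/
theorem stmt_CHAR : Stmt_CHAR := by
  intro N _ S hS L _ _ φ lam hφ hpar heig
  exact exists_char_of_eigen hS φ lam hφ hpar heig

end Fermat.Agent.NEB.EIG.H98
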