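import Fermat.Agent.NEB.EIG.H98_A1H
import Fermat.Agent.NEB.H94_Mono

/-!
# NEB / EIG, leaf EIG-MONO (helper98): the group `Γ_H`

`GamH M c H = {γ ∈ Γ₀(M) : c ∣ γ₁₀, a_γ mod c ∈ ±H}`, a subgroup of `SL(2, ℤ)` containing
`Gam1 M c` and `-1`.
-/

set_option autoImplicit false
set_option linter.unusedSectionVars false

noncomputable section

namespace Fermat.Agent.NEB.EIG.H98

open CongruenceSubgroup Matrix.SpecialLinearGroup
open Fermat.Agent.NEB Fermat.Agent.NEB.H94 Fermat.Agent.NEB.EIG.H39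
open scoped MatrixGroups

/-- `Γ_H`: lower left entry divisible by `M` and by `c`, upper left entry in `±H` mod `c`. -/
def GamH (M c : ℕ) (H : Subgroup (ZMod c)ˣ) : Subgroup SL(2, ℤ) where
  carrier := {γ | (M : ℤ) ∣ γ 1 0 ∧ (c : ℤ) ∣ γ 1 0 ∧
    ∃ d ∈ pmSubgroup c H, ((γ 0 0 : ℤ) : ZMod c) = (d : ZMod c)}
  one_mem' := by
    refine ⟨by simp, by simp, 1, (pmSubgroup c H).one_mem, by simp⟩
  mul_mem' := by
    rintro g h ⟨g1, g2, dg, hdg, eg⟩ ⟨h1, h2, dh, hdh, eh⟩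
    refine ⟨?_, ?_, dg * dh, (pmSubgroup c H).mul_mem hdg hdh, ?_⟩
    · rw [sl_mul_10]
      exact dvd_add (Dvd.dvd.mul_right g1 _) (Dvd.dvd.mul_left h1 _)
    · rw [sl_mul_10]
      exact dvd_add (Dvd.dvd.mul_right g2 _) (Dvd.dvd.mul_left h2 _)
    · rw [sl_mul_00]
      have h0 : ((h 1 0 : ℤ) : ZMod c) = 0 := (ZMod.intCast_zmod_eq_zero_iff_dvd _ _).mpr h2
      push_cast
      rw [eg, eh, h0, mul_zero, add_zero]
  inv_mem' := by
    rintro g ⟨g1, g2, dg, hdg, eg⟩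
    refine ⟨?_, ?_, dg⁻¹, (pmSubgroup c H).inv_mem hdg, ?_⟩
    · rw [sl_inv_10]; exact (dvd_neg).mpr g1
    · rw [sl_inv_10]; exact (dvd_neg).mpr g2
    · rw [sl_inv_00]
      have hd := sl_det g
      have h0 : ((g 1 0 : ℤ) : ZMod c) = 0 := (ZMod.intCast_zmod_eq_zero_iff_dvd _ _).mpr g2
      have h1 := congrArg (fun z : ℤ => (z : ZMod c)) hd
      simp only [Int.cast_sub, Int.cast_mul, Int.cast_one, h0, mul_zero, sub_zero, eg] at h1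
      -- `dg * g11 = 1`
      have h2 : ((g 1 1 : ℤ) : ZMod c) = ((dg⁻¹ : (ZMod c)ˣ) : ZMod c) * ((dg : ZMod c) *
          ((g 1 1 : ℤ) : ZMod c)) := by
        rw [← mul_assoc, Units.inv_mul, one_mul]
      rw [h2, h1, mul_one]

variable {M c : ℕ} {H : Subgroup (ZMod c)ˣ}

theorem mem_GamH {γ : SL(2, ℤ)} :
    γ ∈ GamH M c H ↔ (M : ℤ) ∣ γ 1 0 ∧ (c : ℤ) ∣ γ 1 0 ∧
      ∃ d ∈ pmSubgroup c H, ((γ 0 0 : ℤ) : ZMod c) = (d : ZMod c) := Iff.rfl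

theorem GamH_le_Gamma0 : GamH M c H ≤ Gamma0 M := fun _ h =>
  Fermat.Agent.Betti.mem_Gamma0_of_dvd h.1

theorem Gam1_le_GamH : Gam1 M c ≤ GamH M c H := by
  rintro γ ⟨h1, h2, h3⟩
  refine ⟨h1, h2, 1, (pmSubgroup c H).one_mem, ?_⟩
  have : ((γ 0 0 - 1 : ℤ) : ZMod c) = 0 := (ZMod.intCast_zmod_eq_zero_iff_dvd _ _).mpr h3
  push_cast at this
  rw [Units.val_one]
  linear_combination this

theorem neg_one_mem_GamH : (-1 : SL(2, ℤ)) ∈ GamH M c H := by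
  refine ⟨by simp, by simp, -1, ?_, by simp⟩
  right
  rw [neg_neg]
  exact H.one_mem

/-- The upper left entry of an element of `Γ_H` lies in `cosetSet c H 1`. -/
theorem mem_cosetSet_of_mem_GamH {γ : SL(2, ℤ)} (h : γ ∈ GamH M c H) :
    ((γ 0 0 : ℤ) : ZMod c) ∈ cosetSet c H 1 := by
  obtain ⟨-, -, d, hd, e⟩ := h
  rw [mem_cosetSet_iff]
  exact ⟨d, hd, by rw [one_mul, e]⟩

end Fermat.Agent.NEB.EIG.H98
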