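import Fermat.Agent.NEB.EIG.H98_OrdInst

/-!
# NEB / EIG, leaf EIG-MONO, part MONO1 (helper98)

`stmt_MONO1 : Stmt_MONO1 M c H n`: an unramified function `f ∈ F_H` has a character on
`Gam1 M c`, trivial on parabolic elements and on elements of finite order.

Proof (pattern of `GTor/H96_MONO.lean`, without A3/A4): `f = A / B` (A1-H), `R` a holomorphic
`n`-th root of `A B^(n-1)`, `χ` its character on `Γ_H`.  For a point `z` (a cusp `σ∞`) the order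
at `z` is an order function, so `ord(A) - ord(B) = n t (ord(A') - ord(B'))` with `A'`, `B'`
invariant under `Γ_H` (`ord_rep_eq`); the generic local lemmas
`multiplier_at_fixed_point`, `cusp_multiplier_eq_one` then give `χ = 1` on the stabilisers.
-/

set_option autoImplicit false
set_option linter.unusedSectionVars false

noncomputable section

namespace Fermat.Agent.NEB.EIG.H98

open AlgebraicCurve ModularCurve UpperHalfPlane CongruenceSubgroup Matrix.SpecialLinearGroup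
  ModularForm
open Fermat.Agent.NEB Fermat.Agent.NEB.JH Fermat.Agent.NEB.H84 Fermat.Agent.GTor
  Fermat.Agent.GTor.H96 Fermat.Agent.NEB.EIG.H39
open Fermat.Agent.S24
open Fermat.Agent.S23.H22 (Nice)
open Fermat.Agent.GTor.H56 (qLaurent_mul qLaurent_injective qLaurent_eq_zero_iff qLaurent_zero
  qLaurent_pow nice_of_gamma0)
open scoped MatrixGroups ModularForm Manifold

/-! ## Powers of forms -/

theorem isW_pow {M : ℕ} {k : ℤ} {B : ℍ → ℂ} (hB : IsW M k B) (m : ℕ) :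
    IsW M (m * k) (B ^ m) := by
  induction m with
  | zero =>
    simpa using isW_one M
  | succ m ih =>
    have := ih.mul hB
    have e : ((m + 1 : ℕ) : ℤ) * k = m * k + k := by push_cast; ring
    rw [e, pow_succ]
    exact this

theorem fun_pow_ne_zero {B : ℍ → ℂ} (hB : MDifferentiable 𝓘(ℂ) 𝓘(ℂ) B) (hB0 : B ≠ 0) (m : ℕ) :
    B ^ m ≠ 0 := by
  have h := pow_ne_zero m (hol_ne_zero hB hB0)
  intro h0
  apply h
  apply Subtype.ext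
  exact h0

theorem fun_mul_ne_zero {A B : ℍ → ℂ} (hA : MDifferentiable 𝓘(ℂ) 𝓘(ℂ) A)
    (hB : MDifferentiable 𝓘(ℂ) 𝓘(ℂ) B) (hA0 : A ≠ 0) (hB0 : B ≠ 0) : A * B ≠ 0 := by
  have h := mul_ne_zero (hol_ne_zero hA hA0) (hol_ne_zero hB hB0)
  intro h0
  apply h
  apply Subtype.ext
  exact h0

theorem exists_ne_zero_of_fun_ne_zero {A : ℍ → ℂ} (hA0 : A ≠ 0) : ∃ τ : ℍ, A τ ≠ 0 := by
  by_contra h
  apply hA0
  funext z
  by_contra hz
  exact h ⟨z, hz⟩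

/-! ## Orders of the root -/

theorem ordPt_mul {A B : ℍ → ℂ} (hA : MDifferentiable 𝓘(ℂ) 𝓘(ℂ) A)
    (hB : MDifferentiable 𝓘(ℂ) 𝓘(ℂ) B) (hA0 : A ≠ 0) (hB0 : B ≠ 0) (z : ℍ) (k₁ k₂ k₃ : ℤ) :
    ordPt z k₁ (A * B) = ordPt z k₂ A + ordPt z k₃ B := by
  rw [ordPt_eq_ordNat z _ (hA.mul hB), ordPt_eq_ordNat z _ hA, ordPt_eq_ordNat z _ hB]
  have := Hol.ordNat_mul z (hol_ne_zero hA hA0) (hol_ne_zero hB hB0)
  exact_mod_cast this

theorem ordPt_pow {B : ℍ → ℂ} (hB : MDifferentiable 𝓘(ℂ) 𝓘(ℂ) B) (hB0 : B ≠ 0) (z : ℍ)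
    (m : ℕ) (k₁ k₂ : ℤ) : ordPt z k₁ (B ^ m) = m * ordPt z k₂ B := by
  rw [ordPt_eq_ordNat z _ (hB.pow m), ordPt_eq_ordNat z _ hB]
  have := Hol.ordNat_pow z (hol_ne_zero hB hB0) m
  exact_mod_cast this

/-- The orders of a root of `A * B ^ (n - 1)`. -/
theorem ordPt_root {n : ℕ} (hn : n ≠ 0) {A B R : ℍ → ℂ} (hA : MDifferentiable 𝓘(ℂ) 𝓘(ℂ) A)
    (hB : MDifferentiable 𝓘(ℂ) 𝓘(ℂ) B) (hR : MDifferentiable 𝓘(ℂ) 𝓘(ℂ) R)
    (hA0 : A ≠ 0) (hB0 : B ≠ 0) (hRn : R ^ n = A * B ^ (n - 1)) (z : ℍ) (k : ℤ) :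
    (n : ℤ) * ordPt z k R = ordPt z k A + ((n : ℤ) - 1) * ordPt z k B := by
  have hR0 : R ≠ 0 := by
    rintro rfl
    rw [zero_pow hn] at hRn
    exact fun_mul_ne_zero hA (hB.pow _) hA0 (fun_pow_ne_zero hB hB0 _) hRn.symm
  have h1 := ordPt_pow hR hR0 z n k k
  rw [hRn, ordPt_mul hA (hB.pow _) hA0 (fun_pow_ne_zero hB hB0 _) z k k k,
    ordPt_pow hB hB0 z (n - 1) k k] at h1
  have hn1 : (((n - 1 : ℕ) : ℕ) : ℤ) = (n : ℤ) - 1 := by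
    have : 1 ≤ n := Nat.one_le_iff_ne_zero.mpr hn
    push_cast [Nat.cast_sub this]
    ring
  rw [hn1] at h1
  linarith

/-! ## The local arguments -/

section Local

variable {M c : ℕ} {H : Subgroup (ZMod c)ˣ} {n : ℕ} {k : ℤ} {A R : ℍ → ℂ}
  {B : ModularForm (Gamma0 M) k}

/-- **MONO1, elliptic points.** -/
theorem chi_eq_one_of_fixed_H [NeZero M] (hn : n ≠ 0) (hA : IsW M k A) (hA0 : A ≠ 0)
    (hB0 : B ≠ 0) (hR : MDifferentiable 𝓘(ℂ) 𝓘(ℂ) R)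
    (hRn : R ^ n = A * (B : ℍ → ℂ) ^ (n - 1))
    {χ : GamH M c H →* ℂˣ}
    (hχ : ∀ γ : GamH M c H, R ∣[k] (γ : SL(2, ℤ)) = fun z => ((χ γ : ℂˣ) : ℂ) * R z)
    {γ : GamH M c H} {z₀ : ℍ} (hfix : ((γ : SL(2, ℤ))) • z₀ = z₀)
    {t : ℤ} {k' : ℤ} {A' : ℍ → ℂ} {B' : ModularForm (Gamma0 M) k'}
    (hA' : IsW M k' A') (hA0' : A' ≠ 0) (hB0' : B' ≠ 0)
    (hinv : ∀ γ ∈ GamH M c H, A' ∣[k'] γ = A')
    (ht : ordPt z₀ k A - ordPt z₀ k (B : ℍ → ℂ)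
      = n * t * (ordPt z₀ k' A' - ordPt z₀ k' (B' : ℍ → ℂ))) : χ γ = 1 := by
  set j : ℂ := denom ((γ : SL(2, ℤ))) z₀ with hj
  have hj0 : j ≠ 0 := UpperHalfPlane.denom_ne_zero _ z₀
  have hBf0 : (B : ℍ → ℂ) ≠ 0 := fun h => hB0 (DFunLike.coe_injective h)
  have hBf0' : (B' : ℍ → ℂ) ≠ 0 := fun h => hB0' (DFunLike.coe_injective h)
  have hR0 : R ≠ 0 := by
    rintro rfl
    rw [zero_pow hn] at hRn
    exact fun_mul_ne_zero hA.mdiff ((mdiff_coe B).pow _) hA0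
      (fun_pow_ne_zero (mdiff_coe B) hBf0 _) hRn.symm
  have hγ0 : (γ : SL(2, ℤ)) ∈ Gamma0 M := GamH_le_Gamma0 γ.2
  have h1 : ((χ γ : ℂˣ) : ℂ) = j ^ (-k - 2 * ordPt z₀ k R) :=
    multiplier_at_fixed_point hR (exists_ne_zero_of_fun_ne_zero hR0) hfix (hχ γ)
  have h2 : (1 : ℂ) = j ^ (-k - 2 * ordPt z₀ k (B : ℍ → ℂ)) :=
    multiplier_at_fixed_point (mdiff_coe B) (exists_ne_zero_of_fun_ne_zero hBf0) hfix
      (by rw [slash_eq_of_mem_Gamma0 B ⟨γ, hγ0⟩]; funext z; rw [one_mul])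
  have h3 : (1 : ℂ) = j ^ (-k' - 2 * ordPt z₀ k' A') :=
    multiplier_at_fixed_point hA'.mdiff (exists_ne_zero_of_fun_ne_zero hA0') hfix
      (by rw [hinv γ γ.2]; funext z; rw [one_mul])
  have h4 : (1 : ℂ) = j ^ (-k' - 2 * ordPt z₀ k' (B' : ℍ → ℂ)) :=
    multiplier_at_fixed_point (mdiff_coe B') (exists_ne_zero_of_fun_ne_zero hBf0') hfix
      (by rw [slash_eq_of_mem_Gamma0 B' ⟨γ, hγ0⟩]; funext z; rw [one_mul])
  have h5 := ordPt_root hn hA.mdiff (mdiff_coe B) hR hA0 hBf0 hRn z₀ k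
  have hnZ : (n : ℤ) ≠ 0 := by exact_mod_cast hn
  have h6 : ordPt z₀ k R - ordPt z₀ k (B : ℍ → ℂ)
      = t * (ordPt z₀ k' A' - ordPt z₀ k' (B' : ℍ → ℂ)) := by
    have : (n : ℤ) * (ordPt z₀ k R - ordPt z₀ k (B : ℍ → ℂ))
        = (n : ℤ) * (t * (ordPt z₀ k' A' - ordPt z₀ k' (B' : ℍ → ℂ))) := by
      linear_combination h5 + ht
    exact mul_left_cancel₀ hnZ this
  -- `j ^ (-2 (ord A' - ord B')) = 1`
  have h7 : j ^ (-2 * (ordPt z₀ k' A' - ordPt z₀ k' (B' : ℍ → ℂ))) = 1 := by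
    have e : (-2 * (ordPt z₀ k' A' - ordPt z₀ k' (B' : ℍ → ℂ)))
        = (-k' - 2 * ordPt z₀ k' A') - (-k' - 2 * ordPt z₀ k' (B' : ℍ → ℂ)) := by ring
    rw [e, zpow_sub₀ hj0, ← h3, ← h4, div_one]
  have h8 : (-k - 2 * ordPt z₀ k R) = (-k - 2 * ordPt z₀ k (B : ℍ → ℂ))
      + (-2 * (ordPt z₀ k' A' - ordPt z₀ k' (B' : ℍ → ℂ))) * t := by
    linear_combination -2 * h6
  apply Units.ext
  rw [h1, h8, zpow_add₀ hj0, ← h2, one_mul, zpow_mul, h7, one_zpow, Units.val_one]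

/-- **MONO1, cusps.** -/
theorem chi_eq_one_of_conj_T_H [NeZero M] (hn : n ≠ 0) (hA : IsW M k A) (hA0 : A ≠ 0)
    (hB0 : B ≠ 0) (hR : MDifferentiable 𝓘(ℂ) 𝓘(ℂ) R)
    (hRn : R ^ n = A * (B : ℍ → ℂ) ^ (n - 1))
    {χ : GamH M c H →* ℂˣ}
    (hχ : ∀ γ : GamH M c H, R ∣[k] (γ : SL(2, ℤ)) = fun z => ((χ γ : ℂˣ) : ℂ) * R z)
    {γ : GamH M c H} {σ : SL(2, ℤ)} {j : ℤ}
    (hγ : (γ : SL(2, ℤ)) = σ * ModularGroup.T ^ j * σ⁻¹)
    {t : ℤ} {k' : ℤ} {A' : ℍ → ℂ} {B' : ModularForm (Gamma0 M) k'}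
    (hA' : IsW M k' A') (hA0' : A' ≠ 0) (hB0' : B' ≠ 0)
    (hinv : ∀ γ ∈ GamH M c H, A' ∣[k'] γ = A')
    (ht : ordCu M σ k A - ordCu M σ k (B : ℍ → ℂ)
      = n * t * (ordCu M σ k' A' - ordCu M σ k' (B' : ℍ → ℂ))) : χ γ = 1 := by
  have hM : (0 : ℝ) < (M : ℝ) := by exact_mod_cast Nat.pos_of_ne_zero (NeZero.ne M)
  have hBf0 : (B : ℍ → ℂ) ≠ 0 := fun h => hB0 (DFunLike.coe_injective h)
  have hBf0' : (B' : ℍ → ℂ) ≠ 0 := fun h => hB0' (DFunLike.coe_injective h)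
  have hγ0 : (γ : SL(2, ℤ)) ∈ Gamma0 M := GamH_le_Gamma0 γ.2
  have hGn : ∀ z : ℍ, (R ∣[k] σ) z ^ n = (A ∣[k] σ) z * ((B : ℍ → ℂ) ∣[k] σ) z ^ (n - 1) := by
    intro z
    have h1 := congrFun (pow_slash_SL'' R k n σ) z
    have h2 := congrFun (mul_pow_slash_SL A (B : ℍ → ℂ) k hn σ) z
    rw [hRn] at h1
    rw [h1] at h2
    simpa using h2
  have hGw : ∀ z : ℍ, (R ∣[k] σ) ((j : ℝ) +ᵥ z) = ((χ γ : ℂˣ) : ℂ) * (R ∣[k] σ) z :=
    fun z => slash_vadd_of_conj (R := R) (k := k) (σ := σ) (δ := (γ : SL(2, ℤ))) (j := j)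
      (c := ((χ γ : ℂˣ) : ℂ)) hγ (hχ γ) z
  have hBw : ∀ z : ℍ, ((B : ℍ → ℂ) ∣[k] σ) ((j : ℝ) +ᵥ z) = ((B : ℍ → ℂ) ∣[k] σ) z := by
    intro z
    have := slash_vadd_of_conj (R := (B : ℍ → ℂ)) (k := k) (σ := σ) (δ := (γ : SL(2, ℤ)))
      (j := j) (c := 1) hγ
      (by rw [slash_eq_of_mem_Gamma0 B ⟨γ, hγ0⟩]; funext z; rw [one_mul]) z
    rwa [one_mul] at this
  have hAw' : ∀ z : ℍ, (A' ∣[k'] σ) ((j : ℝ) +ᵥ z) = (A' ∣[k'] σ) z := by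
    intro z
    have := slash_vadd_of_conj (R := A') (k := k') (σ := σ) (δ := (γ : SL(2, ℤ)))
      (j := j) (c := 1) hγ (by rw [hinv γ γ.2]; funext z; rw [one_mul]) z
    rwa [one_mul] at this
  have hBw' : ∀ z : ℍ, ((B' : ℍ → ℂ) ∣[k'] σ) ((j : ℝ) +ᵥ z) = ((B' : ℍ → ℂ) ∣[k'] σ) z := by
    intro z
    have := slash_vadd_of_conj (R := (B' : ℍ → ℂ)) (k := k') (σ := σ) (δ := (γ : SL(2, ℤ)))
      (j := j) (c := 1) hγ
      (by rw [slash_eq_of_mem_Gamma0 B' ⟨γ, hγ0⟩]; funext z; rw [one_mul]) z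
    rwa [one_mul] at this
  have cA := isCuspRegular_slash_of_isW hA σ
  have cB := isCuspRegular_slash_of_isW (isW_of_modularForm B) σ
  have cA' := isCuspRegular_slash_of_isW hA' σ
  have cB' := isCuspRegular_slash_of_isW (isW_of_modularForm B') σ
  obtain ⟨m₁, hm₁⟩ := cA'.exists_int_of_periodic hM (H96.slash_ne_zero hA0' k' σ) hAw'
  obtain ⟨m₂, hm₂⟩ := cB'.exists_int_of_periodic hM (H96.slash_ne_zero hBf0' k' σ) hBw'
  set L : ℤ := t * (ordCu M σ k' A' - ordCu M σ k' (B' : ℍ → ℂ)) with hLdef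
  have hL : (((qExpansion (M : ℝ) (A ∣[k] σ)).order.toNat : ℕ) : ℤ)
      = (((qExpansion (M : ℝ) ((B : ℍ → ℂ) ∣[k] σ)).order.toNat : ℕ) : ℤ) + (n : ℤ) * L := by
    have : ordCu M σ k A = ordCu M σ k (B : ℍ → ℂ) + (n : ℤ) * L := by
      rw [hLdef]
      linear_combination ht
    exact this
  have hwL : ∃ m : ℤ, ((j : ℤ) : ℝ) * ((L : ℤ) : ℝ) = (M : ℝ) * (m : ℝ) := by
    refine ⟨t * (m₁ - m₂), ?_⟩
    have e1 : ((j : ℤ) : ℝ) * ((ordCu M σ k' A' : ℤ) : ℝ) = (M : ℝ) * (m₁ : ℝ) := by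
      unfold ordCu
      exact_mod_cast hm₁
    have e2 : ((j : ℤ) : ℝ) * ((ordCu M σ k' (B' : ℍ → ℂ) : ℤ) : ℝ) = (M : ℝ) * (m₂ : ℝ) := by
      unfold ordCu
      exact_mod_cast hm₂
    rw [hLdef]
    push_cast
    linear_combination (t : ℝ) * e1 - (t : ℝ) * e2
  have key := cusp_multiplier_eq_one hM (w := ((j : ℤ) : ℝ)) hn cA cB
    (H96.slash_ne_zero hA0 k σ) (H96.slash_ne_zero hBf0 k σ) (hR.slash k (σ : GL (Fin 2) ℝ))
    hGn hL hwL hGw hBw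
  exact Units.ext (by simpa using key)

end Local

/-! ## The theorem -/

/-- **MONO1.** An unramified function of `F_H` has a character on `Gam1 M c`, trivial on
parabolic elements and on elements of finite order. -/
theorem stmt_MONO1 (M c : ℕ) (H : Subgroup (ZMod c)ˣ) (n : ℕ) : Stmt_MONO1 M c H n := by
  intro hc2 hc hM hn ι f hf hunr
  have : NeZero M := ⟨hM⟩
  obtain ⟨k, A, B, hA, hB0, hinvA, hq⟩ := stmt_A1H M c H hc2 hc hM ι f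
  have hBf0 : (B : ℍ → ℂ) ≠ 0 := fun h => hB0 (DFunLike.coe_injective h)
  have rep : IsRep M (coeffMap ι (f : LaurentSeries Kbar)) k A (B : ℍ → ℂ) :=
    ⟨hA, isW_of_modularForm B, hBf0, hq⟩
  have hA0 : A ≠ 0 := rep.num_ne_zero (coeffMap_FHbar_ne_zero ι hf)
  have hk : Even k := even_weight_of_ne_zero hB0
  have hn1 : (((n - 1 : ℕ) : ℕ) : ℤ) = (n : ℤ) - 1 := by
    have : 1 ≤ n := Nat.one_le_iff_ne_zero.mpr hn
    push_cast [Nat.cast_sub this]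
    ring
  have hBmd : MDifferentiable 𝓘(ℂ) 𝓘(ℂ) (B : ℍ → ℂ) := mdiff_coe B
  -- the function `A * B ^ (n - 1)` and its root
  have hmd : MDifferentiable 𝓘(ℂ) 𝓘(ℂ) (A * (B : ℍ → ℂ) ^ (n - 1)) :=
    hA.mdiff.mul (hBmd.pow _)
  have hP0 : A * (B : ℍ → ℂ) ^ (n - 1) ≠ 0 :=
    fun_mul_ne_zero hA.mdiff (hBmd.pow _) hA0 (fun_pow_ne_zero hBmd hBf0 _)
  have hne : ∃ τ : ℍ, (A * (B : ℍ → ℂ) ^ (n - 1)) τ ≠ 0 := exists_ne_zero_of_fun_ne_zero hP0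
  have hdiv : ∀ τ : ℍ, n ∣ analyticOrderNatAt
      ((A * (B : ℍ → ℂ) ^ (n - 1)) ∘ UpperHalfPlane.ofComplex) (τ : ℂ) := by
    intro τ
    obtain ⟨t, k', A', B', -, -, -, -, e⟩ :=
      ord_rep_eq ι hc2 hc (isOrdW_ordPt M τ) n hf hunr rep
    have h1 : ordPt τ k (A * (B : ℍ → ℂ) ^ (n - 1))
        = ordPt τ k A + ((n : ℤ) - 1) * ordPt τ k (B : ℍ → ℂ) := by
      rw [ordPt_mul hA.mdiff (hBmd.pow _) hA0 (fun_pow_ne_zero hBmd hBf0 _) τ k k k,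
        ordPt_pow hBmd hBf0 τ (n - 1) k k, hn1]
    rw [← Int.natCast_dvd_natCast]
    refine ⟨t * (ordPt τ k' A' - ordPt τ k' (B' : ℍ → ℂ)) + ordPt τ k (B : ℍ → ℂ), ?_⟩
    have h2 : ((analyticOrderNatAt ((A * (B : ℍ → ℂ) ^ (n - 1)) ∘ UpperHalfPlane.ofComplex)
        (τ : ℂ) : ℕ) : ℤ) = ordPt τ k (A * (B : ℍ → ℂ) ^ (n - 1)) := rfl
    rw [h2, h1]
    linear_combination e
  obtain ⟨R, hR, hRn'⟩ :=
    Fermat.Agent.Lib.NthRoot.exists_nthRoot_of_mdifferentiable hn hmd hne hdiv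
  have hRfun : (R ^ n : ℍ → ℂ) = A * (B : ℍ → ℂ) ^ (n - 1) := by
    funext z
    simpa using hRn' z
  have hR0f : R ≠ 0 := by
    rintro rfl
    rw [zero_pow hn] at hRfun
    exact hP0 hRfun.symm
  have hR0 : ∃ τ : ℍ, R τ ≠ 0 := exists_ne_zero_of_fun_ne_zero hR0f
  -- the character on `Γ_H`
  have hinv : ∀ γ ∈ GamH M c H, (R ^ n) ∣[k * n] γ = R ^ n := by
    intro γ hγ
    rw [hRfun, mul_pow_slash_SL _ _ k hn γ,
      hinvA γ (GamH_le_Gamma0 hγ) (mem_cosetSet_of_mem_GamH hγ),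
      slash_eq_of_mem_Gamma0 B ⟨γ, GamH_le_Gamma0 hγ⟩]
  obtain ⟨χ, hχn, hχ⟩ := Fermat.Agent.Lib.NthRoot.exists_character_of_root
    (GamH M c H) hn hR hR0 hinv
  -- `χ (-1) = 1`
  have hneg : χ ⟨-1, neg_one_mem_GamH⟩ = 1 := by
    obtain ⟨τ, hτ⟩ := hR0
    have h1 := congrFun (hχ ⟨-1, neg_one_mem_GamH⟩) τ
    rw [slash_neg_one_of_even hk] at h1
    have h2 : ((χ ⟨-1, neg_one_mem_GamH⟩ : ℂˣ) : ℂ) = 1 := by
      have h3 : (((χ ⟨-1, neg_one_mem_GamH⟩ : ℂˣ) : ℂ) - 1) * R τ = 0 := by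
        linear_combination -h1
      rcases mul_eq_zero.mp h3 with h4 | h4
      · exact sub_eq_zero.mp h4
      · exact absurd h4 hτ
    exact Units.ext h2
  -- parabolic elements of `Γ_H`
  have hpar : ∀ γ : GamH M c H,
      ((γ : SL(2, ℤ)) : Matrix (Fin 2) (Fin 2) ℤ).trace ^ 2 = 4 → χ γ = 1 := by
    intro γ hγ
    obtain ⟨σ, j, hcase⟩ := trace_sq_eq_four_cases (γ : SL(2, ℤ)) hγ
    obtain ⟨t, k', A', B', hA', hA0', hB0', hinv', e⟩ :=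
      ord_rep_eq ι hc2 hc (isOrdW_ordCu M σ) n hf hunr rep
    rcases hcase with h | h
    · exact chi_eq_one_of_conj_T_H hn hA hA0 hB0 hR hRfun hχ h hA' hA0' hB0' hinv' e
    · -- `γ = -(σ T^j σ⁻¹)`
      have hmem : σ * ModularGroup.T ^ j * σ⁻¹ ∈ GamH M c H := by
        have : σ * ModularGroup.T ^ j * σ⁻¹ = (-1 : SL(2, ℤ)) * (γ : SL(2, ℤ)) := by
          rw [h]; simp
        rw [this]
        exact (GamH M c H).mul_mem neg_one_mem_GamH γ.2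
      have h2 : χ ⟨σ * ModularGroup.T ^ j * σ⁻¹, hmem⟩ = 1 :=
        chi_eq_one_of_conj_T_H hn hA hA0 hB0 hR hRfun hχ (γ := ⟨_, hmem⟩) rfl hA' hA0' hB0'
          hinv' e
      have h3 : γ = ⟨-1, neg_one_mem_GamH⟩ * ⟨σ * ModularGroup.T ^ j * σ⁻¹, hmem⟩ := by
        apply Subtype.ext
        rw [Subgroup.coe_mul, h]
        simp
      rw [h3, map_mul, hneg, h2, one_mul]
  -- elements of finite order of `Γ_H`
  have hfin : ∀ γ : GamH M c H, IsOfFinOrder (γ : SL(2, ℤ)) → χ γ = 1 := by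
    intro γ hγ
    rcases finOrder_cases (γ : SL(2, ℤ)) hγ with h | h | ⟨z₀, hz₀⟩
    · have : γ = 1 := Subtype.ext h
      rw [this, map_one]
    · have : γ = ⟨-1, neg_one_mem_GamH⟩ := Subtype.ext h
      rw [this, hneg]
    · obtain ⟨t, k', A', B', hA', hA0', hB0', hinv', e⟩ :=
        ord_rep_eq ι hc2 hc (isOrdW_ordPt M z₀) n hf hunr rep
      exact chi_eq_one_of_fixed_H hn hA hA0 hB0 hR hRfun hχ hz₀ hA' hA0' hB0' hinv' e
  -- restriction to `Gam1 M c`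
  let inc1 : Gam1 M c →* GamH M c H := Subgroup.inclusion Gam1_le_GamH
  set χ₁ : Gam1 M c →* ℂˣ := χ.comp inc1 with hχ₁
  obtain ⟨φ, hφ⟩ := exists_additive_of_character hn χ₁ (fun γ => hχn _)
  have hφ0 : ∀ γ : Gam1 M c, χ₁ γ = 1 → φ (Additive.ofMul γ) = 0 := by
    intro γ h1
    rw [← zetaPow_eq_one_iff hn, hφ, h1, Units.val_one]
  refine ⟨φ, ⟨?_, ?_⟩, k, R, B, hR, ?_, ?_, hB0, ?_⟩
  · intro γ hγ
    apply hφ0
    exact hpar (inc1 γ) hγ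
  · intro γ hγ
    apply hφ0
    have hfin' : IsOfFinOrder (γ : SL(2, ℤ)) := by
      obtain ⟨m, hm, hpow⟩ := isOfFinOrder_iff_pow_eq_one.mp hγ
      exact isOfFinOrder_iff_pow_eq_one.mpr ⟨m, hm, by
        have := congrArg (fun g : Gam1 M c => (g : SL(2, ℤ))) hpow
        simpa using this⟩
    exact hfin (inc1 γ) hfin'
  · -- boundedness at the cusps
    intro σ
    apply Fermat.Agent.Lib.NthRoot.isBoundedAtImInfty_of_pow hn
    rw [← pow_slash_SL'' R k n σ, hRfun, mul_pow_slash_SL _ _ k hn σ]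
    exact (hA.bdd σ).mul ((isCuspRegular_slash B σ).pow (n - 1)).bdd
  · -- the transformation law
    intro γ
    have h1 := hχ (inc1 γ)
    rw [show ((inc1 γ : GamH M c H) : SL(2, ℤ)) = (γ : SL(2, ℤ)) from rfl] at h1
    rw [h1, hφ γ]
    rfl
  · -- the `q`-expansion identity
    have hNA := hA.nice
    have hNB := nice_of_gamma0 B
    have e1 : (fun z => R z ^ n) = A * (fun z => B z ^ (n - 1)) := by
      funext z
      simpa using hRn' z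
    have hNBp : Nice 1 (fun z => B z ^ (n - 1)) := hNB.pow (n - 1)
    rw [e1, qLaurent_mul hNA hNBp, qLaurent_pow hNB, qLaurent_pow hNB, hq, mul_assoc,
      ← pow_succ', Nat.sub_add_cancel (Nat.one_le_iff_ne_zero.mpr hn)]

end Fermat.Agent.NEB.EIG.H98
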