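import Fermat.Agent.NEB.EIG.H98_Mono1
import Fermat.Agent.NEB.EIG.H34_Char1
import Fermat.Agent.NEB.EIG.H12_Kum1
import Fermat.Agent.NEB.EIG.H12_Diam1
import Fermat.Agent.NEB.H14_JHRules
import Fermat.Agent.NEB.H29_Inv
import Fermat.Agent.NEB.H94_FF

/-!
# NEB / EIG, leaf EIG-MONO, assembly (helper98)

`stmt_MonoH_of : (∀ k, Stmt_INJ1 M c H (p ^ k)) → (∀ k, Stmt_HK1 M c H (p ^ k)) →
  Stmt_MonoH M c H p ι`
from the landed leaves A1-H, MONO1 (helper98), CHAR1, KCOMP1 (helper34), KUM1, DIAM1 (helper12).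
-/

set_option autoImplicit false
set_option linter.unusedSectionVars false

noncomputable section

namespace Fermat.Agent.NEB.EIG.H98

open AlgebraicCurve ModularCurve UpperHalfPlane CongruenceSubgroup Matrix.SpecialLinearGroup
open Fermat.Agent.NEB Fermat.Agent.NEB.JH Fermat.Agent.NEB.H84 Fermat.Agent.GTor
  Fermat.Agent.NEB.EIG.H39
open scoped MatrixGroups ModularForm Manifold

variable {M c : ℕ} {H : Subgroup (ZMod c)ˣ} {n : ℕ} (ι : Kbar →+* ℂ)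

/-! ## `TorChar1`: existence, uniqueness, additivity -/

theorem isFF_FHbar' (hc2 : 2 ≤ c) (hc : c ∣ M) (hM : M ≠ 0) : Fermat.Agent.RED.IsFF Kbar ↥(FHbar M c H) :=
  haveI : NeZero M := ⟨hM⟩
  Fermat.Agent.NEB.H94.isFF_FHbar M c H hc2 hc (stmt_FH_gal M c H)

theorem constHyp_FHbar (hc2 : 2 ≤ c) (hc : c ∣ M) (hM : M ≠ 0) :
    Fermat.Agent.NEB.H29.ConstHyp Kbar ↥(FHbar M c H) :=
  Fermat.Agent.NEB.H29.constHyp_of_isFF (isFF_FHbar' hc2 hc hM)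

theorem exists_torChar1 (hc2 : 2 ≤ c) (hc : c ∣ M) (hM : M ≠ 0) (hn : n ≠ 0)
    (x : JH M c H) (hx : (n : ℤ) • x = 0) :
    ∃ φ ∈ homPE (Gam1 M c) (ZMod n), TorChar1 M c H n ι x φ := by
  obtain ⟨D, f, hf, rfl, hD⟩ := (Fermat.Agent.NEB.EIG.H12.stmt_KUM1 M c H n hc2 hc hM hn).1 x hx
  obtain ⟨φ, hφ, hchar⟩ := stmt_MONO1 M c H n hc2 hc hM hn ι f hf
    (fun v => ⟨(D : Divisor Kbar ↥(FHbar M c H)) v, (hD v).symm⟩)
  exact ⟨φ, hφ, D, f, hf, rfl, hD, hchar⟩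

theorem torChar1_unique (hc2 : 2 ≤ c) (hc : c ∣ M) (hM : M ≠ 0) (hn : n ≠ 0)
    {x : JH M c H} {φ ψ : Additive (Gam1 M c) →+ ZMod n}
    (h₁ : TorChar1 M c H n ι x φ) (h₂ : TorChar1 M c H n ι x ψ) : φ = ψ := by
  obtain ⟨D, f, hf, hx, hD, hchar⟩ := h₁
  obtain ⟨D', f', hf', hx', hD', hchar'⟩ := h₂
  have : NeZero M := ⟨hM⟩
  obtain ⟨huniq, hmul, hpow⟩ :=
    Fermat.Agent.NEB.EIG.H34.stmt_CHAR1_of (n := n) (stmt_A1H M c H) hc2 hc hM hn ι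
  have h0 : Pic0.mk (D - D') = 0 := by
    have : Pic0.mk (D - D') = Pic0.mk D - Pic0.mk D' := rfl
    rw [this, ← hx, ← hx', sub_self]
  obtain ⟨g, hg, hgv⟩ := (Fermat.Agent.GTor.H33.mk_eq_zero_iff _).mp h0
  have hgv' : ∀ v : Place Kbar ↥(FHbar M c H),
      (D : Divisor Kbar ↥(FHbar M c H)) v - (D' : Divisor Kbar ↥(FHbar M c H)) v = v.ord g := by
    intro v
    rw [← hgv v]
    rfl
  -- `u = f / (f' g^n)` is a constant
  set u : ↥(FHbar M c H) := f * (f' * g ^ n)⁻¹ with hu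
  have hfg : f' * g ^ n ≠ 0 := mul_ne_zero hf' (pow_ne_zero _ hg)
  have hu0 : u ≠ 0 := mul_ne_zero hf (inv_ne_zero hfg)
  have hord : ∀ v : Place Kbar ↥(FHbar M c H), v.ord u = 0 := by
    intro v
    rw [hu, v.ord_mul hf (inv_ne_zero hfg), v.ord_inv, v.ord_mul hf' (pow_ne_zero _ hg),
      ← zpow_natCast, v.ord_zpow, ← hD v, ← hD' v, ← hgv' v]
    ring
  obtain ⟨a, ha⟩ := constHyp_FHbar hc2 hc hM u hu0 hord
  obtain ⟨b, hb⟩ := IsAlgClosed.exists_pow_nat_eq a (Nat.pos_of_ne_zero hn)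
  have hb0 : b ≠ 0 := by
    rintro rfl
    rw [zero_pow hn] at hb
    rw [← hb, map_zero] at ha
    exact hu0 ha.symm
  set h : ↥(FHbar M c H) := g * algebraMap Kbar _ b with hh
  have hh0 : h ≠ 0 := mul_ne_zero hg ((map_ne_zero _).mpr hb0)
  have hf_eq : f = f' * h ^ n := by
    have h1 : f = u * (f' * g ^ n) := by
      rw [hu, mul_assoc, inv_mul_cancel₀ hfg, mul_one]
    rw [h1, ← ha, ← hb, map_pow, hh, mul_pow]
    ring
  have h3 := hmul f' (h ^ n) ψ 0 hf' (pow_ne_zero _ hh0) hchar' (hpow h hh0)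
  rw [← hf_eq, add_zero] at h3
  exact huniq f φ ψ hf hchar h3

theorem torChar1_add (hc2 : 2 ≤ c) (hc : c ∣ M) (hM : M ≠ 0) (hn : n ≠ 0)
    {x y : JH M c H} {φ ψ : Additive (Gam1 M c) →+ ZMod n}
    (h₁ : TorChar1 M c H n ι x φ) (h₂ : TorChar1 M c H n ι y ψ) :
    TorChar1 M c H n ι (x + y) (φ + ψ) := by
  obtain ⟨D, f, hf, hx, hD, hchar⟩ := h₁
  obtain ⟨D', f', hf', hy, hD', hchar'⟩ := h₂
  have : NeZero M := ⟨hM⟩
  obtain ⟨-, hmul, -⟩ :=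
    Fermat.Agent.NEB.EIG.H34.stmt_CHAR1_of (n := n) (stmt_A1H M c H) hc2 hc hM hn ι
  refine ⟨D + D', f * f', mul_ne_zero hf hf', by rw [hx, hy]; rfl, fun v => ?_,
    hmul f f' φ ψ hf hf' hchar hchar'⟩
  rw [v.ord_mul hf hf', ← hD v, ← hD' v]
  show (n : ℤ) * ((D : Divisor Kbar ↥(FHbar M c H)) + (D' : Divisor Kbar ↥(FHbar M c H))) v = _
  rw [Finsupp.add_apply]
  ring

/-! ## The homomorphism -/

/-- The character of a torsion class. -/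
def monoFun (hc2 : 2 ≤ c) (hc : c ∣ M) (hM : M ≠ 0) (hn : n ≠ 0)
    (x : Pic0.torsion Kbar ↥(FHbar M c H) n) : Additive (Gam1 M c) →+ ZMod n :=
  Classical.choose (exists_torChar1 ι hc2 hc hM hn (x : JH M c H) (Pic0.mem_torsion.mp x.2))

theorem monoFun_spec (hc2 : 2 ≤ c) (hc : c ∣ M) (hM : M ≠ 0) (hn : n ≠ 0)
    (x : Pic0.torsion Kbar ↥(FHbar M c H) n) :
    monoFun ι hc2 hc hM hn x ∈ homPE (Gam1 M c) (ZMod n) ∧
      TorChar1 M c H n ι (x : JH M c H) (monoFun ι hc2 hc hM hn x) :=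
  Classical.choose_spec
    (exists_torChar1 ι hc2 hc hM hn (x : JH M c H) (Pic0.mem_torsion.mp x.2))

theorem monoFun_eq (hc2 : 2 ≤ c) (hc : c ∣ M) (hM : M ≠ 0) (hn : n ≠ 0)
    (x : Pic0.torsion Kbar ↥(FHbar M c H) n) {φ : Additive (Gam1 M c) →+ ZMod n}
    (h : TorChar1 M c H n ι (x : JH M c H) φ) : monoFun ι hc2 hc hM hn x = φ :=
  torChar1_unique ι hc2 hc hM hn (monoFun_spec ι hc2 hc hM hn x).2 h

/-- The homomorphism `J_H[n] → Hom(Gam1 M c, ℤ/n)`. -/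
def monoHom (hc2 : 2 ≤ c) (hc : c ∣ M) (hM : M ≠ 0) (hn : n ≠ 0) :
    Pic0.torsion Kbar ↥(FHbar M c H) n →+ (Additive (Gam1 M c) →+ ZMod n) :=
  AddMonoidHom.mk' (monoFun ι hc2 hc hM hn) (fun x y =>
    monoFun_eq ι hc2 hc hM hn (x + y)
      (torChar1_add ι hc2 hc hM hn (monoFun_spec ι hc2 hc hM hn x).2
        (monoFun_spec ι hc2 hc hM hn y).2))

theorem monoHom_apply (hc2 : 2 ≤ c) (hc : c ∣ M) (hM : M ≠ 0) (hn : n ≠ 0)
    (x : Pic0.torsion Kbar ↥(FHbar M c H) n) :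
    monoHom ι hc2 hc hM hn x = monoFun ι hc2 hc hM hn x := rfl

/-! ## The assembly -/

/-- **EIG-MONO** from INJ1 and HK1. -/
theorem stmt_MonoH_of (hc2 : 2 ≤ c) (hc : c ∣ M) (hM : M ≠ 0) {p : ℕ} (hp : p ≠ 0)
    (hINJ : ∀ k : ℕ, Stmt_INJ1 M c H (p ^ k)) (hHK : ∀ k : ℕ, Stmt_HK1 M c H (p ^ k)) :
    Stmt_MonoH M c H p ι := by
  have hpk : ∀ k : ℕ, p ^ k ≠ 0 := fun k => pow_ne_zero k hp
  have hFF := isFF_FHbar' (H := H) hc2 hc hM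
  have : NeZero M := ⟨hM⟩
  refine ⟨fun k => monoHom ι hc2 hc hM (hpk k), ?_, ?_, ?_, ?_, ?_, ?_⟩
  · intro k x
    exact (monoFun_spec ι hc2 hc hM (hpk k) x).2
  · -- the kernel
    intro k x hx
    have h1 := (monoFun_spec ι hc2 hc hM (hpk k) x).2
    rw [← monoHom_apply, hx] at h1
    obtain ⟨D, f, hf, hxD, hD, hchar⟩ := h1
    obtain ⟨h, hh⟩ := hINJ k hc2 hc hM (hpk k) ι f hf hchar
    have h2 := (Fermat.Agent.NEB.EIG.H12.stmt_KUM1 M c H (p ^ k) hc2 hc hM (hpk k)).2 D f h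
      (Nat.card H) hf hD hh
    rw [hxD]
    have h3 : ((Nat.card H : ℕ) : ℤ) • (Pic0.mk D : JH M c H) = Nat.card H • Pic0.mk D :=
      natCast_zsmul _ _
    rw [← h3]
    exact h2
  · intro k x
    exact (monoFun_spec ι hc2 hc hM (hpk k) x).1
  · -- Hecke
    intro hc' ℓ hℓ hℓM hβ k x y hy
    have : NeZero ℓ := ⟨hℓ.ne_zero⟩
    have hFF' : Fermat.Agent.RED.IsFF Kbar ↥(FHbar (M * ℓ) c H) :=
      isFF_FHbar' hc2 (Dvd.dvd.mul_right hc ℓ) (mul_ne_zero hM hℓ.ne_zero)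
    obtain ⟨D, f, hf, hxD, hD, hchar⟩ := (monoFun_spec ι hc2 hc hM (hpk k) x).2
    obtain ⟨E, hE, hT0, hEv⟩ := TH_kummer hFF hFF' hβ ((p ^ k : ℕ) : ℤ) D hf hD
    have hch := hHK k hc2 hc' hM (hpk k) ι ℓ hℓ hℓM hβ f _ hf hchar
    apply monoFun_eq ι hc2 hc hM (hpk k) y
    exact ⟨E, THfn hβ f, hT0, by rw [hy, hxD, hE], hEv, hch⟩
  · -- diamonds
    intro hc' dd d g hg hgd k x y hy
    obtain ⟨D, f, hf, hxD, hD, hchar⟩ := (monoFun_spec ι hc2 hc hM (hpk k) x).2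
    obtain ⟨E, hE, hT0, hEv⟩ := diamond_kummer dd d ((p ^ k : ℕ) : ℤ) D hf hD
    have hch := Fermat.Agent.NEB.EIG.H12.stmt_DIAM1 M c H (p ^ k) hc2 hc' hM (hpk k) ι dd d g hg
      hgd f _ hf hchar
    apply monoFun_eq ι hc2 hc hM (hpk k) y
    exact ⟨E, dd.ρ d f, hT0, by rw [hy, hxD, diamond_apply, hE], hEv, hch⟩
  · -- compatibility in `k`
    intro k x y hy
    obtain ⟨D, f, hf, hxD, hD, hchar⟩ := (monoFun_spec ι hc2 hc hM (hpk (k + 1)) x).2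
    have hch := Fermat.Agent.NEB.EIG.H34.stmt_KCOMP1 M c H p hp ι k f _ hf hchar
    apply monoFun_eq ι hc2 hc hM (hpk k) y
    refine ⟨p • D, f, hf, by rw [hy, hxD]; rfl, fun v => ?_, hch⟩
    rw [← hD v]
    show ((p ^ k : ℕ) : ℤ) * (p • (D : Divisor Kbar ↥(FHbar M c H))) v = _
    rw [Finsupp.smul_apply]
    push_cast
    rw [nsmul_eq_mul]
    ring

end Fermat.Agent.NEB.EIG.H98
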