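import Fermat.Agent.NEB.EIG.H98_OrdRep
import Fermat.Agent.GTor.H96_MONO
import Fermat.Agent.S24.An.Hol

/-!
# NEB / EIG, leaf EIG-MONO (helper98): the two order functions

* `ordPt z` : order of vanishing at a point `z` of the upper half plane;
* `ordCu M σ` : order of the `q_M`-expansion of `A ∣[k] σ` (the cusp `σ ∞`).
-/

set_option autoImplicit false
set_option linter.unusedSectionVars false

noncomputable section

namespace Fermat.Agent.NEB.EIG.H98

open UpperHalfPlane CongruenceSubgroup Matrix.SpecialLinearGroup ModularForm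
open Fermat.Agent.NEB Fermat.Agent.NEB.H84 Fermat.Agent.GTor Fermat.Agent.GTor.H96
open Fermat.Agent.S24
open Fermat.Agent.S23.H22 (Nice)
open scoped MatrixGroups ModularForm Manifold

/-! ## Points -/

/-- The order of vanishing at `z`. -/
def ordPt (z : ℍ) (_k : ℤ) (A : ℍ → ℂ) : ℤ :=
  (analyticOrderNatAt (A ∘ UpperHalfPlane.ofComplex) (z : ℂ) : ℤ)

theorem ordPt_eq_ordNat (z : ℍ) (k : ℤ) {A : ℍ → ℂ} (hA : MDifferentiable 𝓘(ℂ) 𝓘(ℂ) A) :
    ordPt z k A = (Hol.ordNat z (⟨A, hA⟩ : Hol) : ℤ) := rfl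

theorem hol_ne_zero {A : ℍ → ℂ} (hA : MDifferentiable 𝓘(ℂ) 𝓘(ℂ) A) (h0 : A ≠ 0) :
    (⟨A, hA⟩ : Hol) ≠ 0 := fun h => h0 (congrArg Subtype.val h)

theorem isOrdW_ordPt (M : ℕ) (z : ℍ) : IsOrdW M (ordPt z) where
  mul := by
    intro k₁ k₂ A₁ A₂ h₁ h₂ n₁ n₂
    rw [ordPt_eq_ordNat z _ (h₁.mdiff.mul h₂.mdiff), ordPt_eq_ordNat z _ h₁.mdiff,
      ordPt_eq_ordNat z _ h₂.mdiff]
    have := Hol.ordNat_mul z (hol_ne_zero h₁.mdiff n₁) (hol_ne_zero h₂.mdiff n₂)
    exact_mod_cast this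
  add := by
    intro k A₁ A₂ h₁ h₂ n₁ n₂ n₃
    rw [ordPt_eq_ordNat z _ (h₁.mdiff.add h₂.mdiff), ordPt_eq_ordNat z _ h₁.mdiff,
      ordPt_eq_ordNat z _ h₂.mdiff]
    have := Hol.ordNat_add_ge z (hol_ne_zero h₁.mdiff n₁) (hol_ne_zero h₂.mdiff n₂)
      (f := ⟨A₁, h₁.mdiff⟩) (g := ⟨A₂, h₂.mdiff⟩) (fun h => n₃ (congrArg Subtype.val h))
    exact_mod_cast this
  const := by
    intro a ha
    have hmd : MDifferentiable 𝓘(ℂ) 𝓘(ℂ) (fun _ : ℍ => a) := mdifferentiable_const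
    rw [ordPt_eq_ordNat z _ hmd]
    have hne : (⟨fun _ => a, hmd⟩ : Hol) ≠ 0 := by
      intro h
      have := congrFun (congrArg Subtype.val h) z
      exact ha this
    have := (Hol.ordNat_eq_zero_iff z hne).mpr ha
    exact_mod_cast this

/-! ## Cusps -/

theorem conj_T_pow_mem_Gamma1 (M : ℕ) (σ : SL(2, ℤ)) :
    σ * ModularGroup.T ^ M * σ⁻¹ ∈ Gamma1 M := by
  have h1 : ModularGroup.T ^ M ∈ CongruenceSubgroup.Gamma M := by
    have := CongruenceSubgroup.ModularGroup_T_pow_mem_Gamma M M (dvd_refl _)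
    exact_mod_cast this
  have h2 : σ * ModularGroup.T ^ M * σ⁻¹ ∈ CongruenceSubgroup.Gamma M :=
    (CongruenceSubgroup.Gamma_normal M).conj_mem _ h1 σ
  rw [CongruenceSubgroup.Gamma_mem] at h2
  rw [Gamma1_mem]
  exact ⟨h2.1, h2.2.2.2, h2.2.2.1⟩

/-- The slash of a form on `Γ₁(M)` by an element of `SL(2, ℤ)` is cusp-regular for the period
`M`. -/
theorem isCuspRegular_slash_of_isW {M : ℕ} {k : ℤ} {A : ℍ → ℂ} (hA : IsW M k A) (σ : SL(2, ℤ)) :
    IsCuspRegular (M : ℝ) (A ∣[k] σ) where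
  per := by
    refine periodic_of_vadd fun z => ?_
    have hmem := conj_T_pow_mem_Gamma1 M σ
    have h1 := slash_vadd_of_conj (R := A) (k := k) (σ := σ)
      (δ := σ * ModularGroup.T ^ M * σ⁻¹) (j := (M : ℤ)) (c := 1) (by rw [zpow_natCast])
      (by
        have := hA.slash _ hmem
        simp only [one_mul]
        exact this) z
    rw [one_mul] at h1
    exact_mod_cast h1
  hol := by
    have := hA.mdiff.slash k (σ : GL (Fin 2) ℝ)
    exact this
  bdd := hA.bdd σ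

theorem nice_of_isCuspRegular {h : ℝ} {X : ℍ → ℂ} (hX : IsCuspRegular h X) : Nice h X :=
  ⟨hX.per, hX.hol, hX.bdd⟩

/-- The order of the `q_M`-expansion at the cusp `σ ∞`. -/
def ordCu (M : ℕ) (σ : SL(2, ℤ)) (k : ℤ) (A : ℍ → ℂ) : ℤ :=
  (((qExpansion (M : ℝ) (A ∣[k] σ)).order.toNat : ℕ) : ℤ)

theorem isOrdW_ordCu (M : ℕ) [NeZero M] (σ : SL(2, ℤ)) : IsOrdW M (ordCu M σ) where
  mul := by
    intro k₁ k₂ A₁ A₂ h₁ h₂ n₁ n₂
    have hM : (0 : ℝ) < (M : ℝ) := by exact_mod_cast Nat.pos_of_ne_zero (NeZero.ne M)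
    unfold ordCu
    rw [ModularForm.mul_slash_SL2,
      IsCuspRegular.order_toNat_qExpansion_mul hM (isCuspRegular_slash_of_isW h₁ σ)
        (isCuspRegular_slash_of_isW h₂ σ) (H96.slash_ne_zero n₁ k₁ σ) (H96.slash_ne_zero n₂ k₂ σ)]
    push_cast
    ring
  add := by
    intro k A₁ A₂ h₁ h₂ n₁ n₂ n₃
    have hM : (0 : ℝ) < (M : ℝ) := by exact_mod_cast Nat.pos_of_ne_zero (NeZero.ne M)
    unfold ordCu
    have c₁ := isCuspRegular_slash_of_isW h₁ σ
    have c₂ := isCuspRegular_slash_of_isW h₂ σ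
    have c₃ := isCuspRegular_slash_of_isW (h₁.add h₂) σ
    have e : (A₁ + A₂) ∣[k] σ = A₁ ∣[k] σ + A₂ ∣[k] σ := SlashAction.add_slash k σ A₁ A₂
    have q1 := c₁.qExpansion_ne_zero hM (H96.slash_ne_zero n₁ k σ)
    have q2 := c₂.qExpansion_ne_zero hM (H96.slash_ne_zero n₂ k σ)
    have q3 := c₃.qExpansion_ne_zero hM (H96.slash_ne_zero n₃ k σ)
    have hadd : qExpansion (M : ℝ) ((A₁ + A₂) ∣[k] σ)
        = qExpansion (M : ℝ) (A₁ ∣[k] σ) + qExpansion (M : ℝ) (A₂ ∣[k] σ) := by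
      rw [e]
      exact Nice.qExpansion_add hM (nice_of_isCuspRegular c₁) (nice_of_isCuspRegular c₂)
    have hmin := PowerSeries.min_order_le_order_add (qExpansion (M : ℝ) (A₁ ∣[k] σ))
      (qExpansion (M : ℝ) (A₂ ∣[k] σ))
    rw [← hadd, ← PowerSeries.coe_toNat_order q1, ← PowerSeries.coe_toNat_order q2,
      ← PowerSeries.coe_toNat_order q3] at hmin
    rcases min_le_iff.mp hmin with h5 | h5
    · exact min_le_iff.mpr (Or.inl (by exact_mod_cast h5))
    · exact min_le_iff.mpr (Or.inr (by exact_mod_cast h5))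
  const := by
    intro a ha
    have hM : (0 : ℝ) < (M : ℝ) := by exact_mod_cast Nat.pos_of_ne_zero (NeZero.ne M)
    unfold ordCu
    rw [const_slash_zero]
    have h2 : (fun _ : ℍ => a) = a • (1 : ℍ → ℂ) := by
      funext z
      simp
    rw [h2, (Nice.one (M : ℝ)).qExpansion_smul hM, UpperHalfPlane.qExpansion_one]
    have h3 : (a • (1 : PowerSeries ℂ)) = PowerSeries.C a := by
      ext n
      simp [PowerSeries.coeff_C, PowerSeries.coeff_one]
    rw [h3]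
    have : (PowerSeries.C a : PowerSeries ℂ).order = ((0 : ℕ) : ℕ∞) := by
      rw [PowerSeries.order_eq_nat]
      constructor
      · simpa using ha
      · intro i hi
        omega
    rw [this]
    simp

end Fermat.Agent.NEB.EIG.H98
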