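import Mathlib
import Fermat.Prelude.Def_AlgebraicCurve_DivisorClassGroup

/-!
# NEB / EIG, leaf EIG-MONO (helper98): integer valued valuations of a function field

`exists_mul_of_dvd_ord`: let `ν : F → ℤ` be additive on products of nonzero elements, with
`min (ν g) (ν h) ≤ ν (g + h)`, and trivial on the constants `K`.  If all orders of `f ≠ 0` at the
places of `F / K` are divisible by `n`, then `ν f = n * t * ν g` for some `g ≠ 0`, `t : ℤ`.
(`ν` is either trivial or `e` times the order at a place; same proof as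
`Fermat.Agent.GTor.H56.dvd_ord_map`, which is the case `ν = ord_w ∘ φ`.)
-/

set_option autoImplicit false

noncomputable section

namespace Fermat.Agent.NEB.EIG.H98

open AlgebraicCurve

section OrdVal

variable {K F : Type*} [Field K] [Field F] [Algebra K F]

/-- The data of an integer valued "order function" on the nonzero elements of a field. -/
structure IsOrdFun (K : Type*) {F : Type*} [Field K] [Field F] [Algebra K F] (ν : F → ℤ) :
    Prop where
  mul : ∀ g h : F, g ≠ 0 → h ≠ 0 → ν (g * h) = ν g + ν h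
  add : ∀ g h : F, g ≠ 0 → h ≠ 0 → g + h ≠ 0 → min (ν g) (ν h) ≤ ν (g + h)
  const : ∀ c : K, c ≠ 0 → ν (algebraMap K F c) = 0

namespace IsOrdFun

variable {ν : F → ℤ} (hν : IsOrdFun K ν)

include hν

theorem one : ν 1 = 0 := by
  have := hν.mul 1 1 one_ne_zero one_ne_zero
  rw [mul_one] at this
  omega

theorem neg_one : ν (-1) = 0 := by
  have := hν.mul (-1) (-1) (neg_ne_zero.mpr one_ne_zero) (neg_ne_zero.mpr one_ne_zero)
  rw [neg_mul_neg, mul_one, hν.one] at this
  omega

theorem neg (g : F) (hg : g ≠ 0) : ν (-g) = ν g := by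
  have := hν.mul (-1) g (neg_ne_zero.mpr one_ne_zero) hg
  rw [neg_one_mul, hν.neg_one, zero_add] at this
  exact this

theorem inv (g : F) (hg : g ≠ 0) : ν g⁻¹ = -ν g := by
  have := hν.mul g g⁻¹ hg (inv_ne_zero hg)
  rw [mul_inv_cancel₀ hg, hν.one] at this
  omega

theorem pow (g : F) (hg : g ≠ 0) (m : ℕ) : ν (g ^ m) = m * ν g := by
  induction m with
  | zero => simp [hν.one]
  | succ m ih =>
    rw [pow_succ, hν.mul _ _ (pow_ne_zero _ hg) hg, ih]
    push_cast
    ring

theorem zpow (g : F) (hg : g ≠ 0) (z : ℤ) : ν (g ^ z) = z * ν g := by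
  rcases Int.eq_nat_or_neg z with ⟨m, rfl | rfl⟩
  · rw [zpow_natCast, hν.pow g hg]
  · rw [zpow_neg, zpow_natCast, hν.inv _ (pow_ne_zero _ hg), hν.pow g hg]
    ring

/-- The valuation ring of an order function. -/
def valSubring : ValuationSubring F where
  carrier := {g | g = 0 ∨ 0 ≤ ν g}
  mul_mem' := by
    rintro a b (rfl | ha) (rfl | hb)
    · left; simp
    · left; simp
    · left; simp
    · by_cases ha0 : a = 0
      · left; simp [ha0]
      by_cases hb0 : b = 0
      · left; simp [hb0]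
      right
      rw [hν.mul a b ha0 hb0]
      omega
  one_mem' := Or.inr (by rw [hν.one])
  add_mem' := by
    rintro a b ha hb
    by_cases ha0 : a = 0
    · rw [ha0, zero_add]; exact hb
    by_cases hb0 : b = 0
    · rw [hb0, add_zero]; exact ha
    by_cases hab : a + b = 0
    · left; exact hab
    right
    have h1 := ha.resolve_left ha0
    have h2 := hb.resolve_left hb0
    have := hν.add a b ha0 hb0 hab
    exact le_trans (le_min h1 h2) this
  zero_mem' := Or.inl rfl
  neg_mem' := by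
    rintro a (rfl | ha)
    · left; simp
    · by_cases ha0 : a = 0
      · left; simp [ha0]
      right
      rw [hν.neg a ha0]
      exact ha
  mem_or_inv_mem' := by
    intro a
    by_cases ha0 : a = 0
    · left; left; exact ha0
    by_cases h : 0 ≤ ν a
    · left; right; exact h
    · right; right
      rw [hν.inv a ha0]
      omega

theorem mem_valSubring_iff {g : F} (hg : g ≠ 0) : g ∈ hν.valSubring ↔ 0 ≤ ν g :=
  ⟨fun h => h.resolve_left hg, fun h => Or.inr h⟩

end IsOrdFun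

/-- **Integer valued valuations of a function field.** -/
theorem exists_mul_of_dvd_ord {ν : F → ℤ} (hν : IsOrdFun K ν) (n : ℕ) (f : F) (hf : f ≠ 0)
    (h : ∀ v : Place K F, (n : ℤ) ∣ v.ord f) :
    ∃ (g : F) (t : ℤ), g ≠ 0 ∧ ν f = n * t * ν g := by
  classical
  set V : ValuationSubring F := hν.valSubring with hV
  have hν_mul : ∀ {g h : F}, g ≠ 0 → h ≠ 0 → ν (g * h) = ν g + ν h := fun hg hh =>
    hν.mul _ _ hg hh
  have hν_inv : ∀ g : F, g ≠ 0 → ν g⁻¹ = - ν g := fun g hg => hν.inv g hg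
  have hν_zpow : ∀ (g : F), g ≠ 0 → ∀ z : ℤ, ν (g ^ z) = z * ν g := fun g hg z => hν.zpow g hg z
  have hV_iff : ∀ {g : F}, g ≠ 0 → (g ∈ V ↔ 0 ≤ ν g) := fun hg => hν.mem_valSubring_iff hg
  by_cases htop : V = ⊤
  · have h1 : 0 ≤ ν f := (hV_iff hf).mp (htop ▸ ValuationSubring.mem_top f)
    have h2 : 0 ≤ ν f⁻¹ := (hV_iff (inv_ne_zero hf)).mp (htop ▸ ValuationSubring.mem_top _)
    rw [hν_inv f hf] at h2
    have : ν f = 0 := by omega
    exact ⟨1, 0, one_ne_zero, by rw [this]; simp⟩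
  -- a positive value exists
  have hex : ∃ m : ℕ, 0 < m ∧ ∃ g : F, g ≠ 0 ∧ ν g = (m : ℤ) := by
    obtain ⟨g, hg⟩ : ∃ g : F, g ∉ V := by
      by_contra hcon
      apply htop
      refine SetLike.ext fun x => ⟨fun _ => ValuationSubring.mem_top x, fun _ => ?_⟩
      by_contra hx
      exact hcon ⟨x, hx⟩
    have hg0 : g ≠ 0 := fun h0 => hg (h0 ▸ V.zero_mem)
    have hlt : ν g < 0 := by
      by_contra hcon
      exact hg ((hV_iff hg0).mpr (not_lt.mp hcon))
    refine ⟨(- ν g).toNat, by omega, g⁻¹, inv_ne_zero hg0, ?_⟩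
    rw [hν_inv g hg0]
    omega
  obtain ⟨e, ⟨he0, π₀, hπ₀, hπν⟩, hmin⟩ : ∃ e : ℕ, (0 < e ∧ ∃ g : F, g ≠ 0 ∧ ν g = (e : ℤ)) ∧
      ∀ m : ℕ, m < e → ¬ (0 < m ∧ ∃ g : F, g ≠ 0 ∧ ν g = (m : ℤ)) :=
    ⟨Nat.find hex, Nat.find_spec hex, fun m hm => Nat.find_min hex hm⟩
  -- Claim A
  have hA : ∀ {g : F}, g ≠ 0 → (e : ℤ) ∣ ν g := by
    intro g hg
    have hr0 : 0 ≤ ν g % (e : ℤ) := Int.emod_nonneg _ (by omega)
    have hr1 : ν g % (e : ℤ) < e := Int.emod_lt_of_pos _ (by omega)
    have hg' : g * π₀ ^ (- (ν g / (e : ℤ))) ≠ 0 := mul_ne_zero hg (zpow_ne_zero _ hπ₀)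
    have hval : ν (g * π₀ ^ (- (ν g / (e : ℤ)))) = ν g % (e : ℤ) := by
      rw [hν_mul hg (zpow_ne_zero _ hπ₀), hν_zpow _ hπ₀, hπν, Int.emod_def]
      ring
    by_contra hnd
    have hrpos : 0 < ν g % (e : ℤ) := by
      rcases hr0.lt_or_eq with h | h
      · exact h
      · exact absurd (Int.dvd_of_emod_eq_zero h.symm) hnd
    refine hmin (ν g % (e : ℤ)).toNat (by omega) ⟨by omega, _, hg', ?_⟩
    rw [hval]
    omega
  have hπV : π₀ ∈ V := (hV_iff hπ₀).mpr (by rw [hπν]; omega)
  -- units of V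
  have hunit : ∀ x : V, (x : F) ≠ 0 → ν (x : F) = 0 → IsUnit x := by
    intro x hx0 hx
    have hxinv : (x : F)⁻¹ ∈ V :=
      (hV_iff (inv_ne_zero hx0)).mpr (by rw [hν_inv _ hx0, hx, neg_zero])
    refine isUnit_iff_exists_inv.mpr ⟨⟨_, hxinv⟩, Subtype.ext ?_⟩
    simp [mul_inv_cancel₀ hx0]
  have hunit' : ∀ x : V, IsUnit x → ν (x : F) = 0 := by
    intro x hx
    obtain ⟨y, hy⟩ := isUnit_iff_exists_inv.mp hx
    have hy' : (x : F) * (y : F) = 1 := by
      have := congrArg Subtype.val hy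
      simpa using this
    have hx0 : (x : F) ≠ 0 := left_ne_zero_of_mul_eq_one hy'
    have hy0 : (y : F) ≠ 0 := right_ne_zero_of_mul_eq_one hy'
    have h1 := (hV_iff hx0).mp x.2
    have h2 := (hV_iff hy0).mp y.2
    have h3 : ν ((x : F) * (y : F)) = 0 := by
      rw [hy']
      exact hν.one
    rw [hν_mul hx0 hy0] at h3
    omega
  set p : V := ⟨π₀, hπV⟩ with hp
  have hp0 : p ≠ 0 := fun h0 => hπ₀ (congrArg Subtype.val h0)
  have hpirr : Irreducible p := by
    refine ⟨fun hu => ?_, fun a b hab => ?_⟩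
    · have := hunit' p hu
      rw [show ((p : V) : F) = π₀ from rfl, hπν] at this
      omega
    · have hab' : π₀ = (a : F) * (b : F) := congrArg Subtype.val hab
      have ha0 : (a : F) ≠ 0 := fun h0 => hπ₀ (by rw [hab', h0, zero_mul])
      have hb0 : (b : F) ≠ 0 := fun h0 => hπ₀ (by rw [hab', h0, mul_zero])
      have hsum : ν (a : F) + ν (b : F) = e := by
        rw [← hν_mul ha0 hb0, ← hab', hπν]
      have ha1 := (hV_iff ha0).mp a.2
      have hb1 := (hV_iff hb0).mp b.2
      obtain ⟨qa, hqa⟩ := hA ha0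
      obtain ⟨qb, hqb⟩ := hA hb0
      have he' : (0 : ℤ) < e := by omega
      have hqa0 : 0 ≤ qa := by
        by_contra hcon
        have : (e : ℤ) * qa < 0 := mul_neg_of_pos_of_neg he' (not_le.mp hcon)
        omega
      have hqb0 : 0 ≤ qb := by
        by_contra hcon
        have : (e : ℤ) * qb < 0 := mul_neg_of_pos_of_neg he' (not_le.mp hcon)
        omega
      have hq : qa + qb = 1 := by
        have : (e : ℤ) * (qa + qb) = e * 1 := by rw [mul_add, ← hqa, ← hqb, hsum, mul_one]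
        exact mul_left_cancel₀ (by omega) this
      have hcase : qa = 0 ∨ qb = 0 := by omega
      rcases hcase with h0 | h0
      · left
        exact hunit a ha0 (by rw [hqa, h0, mul_zero])
      · right
        exact hunit b hb0 (by rw [hqb, h0, mul_zero])
  have hfact : IsDiscreteValuationRing.HasUnitMulPowIrreducibleFactorization V := by
    refine ⟨p, hpirr, fun {x} hx => ?_⟩
    have hx0 : (x : F) ≠ 0 := fun h0 => hx (Subtype.ext h0)
    obtain ⟨q, hq⟩ := hA hx0
    have hx1 := (hV_iff hx0).mp x.2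
    have he' : (0 : ℤ) < e := by omega
    have hq0 : 0 ≤ q := by
      by_contra hcon
      have : (e : ℤ) * q < 0 := mul_neg_of_pos_of_neg he' (not_le.mp hcon)
      omega
    obtain ⟨m, rfl⟩ := Int.eq_ofNat_of_zero_le hq0
    refine ⟨m, ?_⟩
    have hu0 : (x : F) * (π₀ ^ m)⁻¹ ≠ 0 := mul_ne_zero hx0 (inv_ne_zero (pow_ne_zero _ hπ₀))
    have huν : ν ((x : F) * (π₀ ^ m)⁻¹) = 0 := by
      rw [hν_mul hx0 (inv_ne_zero (pow_ne_zero _ hπ₀)), hν_inv _ (pow_ne_zero _ hπ₀),
        ← zpow_natCast, hν_zpow _ hπ₀, hπν, hq]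
      ring
    have huV : (x : F) * (π₀ ^ m)⁻¹ ∈ V := (hV_iff hu0).mpr (by rw [huν])
    have hU : IsUnit (⟨_, huV⟩ : V) := hunit ⟨_, huV⟩ hu0 huν
    refine ⟨hU.unit, Subtype.ext ?_⟩
    simp only [IsUnit.unit_spec, MulMemClass.coe_mul, SubmonoidClass.coe_pow, hp]
    field_simp
  have hDVR : IsDiscreteValuationRing V :=
    IsDiscreteValuationRing.ofHasUnitMulPowIrreducibleFactorization hfact
  let v : Place K F :=
    { toValuationSubring := V
      algebraMap_mem' := fun a => by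
        by_cases ha : a = 0
        · rw [ha, map_zero]; exact V.zero_mem
        · have h0 : algebraMap K F a ≠ 0 := (map_ne_zero _).mpr ha
          exact (hV_iff h0).mpr (by rw [hν.const a ha])
      ne_top' := htop
      isPrincipalIdealRing' := inferInstance }
  have hp' : Irreducible (p : v.toValuationSubring) := hpirr
  obtain ⟨u, hu⟩ := v.exists_unit_mul_zpow hf hp'
  have huν : ν ((u : v.toValuationSubring) : F) = 0 := hunit' _ u.isUnit
  have hu0 : ((u : v.toValuationSubring) : F) ≠ 0 := by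
    intro h0
    rw [h0, zero_mul] at hu
    exact hf hu
  have key : ν f = v.ord f * e := by
    conv_lhs => rw [hu]
    rw [hν_mul hu0 (zpow_ne_zero _ hπ₀), huν, zero_add, hν_zpow _ hπ₀, hπν]
  obtain ⟨t, ht⟩ := h v
  refine ⟨π₀, t, hπ₀, ?_⟩
  rw [key, ht, hπν]

end OrdVal

end Fermat.Agent.NEB.EIG.H98
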