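import Fermat.Agent.NEB.EIG.H98_GamH
import Fermat.Agent.NEB.EIG.H98_OrdVal
import Fermat.Agent.NEB.H84_Gen

/-!
# NEB / EIG, leaf EIG-MONO (helper98): order functions on ratios of forms

`IsOrdW M ord` : `ord : ℤ → (ℍ → ℂ) → ℤ` is an "order function" on the nonzero forms on `Γ₁(M)`
(additive on products, `min ≤` on sums, `0` on constants).  It induces an order function on
`F_H` (`ord k A - ord k B` for `f = A / B`), hence by `exists_mul_of_dvd_ord`:

`ord_rep_eq`: if all orders of `f ∈ F_H` at the places of `F_H` are divisible by `n`, then for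
every representation `f = A / B`: `ord k A - ord k B = n * t * (ord k' A' - ord k' B')`, where
`A' / B'` is an A1-H representation of some `g ∈ F_H` (`B'` on `Γ₀(M)`, `A'` invariant under
`Γ_H`).
-/

set_option autoImplicit false
set_option linter.unusedSectionVars false

noncomputable section

namespace Fermat.Agent.NEB.EIG.H98

open AlgebraicCurve ModularCurve UpperHalfPlane CongruenceSubgroup Matrix.SpecialLinearGroup
open Fermat.Agent.NEB Fermat.Agent.NEB.JH Fermat.Agent.NEB.H84 Fermat.Agent.GTor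
open Fermat.Agent.S23.H22 (Nice)
open Fermat.Agent.GTor.H56 (qLaurent_mul qLaurent_injective qLaurent_eq_zero_iff qLaurent_zero)
open scoped MatrixGroups ModularForm Manifold

/-- An order function on the nonzero forms on `Γ₁(M)`. -/
structure IsOrdW (M : ℕ) (ord : ℤ → (ℍ → ℂ) → ℤ) : Prop where
  mul : ∀ {k₁ k₂ : ℤ} {A₁ A₂ : ℍ → ℂ}, IsW M k₁ A₁ → IsW M k₂ A₂ → A₁ ≠ 0 → A₂ ≠ 0 →
    ord (k₁ + k₂) (A₁ * A₂) = ord k₁ A₁ + ord k₂ A₂
  add : ∀ {k : ℤ} {A₁ A₂ : ℍ → ℂ}, IsW M k A₁ → IsW M k A₂ → A₁ ≠ 0 → A₂ ≠ 0 → A₁ + A₂ ≠ 0 →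
    min (ord k A₁) (ord k A₂) ≤ ord k (A₁ + A₂)
  const : ∀ c : ℂ, c ≠ 0 → ord 0 (fun _ => c) = 0

variable {M c : ℕ} {H : Subgroup (ZMod c)ˣ} (ι : Kbar →+* ℂ)

/-- `x = A / B` with forms `A`, `B ≠ 0` of weight `k` on `Γ₁(M)`. -/
def IsRep (M : ℕ) (x : LaurentSeries ℂ) (k : ℤ) (A B : ℍ → ℂ) : Prop :=
  IsW M k A ∧ IsW M k B ∧ B ≠ 0 ∧ qLaurent A = x * qLaurent B

theorem IsRep.num_ne_zero {x : LaurentSeries ℂ} {k : ℤ} {A B : ℍ → ℂ} (h : IsRep M x k A B)
    (hx : x ≠ 0) : A ≠ 0 := by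
  rintro rfl
  obtain ⟨-, hB, hB0, e⟩ := h
  rw [qLaurent_zero] at e
  rcases mul_eq_zero.mp e.symm with h1 | h1
  · exact hx h1
  · exact hB0 ((qLaurent_eq_zero_iff hB.nice).mp h1)

theorem IsRep.cross {x : LaurentSeries ℂ} {k k' : ℤ} {A B A' B' : ℍ → ℂ}
    (h : IsRep M x k A B) (h' : IsRep M x k' A' B') : A * B' = A' * B := by
  obtain ⟨hA, hB, -, e⟩ := h
  obtain ⟨hA', hB', -, e'⟩ := h'
  apply qLaurent_injective (hA.nice.mul hB'.nice) (hA'.nice.mul hB.nice)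
  rw [qLaurent_mul hA.nice hB'.nice, qLaurent_mul hA'.nice hB.nice, e, e']
  ring

theorem IsRep.mul {x y : LaurentSeries ℂ} {k k' : ℤ} {A B A' B' : ℍ → ℂ}
    (h : IsRep M x k A B) (h' : IsRep M y k' A' B') :
    IsRep M (x * y) (k + k') (A * A') (B * B') := by
  obtain ⟨hA, hB, hB0, e⟩ := h
  obtain ⟨hA', hB', hB0', e'⟩ := h'
  refine ⟨hA.mul hA', hB.mul hB', isW_mul_ne_zero hB hB' hB0 hB0', ?_⟩
  rw [qLaurent_mul hA.nice hA'.nice, qLaurent_mul hB.nice hB'.nice, e, e']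
  ring

theorem IsRep.add {x y : LaurentSeries ℂ} {k k' : ℤ} {A B A' B' : ℍ → ℂ}
    (h : IsRep M x k A B) (h' : IsRep M y k' A' B') :
    IsRep M (x + y) (k + k') (A * B' + B * A') (B * B') := by
  obtain ⟨hA, hB, hB0, e⟩ := h
  obtain ⟨hA', hB', hB0', e'⟩ := h'
  refine ⟨(hA.mul hB').add (hB.mul hA'), hB.mul hB', isW_mul_ne_zero hB hB' hB0 hB0', ?_⟩
  rw [qLaurent_add (hA.nice.mul hB'.nice) (hB.nice.mul hA'.nice),
    qLaurent_mul hA.nice hB'.nice, qLaurent_mul hB.nice hA'.nice,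
    qLaurent_mul hB.nice hB'.nice, e, e']
  ring

theorem isRep_const (M : ℕ) (a : ℂ) : IsRep M (HahnSeries.C a) 0 (fun _ => a) (fun _ => 1) := by
  refine ⟨IsW.const M a, IsW.const M 1, ?_, ?_⟩
  · intro h
    have := congrFun h UpperHalfPlane.I
    simp at this
  · rw [qLaurent_const', qLaurent_const']
    simp

section Ord

variable {ord : ℤ → (ℍ → ℂ) → ℤ} (hord : IsOrdW M ord)

include hord

/-- The value `ord k A - ord k B` only depends on `x = A / B`. -/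
theorem IsOrdW.ratio_eq {x : LaurentSeries ℂ} (hx : x ≠ 0) {k k' : ℤ} {A B A' B' : ℍ → ℂ}
    (h : IsRep M x k A B) (h' : IsRep M x k' A' B') :
    ord k A - ord k B = ord k' A' - ord k' B' := by
  have hA0 := h.num_ne_zero hx
  have hA0' := h'.num_ne_zero hx
  have e := h.cross h'
  have h1 := hord.mul h.1 h'.2.1 hA0 h'.2.2.1
  have h2 := hord.mul h'.1 h.2.1 hA0' h.2.2.1
  rw [e, add_comm k k'] at h1
  rw [h1] at h2
  omega

end Ord

/-- Every element of `F_H` has a representation. -/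
theorem exists_isRep [NeZero M] (hc2 : 2 ≤ c) (hc : c ∣ M) (f : ↥(FHbar M c H)) :
    ∃ (k : ℤ) (A B : ℍ → ℂ), IsRep M (coeffMap ι (f : LaurentSeries Kbar)) k A B := by
  obtain ⟨y, -, k, A, B, hA, hB, hB0, hx, -⟩ :=
    exists_relK H ι hc2 hc (Gamma0 M).one_mem f.2
  exact ⟨k, A, B, hA, hB, hB0, hx⟩

/-- The order function on `F_H` induced by an order function on forms. -/
def nuOrd [NeZero M] (hc2 : 2 ≤ c) (hc : c ∣ M) (ord : ℤ → (ℍ → ℂ) → ℤ) (f : ↥(FHbar M c H)) :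
    ℤ :=
  ord (Classical.choose (exists_isRep ι hc2 hc f))
      (Classical.choose (Classical.choose_spec (exists_isRep ι hc2 hc f)))
    - ord (Classical.choose (exists_isRep ι hc2 hc f))
      (Classical.choose (Classical.choose_spec (Classical.choose_spec
        (exists_isRep ι hc2 hc f))))

theorem nuOrd_eq [NeZero M] (hc2 : 2 ≤ c) (hc : c ∣ M) {ord : ℤ → (ℍ → ℂ) → ℤ}
    (hord : IsOrdW M ord) {f : ↥(FHbar M c H)} (hf : f ≠ 0) {k : ℤ} {A B : ℍ → ℂ}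
    (h : IsRep M (coeffMap ι (f : LaurentSeries Kbar)) k A B) :
    nuOrd ι hc2 hc ord f = ord k A - ord k B := by
  have hx : coeffMap ι (f : LaurentSeries Kbar) ≠ 0 := by
    intro h0
    apply hf
    have h1 : coeffMap ι (f : LaurentSeries Kbar) = coeffMap ι 0 := by rw [h0, map_zero]
    exact Subtype.ext (by rw [coeffMap_inj ι h1]; rfl)
  exact hord.ratio_eq hx
    (Classical.choose_spec (Classical.choose_spec (Classical.choose_spec
      (exists_isRep ι hc2 hc f)))) h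

theorem coeffMap_FHbar_ne_zero {f : ↥(FHbar M c H)} (hf : f ≠ 0) :
    coeffMap ι (f : LaurentSeries Kbar) ≠ 0 := by
  intro h0
  apply hf
  have h1 : coeffMap ι (f : LaurentSeries Kbar) = coeffMap ι 0 := by rw [h0, map_zero]
  exact Subtype.ext (by rw [coeffMap_inj ι h1]; rfl)

theorem isOrdFun_nuOrd [NeZero M] (hc2 : 2 ≤ c) (hc : c ∣ M) {ord : ℤ → (ℍ → ℂ) → ℤ}
    (hord : IsOrdW M ord) : IsOrdFun Kbar (nuOrd (H := H) ι hc2 hc ord) where
  mul := by
    intro g h hg hh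
    obtain ⟨k, A, B, r⟩ := exists_isRep ι hc2 hc g
    obtain ⟨k', A', B', r'⟩ := exists_isRep ι hc2 hc h
    have rr : IsRep M (coeffMap ι ((g * h : ↥(FHbar M c H)) : LaurentSeries Kbar)) (k + k')
        (A * A') (B * B') := by
      have := r.mul r'
      rwa [← map_mul] at this
    rw [nuOrd_eq ι hc2 hc hord (mul_ne_zero hg hh) rr, nuOrd_eq ι hc2 hc hord hg r,
      nuOrd_eq ι hc2 hc hord hh r']
    have hA0 := r.num_ne_zero (coeffMap_FHbar_ne_zero ι hg)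
    have hA0' := r'.num_ne_zero (coeffMap_FHbar_ne_zero ι hh)
    rw [hord.mul r.1 r'.1 hA0 hA0', hord.mul r.2.1 r'.2.1 r.2.2.1 r'.2.2.1]
    ring
  add := by
    intro g h hg hh hgh
    obtain ⟨k, A, B, r⟩ := exists_isRep ι hc2 hc g
    obtain ⟨k', A', B', r'⟩ := exists_isRep ι hc2 hc h
    have rr : IsRep M (coeffMap ι ((g + h : ↥(FHbar M c H)) : LaurentSeries Kbar)) (k + k')
        (A * B' + B * A') (B * B') := by
      have := r.add r'
      rwa [← map_add] at this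
    rw [nuOrd_eq ι hc2 hc hord hgh rr, nuOrd_eq ι hc2 hc hord hg r,
      nuOrd_eq ι hc2 hc hord hh r']
    have hA0 := r.num_ne_zero (coeffMap_FHbar_ne_zero ι hg)
    have hA0' := r'.num_ne_zero (coeffMap_FHbar_ne_zero ι hh)
    have hN0 := rr.num_ne_zero (coeffMap_FHbar_ne_zero ι hgh)
    have h1 : A * B' ≠ 0 := isW_mul_ne_zero r.1 r'.2.1 hA0 r'.2.2.1
    have h2 : B * A' ≠ 0 := isW_mul_ne_zero r.2.1 r'.1 r.2.2.1 hA0'
    have h3 := hord.add (r.1.mul r'.2.1) (r.2.1.mul r'.1) h1 h2 hN0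
    rw [hord.mul r.1 r'.2.1 hA0 r'.2.2.1] at h3
    have h4 : ord (k + k') (B * A') = ord k B + ord k' A' := hord.mul r.2.1 r'.1 r.2.2.1 hA0'
    rw [h4] at h3
    rw [hord.mul r.2.1 r'.2.1 r.2.2.1 r'.2.2.1]
    rcases min_le_iff.mp h3 with h5 | h5
    · exact min_le_iff.mpr (Or.inl (by omega))
    · exact min_le_iff.mpr (Or.inr (by omega))
  const := by
    intro a ha
    have h0 : (algebraMap Kbar ↥(FHbar M c H) a) ≠ 0 := (map_ne_zero _).mpr ha
    have r : IsRep M (coeffMap ι ((algebraMap Kbar ↥(FHbar M c H) a : ↥(FHbar M c H)) :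
        LaurentSeries Kbar)) 0 (fun _ => ι a) (fun _ => 1) := by
      have := isRep_const M (ι a)
      rw [← coeffMap_const] at this
      exact this
    rw [nuOrd_eq ι hc2 hc hord h0 r, hord.const (ι a) ((map_ne_zero ι).mpr ha),
      hord.const 1 one_ne_zero, sub_zero]

/-- **Key lemma.**  If all orders of `f` are divisible by `n`, the value of an order function on
`f` is `n * t` times its value on some `g ∈ F_H`, given by an A1-H representation. -/
theorem ord_rep_eq [NeZero M] (hc2 : 2 ≤ c) (hc : c ∣ M) {ord : ℤ → (ℍ → ℂ) → ℤ}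
    (hord : IsOrdW M ord) (n : ℕ) {f : ↥(FHbar M c H)} (hf : f ≠ 0)
    (hunr : ∀ v : Place Kbar ↥(FHbar M c H), (n : ℤ) ∣ v.ord f) {k : ℤ} {A B : ℍ → ℂ}
    (h : IsRep M (coeffMap ι (f : LaurentSeries Kbar)) k A B) :
    ∃ (t : ℤ) (k' : ℤ) (A' : ℍ → ℂ) (B' : ModularForm (Gamma0 M) k'),
      IsW M k' A' ∧ A' ≠ 0 ∧ B' ≠ 0 ∧ (∀ γ ∈ GamH M c H, A' ∣[k'] γ = A') ∧
      ord k A - ord k B = n * t * (ord k' A' - ord k' (B' : ℍ → ℂ)) := by
  obtain ⟨g, t, hg, e⟩ := exists_mul_of_dvd_ord (isOrdFun_nuOrd (H := H) ι hc2 hc hord) n f hf hunr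
  obtain ⟨k', A', B', hA', hB', hinv, hq⟩ := stmt_A1H M c H hc2 hc (NeZero.ne M) ι g
  have r : IsRep M (coeffMap ι (g : LaurentSeries Kbar)) k' A' (B' : ℍ → ℂ) :=
    ⟨hA', isW_of_modularForm B', fun h0 => hB' (DFunLike.coe_injective h0), hq⟩
  refine ⟨t, k', A', B', hA', r.num_ne_zero (coeffMap_FHbar_ne_zero ι hg), hB', ?_, ?_⟩
  · intro γ hγ
    exact hinv γ (GamH_le_Gamma0 hγ) (mem_cosetSet_of_mem_GamH hγ)
  · rw [← nuOrd_eq ι hc2 hc hord hf h, ← nuOrd_eq ι hc2 hc hord hg r, e]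

end Fermat.Agent.NEB.EIG.H98
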